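import Mathlib
import Fermat.Prelude.Def_ExtCitation_AdmissibleExtension_v2
import Fermat.Agent.QbarInst
import Fermat.Agent.Lib.Cyclotomic

/-!
# Kummer elements

`exists_kummer_elt`: a twisted additive cocycle `f : G_ℚ → 𝔽_p` (`f (σ τ) = χ τ * f σ + f τ`),
factoring through a finite level, restricted to `G_{ℚ(ζ)}` is given by an element `a ≠ 0`
with `σ a = ζ ^ f σ * a`.
-/

set_option autoImplicit false

open IntermediateField

noncomputable section

namespace Fermat.Agent.EXT.KummerElt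

/-- Lagrange resolvent (Hilbert 90 for a character with values in the fixed field). -/
theorem exists_resolvent {k M : Type*} [Field k] [Field M] [Algebra k M] [FiniteDimensional k M]
    (H : Subgroup (M ≃ₐ[k] M)) (c : (M ≃ₐ[k] M) → M) (hc0 : ∀ g ∈ H, c g ≠ 0)
    (hc : ∀ g ∈ H, ∀ h ∈ H, c (g * h) = c g * c h) (hfix : ∀ g ∈ H, ∀ h ∈ H, g (c h) = c h) :
    ∃ a : M, a ≠ 0 ∧ ∀ h ∈ H, h a = c h * a := by
  classical
  have : Fintype H := Fintype.ofFinite H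
  let φ : H → (M →* M) := fun g => ((g : M ≃ₐ[k] M) : M →* M)
  have hφ : Function.Injective φ := by
    intro g h hgh
    apply Subtype.ext
    ext x
    exact DFunLike.congr_fun hgh x
  have hli : LinearIndependent M (fun g : H => (φ g : M → M)) :=
    (linearIndependent_monoidHom M M).comp φ hφ
  have hne : ∑ g : H, (c g)⁻¹ • (φ g : M → M) ≠ 0 := by
    intro h0
    have h1 := Fintype.linearIndependent_iff.mp hli (fun g => (c g)⁻¹) h0 1
    exact inv_ne_zero (hc0 _ (1 : H).2) h1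
  obtain ⟨x, hx⟩ := Function.ne_iff.mp hne
  have hx' : ∑ g : H, (c g)⁻¹ * (g : M ≃ₐ[k] M) x ≠ 0 := by
    intro h
    apply hx
    rw [Finset.sum_apply]
    exact h
  refine ⟨∑ g : H, (c g)⁻¹ * (g : M ≃ₐ[k] M) x, hx', fun h hh => ?_⟩
  rw [map_sum, Finset.mul_sum]
  rw [← Equiv.sum_comp (Equiv.mulLeft (⟨h, hh⟩ : H))
    (fun g : H => c h * ((c g)⁻¹ * (g : M ≃ₐ[k] M) x))]
  refine Finset.sum_congr rfl fun g _ => ?_
  have h1 : (((Equiv.mulLeft (⟨h, hh⟩ : H)) g : H) : M ≃ₐ[k] M) = h * (g : M ≃ₐ[k] M) := rfl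
  rw [h1, map_mul, map_inv₀, hfix h hh g g.2, hc h hh g g.2, AlgEquiv.mul_apply, mul_inv,
    ← mul_assoc, ← mul_assoc, mul_inv_cancel₀ (hc0 h hh), one_mul]

local notation "Qbar" => AlgebraicClosure ℚ
local notation "Γℚ" => (AlgebraicClosure ℚ ≃ₐ[ℚ] AlgebraicClosure ℚ)

open Fermat.Agent.Cyclotomic

variable {p : ℕ} [Fact p.Prime]

/-- The mod `p` cyclotomic character with values in `ZMod p`. -/
def chi (p : ℕ) [Fact p.Prime] (σ : Γℚ) : ZMod p := ((cyc p σ : (ZMod p)ˣ) : ZMod p)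

lemma chi_mul (σ τ : Γℚ) : chi p (σ * τ) = chi p σ * chi p τ := by
  simp [chi]

lemma chi_ne_zero (σ : Γℚ) : chi p σ ≠ 0 := (cyc p σ).ne_zero

lemma cycloExp_eq (σ : Γℚ) : (ExtCitation.cycloExp p σ : ZMod p) = chi p σ := by
  have h1 : ExtCitation.cycloExp p σ = (chi p σ).val := rfl
  rw [h1, ZMod.natCast_zmod_val]

lemma chi_spec (σ : Γℚ) {ζ : Qbar} (hζ : ζ ^ p = 1) : σ ζ = ζ ^ (chi p σ).val :=
  cyc_spec p σ hζ

lemma chi_eq_one {σ : Γℚ} {ζ : Qbar} (hζ : IsPrimitiveRoot ζ p) (h : σ ζ = ζ) : chi p σ = 1 := by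
  rw [chi, cyc_eq_one_of_fixes p σ hζ h, Units.val_one]

lemma fix_of_chi {σ : Γℚ} {ζ : Qbar} (hζ : ζ ^ p = 1) (h : chi p σ = 1) : σ ζ = ζ := by
  have : Fact (1 < p) := ⟨(Fact.out : p.Prime).one_lt⟩
  rw [chi_spec σ hζ, h, ZMod.val_one, pow_one]

lemma pow_val_add {R : Type*} [Monoid R] {ζ : R} (hζ : ζ ^ p = 1) (a b : ZMod p) :
    ζ ^ (a + b).val = ζ ^ a.val * ζ ^ b.val := by
  rw [ZMod.val_add, ← pow_add]
  conv_rhs => rw [← Nat.div_add_mod (a.val + b.val) p, pow_add, pow_mul, hζ, one_pow, one_mul]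

lemma pow_val_natCast {R : Type*} [Monoid R] {ζ : R} (hζ : ζ ^ p = 1) (n : ℕ) :
    ζ ^ ((n : ZMod p)).val = ζ ^ n := by
  rw [ZMod.val_natCast]
  conv_rhs => rw [← Nat.div_add_mod n p, pow_add, pow_mul, hζ, one_pow, one_mul]

/-- Twisted cocycles. -/
def IsTwCocycle (f : Γℚ → ZMod p) : Prop := ∀ σ τ, f (σ * τ) = chi p τ * f σ + f τ

lemma IsTwCocycle.one {f : Γℚ → ZMod p} (hf : IsTwCocycle f) : f 1 = 0 := by
  have h := hf 1 1
  have h1 : chi p (1 : Γℚ) = 1 := by simp [chi]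
  rw [mul_one, h1, one_mul] at h
  simpa using h

/-- `f (s⁻¹ τ s) = χ(s) f(τ)` for `χ(τ) = 1`. -/
lemma IsTwCocycle.conj {f : Γℚ → ZMod p} (hf : IsTwCocycle f) (s τ : Γℚ) (hτ : chi p τ = 1) :
    f (s⁻¹ * τ * s) = chi p s * f τ := by
  have h1 : chi p (s⁻¹ * τ * s) = 1 := by
    rw [chi_mul, chi_mul, hτ, mul_one, ← chi_mul, inv_mul_cancel]
    simp [chi]
  have h2 : s * (s⁻¹ * τ * s) = τ * s := by group
  have h3 := hf s (s⁻¹ * τ * s)
  rw [h2, hf τ s, h1, one_mul] at h3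
  linear_combination -h3

/-- Existence of the Kummer element. -/
theorem exists_kummer_elt {f : Γℚ → ZMod p} (hf : IsTwCocycle f)
    (E : IntermediateField ℚ Qbar) [FiniteDimensional ℚ E]
    (hE : ∀ σ : Γℚ, (∀ x ∈ E, σ x = x) → f σ = 0) {ζ : Qbar} (hζ : IsPrimitiveRoot ζ p) :
    ∃ a : Qbar, a ≠ 0 ∧ ∀ σ : Γℚ, σ ζ = ζ → σ a = ζ ^ (f σ).val * a := by
  have hζp : ζ ^ p = 1 := hζ.pow_eq_one
  have hζint : IsIntegral ℚ ζ := Algebra.IsIntegral.isIntegral ζ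
  have hfin1 : FiniteDimensional ℚ ℚ⟮ζ⟯ := adjoin.finiteDimensional hζint
  let M : IntermediateField ℚ Qbar := normalClosure ℚ (E ⊔ ℚ⟮ζ⟯ : IntermediateField ℚ Qbar) Qbar
  have hle : E ⊔ ℚ⟮ζ⟯ ≤ M := le_normalClosure _
  have hζM : ζ ∈ M := hle (le_sup_right (a := E) (mem_adjoin_simple_self ℚ ζ))
  have hEM : ∀ x ∈ E, x ∈ M := fun x hx => hle (le_sup_left (b := ℚ⟮ζ⟯) hx)
  have : Normal ℚ M := normalClosure.normal ℚ _ Qbar
  have : FiniteDimensional ℚ M := normalClosure.is_finiteDimensional ℚ _ Qbar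
  -- `f` only depends on the restriction to `M`
  have hagree : ∀ σ σ' : Γℚ, (∀ x ∈ M, σ x = σ' x) → f σ = f σ' := by
    intro σ σ' h
    have hu : ∀ x ∈ M, (σ⁻¹ * σ') x = x := by
      intro x hx
      rw [AlgEquiv.mul_apply, ← h x hx]
      exact σ.symm_apply_apply x
    have h1 : f (σ⁻¹ * σ') = 0 := hE _ fun x hx => hu x (hEM x hx)
    have h2 : chi p (σ⁻¹ * σ') = 1 := chi_eq_one hζ (hu ζ hζM)
    have h3 := hf σ (σ⁻¹ * σ')
    rw [mul_inv_cancel_left, h1, h2, one_mul, add_zero] at h3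
    exact h3.symm
  let ζM : M := ⟨ζ, hζM⟩
  have hζMp : ζM ^ p = 1 := Subtype.ext (by simpa [ζM] using hζp)
  have hζM0 : ζM ≠ 0 := by
    intro h
    rw [h, zero_pow (Fact.out : p.Prime).ne_zero] at hζMp
    exact zero_ne_one hζMp
  let lift : (M ≃ₐ[ℚ] M) → Γℚ := fun g => g.liftNormal Qbar
  have hlift : ∀ (g : M ≃ₐ[ℚ] M) (x : M), lift g (x : Qbar) = ((g x : M) : Qbar) := fun g x =>
    g.liftNormal_commutes Qbar x
  let H : Subgroup (M ≃ₐ[ℚ] M) := MulAction.stabilizer (M ≃ₐ[ℚ] M) ζM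
  have hH : ∀ g : M ≃ₐ[ℚ] M, g ∈ H ↔ g ζM = ζM := fun g => Iff.rfl
  have hHlift : ∀ g ∈ H, chi p (lift g) = 1 := by
    intro g hg
    apply chi_eq_one hζ
    have h1 := hlift g ζM
    rw [(hH g).mp hg] at h1
    exact h1
  let c : (M ≃ₐ[ℚ] M) → M := fun g => ζM ^ (f (lift g)).val
  obtain ⟨a, ha0, ha⟩ := exists_resolvent H c (fun g _ => pow_ne_zero _ hζM0)
    (fun g hg h hh => by
      have h1 : f (lift (g * h)) = f (lift g * lift h) := by
        apply hagree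
        intro x hx
        rw [AlgEquiv.mul_apply]
        have e1 := hlift (g * h) ⟨x, hx⟩
        have e2 := hlift h ⟨x, hx⟩
        have e3 := hlift g (h ⟨x, hx⟩)
        simp only at e1 e2 e3
        rw [e1, e2, e3]
        rfl
      show ζM ^ (f (lift (g * h))).val = ζM ^ (f (lift g)).val * ζM ^ (f (lift h)).val
      rw [h1, hf, hHlift h hh, one_mul, pow_val_add hζMp])
    (fun g hg h _ => by
      show g (ζM ^ (f (lift h)).val) = ζM ^ (f (lift h)).val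
      rw [map_pow, (hH g).mp hg])
  refine ⟨a, fun h => ha0 (Subtype.ext h), fun σ hσ => ?_⟩
  let g : M ≃ₐ[ℚ] M := σ.restrictNormal M
  have hg : ∀ x : M, ((g x : M) : Qbar) = σ x := fun x => σ.restrictNormal_commutes M x
  have hgH : g ∈ H := by
    rw [hH]
    apply Subtype.ext
    rw [hg]
    exact hσ
  have h1 := congrArg (fun z : M => (z : Qbar)) (ha g hgH)
  simp only [hg] at h1
  rw [h1]
  have h2 : f (lift g) = f σ := hagree _ _ fun x hx => by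
    have e1 := hlift g ⟨x, hx⟩
    rw [hg] at e1
    exact e1
  show ((ζM ^ (f (lift g)).val * a : M) : Qbar) = _
  rw [h2]
  rfl

end Fermat.Agent.EXT.KummerElt

end
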