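import Mathlib

set_option autoImplicit false

namespace Fermat.Agent.EXT

open NumberField IsDedekindDomain nonZeroDivisors

/-- the ideal of a height one prime, as a nonzero divisor -/
def hosIdeal {K : Type*} [Field K] [NumberField K] (v : HeightOneSpectrum (𝓞 K)) :
    (Ideal (𝓞 K))⁰ := ⟨v.asIdeal, mem_nonZeroDivisors_of_ne_zero v.ne_bot⟩

@[simp] lemma hosIdeal_coe {K : Type*} [Field K] [NumberField K] (v : HeightOneSpectrum (𝓞 K)) :
    (hosIdeal v : Ideal (𝓞 K)) = v.asIdeal := rfl

end Fermat.Agent.EXT
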