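import Mathlib
import Fermat.Agent.QbarInst
import Fermat.Agent.FrobExists
import Fermat.Agent.FlatOrd.InertiaLift

/-!
# Bridge between primes of number fields and valuation subrings of `ℚ̄`

Let `F / K` be an extension of number fields, `i : F → ℚ̄` an embedding and `w` a prime of `F`.
There is a valuation subring `A` of `ℚ̄` above `w`, and every element of the finite level
inertia (resp. decomposition) group of `w` in `Gal(F/K)` is induced by an element of
`A.inertiaSubgroupIn ℚ` (resp. `A.decompositionSubgroup ℚ`).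
-/

set_option autoImplicit false

open Pointwise NumberField IsDedekindDomain
open Fermat.Agent.FrobExists Fermat.Agent.FlatOrd.InertiaLift

namespace Fermat.Agent.EXT.Bridge

section general

variable {L : Type} [Field L] [Algebra ℚ L] [IsGalois ℚ L]

local instance instTopZbar' : TopologicalSpace (integralClosure ℤ L) := ⊥
local instance instDiscZbar' : DiscreteTopology (integralClosure ℤ L) := ⟨rfl⟩

/-- If `g` preserves the centre of `A` on the `H`-fixed algebraic integers, then `g * h` is in the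
decomposition group of `A` for some `h ∈ H`. -/
theorem exists_mul_mem_decomposition (H : Subgroup (L ≃ₐ[ℚ] L))
    (hH : IsClosed (H : Set (L ≃ₐ[ℚ] L))) (A : ValuationSubring L) {ℓ : ℕ} (hℓ : ℓ.Prime)
    (hA : A.LiesOverPrime ℓ) (g : L ≃ₐ[ℚ] L)
    (hg : ∀ x : integralClosure ℤ L, (∀ h ∈ H, h • x = x) → (x ∈ center A ↔ g • x ∈ center A)) :
    ∃ h ∈ H, g * h ∈ A.decompositionSubgroup ℚ := by
  have : CompactSpace H := isCompact_iff_compactSpace.mp hH.isCompact
  have : TotallyDisconnectedSpace H := inferInstance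
  have : ContinuousSMul H (integralClosure ℤ L) := by
    rw [continuousSMul_iff_stabilizer_isOpen]
    intro x
    have h1 := (isOpen_stabilizer_integralClosure x).preimage (continuous_subtype_val (p := (· ∈ H)))
    exact h1
  let R := FixedPoints.subalgebra ℤ (integralClosure ℤ L) H
  have hR : Algebra.IsInvariant R (integralClosure ℤ L) H := ⟨fun b hb => ⟨⟨b, hb⟩, rfl⟩⟩
  have hunder : (center A).under R = (g⁻¹ • center A).under R := by
    ext x
    rw [Ideal.mem_comap, Ideal.mem_comap, Ideal.mem_pointwise_smul_iff_inv_smul_mem, inv_inv]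
    exact hg (algebraMap R _ x) (fun h hh => x.2 ⟨h, hh⟩)
  obtain ⟨h1, hh1⟩ := Algebra.IsInvariant.exists_smul_of_under_eq_of_profinite (A := R)
    (B := integralClosure ℤ L) (G := H) (center A) (g⁻¹ • center A) hunder
  refine ⟨h1, h1.2, ?_⟩
  have hstab : (g * (h1 : L ≃ₐ[ℚ] L)) • center A = center A := by
    rw [mul_smul]
    have : (h1 : L ≃ₐ[ℚ] L) • center A = g⁻¹ • center A := hh1.symm
    rw [this, smul_inv_smul]
  exact smul_eq_of_mem_stabilizer A hℓ.ne_zero hA _ hstab

/-- Intermediate field version of `exists_mul_mem_decomposition`. -/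
theorem exists_mem_decomposition_of_intermediateField (F : IntermediateField ℚ L)
    (A : ValuationSubring L) {ℓ : ℕ} (hℓ : ℓ.Prime) (hA : A.LiesOverPrime ℓ)
    (g : L ≃ₐ[ℚ] L)
    (hg : ∀ x : integralClosure ℤ L, (x : L) ∈ F → (x ∈ center A ↔ g • x ∈ center A)) :
    ∃ σ ∈ A.decompositionSubgroup ℚ, ∀ x ∈ F, σ x = g x := by
  obtain ⟨h, hh, hgh⟩ := exists_mul_mem_decomposition F.fixingSubgroup
    (InfiniteGalois.fixingSubgroup_isClosed F) A hℓ hA g (fun x hx => hg x (by
      have h1 : (x : L) ∈ IntermediateField.fixedField F.fixingSubgroup := by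
        rintro ⟨h, hh⟩
        exact congrArg Subtype.val (hx h hh)
      rwa [InfiniteGalois.fixedField_fixingSubgroup] at h1))
  refine ⟨g * h, hgh, fun x hx => ?_⟩
  show g (h x) = g x
  rw [(IntermediateField.mem_fixingSubgroup_iff F h).mp hh x hx]

end general

section numberField

variable {L : Type} [Field L] [Algebra ℚ L]
variable {F : Type*} [Field F] [NumberField F]

/-- Every maximal ideal of the ring of integers contains a rational prime. -/
theorem exists_prime_mem (w : HeightOneSpectrum (𝓞 F)) :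
    ∃ ℓ : ℕ, ℓ.Prime ∧ (ℓ : 𝓞 F) ∈ w.asIdeal := by
  have hw := w.isPrime
  have key : ∀ l : List ℕ, ((l.prod : ℕ) : 𝓞 F) ∈ w.asIdeal → ∃ a ∈ l, (a : 𝓞 F) ∈ w.asIdeal := by
    intro l
    induction l with
    | nil =>
      intro h
      rw [List.prod_nil, Nat.cast_one] at h
      exact absurd (w.asIdeal.eq_top_of_isUnit_mem h isUnit_one) hw.ne_top
    | cons a l ih =>
      intro h
      rw [List.prod_cons, Nat.cast_mul] at h
      rcases hw.mem_or_mem h with h | h
      · exact ⟨a, List.mem_cons_self, h⟩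
      · obtain ⟨b, hb, hb'⟩ := ih h
        exact ⟨b, List.mem_cons_of_mem _ hb, hb'⟩
  have hN0 : Ideal.absNorm w.asIdeal ≠ 0 := by
    rw [Ne, Ideal.absNorm_eq_zero_iff]
    exact w.ne_bot
  obtain ⟨a, ha, ha'⟩ := key (Ideal.absNorm w.asIdeal).primeFactorsList (by
    rw [Nat.prod_primeFactorsList hN0]
    exact Ideal.absNorm_mem _)
  exact ⟨a, Nat.prime_of_mem_primeFactorsList ha, ha'⟩

omit [Algebra ℚ L] in
/-- Existence of a valuation subring above a prime of a number field. -/
theorem exists_valuationSubring (i : F →+* L) (w : HeightOneSpectrum (𝓞 F)) :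
    ∃ A : ValuationSubring L, ∀ x : 𝓞 F, x ∈ w.asIdeal ↔ i x ∈ A.nonunits := by
  have hwmax := w.isMaximal
  let j : 𝓞 F →+* L := i.comp (algebraMap (𝓞 F) F)
  have hj : Function.Injective j := i.injective.comp RingOfIntegers.coe_injective
  let e : 𝓞 F ≃+* j.range := RingEquiv.ofBijective j.rangeRestrict
    ⟨fun a b h => hj (congrArg Subtype.val h), j.rangeRestrict_surjective⟩
  have he : ∀ x : 𝓞 F, (e x : L) = i x := fun x => rfl
  let I : Ideal j.range := w.asIdeal.comap e.symm.toRingHom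
  have hI : I ≠ ⊤ := Ideal.comap_ne_top _ w.isPrime.ne_top
  obtain ⟨A, hAle, hA⟩ := Ideal.image_subset_nonunits_valuationSubring I hI
  refine ⟨A, fun x => ?_⟩
  have hsub : ∀ x : 𝓞 F, i x ∈ A := fun x => hAle (e x).2
  have hmem : ∀ x : 𝓞 F, x ∈ w.asIdeal → i x ∈ A.nonunits := by
    intro x hx
    refine hA ⟨e x, ?_, rfl⟩
    change e.symm (e x) ∈ w.asIdeal
    rwa [e.symm_apply_apply]
  let k : 𝓞 F →+* A := j.codRestrict A.toSubring hsub
  let P : Ideal (𝓞 F) := (IsLocalRing.maximalIdeal A).comap k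
  have hP : ∀ x : 𝓞 F, x ∈ P ↔ i x ∈ A.nonunits := fun x => by
    change k x ∈ IsLocalRing.maximalIdeal A ↔ _
    rw [← ValuationSubring.coe_mem_nonunits_iff]
    rfl
  have hPtop : P ≠ ⊤ := Ideal.comap_ne_top _ (IsLocalRing.maximalIdeal.isMaximal A).ne_top
  have hle : w.asIdeal ≤ P := fun x hx => (hP x).mpr (hmem x hx)
  rw [hwmax.eq_of_le hPtop hle, hP]

variable [IsGalois ℚ L]

/-- The bridge: a valuation subring `A` above the prime `w` of `F`; inertia and decomposition
elements of `w` lift to inertia and decomposition elements of `A`. -/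
theorem exists_bridge {K : Type*} [Field K] [NumberField K] [Algebra K F] (i : F →+* L)
    (w : HeightOneSpectrum (𝓞 F)) {ℓ : ℕ} (hℓ : ℓ.Prime) (hw : (ℓ : 𝓞 F) ∈ w.asIdeal) :
    ∃ A : ValuationSubring L, A.LiesOverPrime ℓ ∧
      (∀ x : 𝓞 F, x ∈ w.asIdeal ↔ i x ∈ A.nonunits) ∧
      (∀ τ : F ≃ₐ[K] F, (∀ x : 𝓞 F, τ • x - x ∈ w.asIdeal) →
        ∃ σ ∈ A.inertiaSubgroupIn ℚ, ∀ x : F, σ (i x) = i (τ x)) ∧
      (∀ τ : F ≃ₐ[K] F, τ • w.asIdeal = w.asIdeal →
        ∃ σ ∈ A.decompositionSubgroup ℚ, ∀ x : F, σ (i x) = i (τ x)) := by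
  obtain ⟨A, hA⟩ := exists_valuationSubring i w
  have hAℓ : A.LiesOverPrime ℓ := by
    have h1 := (hA (ℓ : 𝓞 F)).mp hw
    unfold ValuationSubring.LiesOverPrime
    simpa using h1
  have : CharZero L := algebraRat.charZero L
  let _ : Algebra F L := i.toAlgebra
  have : IsScalarTower ℚ F L := IsScalarTower.of_algebraMap_eq' (Subsingleton.elim _ _)
  -- lifting automorphisms
  have hlift : ∀ τ : F ≃ₐ[K] F, ∃ G : L ≃ₐ[ℚ] L, ∀ x : F, G (i x) = i (τ x) := by
    intro τ
    let τ' : F ≃ₐ[ℚ] F := AlgEquiv.ofRingEquiv (f := τ.toRingEquiv) (fun q => by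
      rw [eq_ratCast]
      exact map_ratCast _ q)
    exact ⟨τ'.liftNormal L, fun x => τ'.liftNormal_commutes L x⟩
  -- integers of the image of `F`
  have hint : ∀ (x : integralClosure ℤ L) (y : F), i y = (x : L) → ∃ z : 𝓞 F, (z : F) = y := by
    intro x y hy
    have hyint : IsIntegral ℤ y := by
      have hx : IsIntegral ℤ (x : L) := x.2
      rw [← hy] at hx
      exact (isIntegral_algHom_iff (RingHom.toIntAlgHom i) i.injective).mp hx
    exact ⟨⟨y, hyint⟩, rfl⟩
  refine ⟨A, hAℓ, hA, fun τ hτ => ?_, fun τ hτ => ?_⟩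
  · obtain ⟨G, hG⟩ := hlift τ
    obtain ⟨σ, hσ, hσG⟩ := exists_mul_mem_inertia_of_intermediateField
      (IsScalarTower.toAlgHom ℚ F L).fieldRange A hℓ hAℓ G (by
        rintro x ⟨y, hy⟩
        have hy' : i y = (x : L) := hy
        obtain ⟨z, rfl⟩ := hint x y hy'
        rw [mem_center]
        have h2 := (hA _).mp (hτ z)
        have h3 : i ((τ • z - z : 𝓞 F) : F) = G (x : L) - (x : L) := by
          rw [← hy', hG, ← _root_.map_sub]
          rfl
        rw [h3] at h2
        exact h2)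
    exact ⟨σ, hσ, fun x => by rw [hσG (i x) ⟨x, rfl⟩, hG]⟩
  · obtain ⟨G, hG⟩ := hlift τ
    obtain ⟨σ, hσ, hσG⟩ := exists_mem_decomposition_of_intermediateField
      (IsScalarTower.toAlgHom ℚ F L).fieldRange A hℓ hAℓ G (by
        rintro x ⟨y, hy⟩
        have hy' : i y = (x : L) := hy
        obtain ⟨z, rfl⟩ := hint x y hy'
        have h1 : z ∈ w.asIdeal ↔ τ • z ∈ w.asIdeal := by
          conv_rhs => rw [← hτ]
          rw [Ideal.smul_mem_pointwise_smul_iff]
        have h3 : ((G • x : integralClosure ℤ L) : L) = i ((τ • z : 𝓞 F) : F) := by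
          have h4 : ((G • x : integralClosure ℤ L) : L) = G (x : L) := rfl
          rw [h4, ← hy', hG]
          rfl
        rw [mem_center, mem_center, h3, ← hA, ← hy', ← hA, h1])
    exact ⟨σ, hσ, fun x => by rw [hσG (i x) ⟨x, rfl⟩, hG]⟩

end numberField

end Fermat.Agent.EXT.Bridge
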