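import Mathlib

/-!
# A partition of unity for the action of the units on the mixed space

`coneWeight K x = ∏ i, tent (t_i x)` where `t_i x` are the coordinates of `logMap x` with respect
to a basis of the unit lattice. We prove `∑_u coneWeight (u • x) = torsionOrder K`.
-/

set_option autoImplicit false

open NumberField NumberField.mixedEmbedding NumberField.InfinitePlace NumberField.Units
  NumberField.Units.dirichletUnitTheorem Module

noncomputable section

namespace Fermat.Agent.EXT.ConeWeight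

/-! ### The tent function -/

/-- `tent t = max 0 (1 - |t|)`. -/
def tent (t : ℝ) : ℝ := max 0 (1 - |t|)

lemma tent_nonneg (t : ℝ) : 0 ≤ tent t := le_max_left _ _

lemma tent_le_one (t : ℝ) : tent t ≤ 1 := max_le zero_le_one (by linarith [abs_nonneg t])

lemma tent_eq_zero {t : ℝ} (h : 1 ≤ |t|) : tent t = 0 := max_eq_left (by linarith)

lemma abs_lt_one_of_tent_ne_zero {t : ℝ} (h : tent t ≠ 0) : |t| < 1 := by
  by_contra hh
  exact h (tent_eq_zero (not_lt.mp hh))

lemma abs_tent_sub_le (a b : ℝ) : |tent a - tent b| ≤ |a - b| := by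
  unfold tent
  calc |max 0 (1 - |a|) - max 0 (1 - |b|)|
      = |max (1 - |a|) 0 - max (1 - |b|) 0| := by rw [max_comm, max_comm 0 (1 - |b|)]
    _ ≤ |(1 - |a|) - (1 - |b|)| := abs_max_sub_max_le_abs _ _ _
    _ = |(|b| - |a|)| := by ring_nf
    _ ≤ |b - a| := abs_abs_sub_abs_le _ _
    _ = |a - b| := abs_sub_comm _ _

lemma continuous_tent : Continuous tent := by
  unfold tent; fun_prop

/-- The two integers `k` for which `tent (t + k)` may be nonzero. -/
def tentSupp (t : ℝ) : Finset ℤ := {-⌊t⌋, -⌊t⌋ - 1}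

lemma tent_add_eq_zero {t : ℝ} {k : ℤ} (hk : k ∉ tentSupp t) : tent (t + k) = 0 := by
  apply tent_eq_zero
  have h1 : k ≠ -⌊t⌋ := fun h => hk (by simp [tentSupp, h])
  have h2 : k ≠ -⌊t⌋ - 1 := fun h => hk (by simp [tentSupp, h])
  rcases lt_or_gt_of_ne h1 with h | h
  · -- k < -⌊t⌋, so k ≤ -⌊t⌋ - 2
    have h3 : k ≤ -⌊t⌋ - 2 := by omega
    have h4 : (k : ℝ) ≤ -⌊t⌋ - 2 := by exact_mod_cast h3
    have h5 : t < ⌊t⌋ + 1 := Int.lt_floor_add_one t
    have : t + k ≤ -1 := by linarith
    rw [abs_of_nonpos (by linarith)]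
    linarith
  · have h3 : -⌊t⌋ + 1 ≤ k := by omega
    have h4 : (-⌊t⌋ + 1 : ℝ) ≤ k := by exact_mod_cast h3
    have h5 : (⌊t⌋ : ℝ) ≤ t := Int.floor_le t
    have : 1 ≤ t + k := by linarith
    rw [abs_of_nonneg (by linarith)]
    exact this

lemma sum_tent (t : ℝ) : ∑ k ∈ tentSupp t, tent (t + k) = 1 := by
  have hne : (-⌊t⌋ : ℤ) ≠ -⌊t⌋ - 1 := by omega
  rw [tentSupp, Finset.sum_pair hne]
  have h1 : 0 ≤ Int.fract t := Int.fract_nonneg t
  have h2 : Int.fract t < 1 := Int.fract_lt_one t
  have e1 : t + ((-⌊t⌋ : ℤ) : ℝ) = Int.fract t := by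
    rw [Int.fract]; push_cast; ring
  have e2 : t + ((-⌊t⌋ - 1 : ℤ) : ℝ) = Int.fract t - 1 := by
    rw [Int.fract]; push_cast; ring
  rw [e1, e2]
  unfold tent
  rw [abs_of_nonneg h1, abs_of_nonpos (by linarith : Int.fract t - 1 ≤ 0),
    max_eq_right (by linarith), max_eq_right (by linarith)]
  ring

lemma tsum_prod_tent {ι : Type*} [Fintype ι] (t : ι → ℝ) :
    ∑' e : ι → ℤ, ENNReal.ofReal (∏ i, tent (t i + e i)) = 1 := by
  classical
  rw [tsum_eq_sum (s := Fintype.piFinset fun i => tentSupp (t i))]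
  · rw [← ENNReal.ofReal_sum_of_nonneg
      (fun e _ => Finset.prod_nonneg fun i _ => tent_nonneg _)]
    rw [← Finset.prod_univ_sum (fun i => tentSupp (t i)) (fun i (k : ℤ) => tent (t i + k))]
    simp [sum_tent]
  · intro e he
    rw [Fintype.mem_piFinset] at he
    push Not at he
    obtain ⟨i, hi⟩ := he
    rw [Finset.prod_eq_zero (Finset.mem_univ i) (tent_add_eq_zero hi), ENNReal.ofReal_zero]

/-! ### Coordinates -/

variable (K : Type*) [Field K] [NumberField K]

open scoped Classical in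
/-- The coordinates of `logMap x` in the basis of the unit lattice. -/
def logCoord (x : mixedSpace K) (i : Fin (rank K)) : ℝ :=
  ((basisUnitLattice K).ofZLatticeBasis ℝ (unitLattice K)).repr (logMap x) i

/-- The weight function. -/
def coneWeight (x : mixedSpace K) : ℝ := ∏ i, tent (logCoord K x i)

lemma coneWeight_nonneg (x : mixedSpace K) : 0 ≤ coneWeight K x :=
  Finset.prod_nonneg fun _ _ => tent_nonneg _

lemma coneWeight_le_one (x : mixedSpace K) : coneWeight K x ≤ 1 :=
  Finset.prod_le_one (fun _ _ => tent_nonneg _) fun _ _ => tent_le_one _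

/-- The parametrization of the units by torsion units and exponents. -/
def unitEquiv : (torsion K × (Fin (rank K) → ℤ)) ≃ (𝓞 K)ˣ :=
  Equiv.ofBijective (fun ζe => ζe.1 * ∏ i, (fundSystem K i) ^ (ζe.2 i)) (by
    constructor
    · intro a b hab
      obtain ⟨c, _, hc⟩ := exist_unique_eq_mul_prod K (a.1 * ∏ i, (fundSystem K i) ^ (a.2 i))
      rw [hc a rfl, hc b hab]
    · intro u
      obtain ⟨c, hc, _⟩ := exist_unique_eq_mul_prod K u
      exact ⟨c, hc.symm⟩)

lemma unitEquiv_apply (ζ : torsion K) (e : Fin (rank K) → ℤ) :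
    unitEquiv K (ζ, e) = ζ * ∏ i, (fundSystem K i) ^ (e i) := rfl

lemma logEmbedding_unitEquiv (ζ : torsion K) (e : Fin (rank K) → ℤ) :
    logEmbedding K (Additive.ofMul (unitEquiv K (ζ, e))) =
      ∑ i, e i • ((basisUnitLattice K i : unitLattice K) : logSpace K) := by
  rw [unitEquiv_apply, ofMul_mul, map_add, (logEmbedding_eq_zero_iff).mpr ζ.2, zero_add,
    ofMul_prod, map_sum]
  refine Finset.sum_congr rfl fun i _ => ?_
  rw [ofMul_zpow, map_zsmul, logEmbedding_fundSystem]

lemma logCoord_unit_smul {x : mixedSpace K} (hx : mixedEmbedding.norm x ≠ 0) (ζ : torsion K)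
    (e : Fin (rank K) → ℤ) (i : Fin (rank K)) :
    logCoord K (unitEquiv K (ζ, e) • x) i = logCoord K x i + e i := by
  classical
  unfold logCoord
  rw [logMap_unit_smul _ hx, logEmbedding_unitEquiv, map_add, map_sum]
  simp only [Finsupp.add_apply, Finsupp.finsetSum_apply]
  have h : ∀ j, ((basisUnitLattice K).ofZLatticeBasis ℝ (unitLattice K)).repr
      (e j • ((basisUnitLattice K j : unitLattice K) : logSpace K)) i =
      if j = i then (e j : ℝ) else 0 := by
    intro j
    rw [← Basis.ofZLatticeBasis_apply ℝ (unitLattice K) (basisUnitLattice K) j,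
      ← Int.cast_smul_eq_zsmul ℝ (e j), map_smul, Basis.repr_self, Finsupp.smul_apply,
      Finsupp.single_apply]
    split_ifs <;> simp
  simp only [h]
  rw [Finset.sum_ite_eq' Finset.univ i, if_pos (Finset.mem_univ i), add_comm]

lemma tsum_coneWeight {x : mixedSpace K} (hx : mixedEmbedding.norm x ≠ 0) :
    ∑' u : (𝓞 K)ˣ, ENNReal.ofReal (coneWeight K (u • x)) = torsionOrder K := by
  rw [← (unitEquiv K).tsum_eq]
  rw [ENNReal.tsum_prod']
  have h : ∀ ζ : torsion K, ∑' e : Fin (rank K) → ℤ,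
      ENNReal.ofReal (coneWeight K (unitEquiv K (ζ, e) • x)) = 1 := by
    intro ζ
    rw [← tsum_prod_tent (logCoord K x)]
    refine tsum_congr fun e => ?_
    congr 1
    unfold coneWeight
    refine Finset.prod_congr rfl fun i _ => ?_
    rw [logCoord_unit_smul K hx]
  simp only [h]
  have := Fintype.ofFinite (torsion K)
  rw [tsum_fintype]
  simp [torsionOrder, Nat.card_eq_fintype_card]

end Fermat.Agent.EXT.ConeWeight

end
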