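import Mathlib
import Fermat.Agent.EXT.ConeWeight

/-!
# The function `coneFun s x = coneWeight x * |N x| ^ (-s)` on the mixed space

It is homogeneous of degree `-n s`, supported in a cone `{c ‖x‖ ≤ |x|_w ∀ w}` and varies slowly
at infinity, uniformly in `s ∈ [1,2]`.
-/

set_option autoImplicit false

open NumberField NumberField.mixedEmbedding NumberField.InfinitePlace NumberField.Units
  NumberField.Units.dirichletUnitTheorem Module

noncomputable section

namespace Fermat.Agent.EXT.ConeFunction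

open ConeWeight

open scoped Classical

variable (K : Type*) [Field K] [NumberField K]

lemma normAtPlace_le_norm (w : InfinitePlace K) (x : mixedSpace K) :
    normAtPlace w x ≤ ‖x‖ := by
  classical
  rw [norm_eq_sup'_normAtPlace]
  exact Finset.le_sup' (fun w => normAtPlace w x) (Finset.mem_univ w)

lemma norm_le_of_forall_normAtPlace_le {x : mixedSpace K} {B : ℝ}
    (h : ∀ w, normAtPlace w x ≤ B) : ‖x‖ ≤ B := by
  classical
  rw [norm_eq_sup'_normAtPlace]
  exact Finset.sup'_le _ _ fun w _ => h w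

lemma abs_normAtPlace_add_sub_le (w : InfinitePlace K) (x y : mixedSpace K) :
    |normAtPlace w (x + y) - normAtPlace w x| ≤ ‖y‖ := by
  rw [abs_le]
  constructor
  · have h := normAtPlace_add_le w (x + y) (-y)
    rw [add_neg_cancel_right, normAtPlace_neg] at h
    linarith [normAtPlace_le_norm K w y]
  · linarith [normAtPlace_add_le w x y, normAtPlace_le_norm K w y]

lemma log_norm_eq {x : mixedSpace K} (hx : mixedEmbedding.norm x ≠ 0) :
    Real.log (mixedEmbedding.norm x) = ∑ w, (mult w : ℝ) * Real.log (normAtPlace w x) := by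
  have h := (mixedEmbedding.norm_ne_zero_iff).mp hx
  rw [mixedEmbedding.norm_apply, Real.log_prod (fun w _ => pow_ne_zero _ (h w))]
  exact Finset.sum_congr rfl fun w _ => Real.log_pow _ _

lemma sum_mult_mul_eq_zero {x : mixedSpace K} (hx : mixedEmbedding.norm x ≠ 0) :
    ∑ w, (mult w : ℝ) * (Real.log (normAtPlace w x) -
      Real.log (mixedEmbedding.norm x) * (finrank ℚ K : ℝ)⁻¹) = 0 := by
  have hn : (finrank ℚ K : ℝ) ≠ 0 := Nat.cast_ne_zero.mpr finrank_pos.ne'
  have hs : ∑ w : InfinitePlace K, (mult w : ℝ) = (finrank ℚ K : ℝ) := by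
    exact_mod_cast sum_mult_eq (K := K)
  simp_rw [mul_sub, Finset.sum_sub_distrib, ← Finset.sum_mul, hs, ← log_norm_eq K hx]
  field_simp
  ring

/-- Support of the weight function is contained in a cone. -/
lemma exists_cone_const : ∃ c : ℝ, 0 < c ∧ c ≤ 1 ∧ ∀ x : mixedSpace K,
    mixedEmbedding.norm x ≠ 0 → coneWeight K x ≠ 0 → ∀ w, c * ‖x‖ ≤ normAtPlace w x := by
  classical
  set b := (basisUnitLattice K).ofZLatticeBasis ℝ (unitLattice K) with hb
  set B : ℝ := ∑ i, ‖b i‖ with hB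
  have hB0 : 0 ≤ B := Finset.sum_nonneg fun i _ => norm_nonneg _
  set B' : ℝ := (Fintype.card (InfinitePlace K) : ℝ) * B with hB'
  have hcard : (1 : ℝ) ≤ (Fintype.card (InfinitePlace K) : ℝ) := by
    exact_mod_cast Fintype.card_pos
  have hBB' : B ≤ B' := le_mul_of_one_le_left hB0 hcard
  refine ⟨Real.exp (-(2 * B')), Real.exp_pos _, Real.exp_le_one_iff.mpr (by linarith), ?_⟩
  intro x hx hw
  have hpl := (mixedEmbedding.norm_ne_zero_iff).mp hx
  have hpos : ∀ w, 0 < normAtPlace w x := fun w =>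
    lt_of_le_of_ne (normAtPlace_nonneg _ _) (hpl w).symm
  -- bound on the coordinates
  have ht : ∀ i, |b.repr (logMap x) i| ≤ 1 := by
    intro i
    have h1 := (Finset.prod_ne_zero_iff.mp hw) i (Finset.mem_univ i)
    exact (abs_lt_one_of_tent_ne_zero h1).le
  have hlog : ∀ v : {w : InfinitePlace K // w ≠ w₀}, |logMap x v| ≤ B := by
    intro v
    have e : logMap x = ∑ i, b.repr (logMap x) i • b i := (b.sum_repr (logMap x)).symm
    calc |logMap x v| = |(∑ i, b.repr (logMap x) i • b i) v| := by rw [← e]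
      _ = |∑ i, b.repr (logMap x) i * b i v| := by
          simp [Finset.sum_apply]
      _ ≤ ∑ i, |b.repr (logMap x) i * b i v| := Finset.abs_sum_le_sum_abs _ _
      _ ≤ ∑ i, ‖b i‖ := by
          refine Finset.sum_le_sum fun i _ => ?_
          rw [abs_mul]
          calc |b.repr (logMap x) i| * |b i v| ≤ 1 * ‖b i‖ :=
                mul_le_mul (ht i) (norm_le_pi_norm (b i) v) (abs_nonneg _) zero_le_one
            _ = ‖b i‖ := one_mul _
  set a : InfinitePlace K → ℝ := fun w => Real.log (normAtPlace w x) -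
      Real.log (mixedEmbedding.norm x) * (finrank ℚ K : ℝ)⁻¹ with ha
  have hma : ∀ w, w ≠ w₀ → |(mult w : ℝ) * a w| ≤ B := fun w hw => hlog ⟨w, hw⟩
  have hmult : ∀ w : InfinitePlace K, (1 : ℝ) ≤ mult w := fun w => by
    exact_mod_cast (one_le_mult (w := w))
  have hle : ∀ w, |a w| ≤ |(mult w : ℝ) * a w| := by
    intro w
    rw [abs_mul, abs_of_nonneg (show (0 : ℝ) ≤ (mult w : ℝ) from Nat.cast_nonneg _)]
    exact le_mul_of_one_le_left (abs_nonneg _) (hmult w)
  have hsum := sum_mult_mul_eq_zero K hx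
  have haB : ∀ w, |a w| ≤ B' := by
    intro w
    by_cases hw : w = w₀
    · subst hw
      refine (hle _).trans ?_
      have h2 : (mult (w₀ : InfinitePlace K) : ℝ) * a w₀ =
          - ∑ w ∈ Finset.univ.erase w₀, (mult w : ℝ) * a w := by
        rw [← Finset.add_sum_erase _ _ (Finset.mem_univ w₀)] at hsum
        linarith
      rw [h2, abs_neg]
      calc |∑ w ∈ Finset.univ.erase w₀, (mult w : ℝ) * a w|
          ≤ ∑ w ∈ Finset.univ.erase w₀, |(mult w : ℝ) * a w| := Finset.abs_sum_le_sum_abs _ _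
        _ ≤ ∑ w ∈ Finset.univ.erase w₀, B :=
            Finset.sum_le_sum fun w hw => hma w (Finset.ne_of_mem_erase hw)
        _ ≤ ∑ w : InfinitePlace K, B :=
            Finset.sum_le_sum_of_subset_of_nonneg (Finset.erase_subset _ _) fun _ _ _ => hB0
        _ = B' := by simp [hB']
    · exact ((hle w).trans (hma w hw)).trans hBB'
  intro w
  rw [Real.exp_neg, inv_mul_le_iff₀ (Real.exp_pos _)]
  refine norm_le_of_forall_normAtPlace_le K fun w' => ?_
  rw [← Real.log_le_log_iff (hpos w') (mul_pos (Real.exp_pos _) (hpos w)),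
    Real.log_mul (Real.exp_pos _).ne' (hpos w).ne', Real.log_exp]
  have h3 := abs_le.mp (haB w)
  have h4 := abs_le.mp (haB w')
  simp only [ha] at h3 h4
  linarith [h3.1, h4.2]

/-! ### Elementary inequalities -/

lemma abs_log_sub_log_le {a b m D : ℝ} (hm : 0 < m) (ha : m ≤ a) (hb : m ≤ b)
    (h : |a - b| ≤ D) : |Real.log a - Real.log b| ≤ D / m := by
  have ha0 : 0 < a := lt_of_lt_of_le hm ha
  have hb0 : 0 < b := lt_of_lt_of_le hm hb
  have hD : 0 ≤ D := (abs_nonneg _).trans h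
  have key : ∀ u v : ℝ, m ≤ u → m ≤ v → |u - v| ≤ D → Real.log u - Real.log v ≤ D / m := by
    intro u v hu hv huv
    have hu0 : 0 < u := lt_of_lt_of_le hm hu
    have hv0 : 0 < v := lt_of_lt_of_le hm hv
    rw [← Real.log_div hu0.ne' hv0.ne']
    calc Real.log (u / v) ≤ u / v - 1 := Real.log_le_sub_one_of_pos (div_pos hu0 hv0)
      _ = (u - v) / v := by field_simp
      _ ≤ D / v := by
          apply div_le_div_of_nonneg_right ((le_abs_self _).trans huv) hv0.le
      _ ≤ D / m := div_le_div_of_nonneg_left hD hm hv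
  rw [abs_le]
  constructor
  · have := key b a hb ha (by rwa [abs_sub_comm])
    linarith
  · exact key a b ha hb h

lemma abs_prod_tent_sub_le {ι : Type*} (s : Finset ι) (a b : ι → ℝ) :
    |∏ i ∈ s, tent (a i) - ∏ i ∈ s, tent (b i)| ≤ ∑ i ∈ s, |a i - b i| := by
  classical
  induction s using Finset.induction_on with
  | empty => simp
  | insert i s hi ih =>
    rw [Finset.prod_insert hi, Finset.prod_insert hi, Finset.sum_insert hi]
    have e : tent (a i) * ∏ j ∈ s, tent (a j) - tent (b i) * ∏ j ∈ s, tent (b j) =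
        (tent (a i) - tent (b i)) * ∏ j ∈ s, tent (a j) +
          tent (b i) * (∏ j ∈ s, tent (a j) - ∏ j ∈ s, tent (b j)) := by ring
    rw [e]
    refine (abs_add_le _ _).trans (add_le_add ?_ ?_)
    · rw [abs_mul, abs_of_nonneg (Finset.prod_nonneg fun j _ => tent_nonneg (a j))]
      calc |tent (a i) - tent (b i)| * ∏ j ∈ s, tent (a j)
          ≤ |a i - b i| * 1 := mul_le_mul (abs_tent_sub_le _ _)
            (Finset.prod_le_one (fun j _ => tent_nonneg _) fun j _ => tent_le_one _)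
            (Finset.prod_nonneg fun j _ => tent_nonneg _) (abs_nonneg _)
        _ = |a i - b i| := mul_one _
    · rw [abs_mul, abs_of_nonneg (tent_nonneg _)]
      calc tent (b i) * |∏ j ∈ s, tent (a j) - ∏ j ∈ s, tent (b j)|
          ≤ 1 * ∑ i ∈ s, |a i - b i| :=
            mul_le_mul (tent_le_one _) ih (abs_nonneg _) zero_le_one
        _ = _ := one_mul _

lemma exists_coord_bound : ∃ M : ℝ, 0 ≤ M ∧ ∀ (x y : mixedSpace K) (i : Fin (rank K)),
    |logCoord K x i - logCoord K y i| ≤ M * ‖logMap x - logMap y‖ := by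
  classical
  set b := (basisUnitLattice K).ofZLatticeBasis ℝ (unitLattice K) with hb
  set φ : Fin (rank K) → (logSpace K →L[ℝ] ℝ) := fun i =>
    LinearMap.toContinuousLinearMap (b.coord i) with hφ
  refine ⟨∑ i, ‖φ i‖, Finset.sum_nonneg fun i _ => norm_nonneg _, ?_⟩
  intro x y i
  have e : logCoord K x i - logCoord K y i = φ i (logMap x - logMap y) := by
    simp only [hφ, logCoord, LinearMap.coe_toContinuousLinearMap', Basis.coord_apply, map_sub]
    try rfl
  rw [e]
  calc |φ i (logMap x - logMap y)| ≤ ‖φ i‖ * ‖logMap x - logMap y‖ := (φ i).le_opNorm _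
    _ ≤ (∑ i, ‖φ i‖) * ‖logMap x - logMap y‖ :=
        mul_le_mul_of_nonneg_right
          (Finset.single_le_sum (f := fun i => ‖φ i‖) (fun j _ => norm_nonneg _)
            (Finset.mem_univ i)) (norm_nonneg _)

/-! ### The homogeneous function -/

/-- `coneFun s x = coneWeight x * |N x| ^ (-s)`. -/
def coneFun (s : ℝ) (x : mixedSpace K) : ℝ := coneWeight K x * mixedEmbedding.norm x ^ (-s)

lemma coneFun_nonneg (s : ℝ) (x : mixedSpace K) : 0 ≤ coneFun K s x :=
  mul_nonneg (coneWeight_nonneg K x) (Real.rpow_nonneg (mixedEmbedding.norm_nonneg x) _)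

lemma coneFun_of_norm_eq_zero {s : ℝ} (hs : 0 < s) {x : mixedSpace K}
    (hx : mixedEmbedding.norm x = 0) : coneFun K s x = 0 := by
  rw [coneFun, hx, Real.zero_rpow (by linarith), mul_zero]

lemma coneFun_of_coneWeight_eq_zero (s : ℝ) {x : mixedSpace K}
    (hx : coneWeight K x = 0) : coneFun K s x = 0 := by
  rw [coneFun, hx, zero_mul]

lemma pow_le_norm_of_forall {x : mixedSpace K} {m : ℝ} (hm : 0 ≤ m)
    (h : ∀ w, m ≤ normAtPlace w x) : m ^ finrank ℚ K ≤ mixedEmbedding.norm x := by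
  rw [mixedEmbedding.norm_apply, ← sum_mult_eq (K := K), ← Finset.prod_pow_eq_pow_sum]
  exact Finset.prod_le_prod (fun w _ => pow_nonneg hm _) fun w _ => pow_le_pow_left₀ hm (h w) _

lemma exists_lipschitz_aux {c : ℝ} (hc0 : 0 < c) (hc1 : c ≤ 1)
    (hc : ∀ x : mixedSpace K, mixedEmbedding.norm x ≠ 0 → coneWeight K x ≠ 0 →
      ∀ w, c * ‖x‖ ≤ normAtPlace w x) (D : ℝ) (hD : 0 ≤ D) :
    ∃ R C : ℝ, 1 ≤ R ∧ D ≤ R ∧ 0 ≤ C ∧ ∀ s : ℝ, 1 ≤ s → s ≤ 2 → ∀ x y : mixedSpace K,
      R ≤ ‖x‖ → ‖y‖ ≤ D → mixedEmbedding.norm x ≠ 0 → coneWeight K x ≠ 0 →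
      |coneFun K s (x + y) - coneFun K s x| ≤ C / ‖x‖ ^ (finrank ℚ K + 1) := by
  obtain ⟨M, hM0, hM⟩ := exists_coord_bound K
  set n := finrank ℚ K with hn
  have hn1 : (1 : ℝ) ≤ n := by exact_mod_cast Nat.one_le_iff_ne_zero.mpr finrank_pos.ne'
  set r := rank K with hr
  refine ⟨(1 + 4 * n * D) / c, (12 * r * M + 4 * n) * (2 * D) / c ^ (n + 1), ?_, ?_, by positivity,
    ?_⟩
  · rw [le_div_iff₀ hc0, one_mul]
    nlinarith [mul_nonneg (by linarith : (0 : ℝ) ≤ n) hD]
  · rw [le_div_iff₀ hc0]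
    nlinarith [mul_nonneg (by linarith : (0 : ℝ) ≤ (n : ℝ) - 1) hD]
  intro s hs1 hs2 x y hxR hyD hx hw
  have hcx : 1 + 4 * n * D ≤ c * ‖x‖ := by
    rw [div_le_iff₀ hc0] at hxR
    linarith
  have hnD : D ≤ n * D := le_mul_of_one_le_left hD hn1
  have hcx0 : 0 < c * ‖x‖ := by nlinarith
  have hxpos : 0 < ‖x‖ := pos_of_mul_pos_right hcx0 hc0.le
  set m := c * ‖x‖ / 2 with hm
  have hm0 : 0 < m := by positivity
  have hDm : D ≤ m := by
    rw [hm]; linarith
  have hxw : ∀ w, c * ‖x‖ ≤ normAtPlace w x := hc x hx hw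
  have hxm : ∀ w, m ≤ normAtPlace w x := fun w => (by rw [hm]; linarith [hxw w])
  have hx'm : ∀ w, m ≤ normAtPlace w (x + y) := fun w => by
    have h1 := (abs_le.mp (abs_normAtPlace_add_sub_le K w x y)).1
    have h2 := hxw w
    rw [hm] at hDm ⊢
    linarith
  set δ := D / m with hδ
  have hδ0 : 0 ≤ δ := div_nonneg hD hm0.le
  have hlogw : ∀ w, |Real.log (normAtPlace w (x + y)) - Real.log (normAtPlace w x)| ≤ δ :=
    fun w => abs_log_sub_log_le hm0 (hx'm w) (hxm w)
      ((abs_normAtPlace_add_sub_le K w x y).trans hyD)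
  have hx' : mixedEmbedding.norm (x + y) ≠ 0 :=
    (mixedEmbedding.norm_ne_zero_iff).mpr fun w => (hm0.trans_le (hx'm w)).ne'
  have hNpos : 0 < mixedEmbedding.norm x := lt_of_le_of_ne (mixedEmbedding.norm_nonneg _) hx.symm
  have hN'pos : 0 < mixedEmbedding.norm (x + y) :=
    lt_of_le_of_ne (mixedEmbedding.norm_nonneg _) hx'.symm
  set u := Real.log (mixedEmbedding.norm (x + y)) - Real.log (mixedEmbedding.norm x) with hu
  have hsumm : ∑ w : InfinitePlace K, (mult w : ℝ) = (n : ℝ) := by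
    exact_mod_cast sum_mult_eq (K := K)
  have hu_le : |u| ≤ n * δ := by
    rw [hu, log_norm_eq K hx', log_norm_eq K hx, ← Finset.sum_sub_distrib]
    refine (Finset.abs_sum_le_sum_abs _ _).trans ?_
    rw [← hsumm, Finset.sum_mul]
    refine Finset.sum_le_sum fun w _ => ?_
    rw [← mul_sub, abs_mul, abs_of_nonneg (show (0 : ℝ) ≤ (mult w : ℝ) from Nat.cast_nonneg _)]
    exact mul_le_mul_of_nonneg_left (hlogw w) (Nat.cast_nonneg _)
  have hlm : ‖logMap (x + y) - logMap x‖ ≤ 4 * δ := by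
    rw [pi_norm_le_iff_of_nonneg (by positivity)]
    intro w
    have e : (logMap (x + y) - logMap x) w = (mult w.1 : ℝ) *
        ((Real.log (normAtPlace w.1 (x + y)) - Real.log (normAtPlace w.1 x)) - u * (n : ℝ)⁻¹) := by
      rw [Pi.sub_apply, logMap_apply, logMap_apply, hu]
      ring
    rw [e, norm_mul, Real.norm_eq_abs, Real.norm_eq_abs,
      abs_of_nonneg (show (0 : ℝ) ≤ (mult w.1 : ℝ) from Nat.cast_nonneg _)]
    have h1 : |(Real.log (normAtPlace w.1 (x + y)) - Real.log (normAtPlace w.1 x)) -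
        u * (n : ℝ)⁻¹| ≤ δ + δ := by
      refine (abs_sub _ _).trans (add_le_add (hlogw w.1) ?_)
      rw [abs_mul, abs_of_nonneg (by positivity : (0 : ℝ) ≤ (n : ℝ)⁻¹)]
      rw [← div_eq_mul_inv, div_le_iff₀ (by linarith)]
      linarith
    have h2 : (mult w.1 : ℝ) ≤ 2 := by
      have : mult w.1 ≤ 2 := by unfold InfinitePlace.mult; split_ifs <;> norm_num
      exact_mod_cast this
    calc (mult w.1 : ℝ) * _ ≤ 2 * (δ + δ) := mul_le_mul h2 h1 (abs_nonneg _) (by norm_num)
      _ = 4 * δ := by ring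
  have hW : |coneWeight K (x + y) - coneWeight K x| ≤ 4 * r * M * δ := by
    unfold coneWeight
    refine (abs_prod_tent_sub_le _ _ _).trans ?_
    calc ∑ i, |logCoord K (x + y) i - logCoord K x i|
        ≤ ∑ _i : Fin (rank K), M * (4 * δ) :=
          Finset.sum_le_sum fun i _ => (hM _ _ i).trans (mul_le_mul_of_nonneg_left hlm hM0)
      _ = 4 * r * M * δ := by
          rw [Finset.sum_const, Finset.card_univ, Fintype.card_fin, nsmul_eq_mul]
          ring
  have hsu : |(-s) * u| ≤ 1 := by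
    rw [abs_mul, abs_neg, abs_of_nonneg (by linarith : (0 : ℝ) ≤ s)]
    calc s * |u| ≤ 2 * (n * δ) := mul_le_mul hs2 hu_le (abs_nonneg _) (by norm_num)
      _ = 4 * n * D / (c * ‖x‖) := by rw [hδ, hm]; field_simp; ring
      _ ≤ 1 := by
          rw [div_le_one hcx0]; linarith
  have hE : mixedEmbedding.norm (x + y) ^ (-s) =
      mixedEmbedding.norm x ^ (-s) * Real.exp ((-s) * u) := by
    rw [Real.rpow_def_of_pos hN'pos, Real.rpow_def_of_pos hNpos, ← Real.exp_add, hu]
    congr 1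
    ring
  have hE3 : Real.exp ((-s) * u) ≤ 3 := by
    calc Real.exp ((-s) * u) ≤ Real.exp 1 := Real.exp_le_exp.mpr ((le_abs_self _).trans hsu)
      _ ≤ 3 := by linarith [Real.exp_one_lt_d9]
  have hNs : mixedEmbedding.norm x ^ (-s) ≤ ((c * ‖x‖) ^ n)⁻¹ := by
    have h1 : (c * ‖x‖) ^ n ≤ mixedEmbedding.norm x := pow_le_norm_of_forall K hcx0.le hxw
    have h2 : (1 : ℝ) ≤ (c * ‖x‖) ^ n := one_le_pow₀ (by nlinarith)
    calc mixedEmbedding.norm x ^ (-s) ≤ mixedEmbedding.norm x ^ (-1 : ℝ) :=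
          Real.rpow_le_rpow_of_exponent_le (h2.trans h1) (by linarith)
      _ = (mixedEmbedding.norm x)⁻¹ := Real.rpow_neg_one _
      _ ≤ ((c * ‖x‖) ^ n)⁻¹ := inv_anti₀ (by linarith) h1
  have hNs0 : 0 ≤ mixedEmbedding.norm x ^ (-s) := Real.rpow_nonneg hNpos.le _
  have hmain : |coneFun K s (x + y) - coneFun K s x| ≤
      mixedEmbedding.norm x ^ (-s) * (12 * r * M * δ + 4 * n * δ) := by
    unfold coneFun
    rw [hE]
    have e : coneWeight K (x + y) * (mixedEmbedding.norm x ^ (-s) * Real.exp ((-s) * u)) -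
        coneWeight K x * mixedEmbedding.norm x ^ (-s) =
        mixedEmbedding.norm x ^ (-s) * ((coneWeight K (x + y) - coneWeight K x) *
          Real.exp ((-s) * u) + coneWeight K x * (Real.exp ((-s) * u) - 1)) := by ring
    rw [e, abs_mul, abs_of_nonneg hNs0]
    refine mul_le_mul_of_nonneg_left ((abs_add_le _ _).trans (add_le_add ?_ ?_)) hNs0
    · rw [abs_mul, abs_of_nonneg (Real.exp_pos _).le]
      calc |coneWeight K (x + y) - coneWeight K x| * Real.exp ((-s) * u)
          ≤ (4 * r * M * δ) * 3 := mul_le_mul hW hE3 (Real.exp_pos _).le (by positivity)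
        _ = 12 * r * M * δ := by ring
    · rw [abs_mul, abs_of_nonneg (coneWeight_nonneg K x)]
      calc coneWeight K x * |Real.exp ((-s) * u) - 1|
          ≤ 1 * (2 * |(-s) * u|) := mul_le_mul (coneWeight_le_one K x)
            (Real.abs_exp_sub_one_le hsu) (abs_nonneg _) zero_le_one
        _ ≤ 4 * n * δ := by
          rw [one_mul, abs_mul, abs_neg, abs_of_nonneg (by linarith : (0 : ℝ) ≤ s)]
          have : s * |u| ≤ 2 * (n * δ) := mul_le_mul hs2 hu_le (abs_nonneg _) (by norm_num)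
          linarith
  refine hmain.trans ?_
  calc mixedEmbedding.norm x ^ (-s) * (12 * r * M * δ + 4 * n * δ)
      ≤ ((c * ‖x‖) ^ n)⁻¹ * (12 * r * M * δ + 4 * n * δ) :=
        mul_le_mul_of_nonneg_right hNs (by positivity)
    _ = (12 * r * M + 4 * n) * (2 * D) / c ^ (n + 1) / ‖x‖ ^ (n + 1) := by
        rw [hδ, hm]
        field_simp
        ring

lemma exists_lipschitz (D : ℝ) (hD : 0 ≤ D) :
    ∃ R C : ℝ, 1 ≤ R ∧ D ≤ R ∧ 0 ≤ C ∧ ∀ s : ℝ, 1 ≤ s → s ≤ 2 → ∀ x y : mixedSpace K,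
      R ≤ ‖x‖ → ‖y‖ ≤ D →
      |coneFun K s (x + y) - coneFun K s x| ≤ C / ‖x‖ ^ (finrank ℚ K + 1) := by
  obtain ⟨c, hc0, hc1, hc⟩ := exists_cone_const K
  obtain ⟨R, C, hR1, hDR, hC0, h⟩ := exists_lipschitz_aux K hc0 hc1 hc D hD
  set n := finrank ℚ K with hn
  refine ⟨2 * R, 2 ^ (n + 1) * C, by linarith, by linarith, by positivity, ?_⟩
  intro s hs1 hs2 x y hx hy
  have hxpos : 0 < ‖x‖ := by linarith
  have hpow : (1 : ℝ) ≤ 2 ^ (n + 1) := one_le_pow₀ (by norm_num)
  by_cases h1 : mixedEmbedding.norm x ≠ 0 ∧ coneWeight K x ≠ 0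
  · refine (h s hs1 hs2 x y (by linarith) hy h1.1 h1.2).trans ?_
    apply div_le_div_of_nonneg_right _ (by positivity)
    exact le_mul_of_one_le_left hC0 hpow
  · have hzero : ∀ z : mixedSpace K, ¬ (mixedEmbedding.norm z ≠ 0 ∧ coneWeight K z ≠ 0) →
        coneFun K s z = 0 := by
      intro z hz
      by_cases hz1 : mixedEmbedding.norm z = 0
      · exact coneFun_of_norm_eq_zero K (by linarith) hz1
      · refine coneFun_of_coneWeight_eq_zero K s ?_
        by_contra hz2
        exact hz ⟨hz1, hz2⟩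
    by_cases h2 : mixedEmbedding.norm (x + y) ≠ 0 ∧ coneWeight K (x + y) ≠ 0
    · have h3 : ‖x‖ / 2 ≤ ‖x + y‖ := by
        have := norm_sub_le (x + y) y
        rw [add_sub_cancel_right] at this
        linarith
      have h4 := h s hs1 hs2 (x + y) (-y) (by linarith) (by rwa [norm_neg]) h2.1 h2.2
      rw [add_neg_cancel_right, abs_sub_comm] at h4
      refine h4.trans ?_
      calc C / ‖x + y‖ ^ (n + 1) ≤ C / (‖x‖ / 2) ^ (n + 1) := by
            apply div_le_div_of_nonneg_left hC0 (by positivity)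
            exact pow_le_pow_left₀ (by positivity) h3 _
        _ = 2 ^ (n + 1) * C / ‖x‖ ^ (n + 1) := by
            rw [div_pow]; field_simp
    · rw [hzero x h1, hzero _ h2, sub_zero, abs_zero]
      positivity

/-! ### Homogeneity -/

lemma coneWeight_smul {a : ℝ} (ha : a ≠ 0) {x : mixedSpace K} (hx : mixedEmbedding.norm x ≠ 0) :
    coneWeight K (a • x) = coneWeight K x := by
  unfold coneWeight logCoord
  rw [logMap_real_smul hx ha]

lemma coneFun_smul {s : ℝ} (hs : 0 < s) {a : ℝ} (ha : 0 < a) (x : mixedSpace K) :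
    coneFun K s (a • x) = (a ^ finrank ℚ K) ^ (-s) * coneFun K s x := by
  by_cases hx : mixedEmbedding.norm x = 0
  · rw [coneFun_of_norm_eq_zero K hs hx, mul_zero]
    apply coneFun_of_norm_eq_zero K hs
    rw [mixedEmbedding.norm_smul, hx, mul_zero]
  · unfold coneFun
    rw [coneWeight_smul K ha.ne' hx, mixedEmbedding.norm_smul, abs_of_pos ha,
      Real.mul_rpow (pow_nonneg ha.le _) (mixedEmbedding.norm_nonneg _)]
    ring

/-! ### Size -/

lemma coneFun_zero {s : ℝ} (hs : 0 < s) : coneFun K s 0 = 0 :=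
  coneFun_of_norm_eq_zero K hs (map_zero _)

/-- Upper bound: `coneFun s x ≤ (c ‖x‖)^(-n s)`. -/
lemma exists_coneFun_le : ∃ c : ℝ, 0 < c ∧ c ≤ 1 ∧ ∀ s : ℝ, 0 < s → ∀ x : mixedSpace K,
    x ≠ 0 → coneFun K s x ≤ ((c * ‖x‖) ^ finrank ℚ K) ^ (-s) := by
  obtain ⟨c, hc0, hc1, hc⟩ := exists_cone_const K
  refine ⟨c, hc0, hc1, ?_⟩
  intro s hs x hx0
  have hxpos : 0 < ‖x‖ := norm_pos_iff.mpr hx0
  have hpos : 0 < (c * ‖x‖) ^ finrank ℚ K := by positivity
  by_cases hx : mixedEmbedding.norm x = 0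
  · rw [coneFun_of_norm_eq_zero K hs hx]
    exact Real.rpow_nonneg hpos.le _
  by_cases hw : coneWeight K x = 0
  · rw [coneFun_of_coneWeight_eq_zero K s hw]
    exact Real.rpow_nonneg hpos.le _
  have h1 : (c * ‖x‖) ^ finrank ℚ K ≤ mixedEmbedding.norm x :=
    pow_le_norm_of_forall K (by positivity) (hc x hx hw)
  unfold coneFun
  calc coneWeight K x * mixedEmbedding.norm x ^ (-s)
      ≤ 1 * ((c * ‖x‖) ^ finrank ℚ K) ^ (-s) :=
        mul_le_mul (coneWeight_le_one K x)
          (Real.rpow_le_rpow_of_nonpos hpos h1 (by linarith))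
          (Real.rpow_nonneg (mixedEmbedding.norm_nonneg _) _) zero_le_one
    _ = _ := one_mul _

/-- Uniform bound away from the origin. -/
lemma exists_coneFun_bound (ρ : ℝ) (hρ : 0 < ρ) : ∃ B : ℝ, 0 ≤ B ∧ ∀ s : ℝ, 1 ≤ s → s ≤ 2 →
    ∀ x : mixedSpace K, ρ ≤ ‖x‖ → coneFun K s x ≤ B := by
  obtain ⟨c, hc0, hc1, hc⟩ := exists_coneFun_le K
  set n := finrank ℚ K with hn
  refine ⟨max 1 ((((c * ρ) ^ n)⁻¹) ^ 2), le_max_of_le_left zero_le_one, ?_⟩
  intro s hs1 hs2 x hx
  have hxpos : 0 < ‖x‖ := lt_of_lt_of_le hρ hx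
  have hx0 : x ≠ 0 := norm_pos_iff.mp hxpos
  refine (hc s (by linarith) x hx0).trans ?_
  have hpos : 0 < (c * ρ) ^ n := by positivity
  have h1 : (c * ρ) ^ n ≤ (c * ‖x‖) ^ n :=
    pow_le_pow_left₀ (by positivity) (mul_le_mul_of_nonneg_left hx hc0.le) _
  calc ((c * ‖x‖) ^ n) ^ (-s) ≤ ((c * ρ) ^ n) ^ (-s) :=
        Real.rpow_le_rpow_of_nonpos hpos h1 (by linarith)
    _ = (((c * ρ) ^ n)⁻¹) ^ s := by rw [Real.rpow_neg hpos.le, Real.inv_rpow hpos.le]
    _ ≤ max 1 ((((c * ρ) ^ n)⁻¹) ^ 2) := by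
        rcases le_total 1 (((c * ρ) ^ n)⁻¹) with h | h
        · refine le_max_of_le_right ?_
          calc (((c * ρ) ^ n)⁻¹) ^ s ≤ (((c * ρ) ^ n)⁻¹) ^ (2 : ℝ) :=
                Real.rpow_le_rpow_of_exponent_le h hs2
            _ = _ := by norm_cast
        · refine le_max_of_le_left ?_
          exact Real.rpow_le_one (by positivity) h (by linarith)

end Fermat.Agent.EXT.ConeFunction

end
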