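import Mathlib

/-!
# Comparison of a lattice sum with an integral

If `g` varies slowly at infinity (`|g (x + y) - g x| ≤ A (1 + ‖x‖)^(-(d+1))` for `y` in a
fundamental domain), then `∑ g(l) = covol⁻¹ ∫ g + O(A)`.
-/

set_option autoImplicit false

open MeasureTheory Module
open scoped Pointwise

namespace Fermat.Agent.EXT.LatticeSum

variable {E : Type*} [NormedAddCommGroup E] [NormedSpace ℝ E] [FiniteDimensional ℝ E]
  [MeasurableSpace E] [BorelSpace E] (L : Submodule ℤ E) [DiscreteTopology L] [IsZLattice ℝ L]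
  (μ : Measure E) [μ.IsAddHaarMeasure]

omit [FiniteDimensional ℝ E] in
lemma hasSum_integral_fundamentalDomain [Countable L] {F : Set E}
    (hF : IsAddFundamentalDomain L F μ) (f : E → ℝ) (hf : Integrable f μ) :
    HasSum (fun l : L => ∫ y in F, f ((l : E) + y) ∂μ) (∫ x, f x ∂μ) := by
  have : MeasurableVAdd L E := (inferInstance : MeasurableVAdd L.toAddSubgroup E)
  have : MeasurableConstVAdd L E := (inferInstance : MeasurableConstVAdd L.toAddSubgroup E)
  have : VAddInvariantMeasure L E μ := (inferInstance : VAddInvariantMeasure L.toAddSubgroup E μ)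
  have h0 : Measure.sum (fun l : L => μ.restrict (l +ᵥ F)) = μ := hF.sum_restrict
  have h1 : HasSum (fun l : L => ∫ y, f y ∂(μ.restrict (l +ᵥ F)))
      (∫ x, f x ∂(Measure.sum (fun l : L => μ.restrict (l +ᵥ F)))) :=
    hasSum_integral_measure (by rw [h0]; exact hf)
  rw [h0] at h1
  convert h1 using 2 with l
  have h2 := (measurePreserving_vadd l μ).setIntegral_image_emb
    (measurableEmbedding_const_vadd _) f F
  exact h2.symm

omit [MeasurableSpace E] [BorelSpace E] in
lemma summable_one_add_norm_rpow (r : ℝ) (hr : (finrank ℝ E : ℝ) < r) :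
    Summable fun l : L => (1 + ‖(l : E)‖) ^ (-r) := by
  classical
  have hrank : (finrank ℤ L : ℝ) = finrank ℝ E := by
    rw [ZLattice.rank ℝ L]
  have h1 : Summable fun z : L ↦ ‖z‖ ^ (-r) :=
    ZLattice.summable_norm_rpow L (-r) (by rw [hrank]; linarith)
  have h2 : Summable fun z : L ↦ (if z = 0 then (1 : ℝ) else 0) :=
    summable_of_hasFiniteSupport ((Set.finite_singleton (0 : L)).subset (by
      intro z hz
      by_contra hne
      exact hz (if_neg hne)))
  refine Summable.of_nonneg_of_le (fun z => by positivity) (fun z => ?_) (h1.add h2)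
  by_cases hz : z = 0
  · simp [hz]
    positivity
  · have hz' : 0 < ‖(z : E)‖ := by
      rw [norm_pos_iff]; simpa using hz
    rw [if_neg hz, add_zero]
    have hr0 : 0 ≤ (finrank ℝ E : ℝ) := Nat.cast_nonneg _
    exact Real.rpow_le_rpow_of_nonpos hz' (by simp) (by linarith)

theorem exists_sum_sub_integral_bounded :
    ∃ D C : ℝ, 0 ≤ D ∧ 0 ≤ C ∧ ∀ (A : ℝ) (g : E → ℝ), 0 ≤ A → Integrable g μ →
      (∀ x y : E, ‖y‖ ≤ D → |g (x + y) - g x| ≤ A * (1 + ‖x‖) ^ (-(finrank ℝ E + 1 : ℝ))) →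
      (Summable fun l : L => g l) ∧
        |∑' l : L, g l - (ZLattice.covolume L μ)⁻¹ * ∫ x, g x ∂μ| ≤ C * A := by
  classical
  have : Module.Free ℤ L := ZLattice.module_free ℝ L
  have : Module.Finite ℤ L := ZLattice.module_finite ℝ L
  have : Countable L := by infer_instance
  set b := Free.chooseBasis ℤ L
  set F := ZSpan.fundamentalDomain (b.ofZLatticeBasis ℝ) with hFdef
  have hF : IsAddFundamentalDomain L F μ := ZLattice.isAddFundamentalDomain b μ
  have hFb : Bornology.IsBounded F := ZSpan.fundamentalDomain_isBounded _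
  obtain ⟨D, hD⟩ := hFb.exists_norm_le
  have hcov : ZLattice.covolume L μ = μ.real F :=
    ZLattice.covolume_eq_measure_fundamentalDomain L μ hF
  have hpos : 0 < ZLattice.covolume L μ := ZLattice.covolume_pos L μ
  have hFm : MeasurableSet F := ZSpan.fundamentalDomain_measurableSet _
  have hFfin : μ F < ⊤ := hFb.measure_lt_top
  set v := ZLattice.covolume L μ with hv
  have hS := summable_one_add_norm_rpow L (finrank ℝ E + 1 : ℝ) (by linarith)
  refine ⟨max D 0, ∑' l : L, (1 + ‖(l : E)‖) ^ (-(finrank ℝ E + 1 : ℝ)), le_max_right _ _,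
    tsum_nonneg fun l => by positivity, ?_⟩
  intro A g hA hg hgd
  have hI := hasSum_integral_fundamentalDomain L μ hF g hg
  -- the key termwise estimate
  have key : ∀ l : L, |g l - v⁻¹ * ∫ y in F, g ((l : E) + y) ∂μ| ≤
      A * (1 + ‖(l : E)‖) ^ (-(finrank ℝ E + 1 : ℝ)) := by
    intro l
    have hint : IntegrableOn (fun y => g ((l : E) + y)) F μ :=
      (hg.comp_add_left (l : E)).integrableOn
    have hconst : IntegrableOn (fun _ : E => g l) F μ := by
      exact integrableOn_const hFfin.ne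
    have e1 : g l - v⁻¹ * ∫ y in F, g ((l : E) + y) ∂μ =
        - (v⁻¹ * ∫ y in F, (g ((l : E) + y) - g l) ∂μ) := by
      rw [integral_sub hint hconst, setIntegral_const, smul_eq_mul, ← hcov]
      field_simp
      ring
    have e2 : ‖∫ y in F, (g ((l : E) + y) - g l) ∂μ‖ ≤
        A * (1 + ‖(l : E)‖) ^ (-(finrank ℝ E + 1 : ℝ)) * μ.real F := by
      refine norm_setIntegral_le_of_norm_le_const hFfin ?_
      intro y hy
      exact hgd l y ((hD y hy).trans (le_max_left _ _))
    rw [e1, abs_neg, abs_mul, abs_of_pos (inv_pos.mpr hpos)]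
    rw [← hcov] at e2
    calc v⁻¹ * |∫ y in F, (g ((l : E) + y) - g l) ∂μ|
        ≤ v⁻¹ * (A * (1 + ‖(l : E)‖) ^ (-(finrank ℝ E + 1 : ℝ)) * v) := by
          apply mul_le_mul_of_nonneg_left e2 (inv_pos.mpr hpos).le
      _ = A * (1 + ‖(l : E)‖) ^ (-(finrank ℝ E + 1 : ℝ)) := by
          field_simp
  have hS' := hS.mul_left A
  have hsumdiff : Summable fun l : L => g l - v⁻¹ * ∫ y in F, g ((l : E) + y) ∂μ :=
    Summable.of_norm_bounded hS' key
  have hsum : Summable fun l : L => g l := by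
    have := hsumdiff.add (hI.summable.mul_left v⁻¹)
    refine this.congr fun l => ?_
    ring
  refine ⟨hsum, ?_⟩
  have e3 : ∑' l : L, g l - v⁻¹ * ∫ x, g x ∂μ =
      ∑' l : L, (g l - v⁻¹ * ∫ y in F, g ((l : E) + y) ∂μ) := by
    rw [Summable.tsum_sub hsum (hI.summable.mul_left v⁻¹), tsum_mul_left, hI.tsum_eq]
  rw [e3]
  calc |∑' l : L, (g l - v⁻¹ * ∫ y in F, g ((l : E) + y) ∂μ)|
      ≤ ∑' l : L, |g l - v⁻¹ * ∫ y in F, g ((l : E) + y) ∂μ| := by
        have := norm_tsum_le_tsum_norm (hsumdiff.norm)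
        simpa using this
    _ ≤ ∑' l : L, A * (1 + ‖(l : E)‖) ^ (-(finrank ℝ E + 1 : ℝ)) :=
        Summable.tsum_le_tsum key hsumdiff.abs hS'
    _ = (∑' l : L, (1 + ‖(l : E)‖) ^ (-(finrank ℝ E + 1 : ℝ))) * A := by
        rw [tsum_mul_left, mul_comm]

end Fermat.Agent.EXT.LatticeSum
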