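import Mathlib
import Fermat.Agent.EXT.ConeFunction
import Fermat.Agent.EXT.LatticeSum

/-!
# Lattice sums of the function `coneFun`
-/

set_option autoImplicit false

open NumberField NumberField.mixedEmbedding NumberField.InfinitePlace NumberField.Units
  NumberField.Units.dirichletUnitTheorem Module MeasureTheory

noncomputable section

namespace Fermat.Agent.EXT.ConeSum

open ConeWeight ConeFunction LatticeSum

open scoped Classical

variable (K : Type*) [Field K] [NumberField K]

lemma measurable_logMap' : Measurable (logMap : mixedSpace K → logSpace K) := by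
  unfold logMap
  exact measurable_pi_iff.mpr fun w ↦ measurable_const.mul
    ((continuous_normAtPlace _).measurable.log.sub
      ((mixedEmbedding.continuous_norm _).measurable.log.mul measurable_const))

lemma measurable_logCoord (i : Fin (rank K)) : Measurable fun x => logCoord K x i := by
  set b := (basisUnitLattice K).ofZLatticeBasis ℝ (unitLattice K) with hb
  have h : Measurable (LinearMap.toContinuousLinearMap (b.coord i)) :=
    (LinearMap.toContinuousLinearMap (b.coord i)).continuous.measurable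
  exact h.comp (measurable_logMap' K)

lemma measurable_coneWeight : Measurable (coneWeight K) := by
  unfold coneWeight
  exact Finset.measurable_prod _ fun i _ => continuous_tent.measurable.comp (measurable_logCoord K i)

lemma measurable_coneFun (s : ℝ) : Measurable (coneFun K s) := by
  unfold coneFun
  exact (measurable_coneWeight K).mul ((mixedEmbedding.continuous_norm K).measurable.pow_const _)

/-- The truncated function. -/
def truncFun (s ρ : ℝ) (x : mixedSpace K) : ℝ := if ρ ≤ ‖x‖ then coneFun K s x else 0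

lemma truncFun_nonneg (s ρ : ℝ) (x : mixedSpace K) : 0 ≤ truncFun K s ρ x := by
  unfold truncFun
  split_ifs
  · exact coneFun_nonneg K s x
  · exact le_rfl

lemma measurable_truncFun (s ρ : ℝ) : Measurable (truncFun K s ρ) := by
  unfold truncFun
  exact Measurable.ite (measurableSet_le measurable_const measurable_norm)
    (measurable_coneFun K s) measurable_const

lemma exists_truncFun_le (s ρ : ℝ) (hs : 0 < s) (hρ : 0 < ρ) :
    ∃ C : ℝ, ∀ x : mixedSpace K, truncFun K s ρ x ≤ C * (1 + ‖x‖) ^ (-((finrank ℚ K : ℝ) * s)) := by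
  obtain ⟨c, hc0, hc1, hc⟩ := exists_coneFun_le K
  set n := finrank ℚ K with hn
  set c' := c * ρ / (1 + ρ) with hc'
  have hc'0 : 0 < c' := by positivity
  refine ⟨c' ^ (-((n : ℝ) * s)), fun x => ?_⟩
  unfold truncFun
  split_ifs with hx
  · have hxpos : 0 < ‖x‖ := lt_of_lt_of_le hρ hx
    refine (hc s hs x (norm_pos_iff.mp hxpos)).trans ?_
    have h1 : c' * (1 + ‖x‖) ≤ c * ‖x‖ := by
      rw [hc', div_mul_eq_mul_div, div_le_iff₀ (by positivity)]
      nlinarith [mul_le_mul_of_nonneg_left hx hc0.le]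
    have h2 : 0 < c' * (1 + ‖x‖) := by positivity
    rw [← Real.mul_rpow hc'0.le (by positivity), ← Real.rpow_natCast, ← Real.rpow_mul (by positivity)]
    have e : (n : ℝ) * -s = -((n : ℝ) * s) := by ring
    rw [e]
    exact Real.rpow_le_rpow_of_nonpos h2 h1 (by
      have : 0 ≤ (n : ℝ) * s := by positivity
      linarith)
  · positivity

lemma integrable_truncFun (s ρ : ℝ) (hs : 1 < s) (hρ : 0 < ρ) :
    Integrable (truncFun K s ρ) (volume : Measure (mixedSpace K)) := by
  obtain ⟨C, hC⟩ := exists_truncFun_le K s ρ (by linarith) hρ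
  have hfr : finrank ℝ (mixedSpace K) = finrank ℚ K := mixedEmbedding.finrank K
  have hn : (0 : ℝ) < finrank ℚ K := by exact_mod_cast finrank_pos
  have h1 : Integrable (fun x : mixedSpace K => (1 + ‖x‖) ^ (-((finrank ℚ K : ℝ) * s))) volume :=
    integrable_one_add_norm (by rw [hfr]; nlinarith)
  refine (h1.const_mul C).mono' (measurable_truncFun K s ρ).aestronglyMeasurable ?_
  refine Filter.Eventually.of_forall fun x => ?_
  rw [Real.norm_eq_abs, abs_of_nonneg (truncFun_nonneg K s ρ x)]
  exact hC x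

/-- Scaling of the integral. -/
lemma integral_truncFun_scale (s ρ a : ℝ) (hs : 0 < s) (ha : 0 < a) :
    ∫ x : mixedSpace K, truncFun K s ρ x =
      a ^ finrank ℚ K * (a ^ finrank ℚ K) ^ (-s) * ∫ x : mixedSpace K, truncFun K s (ρ / a) x := by
  have hfr : finrank ℝ (mixedSpace K) = finrank ℚ K := mixedEmbedding.finrank K
  have h1 := Measure.integral_comp_smul (volume : Measure (mixedSpace K)) (truncFun K s ρ) a
  have h2 : ∀ x : mixedSpace K, truncFun K s ρ (a • x) =
      (a ^ finrank ℚ K) ^ (-s) * truncFun K s (ρ / a) x := by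
    intro x
    unfold truncFun
    rw [_root_.norm_smul, Real.norm_eq_abs, abs_of_pos ha, coneFun_smul K hs ha]
    have : ρ ≤ a * ‖x‖ ↔ ρ / a ≤ ‖x‖ := by rw [div_le_iff₀ ha, mul_comm]
    simp only [this]
    split_ifs <;> simp
  simp only [h2] at h1
  rw [integral_const_mul, hfr, abs_of_pos (by positivity), smul_eq_mul] at h1
  have hp : 0 < a ^ finrank ℚ K := by positivity
  rw [mul_assoc, h1]
  field_simp

lemma exists_integral_truncFun_sub_le (ρ₁ ρ₂ : ℝ) (h1 : 0 < ρ₁) (h2 : 0 < ρ₂) :
    ∃ B : ℝ, ∀ s : ℝ, 1 < s → s ≤ 2 →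
      |(∫ x : mixedSpace K, truncFun K s ρ₁ x) - ∫ x : mixedSpace K, truncFun K s ρ₂ x| ≤ B := by
  wlog h : ρ₁ ≤ ρ₂ generalizing ρ₁ ρ₂
  · obtain ⟨B, hB⟩ := this ρ₂ ρ₁ h2 h1 (le_of_not_ge h)
    exact ⟨B, fun s hs1 hs2 => by rw [abs_sub_comm]; exact hB s hs1 hs2⟩
  obtain ⟨B, hB0, hB⟩ := exists_coneFun_bound K ρ₁ h1
  refine ⟨B * (volume : Measure (mixedSpace K)).real (Metric.closedBall 0 ρ₂), ?_⟩
  intro s hs1 hs2
  rw [← integral_sub (integrable_truncFun K s ρ₁ hs1 h1) (integrable_truncFun K s ρ₂ hs1 h2)]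
  have hsupp : ∀ x : mixedSpace K, x ∉ Metric.closedBall (0 : mixedSpace K) ρ₂ →
      truncFun K s ρ₁ x - truncFun K s ρ₂ x = 0 := by
    intro x hx
    rw [mem_closedBall_zero_iff, not_le] at hx
    unfold truncFun
    rw [if_pos (h.trans hx.le), if_pos hx.le, sub_self]
  rw [← setIntegral_eq_integral_of_forall_compl_eq_zero hsupp, ← Real.norm_eq_abs]
  refine norm_setIntegral_le_of_norm_le_const
    (isCompact_closedBall (0 : mixedSpace K) ρ₂).measure_lt_top ?_
  intro x _
  rw [Real.norm_eq_abs, abs_le]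
  have h3 : ∀ ρ, ρ₁ ≤ ρ → truncFun K s ρ x ≤ B := by
    intro ρ hρ
    unfold truncFun
    split_ifs with hx
    · exact hB s hs1.le hs2 x (hρ.trans hx)
    · exact hB0
  constructor
  · linarith [truncFun_nonneg K s ρ₁ x, h3 ρ₂ h]
  · linarith [truncFun_nonneg K s ρ₂ x, h3 ρ₁ le_rfl]

/-! ### Lattice sums -/

variable (L : Submodule ℤ (mixedSpace K)) [DiscreteTopology L] [IsZLattice ℝ L]

lemma finite_norm_lt (R : ℝ) : {l : L | ‖(l : mixedSpace K)‖ < R}.Finite := by
  have H : IsClosed (X := mixedSpace K) L := @AddSubgroup.isClosed_of_discrete _ _ _ _ _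
    L.toAddSubgroup (inferInstanceAs (DiscreteTopology L))
  refine ((Metric.finite_isBounded_inter_isClosed DiscreteTopology.isDiscrete
    (Metric.isBounded_closedBall (x := (0 : mixedSpace K)) (r := R)) H).preimage_embedding
    (.subtype _)).subset ?_
  intro t ht
  refine ⟨?_, t.2⟩
  rw [mem_closedBall_zero_iff]
  exact (le_of_lt ht : ‖(t : mixedSpace K)‖ ≤ R)

lemma exists_trunc_sum_bound : ∃ R C : ℝ, 1 ≤ R ∧ 0 ≤ C ∧ ∀ s : ℝ, 1 < s → s ≤ 2 →
    (Summable fun l : L => truncFun K s R l) ∧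
      |∑' l : L, truncFun K s R l - (ZLattice.covolume L)⁻¹ * ∫ x, truncFun K s R x| ≤ C := by
  obtain ⟨D, C₀, hD0, hC₀, hsum⟩ :=
    exists_sum_sub_integral_bounded L (volume : Measure (mixedSpace K))
  obtain ⟨R, C₁, hR1, hDR, hC₁, hlip⟩ := exists_lipschitz K D hD0
  obtain ⟨B, hB0, hB⟩ := exists_coneFun_bound K R (by linarith)
  have hfr : finrank ℝ (mixedSpace K) = finrank ℚ K := mixedEmbedding.finrank K
  set n := finrank ℚ K with hn
  set A : ℝ := C₁ * 2 ^ (n + 1) + B * (1 + 2 * R) ^ (n + 1) with hA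
  have hA0 : 0 ≤ A := by positivity
  refine ⟨R, C₀ * A, hR1, by positivity, ?_⟩
  intro s hs1 hs2
  refine hsum A (truncFun K s R) hA0 (integrable_truncFun K s R hs1 (by linarith)) ?_
  intro x y hy
  have e : (1 + ‖x‖) ^ (-((finrank ℝ (mixedSpace K) : ℝ) + 1)) = ((1 + ‖x‖) ^ (n + 1))⁻¹ := by
    rw [hfr, Real.rpow_neg (by positivity)]
    congr 1
    rw [← Real.rpow_natCast]
    push_cast
    rfl
  rw [e, ← div_eq_mul_inv]
  have hp : 0 < (1 + ‖x‖) ^ (n + 1) := by positivity
  have htB : ∀ z : mixedSpace K, truncFun K s R z ≤ B := by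
    intro z
    unfold truncFun
    split_ifs with hz
    · exact hB s hs1.le hs2 z hz
    · exact hB0
  by_cases hx : 2 * R ≤ ‖x‖
  · have h1 : R ≤ ‖x‖ := by linarith
    have h2 : R ≤ ‖x + y‖ := by
      have := norm_sub_le (x + y) y
      rw [add_sub_cancel_right] at this
      linarith
    have h3 : |truncFun K s R (x + y) - truncFun K s R x| ≤ C₁ / ‖x‖ ^ (n + 1) := by
      unfold truncFun
      rw [if_pos h1, if_pos h2]
      exact hlip s hs1.le hs2 x y h1 hy
    refine h3.trans ?_
    have hxpos : 0 < ‖x‖ := by linarith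
    rw [div_le_div_iff₀ (by positivity) hp]
    have h4 : (1 + ‖x‖) ^ (n + 1) ≤ 2 ^ (n + 1) * ‖x‖ ^ (n + 1) := by
      rw [← mul_pow]
      exact pow_le_pow_left₀ (by positivity) (by linarith) _
    calc C₁ * (1 + ‖x‖) ^ (n + 1) ≤ C₁ * (2 ^ (n + 1) * ‖x‖ ^ (n + 1)) :=
          mul_le_mul_of_nonneg_left h4 hC₁
      _ = (C₁ * 2 ^ (n + 1)) * ‖x‖ ^ (n + 1) := by ring
      _ ≤ A * ‖x‖ ^ (n + 1) := by
          apply mul_le_mul_of_nonneg_right _ (by positivity)
          rw [hA]
          have : 0 ≤ B * (1 + 2 * R) ^ (n + 1) := by positivity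
          linarith
  · rw [not_le] at hx
    have h3 : |truncFun K s R (x + y) - truncFun K s R x| ≤ B := by
      rw [abs_le]
      constructor
      · linarith [truncFun_nonneg K s R (x + y), htB x]
      · linarith [truncFun_nonneg K s R x, htB (x + y)]
    refine h3.trans ?_
    rw [le_div_iff₀ hp]
    have h4 : (1 + ‖x‖) ^ (n + 1) ≤ (1 + 2 * R) ^ (n + 1) :=
      pow_le_pow_left₀ (by positivity) (by linarith) _
    calc B * (1 + ‖x‖) ^ (n + 1) ≤ B * (1 + 2 * R) ^ (n + 1) := mul_le_mul_of_nonneg_left h4 hB0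
      _ ≤ A := by
          rw [hA]
          have : 0 ≤ C₁ * 2 ^ (n + 1) := by positivity
          linarith

/-- The main estimate: for a lattice `L` all of whose nonzero elements have norm at least one,
`N^s * ∑_{l ∈ L} coneFun s l = v⁻¹ * ∫ truncFun s 1 + O(1)` if `covolume L = N * v`. -/
theorem exists_lattice_bound (hL : ∀ l ∈ L, l ≠ 0 → 1 ≤ mixedEmbedding.norm l) (N v : ℝ)
    (hN : 1 ≤ N) (hv : 0 < v) (hcov : ZLattice.covolume L = N * v) :
    ∃ C : ℝ, ∀ s : ℝ, 1 < s → s ≤ 2 →
      (Summable fun l : L => coneFun K s l) ∧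
        |N ^ s * ∑' l : L, coneFun K s l - v⁻¹ * ∫ x, truncFun K s 1 x| ≤ C := by
  obtain ⟨R, C, hR1, hC0, h⟩ := exists_trunc_sum_bound K L
  set n := finrank ℚ K with hn
  have hn0 : n ≠ 0 := finrank_pos.ne'
  -- the scaling factor
  set a : ℝ := N ^ ((n : ℝ)⁻¹) with ha
  have ha0 : 0 < a := by positivity
  have han : a ^ n = N := by
    rw [ha, ← Real.rpow_natCast, ← Real.rpow_mul (by linarith), inv_mul_cancel₀ (by exact_mod_cast hn0),
      Real.rpow_one]
  obtain ⟨B, hB⟩ := exists_integral_truncFun_sub_le K (R / a) 1 (by positivity) one_pos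
  have hfin := finite_norm_lt K L R
  set F := hfin.toFinset with hF
  refine ⟨N ^ (2 : ℝ) * (F.card + C) + v⁻¹ * B, ?_⟩
  intro s hs1 hs2
  obtain ⟨hS, hle⟩ := h s hs1 hs2
  have hs0 : 0 < s := by linarith
  -- decompose the sum
  have hcomp : ∀ l : L, l ∉ F → coneFun K s l = truncFun K s R l := by
    intro l hl
    have : ¬ ‖(l : mixedSpace K)‖ < R := fun hh => hl (by simpa [hF] using hh)
    unfold truncFun
    rw [if_pos (not_lt.mp this)]
  have hdiff : ∀ l : L, l ∉ F → coneFun K s l - truncFun K s R l = 0 := fun l hl => by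
    rw [hcomp l hl, sub_self]
  have hsd : Summable fun l : L => coneFun K s l - truncFun K s R l :=
    summable_of_ne_finset_zero (s := F) hdiff
  have hsum : Summable fun l : L => coneFun K s l := by
    refine (hsd.add hS).congr fun l => ?_
    ring
  refine ⟨hsum, ?_⟩
  have hterm : ∀ l : L, 0 ≤ coneFun K s l - truncFun K s R l ∧
      coneFun K s l - truncFun K s R l ≤ 1 := by
    intro l
    unfold truncFun
    split_ifs with hl
    · simp
    · rw [sub_zero]
      refine ⟨coneFun_nonneg K s l, ?_⟩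
      by_cases h0 : (l : mixedSpace K) = 0
      · rw [h0, coneFun_zero K hs0]; exact zero_le_one
      · have h1 := hL l l.2 h0
        unfold coneFun
        calc coneWeight K l * mixedEmbedding.norm (l : mixedSpace K) ^ (-s) ≤ 1 * 1 :=
              mul_le_mul (coneWeight_le_one K l)
                (Real.rpow_le_one_of_one_le_of_nonpos h1 (by linarith))
                (Real.rpow_nonneg (mixedEmbedding.norm_nonneg _) _) zero_le_one
          _ = 1 := one_mul 1
  have hdsum : |∑' l : L, coneFun K s l - ∑' l : L, truncFun K s R l| ≤ F.card := by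
    rw [← Summable.tsum_sub hsum hS, tsum_eq_sum hdiff]
    refine (Finset.abs_sum_le_sum_abs _ _).trans ?_
    calc ∑ l ∈ F, |coneFun K s l - truncFun K s R l| ≤ ∑ _l ∈ F, (1 : ℝ) := by
          refine Finset.sum_le_sum fun l _ => ?_
          rw [abs_of_nonneg (hterm l).1]
          exact (hterm l).2
      _ = F.card := by simp
  have hNs : 0 < N ^ s := by positivity
  have hNs2 : N ^ s ≤ N ^ (2 : ℝ) := Real.rpow_le_rpow_of_exponent_le hN hs2
  -- the integral
  have hI : N ^ s * ((ZLattice.covolume L)⁻¹ * ∫ x, truncFun K s R x) =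
      v⁻¹ * ∫ x, truncFun K s (R / a) x := by
    rw [hcov, integral_truncFun_scale K s R a hs0 ha0, han, Real.rpow_neg (by linarith)]
    field_simp
  have e : N ^ s * ∑' l : L, coneFun K s l - v⁻¹ * ∫ x, truncFun K s 1 x =
      N ^ s * ((∑' l : L, coneFun K s l - ∑' l : L, truncFun K s R l) +
        (∑' l : L, truncFun K s R l - (ZLattice.covolume L)⁻¹ * ∫ x, truncFun K s R x)) +
      v⁻¹ * ((∫ x, truncFun K s (R / a) x) - ∫ x, truncFun K s 1 x) := by
    rw [mul_add, mul_sub (N ^ s) (∑' l : L, truncFun K s R l), hI]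
    ring
  rw [e]
  refine (abs_add_le _ _).trans (add_le_add ?_ ?_)
  · rw [abs_mul, abs_of_pos hNs]
    exact mul_le_mul hNs2 ((abs_add_le _ _).trans (add_le_add hdsum hle)) (abs_nonneg _)
      (by positivity)
  · rw [abs_mul, abs_of_pos (inv_pos.mpr hv)]
    exact mul_le_mul_of_nonneg_left (hB s hs1 hs2) (inv_pos.mpr hv).le

end Fermat.Agent.EXT.ConeSum

end
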