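import Mathlib

set_option autoImplicit false

namespace Fermat.Agent.EXT

theorem exists_hom_ne_zero_aux {p : ℕ} [Fact p.Prime] {A : Type*} [AddCommGroup A]
    [Module (ZMod p) A] (y : A) (hy : y ≠ 0) : ∃ f : A →+ ZMod p, f y ≠ 0 := by
  by_contra hcon2
  push Not at hcon2
  apply hy
  refine (Module.forall_dual_apply_eq_zero_iff (ZMod p) y).mp ?_
  intro φ
  exact hcon2 φ.toAddMonoidHom

theorem exists_hom_ne_zero {p : ℕ} [Fact p.Prime] {A : Type*} [AddCommGroup A]
    (hmod : ∀ x : A, p • x = 0) (y : A) (hy : y ≠ 0) : ∃ f : A →+ ZMod p, f y ≠ 0 := by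
  let _ : Module (ZMod p) A := AddCommGroup.zmodModule hmod
  exact exists_hom_ne_zero_aux y hy

/-- If a finite abelian group `A` with an action of a finite group `Δ` of order prime to `p` has a
nonzero `p`-torsion element on which `Δ` acts through `n`, then there is a nonzero homomorphism
`A → ZMod p` on which `Δ` acts through `n`. -/
theorem exists_eigenchar {p : ℕ} [Fact p.Prime] {A : Type*} [AddCommGroup A] [Finite A]
    {Δ : Type*} [Group Δ] [Fintype Δ] (act : Δ → A →+ A)
    (hact : ∀ σ τ a, act (σ * τ) a = act σ (act τ a))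
    (n : Δ → (ZMod p)ˣ) (hn : ∀ σ τ, n (σ * τ) = n σ * n τ)
    (hcard : ¬ p ∣ Fintype.card Δ) (x : A) (hx : x ≠ 0) (hpx : p • x = 0)
    (hσ : ∀ σ, act σ x = (n σ : ZMod p).val • x) :
    ∃ ψ : A →+ ZMod p, ψ ≠ 0 ∧ ∀ σ a, ψ (act σ a) = (n σ : ZMod p) * ψ a := by
  classical
  by_contra hcon
  push Not at hcon
  have hp : p.Prime := Fact.out
  -- the operator `e`
  let m : Δ → ℕ := fun σ => ((n σ)⁻¹ : (ZMod p)ˣ).val.val
  let e : A →+ A := ∑ σ : Δ, (m σ) • act σ
  have he : ∀ a, e a = ∑ σ : Δ, (m σ) • act σ a := by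
    intro a
    simp [e]
  -- every character kills `e a`
  have hkill : ∀ (ψ0 : A →+ ZMod p) (a : A), ψ0 (e a) = 0 := by
    intro ψ0
    let ψ : A →+ ZMod p := ψ0.comp e
    have h1 : ∀ τ a, ψ (act τ a) = (n τ : ZMod p) * ψ a := by
      intro τ a
      simp only [ψ, AddMonoidHom.comp_apply, he, map_sum, map_nsmul, ← hact]
      rw [← Equiv.sum_comp (Equiv.mulRight τ⁻¹)]
      rw [Finset.mul_sum]
      refine Finset.sum_congr rfl fun σ _ => ?_
      simp only [Equiv.coe_mulRight, inv_mul_cancel_right, nsmul_eq_mul, m]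
      have : n (σ * τ⁻¹) = n σ * (n τ)⁻¹ := by
        have h := hn (σ * τ⁻¹) τ
        rw [inv_mul_cancel_right] at h
        rw [h, mul_inv_cancel_right]
      rw [this]
      rw [ZMod.natCast_val, ZMod.cast_id, ZMod.natCast_val, ZMod.cast_id]
      rw [mul_inv, inv_inv, Units.val_mul]
      ring
    by_contra hne
    push Not at hne
    obtain ⟨a, ha⟩ := hne
    have hψ0 : ψ ≠ 0 := by
      intro h
      apply ha
      have := DFunLike.congr_fun h a
      simpa [ψ] using this
    obtain ⟨σ, b, hb⟩ := hcon ψ hψ0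
    exact hb (h1 σ b)
  -- hence `e a ∈ p A`
  have hdiv : ∀ a, ∃ b, p • b = e a := by
    intro a
    by_contra hne
    push Not at hne
    let S : AddSubgroup A := (nsmulAddMonoidHom (α := A) p).range
    have hmod : ∀ x : A, p • x ∈ S := fun x => ⟨x, rfl⟩
    have hne0 : (QuotientAddGroup.mk' S (e a)) ≠ 0 := by
      intro h
      have : e a ∈ S := (QuotientAddGroup.eq_zero_iff (e a)).mp h
      obtain ⟨b, hb⟩ := this
      exact hne b hb
    obtain ⟨f, hf⟩ := exists_hom_ne_zero (p := p) (A := A ⧸ S)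
      (fun x => by
        obtain ⟨y, rfl⟩ := QuotientAddGroup.mk'_surjective S x
        rw [← map_nsmul]
        exact (QuotientAddGroup.eq_zero_iff _).mpr (hmod y)) _ hne0
    exact hf (hkill (f.comp (QuotientAddGroup.mk' S)) a)
  -- iterate
  have hiter : ∀ k : ℕ, ∀ a, ∃ b, p ^ k • b = (e^[k]) a := by
    intro k
    induction k with
    | zero => intro a; exact ⟨a, by simp⟩
    | succ k ih =>
      intro a
      obtain ⟨b, hb⟩ := ih (e a)
      obtain ⟨c, hc⟩ := hdiv a
      rw [Function.iterate_succ_apply]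
      -- e^[k] (e a) = e^[k] (p • c) = p • e^[k] c
      obtain ⟨d, hd⟩ := ih c
      refine ⟨d, ?_⟩
      have hlin : ∀ (j : ℕ) (y : A), (e^[j]) (p • y) = p • (e^[j]) y := by
        intro j
        induction j with
        | zero => intro y; rfl
        | succ j ihj => intro y; rw [Function.iterate_succ_apply, map_nsmul, ihj,
            ← Function.iterate_succ_apply]
      rw [← hc, hlin, ← hd, pow_succ', mul_smul]
  -- the element `x`
  have hmx : ∀ a b : ℕ, (a : ZMod p) = b → a • x = b • x := by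
    intro a b hab
    have h2 := (ZMod.natCast_eq_natCast_iff _ _ _).mp hab
    have h3 : ∀ a : ℕ, a • x = (a % p) • x := by
      intro a
      conv_lhs => rw [← Nat.div_add_mod a p, add_smul, mul_comm, mul_smul, hpx, smul_zero, zero_add]
    rw [h3 a, h3 b, h2]
  have hex : e x = Fintype.card Δ • x := by
    rw [he]
    have : ∀ σ ∈ (Finset.univ : Finset Δ), m σ • act σ x = x := by
      intro σ _
      rw [hσ, ← mul_smul]
      conv_rhs => rw [← one_smul ℕ x]
      apply hmx
      simp only [m, Nat.cast_mul, ZMod.natCast_val, ZMod.cast_id', id_eq, Nat.cast_one]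
      rw [← Units.val_mul, inv_mul_cancel, Units.val_one]
    rw [Finset.sum_congr rfl this, Finset.sum_const, Finset.card_univ]
  have hexk : ∀ k : ℕ, (e^[k]) x = (Fintype.card Δ ^ k) • x := by
    intro k
    induction k with
    | zero => simp
    | succ k ih =>
      rw [Function.iterate_succ_apply', ih, map_nsmul, hex, ← mul_smul, ← pow_succ]
  -- conclude
  obtain ⟨a, q, hq, hN⟩ := Nat.exists_eq_pow_mul_and_not_dvd
    (Nat.card_pos (α := A)).ne' p hp.ne_one
  obtain ⟨b, hb⟩ := hiter a x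
  rw [hexk] at hb
  have h1 : (q * Fintype.card Δ ^ a) • x = 0 := by
    rw [mul_smul, ← hb, ← mul_smul, mul_comm q, ← hN]
    exact card_nsmul_eq_zero'
  have hcop : Nat.Coprime p (q * Fintype.card Δ ^ a) := by
    rw [Nat.Prime.coprime_iff_not_dvd hp]
    intro h
    rcases hp.dvd_mul.mp h with h | h
    · exact hq h
    · exact hcard (hp.dvd_of_dvd_pow h)
  apply hx
  have h2 : addOrderOf x ∣ p := addOrderOf_dvd_of_nsmul_eq_zero hpx
  have h3 : addOrderOf x ∣ q * Fintype.card Δ ^ a := addOrderOf_dvd_of_nsmul_eq_zero h1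
  have h4 := Nat.eq_one_of_dvd_coprimes hcop h2 h3
  exact AddMonoid.addOrderOf_eq_one_iff.mp h4

end Fermat.Agent.EXT
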