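import Mathlib

set_option autoImplicit false

namespace Fermat.Agent.EXT

section EigenRank

variable {p : ℕ} [hp : Fact p.Prime] {A : Type*} [AddCommGroup A]

/-- divisibility in an abelian group -/
def DvdBy (n : ℤ) (x : A) : Prop := ∃ y : A, n • y = x

omit hp in
lemma DvdBy.add {n : ℤ} {x y : A} (hx : DvdBy n x) (hy : DvdBy n y) : DvdBy n (x + y) := by
  obtain ⟨a, rfl⟩ := hx
  obtain ⟨b, rfl⟩ := hy
  exact ⟨a + b, smul_add _ _ _⟩

omit hp in
lemma DvdBy.neg {n : ℤ} {x : A} (hx : DvdBy n x) : DvdBy n (-x) := by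
  obtain ⟨a, rfl⟩ := hx
  exact ⟨-a, smul_neg _ _⟩

omit hp in
lemma DvdBy.sub {n : ℤ} {x y : A} (hx : DvdBy n x) (hy : DvdBy n y) : DvdBy n (x - y) := by
  rw [sub_eq_add_neg]; exact hx.add hy.neg

omit hp in
lemma DvdBy.smul {n : ℤ} {x : A} (hx : DvdBy n x) (m : ℤ) : DvdBy n (m • x) := by
  obtain ⟨a, rfl⟩ := hx
  exact ⟨m • a, smul_comm _ _ _⟩

omit hp in
lemma DvdBy.of_dvd {n m : ℤ} (h : n ∣ m) (x : A) : DvdBy n (m • x) := by
  obtain ⟨c, rfl⟩ := h
  exact ⟨c • x, by rw [mul_smul]⟩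

omit hp in
lemma DvdBy.mono {n m : ℤ} (h : n ∣ m) {x : A} (hx : DvdBy m x) : DvdBy n x := by
  obtain ⟨y, rfl⟩ := hx
  exact DvdBy.of_dvd h y

omit hp in
lemma DvdBy.sum {n : ℤ} {ι : Type*} (s : Finset ι) (f : ι → A) (h : ∀ i ∈ s, DvdBy n (f i)) :
    DvdBy n (∑ i ∈ s, f i) := by
  classical
  induction s using Finset.induction_on with
  | empty => exact ⟨0, by simp⟩
  | insert i s hi ih =>
    rw [Finset.sum_insert hi]
    exact (h i (Finset.mem_insert_self _ _)).add (ih fun j hj => h j (Finset.mem_insert_of_mem hj))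

omit hp in
lemma DvdBy.map {n : ℤ} {x : A} (hx : DvdBy n x) (f : A →+ A) : DvdBy n (f x) := by
  obtain ⟨y, rfl⟩ := hx
  exact ⟨f y, (map_zsmul f n y).symm⟩

/-- cancel an integer prime to `p` -/
lemma DvdBy.cancel {k : ℕ} {m : ℤ} (hm : ¬ (p : ℤ) ∣ m) {x : A} (hx : DvdBy ((p : ℤ) ^ k) (m • x)) :
    DvdBy ((p : ℤ) ^ k) x := by
  have hcop : IsCoprime (m : ℤ) ((p : ℤ) ^ k) := by
    apply IsCoprime.pow_right
    exact (Prime.coprime_iff_not_dvd (Nat.prime_iff_prime_int.mp hp.out)).mpr hm |>.symm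
  obtain ⟨a, b, hab⟩ := hcop
  have : x = a • (m • x) + ((b * (p : ℤ) ^ k)) • x := by
    rw [← mul_smul, ← add_smul, hab, one_smul]
  rw [this]
  exact (hx.smul a).add (DvdBy.of_dvd (dvd_mul_left _ _) x)

omit hp in
/-- cancel a power of `p` in a torsion free group -/
lemma DvdBy.cancel_pow (htf : ∀ x : A, (p : ℤ) • x = 0 → x = 0) {k a : ℕ} {x : A}
    (hx : DvdBy ((p : ℤ) ^ (k + a)) (((p : ℤ) ^ a) • x)) : DvdBy ((p : ℤ) ^ k) x := by
  have htf' : ∀ (a : ℕ) (x : A), ((p : ℤ) ^ a) • x = 0 → x = 0 := by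
    intro a
    induction a with
    | zero => intro x hx; simpa using hx
    | succ a ih =>
      intro x hx
      rw [pow_succ, mul_smul] at hx
      exact htf _ (ih _ hx)
  obtain ⟨y, hy⟩ := hx
  refine ⟨y, ?_⟩
  rw [← sub_eq_zero]
  apply htf' a
  rw [smul_sub, ← mul_smul, ← pow_add, add_comm a k, hy, sub_self]

variable {Δ : Type*} [Group Δ] [Fintype Δ] (act : Δ → A →+ A)
    (hact : ∀ σ τ a, act (σ * τ) a = act σ (act τ a))
    (χ : Δ →* (ZMod p)ˣ)

include hact in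
/-- If `A` is torsion free and "generated up to finite index" by one element `ε`, then the
`χ`-eigenspace of `A / p` is at most one dimensional. -/
theorem eigen_rank_le_one (hcard : ¬ p ∣ Fintype.card Δ)
    (htf : ∀ x : A, (p : ℤ) • x = 0 → x = 0) (ε : A)
    (hε : ∀ x : A, ∃ m : ℤ, m ≠ 0 ∧ ∃ f : Δ → ℤ, m • x = ∑ σ, f σ • act σ ε)
    (x y : A) (hx : ∀ σ, DvdBy (p : ℤ) (act σ x - (((χ σ : ZMod p).val : ℤ) • x)))
    (hy : ∀ σ, DvdBy (p : ℤ) (act σ y - (((χ σ : ZMod p).val : ℤ) • y)))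
    (hxp : ¬ DvdBy (p : ℤ) x) : ∃ k : ℕ, DvdBy (p : ℤ) (y - (k : ℤ) • x) := by
  classical
  have hprime : Prime (p : ℤ) := Nat.prime_iff_prime_int.mp hp.out
  obtain ⟨m1, hm1, f1, hf1⟩ := hε x
  obtain ⟨m2, hm2, f2, hf2⟩ := hε y
  set m := m1 * m2 with hm
  have hm0 : m ≠ 0 := mul_ne_zero hm1 hm2
  have hfx : m • x = ∑ σ, (m2 * f1 σ) • act σ ε := by
    rw [hm, mul_comm, mul_smul, hf1, Finset.smul_sum]
    exact Finset.sum_congr rfl fun σ _ => (mul_smul _ _ _).symm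
  have hfy : m • y = ∑ σ, (m1 * f2 σ) • act σ ε := by
    rw [hm, mul_smul, hf2, Finset.smul_sum]
    exact Finset.sum_congr rfl fun σ _ => (mul_smul _ _ _).symm
  -- `m = p^a * m0`
  obtain ⟨a, m0, hm0p, hma⟩ : ∃ (a : ℕ) (m0 : ℤ), ¬ (p : ℤ) ∣ m0 ∧ m = (p : ℤ) ^ a * m0 := by
    have hfin : FiniteMultiplicity (p : ℤ) m :=
      FiniteMultiplicity.of_prime_left hprime hm0
    obtain ⟨c, hc, hc2⟩ := hfin.exists_eq_pow_mul_and_not_dvd
    exact ⟨_, c, hc2, hc⟩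
  set N := 2 * a with hN
  -- Teichmüller type lifts
  let t : (ZMod p)ˣ → ℤ := fun u => ((u : ZMod p).val : ℤ) ^ (p ^ N)
  have ht : ∀ u v : (ZMod p)ˣ, (p : ℤ) ^ (N + 1) ∣ t (u * v) - t u * t v := by
    intro u v
    simp only [t]
    rw [← mul_pow]
    have h1 : ((p : ℕ) : ℤ) ∣ (((u * v : (ZMod p)ˣ) : ZMod p).val : ℤ) -
        ((u : ZMod p).val : ℤ) * ((v : ZMod p).val : ℤ) := by
      rw [← ZMod.intCast_zmod_eq_zero_iff_dvd]
      push_cast
      simp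
    exact dvd_sub_pow_of_dvd_sub h1 N
  have ht1 : ∀ u : (ZMod p)ˣ, (p : ℤ) ∣ t u - ((u : ZMod p).val : ℤ) := by
    intro u
    rw [← ZMod.intCast_zmod_eq_zero_iff_dvd]
    simp only [t]
    push_cast
    simp
  -- the projector
  let e : A →+ A := ∑ σ : Δ, (t (χ σ)⁻¹) • act σ
  have he : ∀ z, e z = ∑ σ : Δ, (t (χ σ)⁻¹) • act σ z := by
    intro z
    simp [e]
  have heτ : ∀ τ z, DvdBy ((p : ℤ) ^ (N + 1)) (e (act τ z) - t (χ τ) • e z) := by
    intro τ z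
    have h1 : e (act τ z) = ∑ ρ : Δ, t ((χ ρ)⁻¹ * χ τ) • act ρ z := by
      rw [he, ← Equiv.sum_comp (Equiv.mulRight τ⁻¹)]
      refine Finset.sum_congr rfl fun ρ _ => ?_
      rw [Equiv.coe_mulRight, ← hact, inv_mul_cancel_right, map_mul, map_inv, mul_inv, inv_inv]
    rw [h1, he, Finset.smul_sum, ← Finset.sum_sub_distrib]
    apply DvdBy.sum
    intro ρ _
    rw [← mul_smul, ← sub_smul]
    apply DvdBy.of_dvd
    have := ht (χ ρ)⁻¹ (χ τ)
    rwa [mul_comm (t (χ ρ)⁻¹)] at this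
  have hex : ∀ z : A, (∀ σ, DvdBy (p : ℤ) (act σ z - (((χ σ : ZMod p).val : ℤ) • z))) →
      DvdBy (p : ℤ) (e z - (Fintype.card Δ : ℤ) • z) := by
    intro z hz
    have h1 : e z - (Fintype.card Δ : ℤ) • z = ∑ σ : Δ, ((t (χ σ)⁻¹) • act σ z - z) := by
      rw [he, Finset.sum_sub_distrib, Finset.sum_const, Finset.card_univ, natCast_zsmul]
    rw [h1]
    apply DvdBy.sum
    intro σ _
    have h2 : (t (χ σ)⁻¹) • act σ z - z = (t (χ σ)⁻¹) • (act σ z - (((χ σ : ZMod p).val : ℤ) • z)) +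
        ((t (χ σ)⁻¹) * ((χ σ : ZMod p).val : ℤ) - 1) • z := by
      rw [smul_sub, sub_smul, mul_smul, one_smul]; abel
    rw [h2]
    refine ((hz σ).smul _).add (DvdBy.of_dvd ?_ z)
    have h3 := ht1 (χ σ)⁻¹
    rw [← ZMod.intCast_zmod_eq_zero_iff_dvd] at h3 ⊢
    push_cast at h3 ⊢
    rw [sub_eq_zero] at h3
    rw [h3]
    simp only [ZMod.natCast_val, ZMod.cast_id', id_eq]
    rw [inv_mul_cancel₀ (Units.ne_zero _), sub_self]
  have hD : ¬ (p : ℤ) ∣ (Fintype.card Δ : ℤ) := by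
    intro h; exact hcard (by exact_mod_cast h)
  set F : ℤ := ∑ σ : Δ, (m2 * f1 σ) * t (χ σ) with hF
  set G : ℤ := ∑ σ : Δ, (m1 * f2 σ) * t (χ σ) with hG
  have hgen : ∀ (z : A) (f : Δ → ℤ), m • z = ∑ σ, f σ • act σ ε →
      DvdBy ((p : ℤ) ^ (N + 1)) (m • e z - (∑ σ : Δ, f σ * t (χ σ)) • e ε) := by
    intro z f hf
    rw [← map_zsmul, hf, map_sum, Finset.sum_smul, ← Finset.sum_sub_distrib]
    apply DvdBy.sum
    intro σ _
    rw [map_zsmul, mul_smul, ← smul_sub]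
    exact (heτ σ ε).smul _
  have h1 := hgen x _ hfx
  have h2 := hgen y _ hfy
  rw [← hF] at h1
  rw [← hG] at h2
  have hp1 : (p : ℤ) = (p : ℤ) ^ 1 := (pow_one _).symm
  have hxe : ¬ DvdBy (p : ℤ) (e x) := by
    intro h
    apply hxp
    have h3 := h.sub (hex x hx)
    rw [sub_sub_cancel, hp1] at h3
    have h4 := DvdBy.cancel hD h3
    rwa [← hp1] at h4
  have hFa : ¬ (p : ℤ) ^ (a + 1) ∣ F := by
    intro h
    have h3 : DvdBy ((p : ℤ) ^ (a + 1)) (m • e x) := by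
      have h4 := (h1.mono (pow_dvd_pow (p : ℤ) (show a + 1 ≤ N + 1 by omega))).add
        (DvdBy.of_dvd h (e ε))
      rwa [sub_add_cancel] at h4
    rw [hma, mul_smul, add_comm a 1] at h3
    have h4 := DvdBy.cancel hm0p (DvdBy.cancel_pow htf h3)
    rw [← hp1] at h4
    exact hxe h4
  have hF0 : F ≠ 0 := by
    intro h; exact hFa (by rw [h]; exact dvd_zero _)
  obtain ⟨b, F0, hF0p, hFb⟩ : ∃ (b : ℕ) (F0 : ℤ), ¬ (p : ℤ) ∣ F0 ∧ F = (p : ℤ) ^ b * F0 := by
    have hfin : FiniteMultiplicity (p : ℤ) F := FiniteMultiplicity.of_prime_left hprime hF0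
    obtain ⟨c, hc, hc2⟩ := hfin.exists_eq_pow_mul_and_not_dvd
    exact ⟨_, c, hc2, hc⟩
  have hba : b ≤ a := by
    by_contra hba
    push Not at hba
    apply hFa
    rw [hFb]
    exact Dvd.dvd.mul_right (pow_dvd_pow _ hba) _
  have h3 : DvdBy ((p : ℤ) ^ (a + 1)) (G • e x - F • e y) := by
    have h4 := (h1.smul G).sub (h2.smul F)
    have h5 : G • (m • e x - F • e ε) - F • (m • e y - G • e ε) = m • (G • e x - F • e y) := by
      rw [smul_sub, smul_sub, smul_sub, smul_smul, smul_smul, smul_smul, smul_smul, smul_smul,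
        smul_smul, mul_comm G m, mul_comm F m, mul_comm G F]
      abel
    rw [h5, hma, mul_smul, show N + 1 = (a + 1) + a by omega] at h4
    exact DvdBy.cancel hm0p (DvdBy.cancel_pow htf h4)
  by_cases hGb : (p : ℤ) ^ b ∣ G
  · obtain ⟨G0, hG0⟩ := hGb
    have h4 : G • e x - F • e y = (p : ℤ) ^ b • (G0 • e x - F0 • e y) := by
      rw [hG0, hFb, mul_smul, mul_smul, smul_sub]
    rw [h4, show a + 1 = (a + 1 - b) + b by omega] at h3
    have h5 := (DvdBy.cancel_pow htf h3).mono (pow_dvd_pow (p : ℤ) (show 1 ≤ a + 1 - b by omega))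
    rw [← hp1] at h5
    -- replace `e x`, `e y` by `D x`, `D y`
    set D : ℤ := (Fintype.card Δ : ℤ) with hDdef
    have h6 : DvdBy (p : ℤ) ((F0 * D) • y - (G0 * D) • x) := by
      have h7 := (((hex x hx).smul G0).sub ((hex y hy).smul F0)).sub h5
      have h8 : G0 • (e x - D • x) - F0 • (e y - D • y) - (G0 • e x - F0 • e y) =
          (F0 * D) • y - (G0 * D) • x := by
        rw [smul_sub, smul_sub, mul_smul, mul_smul]; abel
      rwa [h8] at h7
    have hFD : ¬ (p : ℤ) ∣ F0 * D := by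
      intro h
      rcases hprime.dvd_or_dvd h with h | h
      · exact hF0p h
      · exact hD h
    have hcop : IsCoprime (F0 * D) (p : ℤ) :=
      ((Prime.coprime_iff_not_dvd hprime).mpr hFD).symm
    obtain ⟨c, d, hcd⟩ := hcop
    refine ⟨((c * (G0 * D) : ℤ) % p).toNat, ?_⟩
    have hp0 : (p : ℤ) ≠ 0 := by exact_mod_cast hp.out.ne_zero
    rw [Int.toNat_of_nonneg (Int.emod_nonneg _ hp0)]
    have h9 : y - ((c * (G0 * D)) % (p : ℤ)) • x = c • ((F0 * D) • y - (G0 * D) • x) +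
        (d * p) • y + (c * (G0 * D) - (c * (G0 * D)) % (p : ℤ)) • x := by
      have : y = (c * (F0 * D)) • y + (d * p) • y := by
        rw [← add_smul, hcd, one_smul]
      conv_lhs => rw [this]
      rw [smul_sub, sub_smul, smul_smul, smul_smul]
      abel
    rw [h9]
    refine ((h6.smul c).add (DvdBy.of_dvd (dvd_mul_left _ _) y)).add (DvdBy.of_dvd ?_ x)
    exact Int.dvd_self_sub_emod
  · exfalso
    have hG0 : G ≠ 0 := by
      intro h; exact hGb (by rw [h]; exact dvd_zero _)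
    obtain ⟨c, G0, hG0p, hGc⟩ : ∃ (c : ℕ) (G0 : ℤ), ¬ (p : ℤ) ∣ G0 ∧ G = (p : ℤ) ^ c * G0 := by
      have hfin : FiniteMultiplicity (p : ℤ) G := FiniteMultiplicity.of_prime_left hprime hG0
      obtain ⟨c, hc, hc2⟩ := hfin.exists_eq_pow_mul_and_not_dvd
      exact ⟨_, c, hc2, hc⟩
    have hcb : c < b := by
      by_contra h
      push Not at h
      apply hGb
      rw [hGc]
      exact Dvd.dvd.mul_right (pow_dvd_pow _ h) _
    have h4 : G • e x - F • e y = (p : ℤ) ^ c • (G0 • e x - ((p : ℤ) ^ (b - c) * F0) • e y) := by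
      rw [hGc, hFb, mul_smul, smul_sub, smul_smul _ (_ * _), ← mul_assoc, ← pow_add,
        Nat.add_sub_cancel' hcb.le]
    rw [h4, show a + 1 = (a + 1 - c) + c by omega] at h3
    have h5 := (DvdBy.cancel_pow htf h3).mono (pow_dvd_pow (p : ℤ) (show 1 ≤ a + 1 - c by omega))
    rw [← hp1] at h5
    have h6 : DvdBy (p : ℤ) (((p : ℤ) ^ (b - c) * F0) • e y) := by
      apply DvdBy.of_dvd
      apply Dvd.dvd.mul_right
      exact dvd_pow_self _ (by omega)
    have h7 := h5.add h6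
    rw [sub_add_cancel, hp1] at h7
    have h8 := DvdBy.cancel hG0p h7
    rw [← hp1] at h8
    exact hxe h8

end EigenRank

end Fermat.Agent.EXT
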