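import Mathlib

/-!
# Finite level ramification input for the Kummer descent (EXT, piece A2)

`F/K` a Galois extension of number fields, `w | v` primes.

* `valuation_eq_of_inertia`: trivial inertia group at `w` gives `v(x) = w(x)` for `x ∈ K`.
* `exists_sub_mem_pow`: trivial decomposition group: `𝓞 K → 𝓞 F / w ^ n` is surjective.
* `exists_local_pow`: trivial decomposition group, `β ^ p = α ∈ K^*`: `α` is a local `p`-th power
  at `v`.
-/

set_option autoImplicit false

open NumberField IsDedekindDomain Ideal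
open scoped Pointwise

namespace Fermat.Agent.EXT.FiniteLevel

variable {K F : Type*} [Field K] [NumberField K] [Field F] [NumberField F] [Algebra K F]
  [IsGalois K F]

instance perfect_residueField (v : HeightOneSpectrum (𝓞 K)) :
    PerfectField v.asIdeal.ResidueField := by
  have : Finite (𝓞 K ⧸ v.asIdeal) := Ideal.finiteQuotientOfFreeOfNeBot _ v.ne_bot
  infer_instance

variable (v : HeightOneSpectrum (𝓞 K)) (w : HeightOneSpectrum (𝓞 F))
  [w.asIdeal.LiesOver v.asIdeal]

theorem ramificationIdx'_eq_one_of_inertia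
    (h : ∀ σ : F ≃ₐ[K] F, (∀ x : 𝓞 F, σ • x - x ∈ w.asIdeal) → σ = 1) :
    v.asIdeal.ramificationIdx' w.asIdeal = 1 := by
  have h1 := Ideal.card_inertia_eq_ramificationIdxIn (G := F ≃ₐ[K] F) v.asIdeal w.asIdeal
  rw [Ideal.ramificationIdxIn_eq_ramificationIdx v.asIdeal w.asIdeal (F ≃ₐ[K] F),
    ← Ideal.ramificationIdx'_eq_ramificationIdx v.asIdeal w.asIdeal v.ne_bot] at h1
  rw [← h1]
  have h2 : w.asIdeal.inertia (F ≃ₐ[K] F) = ⊥ := by
    rw [eq_bot_iff]
    intro σ hσ
    exact h σ hσ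
  rw [h2]
  simp

theorem valuation_eq_of_inertia
    (h : ∀ σ : F ≃ₐ[K] F, (∀ x : 𝓞 F, σ • x - x ∈ w.asIdeal) → σ = 1) (x : K) :
    w.valuation F (algebraMap K F x) = v.valuation K x := by
  have h1 := HeightOneSpectrum.valuation_liesOver F v w x
  rw [ramificationIdx'_eq_one_of_inertia v w h, pow_one] at h1
  exact h1.symm

theorem card_stabilizer_eq_mul :
    Nat.card (MulAction.stabilizer (F ≃ₐ[K] F) w.asIdeal) =
      v.asIdeal.ramificationIdx' w.asIdeal * v.asIdeal.inertiaDeg' w.asIdeal := by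
  have h1 := Ideal.card_stabilizer_eq (G := F ≃ₐ[K] F) v.asIdeal w.asIdeal
  have hv : v.asIdeal.IsMaximal := v.isMaximal
  have hw : w.asIdeal.IsMaximal := w.isMaximal
  rw [Ideal.ramificationIdxIn_eq_ramificationIdx v.asIdeal w.asIdeal (F ≃ₐ[K] F),
    ← Ideal.ramificationIdx'_eq_ramificationIdx v.asIdeal w.asIdeal v.ne_bot,
    Ideal.inertiaDegIn_eq_inertiaDeg v.asIdeal w.asIdeal (F ≃ₐ[K] F),
    ← Ideal.inertiaDeg'_eq_inertiaDeg v.asIdeal w.asIdeal] at h1
  exact h1

theorem inertiaDeg'_eq_one_of_decomposition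
    (h : ∀ σ : F ≃ₐ[K] F, σ • w.asIdeal = w.asIdeal → σ = 1) :
    v.asIdeal.inertiaDeg' w.asIdeal = 1 := by
  have h1 := card_stabilizer_eq_mul v w
  have h2 : MulAction.stabilizer (F ≃ₐ[K] F) w.asIdeal = ⊥ := by
    rw [eq_bot_iff]
    intro σ hσ
    exact h σ hσ
  rw [h2] at h1
  simp only [Nat.card_unique] at h1
  exact Nat.eq_one_of_mul_eq_one_left h1.symm

omit [NumberField K] [NumberField F] [IsGalois K F] in
/-- Elements of the finite level inertia group are in the decomposition group. -/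
theorem smul_eq_of_inertia {σ : F ≃ₐ[K] F} (hσ : ∀ x : 𝓞 F, σ • x - x ∈ w.asIdeal) :
    σ • w.asIdeal = w.asIdeal :=
  Ideal.inertia_le_stabilizer (M := F ≃ₐ[K] F) w.asIdeal hσ

omit [IsGalois K F] in
/-- If the residue degree is one, every integer of `F` is congruent to an integer of `K`. -/
theorem exists_sub_mem (h : v.asIdeal.inertiaDeg' w.asIdeal = 1) (x : 𝓞 F) :
    ∃ z : 𝓞 K, x - algebraMap (𝓞 K) (𝓞 F) z ∈ w.asIdeal := by
  have hv : v.asIdeal.IsMaximal := v.isMaximal
  have hw : w.asIdeal.IsMaximal := w.isMaximal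
  have h1 := Ideal.absNorm_eq_pow_inertiaDeg'_of_liesOver w.asIdeal v.asIdeal v.isPrime v.ne_bot
  rw [h, pow_one] at h1
  have hfin : Finite (𝓞 K ⧸ v.asIdeal) := Ideal.finiteQuotientOfFreeOfNeBot _ v.ne_bot
  have hfin' : Finite (𝓞 F ⧸ w.asIdeal) := Ideal.finiteQuotientOfFreeOfNeBot _ w.ne_bot
  have hinj : Function.Injective (algebraMap (𝓞 K ⧸ v.asIdeal) (𝓞 F ⧸ w.asIdeal)) := by
    let _ : Field (𝓞 K ⧸ v.asIdeal) := Ideal.Quotient.field _
    exact RingHom.injective _
  have hcard : Nat.card (𝓞 K ⧸ v.asIdeal) = Nat.card (𝓞 F ⧸ w.asIdeal) := by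
    rw [Ideal.absNorm_apply, Ideal.absNorm_apply, Submodule.cardQuot_apply,
      Submodule.cardQuot_apply] at h1
    exact h1.symm
  have hsurj : Function.Surjective (algebraMap (𝓞 K ⧸ v.asIdeal) (𝓞 F ⧸ w.asIdeal)) :=
    (hinj.bijective_of_nat_card_le hcard.ge).2
  obtain ⟨z, hz⟩ := hsurj (Ideal.Quotient.mk _ x)
  obtain ⟨z, rfl⟩ := Ideal.Quotient.mk_surjective z
  refine ⟨z, ?_⟩
  rw [← Ideal.Quotient.eq, ← hz]
  rfl

omit [IsGalois K F] in
theorem mem_pow_iff (he : v.asIdeal.ramificationIdx' w.asIdeal = 1) (z : 𝓞 K) (n : ℕ) :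
    algebraMap (𝓞 K) (𝓞 F) z ∈ w.asIdeal ^ n ↔ z ∈ v.asIdeal ^ n := by
  have h1 := HeightOneSpectrum.intValuation_liesOver v w z
  rw [he, pow_one] at h1
  rw [← w.intValuation_le_pow_iff_mem, ← v.intValuation_le_pow_iff_mem, h1]

omit [IsGalois K F] in
/-- If `e = f = 1`, then `𝓞 K → 𝓞 F / w ^ n` is surjective. -/
theorem exists_sub_mem_pow (he : v.asIdeal.ramificationIdx' w.asIdeal = 1)
    (hf : v.asIdeal.inertiaDeg' w.asIdeal = 1) (n : ℕ) (x : 𝓞 F) :
    ∃ z : 𝓞 K, x - algebraMap (𝓞 K) (𝓞 F) z ∈ w.asIdeal ^ n := by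
  induction n with
  | zero => exact ⟨0, by simp⟩
  | succ n ih =>
    obtain ⟨z, hz⟩ := ih
    obtain ⟨π, hπ, hπ'⟩ := Ideal.exists_mem_pow_notMem_pow_succ v.asIdeal v.ne_bot
      v.isPrime.ne_top n
    rw [← mem_pow_iff v w he] at hπ hπ'
    obtain ⟨d, e, hemem, hde⟩ := Ideal.exists_mul_add_mem_pow_succ w.ne_bot _ _ hπ hπ' hz
    obtain ⟨z', hz'⟩ := exists_sub_mem v w hf d
    refine ⟨z + π * z', ?_⟩
    have h1 : x - algebraMap (𝓞 K) (𝓞 F) (z + π * z') =
        algebraMap (𝓞 K) (𝓞 F) π * (d - algebraMap (𝓞 K) (𝓞 F) z') + e := by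
      rw [map_add, map_mul]
      linear_combination -hde
    rw [h1]
    refine add_mem ?_ hemem
    rw [pow_succ]
    exact Ideal.mul_mem_mul hπ hz'

omit [IsGalois K F] in
/-- If `e = f = 1`, then `K` is dense in `F` for the `w`-adic topology (multiplicative form). -/
theorem exists_valuation_sub_le (he : v.asIdeal.ramificationIdx' w.asIdeal = 1)
    (hf : v.asIdeal.inertiaDeg' w.asIdeal = 1) (n : ℕ) (β : F) :
    ∃ y : K, w.valuation F (β - algebraMap K F y) ≤ w.valuation F β * WithZero.exp (-(n : ℤ)) := by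
  have hval : ∀ x : K, w.valuation F (algebraMap K F x) = v.valuation K x := by
    intro x
    have h1 := HeightOneSpectrum.valuation_liesOver F v w x
    rw [he, pow_one] at h1
    exact h1.symm
  by_cases hβ : β = 0
  · exact ⟨0, by simp [hβ]⟩
  have hwβ : w.valuation F β ≠ 0 := (Valuation.ne_zero_iff _).mpr hβ
  obtain ⟨t, ht⟩ := v.valuation_surjective K (w.valuation F β)⁻¹
  have ht0 : t ≠ 0 := by
    rintro rfl
    rw [map_zero] at ht
    exact inv_ne_zero hwβ ht.symm
  have htF : algebraMap K F t ≠ 0 := by simpa using ht0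
  have h1 : w.valuation F (β * algebraMap K F t) = 1 := by
    rw [map_mul, hval, ht, mul_inv_cancel₀ hwβ]
  obtain ⟨a, ha⟩ := w.exists_valuation_sub_lt_of_integer h1.le
    (Units.mk0 (WithZero.exp (-(n : ℤ))) WithZero.exp_ne_zero)
  rw [Units.val_mk0] at ha
  obtain ⟨z, hz⟩ := exists_sub_mem_pow v w he hf n a
  have h2 : w.valuation F (algebraMap (𝓞 F) F (a - algebraMap (𝓞 K) (𝓞 F) z)) ≤
      WithZero.exp (-(n : ℤ)) := by
    rw [w.valuation_of_algebraMap]
    exact (w.intValuation_le_pow_iff_mem _ n).mpr hz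
  have h3 : w.valuation F (β * algebraMap K F t - algebraMap K F (z : K)) ≤
      WithZero.exp (-(n : ℤ)) := by
    have h4 : β * algebraMap K F t - algebraMap K F (z : K) =
        algebraMap (𝓞 F) F (a - algebraMap (𝓞 K) (𝓞 F) z) -
          (algebraMap (𝓞 F) F a - β * algebraMap K F t) := by
      rw [map_sub, ← IsScalarTower.algebraMap_apply (𝓞 K) (𝓞 F) F,
        IsScalarTower.algebraMap_apply (𝓞 K) K F]
      ring
    rw [h4]
    exact (Valuation.map_sub _ _ _).trans (max_le h2 ha.le)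
  refine ⟨(z : K) / t, ?_⟩
  have h5 : β - algebraMap K F ((z : K) / t) =
      (β * algebraMap K F t - algebraMap K F (z : K)) * (algebraMap K F t)⁻¹ := by
    rw [map_div₀]
    field_simp
  rw [h5, map_mul, map_inv₀, hval, ht, inv_inv, mul_comm]
  exact mul_le_mul_right h3 _

omit [IsGalois K F] in
/-- If `e = f = 1` and `β ^ p = α ∈ K`, then `α` is a local `p`-th power at `v`. -/
theorem exists_local_pow (he : v.asIdeal.ramificationIdx' w.asIdeal = 1)
    (hf : v.asIdeal.inertiaDeg' w.asIdeal = 1) (n p : ℕ) (β : F) (α : K)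
    (h : β ^ p = algebraMap K F α) :
    ∃ y : K, v.valuation K (α - y ^ p) ≤ v.valuation K α * WithZero.exp (-(n : ℤ)) := by
  have hval : ∀ x : K, w.valuation F (algebraMap K F x) = v.valuation K x := by
    intro x
    have h1 := HeightOneSpectrum.valuation_liesOver F v w x
    rw [he, pow_one] at h1
    exact h1.symm
  obtain ⟨y, hy⟩ := exists_valuation_sub_le v w he hf n β
  have hexp : WithZero.exp (-(n : ℤ)) ≤ (1 : WithZero (Multiplicative ℤ)) := by
    rw [← WithZero.exp_zero, WithZero.exp_le_exp]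
    omega
  have hyβ : w.valuation F (algebraMap K F y) ≤ w.valuation F β := by
    have h1 : algebraMap K F y = β - (β - algebraMap K F y) := by ring
    rw [h1]
    refine (Valuation.map_sub _ _ _).trans (max_le le_rfl (hy.trans ?_))
    exact mul_le_of_le_one_right' hexp
  refine ⟨y, ?_⟩
  rcases Nat.eq_zero_or_pos p with rfl | hp
  · have h0 : α = 1 := by
      apply (algebraMap K F).injective
      rw [← h]; simp
    rw [h0]; simp
  rw [← hval, ← hval α, map_sub, map_pow, ← h, ← Commute.geom_sum₂_mul (Commute.all _ _) p, map_mul,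
    map_pow]
  have h2 : w.valuation F (∑ i ∈ Finset.range p, β ^ i * algebraMap K F y ^ (p - 1 - i)) ≤
      w.valuation F β ^ (p - 1) := by
    refine Valuation.map_sum_le _ fun i hi => ?_
    rw [Finset.mem_range] at hi
    rw [map_mul, map_pow, map_pow]
    calc w.valuation F β ^ i * w.valuation F (algebraMap K F y) ^ (p - 1 - i)
        ≤ w.valuation F β ^ i * w.valuation F β ^ (p - 1 - i) :=
          mul_le_mul_right (pow_le_pow_left' hyβ _) _
      _ = w.valuation F β ^ (p - 1) := by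
          rw [← pow_add]; congr 1; omega
  calc _ ≤ w.valuation F β ^ (p - 1) * (w.valuation F β * WithZero.exp (-(n : ℤ))) :=
        mul_le_mul' h2 hy
    _ = w.valuation F β ^ p * WithZero.exp (-(n : ℤ)) := by
        rw [← mul_assoc, ← pow_succ, Nat.sub_add_cancel hp]

end Fermat.Agent.EXT.FiniteLevel
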