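import Mathlib

set_option autoImplicit false

namespace Fermat.Agent.EXT

open IsDedekindDomain nonZeroDivisors WithZero

section Val

variable {R : Type*} [CommRing R] [IsDedekindDomain R] {K : Type*} [Field K] [Algebra R K]
  [IsFractionRing R K]

/-- additive valuation attached to a height one prime (junk value `0` at `0`). -/
noncomputable def vz (v : HeightOneSpectrum R) (x : K) : ℤ := -(log (v.valuation K x))

variable (v : HeightOneSpectrum R)

lemma valuation_eq_exp_vz {x : K} (hx : x ≠ 0) : v.valuation K x = exp (-(vz v x)) := by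
  rw [vz, neg_neg, exp_log]
  exact (Valuation.ne_zero_iff _).mpr hx

lemma vz_eq_of_valuation {x : K} {n : ℤ} (h : v.valuation K x = exp (-n)) : vz v x = n := by
  rw [vz, h, log_exp, neg_neg]

lemma vz_mul {x y : K} (hx : x ≠ 0) (hy : y ≠ 0) : vz v (x * y) = vz v x + vz v y := by
  rw [vz, map_mul, log_mul ((Valuation.ne_zero_iff _).mpr hx) ((Valuation.ne_zero_iff _).mpr hy),
    vz, vz]
  ring

@[simp] lemma vz_one : vz v (1 : K) = 0 := by simp [vz]

lemma vz_inv (x : K) : vz v x⁻¹ = -vz v x := by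
  rw [vz, map_inv₀, log_inv, vz]

lemma vz_div {x y : K} (hx : x ≠ 0) (hy : y ≠ 0) : vz v (x / y) = vz v x - vz v y := by
  rw [div_eq_mul_inv, vz_mul v hx (inv_ne_zero hy), vz_inv]; ring

lemma vz_pow (x : K) (n : ℕ) : vz v (x ^ n) = n * vz v x := by
  rw [vz, map_pow, log_pow, vz]; simp

lemma vz_zpow (x : K) (n : ℤ) : vz v (x ^ n) = n * vz v x := by
  rw [vz, map_zpow₀, log_zpow, vz]; simp

lemma vz_prod {ι : Type*} (s : Finset ι) (f : ι → K) (hf : ∀ i ∈ s, f i ≠ 0) :
    vz v (∏ i ∈ s, f i) = ∑ i ∈ s, vz v (f i) := by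
  classical
  induction s using Finset.induction_on with
  | empty => simp
  | insert i s hi ih =>
    rw [Finset.prod_insert hi, Finset.sum_insert hi, vz_mul, ih]
    · exact fun j hj => hf j (Finset.mem_insert_of_mem hj)
    · exact hf i (Finset.mem_insert_self _ _)
    · exact Finset.prod_ne_zero_iff.mpr fun j hj => hf j (Finset.mem_insert_of_mem hj)

lemma vz_nonneg_iff {x : K} (hx : x ≠ 0) : 0 ≤ vz v x ↔ v.valuation K x ≤ 1 := by
  rw [valuation_eq_exp_vz v hx, ← exp_zero (M := ℤ), exp_le_exp]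
  constructor <;> intro h <;> omega

lemma vz_pos_iff {x : K} (hx : x ≠ 0) : 0 < vz v x ↔ v.valuation K x < 1 := by
  rw [valuation_eq_exp_vz v hx, ← exp_zero (M := ℤ), exp_lt_exp]
  constructor <;> intro h <;> omega

lemma le_vz_iff {x : K} (hx : x ≠ 0) (n : ℤ) : n ≤ vz v x ↔ v.valuation K x ≤ exp (-n) := by
  rw [valuation_eq_exp_vz v hx, exp_le_exp]
  constructor <;> intro h <;> omega

lemma vz_eq_zero_iff {x : K} (hx : x ≠ 0) : vz v x = 0 ↔ v.valuation K x = 1 := by
  rw [valuation_eq_exp_vz v hx, exp_eq_one]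
  constructor <;> intro h <;> omega

lemma vz_algebraMap_nonneg (r : R) : 0 ≤ vz v (algebraMap R K r) := by
  by_cases hr : r = 0
  · simp [hr, vz]
  · rw [vz_nonneg_iff v (by simpa using hr)]
    exact v.valuation_le_one r

lemma vz_algebraMap_pos_iff {r : R} (hr : r ≠ 0) : 0 < vz v (algebraMap R K r) ↔ r ∈ v.asIdeal := by
  rw [vz_pos_iff v (by simpa using hr), v.valuation_lt_one_iff_mem]

lemma vz_algebraMap_eq_zero_iff {r : R} (hr : r ≠ 0) :
    vz v (algebraMap R K r) = 0 ↔ r ∉ v.asIdeal := by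
  have h1 := vz_algebraMap_nonneg v (K := K) r
  have h2 := vz_algebraMap_pos_iff v (K := K) hr
  rw [← h2]; omega

lemma natCast_le_vz_algebraMap_iff {r : R} (hr : r ≠ 0) (n : ℕ) :
    (n : ℤ) ≤ vz v (algebraMap R K r) ↔ r ∈ v.asIdeal ^ n := by
  rw [le_vz_iff v (by simpa using hr), v.valuation_of_algebraMap, v.intValuation_le_pow_iff_mem]

lemma vz_unit (u : Rˣ) : vz v (algebraMap R K (u : R)) = 0 := by
  rw [vz_algebraMap_eq_zero_iff]
  · intro h
    exact v.isPrime.ne_top (Ideal.eq_top_of_isUnit_mem _ h u.isUnit)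
  · intro h
    have := u.isUnit
    rw [h] at this
    exact not_isUnit_zero this

lemma count_spanSingleton_algebraMap {r : R} (hr : r ≠ 0) :
    FractionalIdeal.count K v (FractionalIdeal.spanSingleton R⁰ (algebraMap R K r)) =
      vz v (algebraMap R K r) := by
  rw [← FractionalIdeal.coeIdeal_span_singleton, FractionalIdeal.count_coe K v (by simpa using hr)]
  symm
  apply vz_eq_of_valuation
  rw [v.valuation_of_algebraMap, v.intValuation_if_neg hr]

lemma count_spanSingleton {x : K} (hx : x ≠ 0) :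
    FractionalIdeal.count K v (FractionalIdeal.spanSingleton R⁰ x) = vz v x := by
  obtain ⟨a, b, hb, rfl⟩ := IsFractionRing.div_surjective (A := R) x
  have hb0 : b ≠ 0 := nonZeroDivisors.ne_zero hb
  have hbK : algebraMap R K b ≠ 0 := by simpa using hb0
  have haK : algebraMap R K a ≠ 0 := by
    intro h; rw [h, zero_div] at hx; exact hx rfl
  have ha0 : a ≠ 0 := by rintro rfl; simp at haK
  have h1 : FractionalIdeal.spanSingleton R⁰ (algebraMap R K a) =
      FractionalIdeal.spanSingleton R⁰ (algebraMap R K a / algebraMap R K b) *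
      FractionalIdeal.spanSingleton R⁰ (algebraMap R K b) := by
    rw [FractionalIdeal.spanSingleton_mul_spanSingleton, div_mul_cancel₀ _ hbK]
  have h2 := congrArg (FractionalIdeal.count K v) h1
  rw [FractionalIdeal.count_mul K v (FractionalIdeal.spanSingleton_ne_zero_iff.mpr hx)
      (FractionalIdeal.spanSingleton_ne_zero_iff.mpr hbK),
    count_spanSingleton_algebraMap v ha0, count_spanSingleton_algebraMap v hb0] at h2
  rw [vz_div v haK hbK]
  omega

lemma fractionalIdeal_ext {I J : FractionalIdeal R⁰ K} (hI : I ≠ 0) (hJ : J ≠ 0)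
    (h : ∀ v : HeightOneSpectrum R, FractionalIdeal.count K v I = FractionalIdeal.count K v J) :
    I = J := by
  rw [← FractionalIdeal.finprod_heightOneSpectrum_factorization' K hI,
    ← FractionalIdeal.finprod_heightOneSpectrum_factorization' K hJ]
  exact finprod_congr fun v => by rw [h v]

lemma exists_pow_eq {I : FractionalIdeal R⁰ K} (hI : I ≠ 0) (n : ℕ) (hn : n ≠ 0)
    (h : ∀ v : HeightOneSpectrum R, (n : ℤ) ∣ FractionalIdeal.count K v I) :
    ∃ J : FractionalIdeal R⁰ K, J ≠ 0 ∧ J ^ n = I := by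
  choose e he using h
  have hfin : ∀ᶠ v : HeightOneSpectrum R in Filter.cofinite, e v = 0 := by
    filter_upwards [FractionalIdeal.finite_factors (K := K) I] with v hv
    rw [he v] at hv
    rcases mul_eq_zero.mp hv with h | h
    · exact absurd (by exact_mod_cast h) hn
    · exact h
  let J : FractionalIdeal R⁰ K := ∏ᶠ v : HeightOneSpectrum R,
      (v.asIdeal : FractionalIdeal R⁰ K) ^ e v
  have hJc : ∀ v : HeightOneSpectrum R, FractionalIdeal.count K v J = e v :=
    fun v => FractionalIdeal.count_finprod K v e hfin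
  have hJ0 : J ≠ 0 := by
    apply finprod_induction (p := fun x : FractionalIdeal R⁰ K => x ≠ 0)
    · exact one_ne_zero
    · exact fun _ _ hx hy => mul_ne_zero hx hy
    · intro v
      exact zpow_ne_zero _ (FractionalIdeal.coeIdeal_ne_zero.mpr v.ne_bot)
  refine ⟨J, hJ0, ?_⟩
  apply fractionalIdeal_ext (pow_ne_zero _ hJ0) hI
  intro v
  rw [FractionalIdeal.count_pow, hJc, he v]

end Val

end Fermat.Agent.EXT
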