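import Mathlib
import Fermat.Agent.EXT.Val

set_option autoImplicit false

namespace Fermat.Agent.EXT

open NumberField IsDedekindDomain

/-- The number-field statement behind `S14`: an element of `ℚ(ζ_p)` of type `ω²` modulo `p`-th
powers, whose valuations are all divisible by `p` and which is a `p`-th power modulo `(ζ-1)^3`
locally at `p`, is a `p`-th power. -/
def KummerTriviality (p : ℕ) [Fact p.Prime] : Prop :=
  ∀ (K : Type) [Field K] [NumberField K] [IsCyclotomicExtension {p} ℚ K] (ζ : K),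
    IsPrimitiveRoot ζ p → ∀ α : K, α ≠ 0 →
    (∀ (σ : K ≃ₐ[ℚ] K) (n : ℕ), σ ζ = ζ ^ n → ∃ y : K, σ α = α ^ (n ^ 2) * y ^ p) →
    (∀ v : HeightOneSpectrum (𝓞 K), (p : ℤ) ∣ vz v α) →
    (∀ v : HeightOneSpectrum (𝓞 K), (p : 𝓞 K) ∈ v.asIdeal →
      ∃ y : K, v.valuation K (α - y ^ p) ≤ v.valuation K α * WithZero.exp (-3)) →
    ∃ y : K, y ^ p = α

end Fermat.Agent.EXT
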