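import Mathlib
import Fermat.Prelude.Def_ExtCitation_AdmissibleExtension_v2
import Fermat.Agent.QbarInst
import Fermat.Agent.Lib.Cyclotomic
import Fermat.Agent.EXT.KummerTriv
import Fermat.Agent.EXT.KummerElt

/-!
# Kummer descent: `KummerTriviality p` implies `ExtVanishingCts p`
-/

set_option autoImplicit false

open IntermediateField NumberField IsDedekindDomain

noncomputable section

namespace Fermat.Agent.EXT.KummerDescent

open KummerElt ExtCitation

local notation "Qbar" => AlgebraicClosure ℚ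
local notation "Γℚ" => (AlgebraicClosure ℚ ≃ₐ[ℚ] AlgebraicClosure ℚ)

variable {p : ℕ} [Fact p.Prime]

section LinearAlgebra

variable {V : Type} [AddCommGroup V] [Module (ZMod p) V]

lemma exists_gen_sub {C : Submodule (ZMod p) V} (hC : Nat.card C = p) :
    ∃ c0 ∈ C, c0 ≠ 0 ∧ ∀ c ∈ C, ∃ t : ZMod p, c = t • c0 := by
  have : Finite C := Nat.finite_of_card_ne_zero (by rw [hC]; exact (Fact.out : p.Prime).ne_zero)
  have hfin : Module.Finite (ZMod p) C := inferInstance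
  have h1 : Module.finrank (ZMod p) C = 1 := by
    have h2 := Module.natCard_eq_pow_finrank (K := ZMod p) (V := C)
    rw [hC, Nat.card_zmod] at h2
    exact (Nat.pow_right_injective (Fact.out : p.Prime).two_le (by simpa using h2)).symm
  obtain ⟨v, hv0, hv⟩ := finrank_eq_one_iff'.mp h1
  refine ⟨v, v.2, fun h => hv0 (Subtype.ext h), fun c hc => ?_⟩
  obtain ⟨t, ht⟩ := hv ⟨c, hc⟩
  exact ⟨t, by rw [← SetLike.val_smul, ht]⟩

lemma exists_notMem {C : Submodule (ZMod p) V} (hC : Nat.card C = p) (hV : Nat.card V = p ^ 2) :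
    ∃ v0 : V, v0 ∉ C := by
  by_contra! h
  have h1 : C = ⊤ := eq_top_iff.mpr fun x _ => h x
  rw [h1] at hC
  have h2 : Nat.card (⊤ : Submodule (ZMod p) V) = Nat.card V :=
    Nat.card_congr (Equiv.Set.univ V)
  rw [h2, hV] at hC
  have h3 := (Fact.out : p.Prime).one_lt
  nlinarith

lemma span_all {C : Submodule (ZMod p) V} (hC : Nat.card C = p) (hV : Nat.card V = p ^ 2)
    {v0 : V} (hv0 : v0 ∉ C) (v : V) : ∃ (t : ZMod p), v - t • v0 ∈ C := by
  have hp := (Fact.out : p.Prime)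
  have hVfin : Finite V := Nat.finite_of_card_ne_zero (by rw [hV]; exact pow_ne_zero _ hp.ne_zero)
  -- `C × ZMod p → V` is injective, hence bijective
  let φ : C × ZMod p → V := fun q => (q.1 : V) + q.2 • v0
  have hinj : Function.Injective φ := by
    rintro ⟨c, t⟩ ⟨c', t'⟩ h
    have h1 : (c : V) + t • v0 = (c' : V) + t' • v0 := h
    have h2 : (t - t') • v0 ∈ C := by
      have : (t - t') • v0 = (c' : V) - c := by
        rw [sub_smul]
        have := h1
        rw [← sub_eq_zero] at this ⊢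
        rw [← this]; abel
      rw [this]
      exact C.sub_mem c'.2 c.2
    have h3 : t = t' := by
      by_contra hne
      apply hv0
      have h4 : t - t' ≠ 0 := sub_ne_zero.mpr hne
      have := C.smul_mem (t - t')⁻¹ h2
      rwa [smul_smul, inv_mul_cancel₀ h4, one_smul] at this
    subst h3
    have h4 : (c : V) = c' := by simpa using h1
    rw [Subtype.ext h4]
  have hcard : Nat.card V ≤ Nat.card (C × ZMod p) := by
    rw [Nat.card_prod, hC, hV, Nat.card_zmod, sq]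
  obtain ⟨⟨c, t⟩, hct⟩ := (hinj.bijective_of_nat_card_le hcard).2 v
  refine ⟨t, ?_⟩
  have : v - t • v0 = c := by
    rw [← hct]
    simp [φ]
  rw [this]
  exact c.2

end LinearAlgebra

section Rep

variable {V : Type} [AddCommGroup V] [Module (ZMod p) V] [DistribMulAction Γℚ V]
  [SMulCommClass Γℚ (ZMod p) V]

/-- The data extracted from an admissible extension. -/
structure Data (C : Submodule (ZMod p) V) where
  /-- generator of `C` -/
  c0 : V
  /-- vector outside of `C` -/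
  v0 : V
  hc0 : c0 ∈ C
  hc0' : c0 ≠ 0
  hgen : ∀ c ∈ C, ∃ t : ZMod p, c = t • c0
  hv0 : v0 ∉ C
  hall : ∀ v : V, ∃ t : ZMod p, v - t • v0 ∈ C
  /-- the cocycle -/
  f : Γℚ → ZMod p
  hf : ∀ σ : Γℚ, σ • v0 = chi p σ • v0 + f σ • c0
  hfix : ∀ σ : Γℚ, σ • c0 = c0

omit [SMulCommClass Γℚ (ZMod p) V] in
lemma exists_data {C : Submodule (ZMod p) V} (h : IsAdmissibleExtension p V C) :
    Nonempty (Data (p := p) C) := by
  obtain ⟨c0, hc0, hc0', hgen⟩ := exists_gen_sub h.card_sub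
  obtain ⟨v0, hv0⟩ := exists_notMem h.card_sub h.card_total
  have h1 : ∀ σ : Γℚ, ∃ t : ZMod p, σ • v0 = chi p σ • v0 + t • c0 := by
    intro σ
    obtain ⟨t, ht⟩ := hgen _ (h.cyclo_quot σ v0)
    refine ⟨t, ?_⟩
    rw [← cycloExp_eq, ← ht]
    abel
  choose f hf using h1
  exact ⟨⟨c0, v0, hc0, hc0', hgen, hv0, span_all h.card_sub h.card_total hv0, f, hf,
    fun σ => h.fixed_sub σ c0 hc0⟩⟩

variable {C : Submodule (ZMod p) V} (D : Data (p := p) C)
include D

omit [SMulCommClass Γℚ (ZMod p) V] in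
lemma Data.coeff {x y : ZMod p} (h : x • D.c0 = y • D.c0) : x = y := by
  by_contra hne
  have h1 : (x - y) • D.c0 = 0 := by rw [sub_smul, h, sub_self]
  rcases smul_eq_zero.mp h1 with h2 | h2
  · exact hne (sub_eq_zero.mp h2)
  · exact D.hc0' h2

omit [SMulCommClass Γℚ (ZMod p) V] in
lemma Data.coeff_v {x : ZMod p} (h : x • D.v0 ∈ C) : x = 0 := by
  by_contra hne
  apply D.hv0
  have := C.smul_mem x⁻¹ h
  rwa [smul_smul, inv_mul_cancel₀ hne, one_smul] at this

lemma Data.isTwCocycle : IsTwCocycle D.f := by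
  intro σ τ
  have h1 := D.hf (σ * τ)
  rw [mul_smul, D.hf τ, smul_add, smul_comm σ (chi p τ), smul_comm σ (D.f τ), D.hf σ, D.hfix σ,
    chi_mul, smul_add, smul_smul, smul_smul, mul_comm (chi p τ) (chi p σ), add_assoc,
    add_right_inj, ← add_smul] at h1
  exact (D.coeff h1).symm

omit [SMulCommClass Γℚ (ZMod p) V] in
lemma Data.f_eq_zero {σ : Γℚ} (h : ∀ v : V, σ • v = v) : D.f σ = 0 := by
  have h1 := D.hf σ
  rw [h] at h1
  have h2 : (1 - chi p σ) • D.v0 = D.f σ • D.c0 := by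
    rw [sub_smul, one_smul]
    nth_rewrite 1 [h1]
    abel
  have h3 : (1 - chi p σ) = 0 := D.coeff_v (by rw [h2]; exact C.smul_mem _ D.hc0)
  rw [h3, zero_smul] at h2
  exact D.coeff (by rw [← h2, zero_smul])

/-- At a decomposition group where the extension splits, `f` vanishes on `ker χ`. -/
lemma Data.f_eq_zero_of_split {S : Set Γℚ} {C' : Submodule (ZMod p) V}
    (hC' : ∀ σ ∈ S, ∀ x ∈ C', σ • x ∈ C') (hcompl : IsCompl C C') {σ : Γℚ} (hσ : σ ∈ S)
    (hχ : chi p σ = 1) : D.f σ = 0 := by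
  obtain ⟨c, hc, v1, hv1, hsum⟩ := Submodule.mem_sup.mp
    (show D.v0 ∈ C ⊔ C' by rw [hcompl.sup_eq_top]; trivial)
  obtain ⟨t, rfl⟩ := D.hgen c hc
  have h1 : D.f σ • D.c0 = σ • v1 - v1 := by
    have h2 : v1 = D.v0 - t • D.c0 := by rw [← hsum]; abel
    rw [h2, smul_sub, D.hf σ, hχ, one_smul, smul_comm σ t, D.hfix σ]
    abel
  have h3 : D.f σ • D.c0 ∈ C' := by rw [h1]; exact C'.sub_mem (hC' σ hσ _ hv1) hv1
  have h4 : D.f σ • D.c0 ∈ C := C.smul_mem _ D.hc0
  have h5 := (Submodule.disjoint_def.mp hcompl.disjoint) _ h4 h3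
  exact D.coeff (by rw [h5, zero_smul])

/-- If `f` vanishes on `ker χ` then `V` splits. -/
lemma Data.splits (h3 : 3 ≤ p) {ζ : Qbar} (hζ : IsPrimitiveRoot ζ p)
    (h0 : ∀ τ : Γℚ, chi p τ = 1 → D.f τ = 0) : SplitsGlobally C := by
  -- an element `σ0` with `χ(σ0) ≠ 1`
  obtain ⟨σ0, hσ0⟩ : ∃ σ0 : Γℚ, chi p σ0 ≠ 1 := by
    by_contra! hall
    have h1 : ζ ∈ (⊥ : IntermediateField ℚ Qbar) := by
      rw [← InfiniteGalois.fixedField_bot (k := ℚ) (K := Qbar)]
      rintro ⟨g, -⟩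
      exact fix_of_chi hζ.pow_eq_one (hall g)
    rw [IntermediateField.mem_bot] at h1
    obtain ⟨q, rfl⟩ := h1
    have hq : q ^ p = 1 := by
      have := hζ.pow_eq_one
      rw [← map_pow] at this
      exact (algebraMap ℚ Qbar).injective (by rw [this, map_one])
    have hpodd : Odd p := (Fact.out : p.Prime).odd_of_ne_two (by omega)
    have hq1 : q = 1 := by
      have h2 : |q| = 1 := by
        have h3 : |q| ^ p = 1 := by rw [← abs_pow, hq, abs_one]
        exact (pow_eq_one_iff_of_nonneg (abs_nonneg q) (Fact.out : p.Prime).ne_zero).mp h3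
      rcases abs_eq (zero_le_one' ℚ) |>.mp h2 with h | h
      · exact h
      · rw [h, hpodd.neg_one_pow] at hq
        norm_num at hq
    rw [hq1, map_one] at hζ
    have := hζ.unique IsPrimitiveRoot.one
    omega
  have hcoc := D.isTwCocycle
  have hne : chi p σ0 - 1 ≠ 0 := sub_ne_zero.mpr hσ0
  set t : ZMod p := D.f σ0 / (chi p σ0 - 1) with ht
  have hkey : ∀ σ : Γℚ, D.f σ + t - chi p σ * t = 0 := by
    intro σ
    have h1 : chi p ((σ * σ0)⁻¹ * (σ0 * σ)) = 1 := by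
      have h2 : Fermat.Agent.Cyclotomic.cyc p ((σ * σ0)⁻¹ * (σ0 * σ)) = 1 := by
        rw [map_mul, map_inv, map_mul, map_mul, mul_comm (Fermat.Agent.Cyclotomic.cyc p σ0),
          inv_mul_cancel]
      rw [chi, h2, Units.val_one]
    have h2 := hcoc (σ * σ0) ((σ * σ0)⁻¹ * (σ0 * σ))
    rw [mul_inv_cancel_left, h1, h0 _ h1, one_mul, add_zero, hcoc, hcoc] at h2
    rw [ht]
    field_simp
    linear_combination -h2
  set v1 : V := D.v0 + t • D.c0 with hv1
  have hσv1 : ∀ σ : Γℚ, σ • v1 = chi p σ • v1 := by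
    intro σ
    rw [hv1, smul_add, D.hf, smul_comm σ t, D.hfix, smul_add, smul_smul, add_assoc, ← add_smul]
    congr 2
    linear_combination hkey σ
  refine ⟨Submodule.span (ZMod p) {v1}, fun σ x hx => ?_, ?_⟩
  · obtain ⟨s, rfl⟩ := Submodule.mem_span_singleton.mp hx
    rw [smul_comm, hσv1, smul_smul]
    exact Submodule.smul_mem _ _ (Submodule.mem_span_singleton_self _)
  · constructor
    · rw [Submodule.disjoint_def]
      intro x hx hx'
      obtain ⟨s, rfl⟩ := Submodule.mem_span_singleton.mp hx'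
      have h1 : s • D.v0 ∈ C := by
        have : s • D.v0 = s • v1 - (s * t) • D.c0 := by
          rw [hv1, smul_add, smul_smul]; abel
        rw [this]
        exact C.sub_mem hx (C.smul_mem _ D.hc0)
      rw [D.coeff_v h1, zero_smul]
    · rw [codisjoint_iff, eq_top_iff]
      intro v _
      obtain ⟨s, hs⟩ := D.hall v
      rw [Submodule.mem_sup]
      refine ⟨v - s • v1, ?_, s • v1, Submodule.smul_mem _ _ (Submodule.mem_span_singleton_self _),
        by abel⟩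
      have : v - s • v1 = (v - s • D.v0) - (s * t) • D.c0 := by
        rw [hv1, smul_add, smul_smul]; abel
      rw [this]
      exact C.sub_mem hs (C.smul_mem _ D.hc0)

end Rep

/-- The local inputs at the primes of `ℚ(ζ)`: proved in `EXT/RamLocal.lean`. -/
def RamInput (p : ℕ) [Fact p.Prime] : Prop :=
  ∀ (K : IntermediateField ℚ Qbar) [NumberField K] (ζ : K), IsPrimitiveRoot ζ p →
    ∀ (a : Qbar) (α : K), α ≠ 0 → a ^ p = (α : Qbar) → ∀ v : HeightOneSpectrum (𝓞 K),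
    ((p : 𝓞 K) ∉ v.asIdeal →
      (∀ ℓ : ℕ, ℓ.Prime → ℓ ≠ p → ∀ A : ValuationSubring Qbar, A.LiesOverPrime ℓ →
        ∀ σ ∈ A.inertiaSubgroupIn ℚ, (∀ x : K, σ x = x) → σ a = a) → (p : ℤ) ∣ vz v α) ∧
    ((p : 𝓞 K) ∈ v.asIdeal →
      (∀ A : ValuationSubring Qbar, A.LiesOverPrime p →
        ∀ σ ∈ A.decompositionSubgroup ℚ, (∀ x : K, σ x = x) → σ a = a) →
      (p : ℤ) ∣ vz v α ∧
      ∃ y : K, v.valuation K (α - y ^ p) ≤ v.valuation K α * WithZero.exp (-3))

lemma chi_of_pow {ζ : Qbar} (hζ : IsPrimitiveRoot ζ p) {σ : Γℚ} {n : ℕ} (h : σ ζ = ζ ^ n) :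
    (n : ZMod p) = chi p σ := by
  symm
  refine Fermat.Agent.Cyclotomic.cyc_unique_nat p σ fun z hz => ?_
  obtain ⟨i, -, rfl⟩ := hζ.eq_pow_of_pow_eq_one hz
  rw [map_pow, h, ← pow_mul, ← pow_mul, mul_comm]

/-- the heart: the Kummer element lies in `ℚ(ζ)`. -/
theorem kummer_trivial (hR : RamInput p) (hKT : KummerTriviality p)
    {f : Γℚ → ZMod p} (hf : IsTwCocycle f)
    (E : IntermediateField ℚ Qbar) [FiniteDimensional ℚ E]
    (hE : ∀ σ : Γℚ, (∀ x ∈ E, σ x = x) → f σ = 0) {ζ : Qbar} (hζ : IsPrimitiveRoot ζ p)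
    (hin : ∀ ℓ : ℕ, ℓ.Prime → ℓ ≠ p → ∀ A : ValuationSubring Qbar, A.LiesOverPrime ℓ →
      ∀ σ ∈ A.inertiaSubgroupIn ℚ, f σ = 0)
    (hdec : ∀ A : ValuationSubring Qbar, A.LiesOverPrime p →
      ∀ σ ∈ A.decompositionSubgroup ℚ, chi p σ = 1 → f σ = 0)
    {τ : Γℚ} (hτ : chi p τ = 1) : f τ = 0 := by
  have hp := (Fact.out : p.Prime)
  obtain ⟨a, ha0, ha⟩ := exists_kummer_elt hf E hE hζ
  have hζp : ζ ^ p = 1 := hζ.pow_eq_one
  have hζint : IsIntegral ℚ ζ := Algebra.IsIntegral.isIntegral ζ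
  let K : IntermediateField ℚ Qbar := ℚ⟮ζ⟯
  have hfinK : FiniteDimensional ℚ K := adjoin.finiteDimensional hζint
  have hζK : ζ ∈ K := mem_adjoin_simple_self ℚ ζ
  -- membership in `K`
  have hfixK : ∀ σ : Γℚ, σ ζ = ζ → ∀ x ∈ K, σ x = x := by
    intro σ hσ x hx
    have h1 : K ≤ IntermediateField.fixedField (Subgroup.zpowers σ) := by
      rw [adjoin_simple_le_iff]
      rintro ⟨g, hg⟩
      obtain ⟨n, rfl⟩ := Subgroup.mem_zpowers_iff.mp hg
      have h2 : σ ∈ MulAction.stabilizer Γℚ ζ := hσ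
      exact (MulAction.stabilizer Γℚ ζ).zpow_mem h2 n
    exact h1 hx ⟨σ, Subgroup.mem_zpowers σ⟩
  have hmemK : ∀ x : Qbar, (∀ σ : Γℚ, σ ζ = ζ → σ x = x) → x ∈ K := by
    intro x hx
    rw [← InfiniteGalois.fixedField_fixingSubgroup K]
    rintro ⟨g, hg⟩
    exact hx g ((mem_fixingSubgroup_iff K g).mp hg ζ hζK)
  -- instances
  have halg : (DivisionRing.toRatAlgebra : Algebra ℚ K) = K.algebra' := Subsingleton.elim _ _
  have hNF : NumberField K :=
    { to_charZero := inferInstance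
      to_finiteDimensional := by rw [halg]; exact hfinK }
  have hcyc : @IsCyclotomicExtension {p} ℚ K _ _ DivisionRing.toRatAlgebra := by
    rw [halg]
    exact hζ.intermediateField_adjoin_isCyclotomicExtension ℚ
  let ζK : K := ⟨ζ, hζK⟩
  have hζKprim : IsPrimitiveRoot ζK p :=
    IsPrimitiveRoot.of_map_of_injective (f := algebraMap K Qbar) hζ (algebraMap K Qbar).injective
  -- the element `α`
  have hαmem : a ^ p ∈ K := hmemK _ fun σ hσ => by
    rw [map_pow, ha σ hσ, mul_pow, ← pow_mul, mul_comm (f σ).val, pow_mul, hζp, one_pow, one_mul]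
  let α : K := ⟨a ^ p, hαmem⟩
  have hα0 : α ≠ 0 := fun h => pow_ne_zero p ha0 (congrArg Subtype.val h)
  -- elements fixing `K` pointwise and killed by `f` fix `a`
  have hfixa : ∀ σ : Γℚ, (∀ x : K, σ x = x) → f σ = 0 → σ a = a := by
    intro σ hσ hfσ
    rw [ha σ (hσ ζK), hfσ, ZMod.val_zero, pow_zero, one_mul]
  have hram := hR K ζK hζKprim a α hα0 rfl
  have hram1 : ∀ v : HeightOneSpectrum (𝓞 K), (p : 𝓞 K) ∉ v.asIdeal → (p : ℤ) ∣ vz v α :=
    fun v hv => (hram v).1 hv fun ℓ hℓ hℓp A hA σ hσ hσK => hfixa σ hσK (hin ℓ hℓ hℓp A hA σ hσ)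
  have hram2 : ∀ v : HeightOneSpectrum (𝓞 K), (p : 𝓞 K) ∈ v.asIdeal → (p : ℤ) ∣ vz v α ∧
      ∃ y : K, v.valuation K (α - y ^ p) ≤ v.valuation K α * WithZero.exp (-3) :=
    fun v hv => (hram v).2 hv fun A hA σ hσ hσK =>
      hfixa σ hσK (hdec A hA σ hσ (chi_eq_one hζ (hσK ζK)))
  -- the type of `α`
  have htype : ∀ (s : Γℚ) (n : ℕ), s ζ = ζ ^ n → ∃ y : Qbar, y ∈ K ∧ s a = a ^ (n ^ 2) * y := by
    intro s n hs
    refine ⟨s a / a ^ (n ^ 2), hmemK _ fun τ hτ => ?_, ?_⟩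
    · have hτ1 : chi p τ = 1 := chi_eq_one hζ hτ
      have hn : (n : ZMod p) = chi p s := chi_of_pow hζ hs
      have h1 : τ (s a) = (ζ ^ (f τ).val) ^ (n ^ 2) * s a := by
        have h2 : τ (s a) = s ((s⁻¹ * τ * s) a) := by
          rw [AlgEquiv.mul_apply, AlgEquiv.mul_apply]
          exact (s.apply_symm_apply (τ (s a))).symm
        have h3 : (s⁻¹ * τ * s) ζ = ζ := by
          rw [AlgEquiv.mul_apply, AlgEquiv.mul_apply, hs, map_pow, hτ, ← hs]
          exact s.symm_apply_apply ζ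
        have h4 : ζ ^ (f (s⁻¹ * τ * s)).val = ζ ^ (n * (f τ).val) := by
          rw [hf.conj s τ hτ1, ← hn]
          have h5 : (n : ZMod p) * f τ = ((n * (f τ).val : ℕ) : ZMod p) := by
            rw [Nat.cast_mul, ZMod.natCast_zmod_val]
          rw [h5, pow_val_natCast hζp]
        rw [h2, ha _ h3, h4, map_mul, map_pow, hs]
        congr 1
        ring
      rw [map_div₀, map_pow, h1, ha τ hτ, mul_pow]
      have h6 : (ζ ^ (f τ).val) ^ (n ^ 2) ≠ 0 :=
        pow_ne_zero _ (pow_ne_zero _ (hζ.ne_zero hp.ne_zero))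
      have h7 : a ^ (n ^ 2) ≠ 0 := pow_ne_zero _ ha0
      field_simp
    · rw [mul_div_cancel₀ _ (pow_ne_zero _ ha0)]
  obtain ⟨y, hy⟩ := hKT K ζK hζKprim α hα0 (by
    intro σ n hσ
    -- lift `σ` to `Γℚ`
    let σ' : K ≃ₐ[ℚ] K := AlgEquiv.ofRingEquiv (f := σ.toRingEquiv) (fun q => by
      rw [eq_ratCast]
      exact map_ratCast _ q)
    let s : Γℚ := σ'.liftNormal Qbar
    have hs : ∀ x : K, s (x : Qbar) = ((σ x : K) : Qbar) := fun x => σ'.liftNormal_commutes Qbar x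
    have h1 : s ζ = ζ ^ n := by
      have := hs ζK
      rw [hσ] at this
      exact this
    obtain ⟨y, hyK, hy⟩ := htype s n h1
    refine ⟨⟨y, hyK⟩, Subtype.ext ?_⟩
    have h2 : ((σ α : K) : Qbar) = s (a ^ p) := (hs α).symm
    rw [h2, map_pow, hy, mul_pow]
    show (a ^ n ^ 2) ^ p * y ^ p = (a ^ p) ^ n ^ 2 * y ^ p
    rw [← pow_mul, ← pow_mul, mul_comm p]) (fun v => by
    by_cases hv : (p : 𝓞 K) ∈ v.asIdeal
    · exact (hram2 v hv).1
    · exact hram1 v hv) (fun v hv => (hram2 v hv).2)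
  -- hence `a ∈ K`
  have hy' : (y : Qbar) ^ p = a ^ p := congrArg Subtype.val hy
  have hy0 : (y : Qbar) ≠ 0 := by
    intro h
    rw [h, zero_pow hp.ne_zero] at hy'
    exact pow_ne_zero p ha0 hy'.symm
  have h1 : (a / y) ^ p = 1 := by
    rw [div_pow, hy', div_self (pow_ne_zero p ha0)]
  obtain ⟨i, -, hi⟩ := hζ.eq_pow_of_pow_eq_one h1
  have haK : a = ζ ^ i * y := by
    rw [hi, div_mul_cancel₀ _ hy0]
  have hτζ : τ ζ = ζ := fix_of_chi hζp hτ
  have h2 : τ a = a := by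
    rw [haK, map_mul, map_pow, hτζ, hfixK τ hτζ y y.2]
  rw [ha τ hτζ] at h2
  have h3 : ζ ^ (f τ).val = 1 := by
    exact mul_right_cancel₀ ha0 (by rw [h2, one_mul])
  have h4 : p ∣ (f τ).val := (hζ.pow_eq_one_iff_dvd _).mp h3
  have h5 : (f τ).val < p := ZMod.val_lt _
  have h6 : (f τ).val = 0 := Nat.eq_zero_of_dvd_of_lt h4 h5
  exact (ZMod.val_eq_zero _).mp h6

/-- **Kummer descent.** -/
theorem extVanishingCts_of_input (h3 : 3 ≤ p) (hR : RamInput p) (hKT : KummerTriviality p) :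
    ExtCitation.ExtVanishingCts p := by
  intro V _ _ _ _ C hadm
  obtain ⟨D⟩ := exists_data hadm.toIsAdmissibleExtension
  obtain ⟨ζ, hζ⟩ := Fermat.Agent.Cyclotomic.exists_primitiveRoot p
  have hU := hadm.open_kernel.mem_nhds (x := (1 : Γℚ)) (fun v => one_smul _ v)
  obtain ⟨E, hEfin, hEU⟩ := (krullTopology_mem_nhds_one_iff ℚ Qbar _).mp hU
  refine D.splits h3 hζ fun τ hτ => ?_
  refine kummer_trivial hR hKT D.isTwCocycle E (fun σ hσ => ?_) hζ ?_ ?_ hτ
  · exact D.f_eq_zero (hEU ((mem_fixingSubgroup_iff E σ).mpr hσ))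
  · intro ℓ hℓ hℓp A hA σ hσ
    exact D.f_eq_zero (hadm.unramified_outside ℓ hℓ hℓp A hA σ hσ)
  · intro A hA σ hσ hχ
    obtain ⟨C', hC', hcompl⟩ := hadm.locally_split A hA
    exact D.f_eq_zero_of_split (S := (A.decompositionSubgroup ℚ : Set Γℚ)) hC' hcompl hσ hχ

end Fermat.Agent.EXT.KummerDescent

end
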