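import Mathlib
import Fermat.Agent.EXT.FiniteLevel
import Fermat.Agent.EXT.Val
import Fermat.Agent.FlatOrd.InertiaLift
import Fermat.Agent.FrobPlaceLift

/-!
# Ramification input of the Kummer descent (EXT, piece A2)

`K ⊂ ℚ̄` a number field containing `μ_p`, `a ∈ ℚ̄`, `a ^ p = α ∈ K^*`.

* `dvd_vz_of_inertia`: if the inertia groups above `ℓ ≠ p` fix `a`, then `p ∣ v(α)` for `v ∤ p`.
* `local_pow_of_decomposition`: if the decomposition groups above `p` fix `a`, then `α` is a local
  `p`-th power at `v ∣ p`.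
-/

set_option autoImplicit false

open NumberField IsDedekindDomain Ideal Polynomial
open scoped Pointwise
open Fermat.Agent.FrobExists

namespace Fermat.Agent.EXT.RamLocal

/-- Places of `ℚ̄` above a prime of a number field. -/
theorem exists_place {F : Type*} [Field F] [NumberField F] [Algebra F (AlgebraicClosure ℚ)]
    (w : HeightOneSpectrum (𝓞 F)) :
    ∃ A : ValuationSubring (AlgebraicClosure ℚ), ∀ x : 𝓞 F,
      algebraMap F (AlgebraicClosure ℚ) (x : F) ∈ A.nonunits ↔ x ∈ w.asIdeal := by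
  let f : 𝓞 F →+* AlgebraicClosure ℚ := (algebraMap F (AlgebraicClosure ℚ)).comp
    (algebraMap (𝓞 F) F)
  have hf : Function.Injective f :=
    (algebraMap F (AlgebraicClosure ℚ)).injective.comp (FaithfulSMul.algebraMap_injective (𝓞 F) F)
  let e : 𝓞 F ≃+* f.range := RingEquiv.ofBijective f.rangeRestrict
    ⟨fun x y h => hf (congrArg Subtype.val h), f.rangeRestrict_surjective⟩
  have hI : (w.asIdeal.comap (e.symm : f.range →+* 𝓞 F)) ≠ ⊤ := by
    rw [Ne, Ideal.comap_eq_top_iff]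
    exact w.isPrime.ne_top
  obtain ⟨A, hA1, hA2⟩ := Ideal.image_subset_nonunits_valuationSubring _ hI
  refine ⟨A, ?_⟩
  have hw : ∀ x ∈ w.asIdeal, f x ∈ A.nonunits := by
    intro x hx
    apply hA2
    refine ⟨e x, ?_, rfl⟩
    show e.symm (e x) ∈ w.asIdeal
    rwa [RingEquiv.symm_apply_apply]
  let g : 𝓞 F →+* A := f.codRestrict A.toSubring (fun x => hA1 ⟨x, rfl⟩)
  let J : Ideal (𝓞 F) := (IsLocalRing.maximalIdeal A).comap g
  have hJ : ∀ x, x ∈ J ↔ f x ∈ A.nonunits := by
    intro x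
    rw [Ideal.mem_comap, ← ValuationSubring.coe_mem_nonunits_iff]
    rfl
  have hwJ : w.asIdeal = J :=
    w.isMaximal.eq_of_le (Ideal.IsPrime.ne_top (Ideal.IsPrime.comap _))
      (fun x hx => (hJ x).mpr (hw x hx))
  intro x
  rw [hwJ, hJ]
  rfl

section galois

variable {L : Type} [Field L] [Algebra ℚ L] [IsGalois ℚ L]

local instance instTopZbar'' : TopologicalSpace (integralClosure ℤ L) := ⊥
local instance instDiscZbar'' : DiscreteTopology (integralClosure ℤ L) := ⟨rfl⟩

/-- Decomposition group elements lift. -/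
theorem exists_mul_mem_decomposition (H : Subgroup (L ≃ₐ[ℚ] L))
    (hH : IsClosed (H : Set (L ≃ₐ[ℚ] L)))
    (A : ValuationSubring L) {ℓ : ℕ} (hℓ : ℓ.Prime) (hA : A.LiesOverPrime ℓ)
    (g : L ≃ₐ[ℚ] L)
    (hg : ∀ x : integralClosure ℤ L, (∀ h ∈ H, h • x = x) →
      (x ∈ center A ↔ g • x ∈ center A)) :
    ∃ h ∈ H, g * h ∈ A.decompositionSubgroup ℚ := by
  have : CompactSpace H := isCompact_iff_compactSpace.mp hH.isCompact
  have : TotallyDisconnectedSpace H := inferInstance
  have : ContinuousSMul H (integralClosure ℤ L) := by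
    rw [continuousSMul_iff_stabilizer_isOpen]
    intro x
    exact (Fermat.Agent.FlatOrd.InertiaLift.isOpen_stabilizer_integralClosure x).preimage
      (continuous_subtype_val (p := (· ∈ H)))
  let R := FixedPoints.subalgebra ℤ (integralClosure ℤ L) H
  have hR : Algebra.IsInvariant R (integralClosure ℤ L) H :=
    ⟨fun b hb => ⟨⟨b, hb⟩, rfl⟩⟩
  have hunder : (center A).under R = (g⁻¹ • center A).under R := by
    ext x
    rw [Ideal.mem_comap, Ideal.mem_comap, Ideal.mem_pointwise_smul_iff_inv_smul_mem, inv_inv]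
    exact hg (algebraMap R _ x) (fun h hh => x.2 ⟨h, hh⟩)
  obtain ⟨h1, hh1⟩ := Algebra.IsInvariant.exists_smul_of_under_eq_of_profinite (A := R)
    (B := integralClosure ℤ L) (G := H) (center A) (g⁻¹ • center A) hunder
  have hstab : (g * (h1 : L ≃ₐ[ℚ] L)) • center A = center A := by
    rw [mul_smul]
    have : (h1 : L ≃ₐ[ℚ] L) • center A = g⁻¹ • center A := hh1.symm
    rw [this, smul_inv_smul]
  exact ⟨h1, h1.2, smul_eq_of_mem_stabilizer A hℓ.ne_zero hA _ hstab⟩

/-- An element of the Galois group preserving the centre of `A` on the algebraic integers of a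
subfield `F` agrees on `F` with an element of the decomposition group. -/
theorem exists_mul_mem_decomposition_of_intermediateField
    (F : IntermediateField ℚ L)
    (A : ValuationSubring L) {ℓ : ℕ} (hℓ : ℓ.Prime) (hA : A.LiesOverPrime ℓ)
    (g : L ≃ₐ[ℚ] L)
    (hg : ∀ x : integralClosure ℤ L, (x : L) ∈ F → (x ∈ center A ↔ g • x ∈ center A)) :
    ∃ σ ∈ A.decompositionSubgroup ℚ, ∀ x ∈ F, σ x = g x := by
  obtain ⟨h, hh, hgh⟩ := exists_mul_mem_decomposition F.fixingSubgroup
    (InfiniteGalois.fixingSubgroup_isClosed F) A hℓ hA g (fun x hx => hg x (by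
      have h1 : (x : L) ∈ IntermediateField.fixedField F.fixingSubgroup := by
        rintro ⟨h, hh⟩
        exact congrArg Subtype.val (hx h hh)
      rwa [InfiniteGalois.fixedField_fixingSubgroup] at h1))
  refine ⟨g * h, hgh, fun x hx => ?_⟩
  show g (h x) = g x
  rw [(IntermediateField.mem_fixingSubgroup_iff F h).mp hh x hx]

end galois

section Kummer

variable (K : IntermediateField ℚ (AlgebraicClosure ℚ)) [NumberField K] (p : ℕ) [Fact p.Prime]

/-- The Kummer extension `K(α^{1/p})` as an intermediate field of `ℚ̄ / K`. -/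
noncomputable def kField (α : K) : IntermediateField K (AlgebraicClosure ℚ) :=
  IntermediateField.adjoin K ((X ^ p - C α : K[X]).rootSet (AlgebraicClosure ℚ))

instance instAlgebraicK : Algebra.IsAlgebraic K (AlgebraicClosure ℚ) :=
  Algebra.IsAlgebraic.tower_top (K := ℚ) K

instance instNormalK : Normal K (AlgebraicClosure ℚ) :=
  Normal.tower_top_of_normal ℚ K (AlgebraicClosure ℚ)

instance kField_isSplittingField (α : K) : IsSplittingField K (kField K p α) (X ^ p - C α : K[X]) :=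
  IntermediateField.adjoin_rootSet_isSplittingField (IsAlgClosed.splits _)

instance kField_finite (α : K) : FiniteDimensional K (kField K p α) :=
  IsSplittingField.finiteDimensional _ (X ^ p - C α : K[X])

instance kField_normal (α : K) : Normal K (kField K p α) :=
  Normal.of_isSplittingField (X ^ p - C α : K[X])

instance kField_galois (α : K) : IsGalois K (kField K p α) where

instance kField_numberField (α : K) : NumberField (kField K p α) :=
  NumberField.of_module_finite K _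

variable {K p}

omit [NumberField K] in
theorem mem_kField {α : K} {a : AlgebraicClosure ℚ} (ha : a ^ p = α) : a ∈ kField K p α := by
  apply IntermediateField.subset_adjoin
  rw [mem_rootSet]
  refine ⟨X_pow_sub_C_ne_zero (Fact.out : p.Prime).pos α, ?_⟩
  simp only [map_sub, map_pow, aeval_X, aeval_C]
  rw [ha, sub_eq_zero]
  rfl

omit [NumberField K] in
theorem apply_eq_of_apply_eq {ζ : K} (hζ : IsPrimitiveRoot ζ p) {α : K} (hα : α ≠ 0)
    {a : AlgebraicClosure ℚ} (ha : a ^ p = α)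
    (g : AlgebraicClosure ℚ ≃ₐ[K] AlgebraicClosure ℚ) (hg : g a = a)
    {x : AlgebraicClosure ℚ} (hx : x ∈ kField K p α) : g x = x := by
  have ha0 : a ≠ 0 := by
    rintro rfl
    rw [zero_pow (Fact.out : p.Prime).ne_zero] at ha
    exact hα (Subtype.ext ha.symm)
  have hle : kField K p α ≤ IntermediateField.fixedField (Subgroup.zpowers g) := by
    rw [kField, IntermediateField.adjoin_le_iff]
    intro r hr
    rw [mem_rootSet] at hr
    have hr2 := hr.2
    simp only [map_sub, map_pow, aeval_X, aeval_C] at hr2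
    have h1 : r ^ p = a ^ p := by
      rw [ha]
      exact sub_eq_zero.mp hr2
    have h2 : (r / a) ^ p = 1 := by
      rw [div_pow, h1, div_self (pow_ne_zero _ ha0)]
    obtain ⟨i, -, hi⟩ := (hζ.map_of_injective
      (algebraMap K (AlgebraicClosure ℚ)).injective).eq_pow_of_pow_eq_one h2
    have h3 : r = algebraMap K (AlgebraicClosure ℚ) ζ ^ i * a := by
      rw [hi, div_mul_cancel₀ _ ha0]
    have h4 : g r = r := by
      rw [h3, map_mul, map_pow, AlgEquiv.commutes, hg]
    rintro ⟨f, hf⟩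
    have h5 : Subgroup.zpowers g ≤
        MulAction.stabilizer (AlgebraicClosure ℚ ≃ₐ[K] AlgebraicClosure ℚ) r :=
      Subgroup.zpowers_le.mpr h4
    exact h5 hf
  exact hle hx ⟨g, Subgroup.mem_zpowers g⟩

omit [NumberField K] in
theorem exists_lift (F : IntermediateField K (AlgebraicClosure ℚ)) (σ : F ≃ₐ[K] F) :
    ∃ g : AlgebraicClosure ℚ ≃ₐ[K] AlgebraicClosure ℚ, ∀ x : F,
      g (x : AlgebraicClosure ℚ) = σ x :=
  ⟨σ.liftNormal (AlgebraicClosure ℚ), fun x => AlgEquiv.liftNormal_commutes σ _ x⟩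

omit [NumberField K] in
/-- The ring of integers element attached to an algebraic integer contained in `F`. -/
theorem exists_ringOfIntegers (F : IntermediateField K (AlgebraicClosure ℚ))
    (x : integralClosure ℤ (AlgebraicClosure ℚ)) (hx : (x : AlgebraicClosure ℚ) ∈ F) :
    ∃ y : 𝓞 F, ((y : F) : AlgebraicClosure ℚ) = x := by
  have h1 : IsIntegral ℤ (⟨x, hx⟩ : F) := by
    have := x.2
    rw [← isIntegral_algebraMap_iff (FaithfulSMul.algebraMap_injective F (AlgebraicClosure ℚ))]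
    exact this
  exact ⟨⟨⟨x, hx⟩, h1⟩, rfl⟩

omit [NumberField K] in
theorem exists_prime_above {F : Type*} [Field F] [NumberField F] [Algebra K F]
    (v : HeightOneSpectrum (𝓞 K)) :
    ∃ w : HeightOneSpectrum (𝓞 F), w.asIdeal.LiesOver v.asIdeal := by
  obtain ⟨P⟩ := (inferInstance : Nonempty (Ideal.primesOver v.asIdeal (𝓞 F)))
  have h1 : P.1.LiesOver v.asIdeal := P.2.2
  exact ⟨⟨P.1, P.2.1, Ideal.ne_bot_of_liesOver_of_ne_bot v.ne_bot P.1⟩, P.2.2⟩

theorem exists_prime_below {F : Type*} [Field F] [NumberField F] (w : HeightOneSpectrum (𝓞 F)) :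
    ∃ ℓ : ℕ, ℓ.Prime ∧ (ℓ : 𝓞 F) ∈ w.asIdeal := by
  have : NeZero w.asIdeal := ⟨w.ne_bot⟩
  exact ⟨_, Nat.absNorm_under_prime w.asIdeal, by simpa using Int.absNorm_under_mem w.asIdeal⟩

/-- Finite level inertia group is trivial. -/
theorem eq_one_of_inertia {ζ : K} (hζ : IsPrimitiveRoot ζ p) {α : K} (hα : α ≠ 0)
    {a : AlgebraicClosure ℚ} (ha : a ^ p = α) (w : HeightOneSpectrum (𝓞 (kField K p α)))
    {ℓ : ℕ} (hℓ : ℓ.Prime) (hw : (ℓ : 𝓞 (kField K p α)) ∈ w.asIdeal)
    (hfix : ∀ A : ValuationSubring (AlgebraicClosure ℚ), A.LiesOverPrime ℓ →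
      ∀ σ ∈ A.inertiaSubgroupIn ℚ, (∀ x : K, σ x = x) → σ a = a)
    (σ : kField K p α ≃ₐ[K] kField K p α) (hσ : ∀ x : 𝓞 (kField K p α), σ • x - x ∈ w.asIdeal) :
    σ = 1 := by
  obtain ⟨A, hA⟩ := exists_place w
  obtain ⟨g, hg⟩ := exists_lift _ σ
  have hAℓ : A.LiesOverPrime ℓ := by
    have := (hA _).mpr hw
    simpa using! this
  obtain ⟨τ, hτ, hτg⟩ :=
    Fermat.Agent.FlatOrd.InertiaLift.exists_mul_mem_inertia_of_intermediateField
      ((kField K p α).restrictScalars ℚ) A hℓ hAℓ (g.restrictScalars ℚ) (by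
        intro x hx
        obtain ⟨y, hy⟩ := exists_ringOfIntegers (kField K p α) x hx
        have h1 := (hA _).mpr (hσ y)
        rw [mem_center]
        have h2 : ((g.restrictScalars ℚ • x - x : integralClosure ℤ (AlgebraicClosure ℚ)) :
            AlgebraicClosure ℚ) =
            algebraMap (kField K p α) (AlgebraicClosure ℚ) ((σ • y - y : 𝓞 (kField K p α))) := by
          have h3 : ((g.restrictScalars ℚ • x : integralClosure ℤ (AlgebraicClosure ℚ)) :
              AlgebraicClosure ℚ) = g x := rfl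
          rw [AddSubgroupClass.coe_sub, h3, ← hy, hg]
          rfl
        rw [h2]
        exact h1)
  have h1 : τ a = a := hfix A hAℓ τ hτ (fun x =>
    (hτg _ ((kField K p α).algebraMap_mem x)).trans (g.commutes x))
  have h2 : g a = a := (hτg a (mem_kField ha)).symm.trans h1
  refine AlgEquiv.ext fun x => Subtype.ext ?_
  rw [← hg, apply_eq_of_apply_eq hζ hα ha g h2 x.2]
  rfl

/-- Finite level decomposition group is trivial. -/
theorem eq_one_of_decomposition {ζ : K} (hζ : IsPrimitiveRoot ζ p) {α : K} (hα : α ≠ 0)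
    {a : AlgebraicClosure ℚ} (ha : a ^ p = α) (w : HeightOneSpectrum (𝓞 (kField K p α)))
    {ℓ : ℕ} (hℓ : ℓ.Prime) (hw : (ℓ : 𝓞 (kField K p α)) ∈ w.asIdeal)
    (hfix : ∀ A : ValuationSubring (AlgebraicClosure ℚ), A.LiesOverPrime ℓ →
      ∀ σ ∈ A.decompositionSubgroup ℚ, (∀ x : K, σ x = x) → σ a = a)
    (σ : kField K p α ≃ₐ[K] kField K p α) (hσ : σ • w.asIdeal = w.asIdeal) :
    σ = 1 := by
  obtain ⟨A, hA⟩ := exists_place w
  obtain ⟨g, hg⟩ := exists_lift _ σ
  have hAℓ : A.LiesOverPrime ℓ := by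
    have := (hA _).mpr hw
    simpa using! this
  obtain ⟨τ, hτ, hτg⟩ :=
    exists_mul_mem_decomposition_of_intermediateField
      ((kField K p α).restrictScalars ℚ) A hℓ hAℓ (g.restrictScalars ℚ) (by
        intro x hx
        obtain ⟨y, hy⟩ := exists_ringOfIntegers (kField K p α) x hx
        have h1 := hA y
        have h2 := hA (σ • y)
        have h3 : ((g.restrictScalars ℚ • x : integralClosure ℤ (AlgebraicClosure ℚ)) :
            AlgebraicClosure ℚ) =
            algebraMap (kField K p α) (AlgebraicClosure ℚ) ((σ • y : 𝓞 (kField K p α))) := by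
          have h3 : ((g.restrictScalars ℚ • x : integralClosure ℤ (AlgebraicClosure ℚ)) :
              AlgebraicClosure ℚ) = g x := rfl
          rw [h3, ← hy, hg]
          rfl
        have h4 : (x : AlgebraicClosure ℚ) =
            algebraMap (kField K p α) (AlgebraicClosure ℚ) y := hy.symm
        rw [mem_center, mem_center, h3, h4, h1, h2]
        constructor
        · intro h
          rw [← hσ]
          exact Ideal.smul_mem_pointwise_smul σ y _ h
        · intro h
          rw [← hσ] at h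
          exact (Ideal.smul_mem_pointwise_smul_iff).mp h)
  have h1 : τ a = a := hfix A hAℓ τ hτ (fun x =>
    (hτg _ ((kField K p α).algebraMap_mem x)).trans (g.commutes x))
  have h2 : g a = a := (hτg a (mem_kField ha)).symm.trans h1
  refine AlgEquiv.ext fun x => Subtype.ext ?_
  rw [← hg, apply_eq_of_apply_eq hζ hα ha g h2 x.2]
  rfl

/-- The valuation of `α = a ^ p` is divisible by `p`, if the inertia group is trivial. -/
theorem dvd_vz_of_inertia_aux {ζ : K} (hζ : IsPrimitiveRoot ζ p) {α : K} (hα : α ≠ 0)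
    {a : AlgebraicClosure ℚ} (ha : a ^ p = α) (v : HeightOneSpectrum (𝓞 K))
    (hfix : ∀ ℓ : ℕ, ℓ.Prime → (ℓ : 𝓞 K) ∈ v.asIdeal →
      ∀ A : ValuationSubring (AlgebraicClosure ℚ), A.LiesOverPrime ℓ →
        ∀ σ ∈ A.inertiaSubgroupIn ℚ, (∀ x : K, σ x = x) → σ a = a) :
    (p : ℤ) ∣ vz v α := by
  obtain ⟨w, hwv⟩ := exists_prime_above (F := kField K p α) v
  obtain ⟨ℓ, hℓ, hℓv⟩ := exists_prime_below v
  have hℓw : (ℓ : 𝓞 (kField K p α)) ∈ w.asIdeal := by
    rw [hwv.over, Ideal.mem_comap, map_natCast] at hℓv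
    exact hℓv
  have hval := FiniteLevel.valuation_eq_of_inertia v w
    (eq_one_of_inertia hζ hα ha w hℓ hℓw (hfix ℓ hℓ hℓv))
  let b : kField K p α := ⟨a, mem_kField ha⟩
  have hb : b ^ p = algebraMap K (kField K p α) α := Subtype.ext ha
  have hb0 : b ≠ 0 := by
    intro h
    rw [h, zero_pow (Fact.out : p.Prime).ne_zero] at hb
    exact hα ((map_eq_zero _).mp hb.symm)
  refine ⟨vz w b, ?_⟩
  apply vz_eq_of_valuation
  rw [← hval, ← hb, map_pow, valuation_eq_exp_vz w hb0, ← WithZero.exp_nsmul]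
  congr 1
  simp

theorem dvd_vz_of_inertia {ζ : K} (hζ : IsPrimitiveRoot ζ p)
    {a : AlgebraicClosure ℚ} {α : K} (hα : α ≠ 0)
    (ha : a ^ p = α) (v : HeightOneSpectrum (𝓞 K)) (hv : (p : 𝓞 K) ∉ v.asIdeal)
    (hfix : ∀ ℓ : ℕ, ℓ.Prime → ℓ ≠ p → ∀ A : ValuationSubring (AlgebraicClosure ℚ),
      A.LiesOverPrime ℓ → ∀ σ ∈ A.inertiaSubgroupIn ℚ, (∀ x : K, σ x = x) → σ a = a) :
    (p : ℤ) ∣ vz v α :=
  dvd_vz_of_inertia_aux hζ hα ha v (fun ℓ hℓ hℓv => hfix ℓ hℓ (by
    rintro rfl
    exact hv hℓv))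

theorem local_pow_of_decomposition {ζ : K} (hζ : IsPrimitiveRoot ζ p)
    {a : AlgebraicClosure ℚ} {α : K} (hα : α ≠ 0)
    (ha : a ^ p = α) (v : HeightOneSpectrum (𝓞 K)) (hv : (p : 𝓞 K) ∈ v.asIdeal)
    (hfix : ∀ A : ValuationSubring (AlgebraicClosure ℚ), A.LiesOverPrime p →
      ∀ σ ∈ A.decompositionSubgroup ℚ, (∀ x : K, σ x = x) → σ a = a) :
    (p : ℤ) ∣ vz v α ∧
      ∃ y : K, v.valuation K (α - y ^ p) ≤ v.valuation K α * WithZero.exp (-3) := by
  have hp : ∀ ℓ : ℕ, ℓ.Prime → (ℓ : 𝓞 K) ∈ v.asIdeal → ℓ = p := by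
    intro ℓ hℓ hℓv
    by_contra hne
    have hcop : Nat.Coprime ℓ p := (Nat.coprime_primes hℓ Fact.out).mpr hne
    have h1 : (1 : 𝓞 K) ∈ v.asIdeal := by
      have h2 := Nat.gcd_eq_gcd_ab ℓ p
      rw [hcop] at h2
      have h3 : (1 : 𝓞 K) = (ℓ : 𝓞 K) * (Nat.gcdA ℓ p : 𝓞 K) + (p : 𝓞 K) * (Nat.gcdB ℓ p : 𝓞 K) := by
        exact_mod_cast congrArg (Int.cast (R := 𝓞 K)) h2
      rw [h3]
      exact add_mem (Ideal.mul_mem_right _ _ hℓv) (Ideal.mul_mem_right _ _ hv)
    exact v.isPrime.ne_top ((Ideal.eq_top_iff_one _).mpr h1)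
  refine ⟨dvd_vz_of_inertia_aux hζ hα ha v (fun ℓ hℓ hℓv A hA σ hσ =>
    hfix A (hp ℓ hℓ hℓv ▸ hA) σ
      (Fermat.Agent.FlatOrd.InertiaLift.mem_decompositionSubgroup_of_mem_inertia A hσ)), ?_⟩
  obtain ⟨w, hwv⟩ := exists_prime_above (F := kField K p α) v
  have hpw : (p : 𝓞 (kField K p α)) ∈ w.asIdeal := by
    rw [hwv.over, Ideal.mem_comap, map_natCast] at hv
    exact hv
  have hdec := eq_one_of_decomposition hζ hα ha w (Fact.out : p.Prime) hpw hfix
  have he := FiniteLevel.ramificationIdx'_eq_one_of_inertia v w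
    (fun σ hσ => hdec σ (FiniteLevel.smul_eq_of_inertia w hσ))
  have hf := FiniteLevel.inertiaDeg'_eq_one_of_decomposition v w hdec
  exact FiniteLevel.exists_local_pow v w he hf 3 p ⟨a, mem_kField ha⟩ α (Subtype.ext ha)

end Kummer

end Fermat.Agent.EXT.RamLocal
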