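import Mathlib
import Fermat.Agent.EXT.KummerDescent
import Fermat.Agent.EXT.RamLocal

/-!
# Kummer descent, final form: `KummerTriviality p → ExtVanishingCts p`
-/

set_option autoImplicit false

open NumberField IsDedekindDomain

namespace Fermat.Agent.EXT

open KummerDescent

theorem ramInput (p : ℕ) [Fact p.Prime] : RamInput p := by
  intro K _ ζ hζ a α hα ha v
  exact ⟨fun hv hfix => RamLocal.dvd_vz_of_inertia hζ hα ha v hv hfix,
    fun hv hfix => RamLocal.local_pow_of_decomposition hζ hα ha v hv hfix⟩

/-- The Kummer descent for `S14`. -/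
theorem extVanishingCts_of_kummerTriviality {p : ℕ} [Fact p.Prime] (h3 : 3 ≤ p)
    (h : KummerTriviality p) : ExtCitation.ExtVanishingCts p :=
  extVanishingCts_of_input h3 (ramInput p) h

end Fermat.Agent.EXT
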