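import Mathlib
import Fermat.Agent.EXT.FiniteLevel

/-!
# Splitting in Kummer extensions generated by a unit (EXT)

`M = K(u^{1/p})`, `u` a unit which is not a `p`-th power: a prime `v ∤ p` at which `u` is a
`p`-th power residue splits completely.
-/

set_option autoImplicit false

open NumberField IsDedekindDomain Polynomial
open scoped Pointwise

namespace Fermat.Agent.EXT

namespace KummerSplit

variable {K : Type*} [Field K] [NumberField K] {M : Type*} [Field M] [NumberField M] [Algebra K M]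
  {p : ℕ} [Fact p.Prime]

omit [NumberField K] [NumberField M] in
/-- The decomposition group of a prime at which `u` is a `p`-th power residue is trivial. -/
theorem eq_one_of_decomposition {ζ : K} (hζ : IsPrimitiveRoot ζ p) (u : (𝓞 K)ˣ) (θ : 𝓞 M)
    (hθ : θ ^ p = algebraMap (𝓞 K) (𝓞 M) u) (htop : Algebra.adjoin K {(θ : M)} = ⊤)
    (v : HeightOneSpectrum (𝓞 K)) (hv : (p : 𝓞 K) ∉ v.asIdeal) (z : 𝓞 K)
    (hz : (u : 𝓞 K) - z ^ p ∈ v.asIdeal) (w : HeightOneSpectrum (𝓞 M))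
    [hwv : w.asIdeal.LiesOver v.asIdeal] (σ : M ≃ₐ[K] M) (hσ : σ • w.asIdeal = w.asIdeal) :
    σ = 1 := by
  have hp := (Fact.out : p.Prime)
  have hpNZ : NeZero p := ⟨hp.ne_zero⟩
  have hmem : ∀ x : 𝓞 K, algebraMap (𝓞 K) (𝓞 M) x ∈ w.asIdeal ↔ x ∈ v.asIdeal := fun x => by
    rw [hwv.over, Ideal.mem_comap]
  have hζO : IsPrimitiveRoot (hζ.toInteger) p := hζ.toInteger_isPrimitiveRoot
  have hζM : IsPrimitiveRoot (algebraMap (𝓞 K) (𝓞 M) hζ.toInteger) p :=
    hζO.map_of_injective (FaithfulSMul.algebraMap_injective (𝓞 K) (𝓞 M))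
  set ξ : 𝓞 M := algebraMap (𝓞 K) (𝓞 M) hζ.toInteger with hξ
  have hσK : ∀ x : 𝓞 K, σ • (algebraMap (𝓞 K) (𝓞 M) x) = algebraMap (𝓞 K) (𝓞 M) x := fun x =>
    RingOfIntegers.ext (σ.commutes (x : K))
  have hroots : ∀ μ : 𝓞 M, μ ^ p = 1 → ∃ i : ℕ, μ = ξ ^ i := fun μ hμ => by
    obtain ⟨i, -, hi⟩ := hζM.eq_pow_of_pow_eq_one hμ
    exact ⟨i, hi.symm⟩
  have hσμ : ∀ μ : 𝓞 M, μ ^ p = 1 → σ • μ = μ := fun μ hμ => by
    obtain ⟨i, rfl⟩ := hroots μ hμ
    rw [smul_pow', hξ, hσK]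
  -- `θ` is congruent to `μ z`
  have h1 : ∃ μ : 𝓞 M, μ ^ p = 1 ∧ θ - μ * algebraMap (𝓞 K) (𝓞 M) z ∈ w.asIdeal := by
    have h2 : θ ^ p - (algebraMap (𝓞 K) (𝓞 M) z) ^ p ∈ w.asIdeal := by
      rw [hθ, ← map_pow, ← map_sub, hmem]
      exact hz
    rw [hζM.pow_sub_pow_eq_prod_sub_mul _ _ hp.pos] at h2
    have hprime := w.isPrime
    obtain ⟨μ, hμ, hμw⟩ := (Ideal.IsPrime.prod_mem_iff).mp h2
    exact ⟨μ, (Polynomial.mem_nthRootsFinset hp.pos _).mp hμ, hμw⟩
  obtain ⟨μ, hμ, hμw⟩ := h1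
  have h2 : σ • θ - θ ∈ w.asIdeal := by
    have h3 : σ • (θ - μ * algebraMap (𝓞 K) (𝓞 M) z) ∈ w.asIdeal := by
      rw [← hσ]
      exact Ideal.smul_mem_pointwise_smul σ _ _ hμw
    rw [smul_sub, smul_mul', hσμ μ hμ, hσK] at h3
    have := sub_mem h3 hμw
    rwa [sub_sub_sub_cancel_right] at this
  have hunit : IsUnit θ := by
    rw [← isUnit_pow_iff hp.ne_zero, hθ]
    exact u.isUnit.map _
  have hθw : θ ∉ w.asIdeal := fun h => w.isPrime.ne_top (Ideal.eq_top_of_isUnit_mem _ h hunit)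
  obtain ⟨θu, hθu⟩ := hunit
  -- `σ θ = ν θ`
  set ν : 𝓞 M := σ • θ * ((θu⁻¹ : (𝓞 M)ˣ) : 𝓞 M) with hν
  have hνθ : σ • θ = ν * θ := by
    rw [hν, ← hθu, mul_assoc, Units.inv_mul, mul_one]
  have hνp : ν ^ p = 1 := by
    have h3 : (σ • θ) ^ p = θ ^ p := by
      rw [← smul_pow', hθ, hσK]
    rw [hν, mul_pow, h3, ← hθu, ← mul_pow, Units.mul_inv, one_pow]
  have h4 : ν - 1 ∈ w.asIdeal := by
    rw [hνθ] at h2
    have h5 : (ν - 1) * θ ∈ w.asIdeal := by
      have : (ν - 1) * θ = ν * θ - θ := by ring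
      rwa [this]
    exact (w.isPrime.mem_or_mem h5).resolve_right hθw
  have h5 : ν = 1 := by
    by_contra hne
    have h6 : ∑ i ∈ Finset.range p, ν ^ i = 0 := by
      have h7 := mul_geom_sum ν p
      rw [hνp, sub_self] at h7
      exact (mul_eq_zero.mp h7).resolve_left (sub_ne_zero.mpr hne)
    have h7 : (∑ i ∈ Finset.range p, ν ^ i) - (p : 𝓞 M) ∈ w.asIdeal := by
      have h8 : (∑ i ∈ Finset.range p, ν ^ i) - (p : 𝓞 M) = ∑ i ∈ Finset.range p, (ν ^ i - 1) := by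
        rw [Finset.sum_sub_distrib]
        simp
      rw [h8]
      refine Ideal.sum_mem _ fun i _ => ?_
      obtain ⟨c, hc⟩ := sub_one_dvd_pow_sub_one ν i
      rw [hc]
      exact Ideal.mul_mem_right _ _ h4
    rw [h6, zero_sub, neg_mem_iff] at h7
    have h8 : algebraMap (𝓞 K) (𝓞 M) (p : 𝓞 K) ∈ w.asIdeal := by rwa [map_natCast]
    exact hv ((hmem _).mp h8)
  have h6 : σ (θ : M) = θ := by
    have h7 : σ • θ = θ := by rw [hνθ, h5, one_mul]
    exact congrArg (fun x : 𝓞 M => (x : M)) h7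
  have h7 : (σ : M →ₐ[K] M) = AlgHom.id K M :=
    AlgHom.ext_of_adjoin_eq_top htop (by
      intro x hx
      rw [Set.mem_singleton_iff] at hx
      rw [hx]
      exact h6)
  exact AlgEquiv.ext fun x => DFunLike.congr_fun h7 x

omit [Fact p.Prime] in
/-- If all decomposition groups above `v` are trivial, `v` splits completely. -/
theorem exists_finset_of_trivial [IsGalois K M] (hrank : Module.finrank K M = p)
    (v : HeightOneSpectrum (𝓞 K))
    (h : ∀ w : HeightOneSpectrum (𝓞 M), w.asIdeal.LiesOver v.asIdeal →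
      ∀ σ : M ≃ₐ[K] M, σ • w.asIdeal = w.asIdeal → σ = 1) :
    ∃ S : Finset (HeightOneSpectrum (𝓞 M)), S.card = p ∧
      ∀ w ∈ S, w.asIdeal.under (𝓞 K) = v.asIdeal ∧
        Ideal.absNorm w.asIdeal = Ideal.absNorm v.asIdeal := by
  classical
  let T := Ideal.primesOver v.asIdeal (𝓞 M)
  have hTfin : T.Finite := Algebra.QuasiFinite.finite_primesOver _
  have : Fintype T := hTfin.fintype
  let e : T ↪ HeightOneSpectrum (𝓞 M) :=
    ⟨fun P => ⟨P.1, P.2.1, by
      have := P.2.2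
      exact Ideal.ne_bot_of_liesOver_of_ne_bot v.ne_bot P.1⟩, fun P Q hPQ => by
      have := congrArg HeightOneSpectrum.asIdeal hPQ
      exact Subtype.ext this⟩
  have hef : ∀ w : HeightOneSpectrum (𝓞 M), w.asIdeal.LiesOver v.asIdeal →
      v.asIdeal.ramificationIdx' w.asIdeal = 1 ∧ v.asIdeal.inertiaDeg' w.asIdeal = 1 := by
    intro w hw
    have h1 := FiniteLevel.card_stabilizer_eq_mul v w
    have h2 : MulAction.stabilizer (M ≃ₐ[K] M) w.asIdeal = ⊥ := by
      rw [eq_bot_iff]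
      intro σ hσ
      exact h w hw σ hσ
    rw [h2] at h1
    simp only [Nat.card_unique] at h1
    exact ⟨Nat.eq_one_of_mul_eq_one_right h1.symm, Nat.eq_one_of_mul_eq_one_left h1.symm⟩
  have hcard : Fintype.card T = p := by
    have h1 := Ideal.ncard_primesOver_mul_ramificationIdxIn_mul_inertiaDegIn v.asIdeal (𝓞 M)
      (M ≃ₐ[K] M)
    obtain ⟨P⟩ := (inferInstance : Nonempty (Ideal.primesOver v.asIdeal (𝓞 M)))
    have hPl : P.1.LiesOver v.asIdeal := P.2.2
    have hPp : P.1.IsPrime := P.2.1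
    have hwl : (e P).asIdeal.LiesOver v.asIdeal := hPl
    obtain ⟨he, hf⟩ := hef (e P) hPl
    have hvm : v.asIdeal.IsMaximal := v.isMaximal
    have hwm : (e P).asIdeal.IsMaximal := (e P).isMaximal
    rw [Ideal.ramificationIdxIn_eq_ramificationIdx v.asIdeal (e P).asIdeal (M ≃ₐ[K] M),
      ← Ideal.ramificationIdx'_eq_ramificationIdx v.asIdeal (e P).asIdeal v.ne_bot,
      Ideal.inertiaDegIn_eq_inertiaDeg v.asIdeal (e P).asIdeal (M ≃ₐ[K] M),
      ← Ideal.inertiaDeg'_eq_inertiaDeg v.asIdeal (e P).asIdeal, he, hf, mul_one, mul_one,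
      IsGalois.card_aut_eq_finrank, hrank] at h1
    rw [← h1, ← Nat.card_eq_fintype_card]
    rfl
  refine ⟨Finset.univ.map e, ?_, ?_⟩
  · rw [Finset.card_map, Finset.card_univ, hcard]
  · intro w hw
    obtain ⟨P, -, rfl⟩ := Finset.mem_map.mp hw
    have hPl : (e P).asIdeal.LiesOver v.asIdeal := P.2.2
    refine ⟨hPl.over.symm, ?_⟩
    have h1 := Ideal.absNorm_eq_pow_inertiaDeg'_of_liesOver (e P).asIdeal v.asIdeal v.isPrime
      v.ne_bot
    rw [(hef (e P) hPl).2, pow_one] at h1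
    exact h1

end KummerSplit

open KummerSplit

/-- Kummer extensions generated by a unit: splitting of primes. -/
theorem exists_kummer_ext {K : Type} [Field K] [NumberField K] {p : ℕ} [Fact p.Prime] {ζ : K}
    (hζ : IsPrimitiveRoot ζ p) (u : (𝓞 K)ˣ) (hu : ∀ y : K, y ^ p ≠ ((u : 𝓞 K) : K)) :
    ∃ (M : Type) (_ : Field M) (_ : NumberField M) (_ : Algebra K M),
      ∀ v : HeightOneSpectrum (𝓞 K), (p : 𝓞 K) ∉ v.asIdeal →
        (∃ z : 𝓞 K, (u : 𝓞 K) - z ^ p ∈ v.asIdeal) →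
        ∃ S : Finset (HeightOneSpectrum (𝓞 M)), S.card = p ∧
          ∀ w ∈ S, w.asIdeal.under (𝓞 K) = v.asIdeal ∧
            Ideal.absNorm w.asIdeal = Ideal.absNorm v.asIdeal := by
  have hp := (Fact.out : p.Prime)
  have hirr : Irreducible (X ^ p - C (((u : 𝓞 K) : K)) : K[X]) :=
    X_pow_sub_C_irreducible_of_prime hp hu
  have hprim : (primitiveRoots p K).Nonempty := ⟨ζ, (mem_primitiveRoots hp.pos).mpr hζ⟩
  let M := (X ^ p - C (((u : 𝓞 K) : K)) : K[X]).SplittingField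
  have hfd : FiniteDimensional K M :=
    IsSplittingField.finiteDimensional M (X ^ p - C (((u : 𝓞 K) : K)) : K[X])
  have hMnf : NumberField M := NumberField.of_module_finite K M
  have hgal : IsGalois K M := isGalois_of_isSplittingField_X_pow_sub_C hprim hirr M
  have hrank : Module.finrank K M = p := finrank_of_isSplittingField_X_pow_sub_C hprim hirr M
  obtain ⟨θ, hθ⟩ : ∃ θ : M, θ ^ p = algebraMap K M ((u : 𝓞 K) : K) := by
    have hsp : Splits ((X ^ p - C (((u : 𝓞 K) : K)) : K[X]).map (algebraMap K M)) :=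
      SplittingField.splits _
    have hdeg : ((X ^ p - C (((u : 𝓞 K) : K)) : K[X]).map (algebraMap K M)).degree ≠ 0 := by
      rw [degree_map, degree_X_pow_sub_C hp.pos]
      exact_mod_cast hp.ne_zero
    obtain ⟨θ, hθ⟩ := hsp.exists_eval_eq_zero hdeg
    refine ⟨θ, ?_⟩
    simpa [sub_eq_zero] using hθ
  have htop : Algebra.adjoin K {θ} = ⊤ :=
    Algebra.adjoin_root_eq_top_of_isSplittingField hprim hirr hθ
  have hint : IsIntegral ℤ θ := by
    apply IsIntegral.of_pow hp.pos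
    rw [hθ]
    exact (RingOfIntegers.isIntegral_coe (u : 𝓞 K)).map (algebraMap K M).toIntAlgHom
  let θ' : 𝓞 M := ⟨θ, hint⟩
  have hθ' : θ' ^ p = algebraMap (𝓞 K) (𝓞 M) u := RingOfIntegers.ext hθ
  refine ⟨M, inferInstance, hMnf, inferInstance, fun v hv ⟨z, hz⟩ => ?_⟩
  exact exists_finset_of_trivial hrank v
    (fun w hw σ hσ => eq_one_of_decomposition hζ u θ' hθ' htop v hv z hz w σ hσ)

end Fermat.Agent.EXT
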