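import Mathlib
import Fermat.Agent.EXT.KummerTriv

/-!
# `KummerTriviality 3`
-/

set_option autoImplicit false

open NumberField IsDedekindDomain nonZeroDivisors WithZero

namespace Fermat.Agent.EXT.KummerThree

/-- In a principal ideal domain, an element with all valuations divisible by `n` is a unit times an
`n`-th power. -/
theorem exists_unit_mul_pow {R K : Type*} [CommRing R] [IsDedekindDomain R]
    [IsPrincipalIdealRing R] [Field K] [Algebra R K] [IsFractionRing R K] {α : K} (hα : α ≠ 0)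
    (n : ℕ) (hn : n ≠ 0) (h : ∀ v : HeightOneSpectrum R, (n : ℤ) ∣ vz v α) :
    ∃ (u : Rˣ) (β : K), β ≠ 0 ∧ α = algebraMap R K u * β ^ n := by
  obtain ⟨J, hJ0, hJ⟩ := exists_pow_eq (R := R) (K := K)
    (I := FractionalIdeal.spanSingleton R⁰ α)
    (FractionalIdeal.spanSingleton_ne_zero_iff.mpr hα) n hn
    (fun v => by rw [count_spanSingleton v hα]; exact h v)
  have hprin : (J : Submodule R K).IsPrincipal := FractionalIdeal.isPrincipal J
  obtain ⟨β, hβ⟩ : ∃ β : K, J = FractionalIdeal.spanSingleton R⁰ β :=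
    ⟨_, FractionalIdeal.eq_spanSingleton_of_principal J⟩
  have hβ0 : β ≠ 0 := by
    rintro rfl
    rw [FractionalIdeal.spanSingleton_zero] at hβ
    exact hJ0 hβ
  have hval : ∀ v : HeightOneSpectrum R, v.valuation K (α / β ^ n) = 1 := by
    intro v
    have h1 : vz v (α / β ^ n) = 0 := by
      rw [vz_div v hα (pow_ne_zero _ hβ0), vz_pow, sub_eq_zero,
        ← count_spanSingleton v hα, ← count_spanSingleton v hβ0, ← hJ, ← hβ,
        FractionalIdeal.count_pow]
    exact (vz_eq_zero_iff v (div_ne_zero hα (pow_ne_zero _ hβ0))).mp h1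
  obtain ⟨a, ha⟩ := HeightOneSpectrum.mem_integers_of_valuation_le_one K (α / β ^ n)
    (fun v => (hval v).le)
  obtain ⟨b, hb⟩ := HeightOneSpectrum.mem_integers_of_valuation_le_one K (α / β ^ n)⁻¹
    (fun v => by rw [map_inv₀, hval v, inv_one])
  have hab : a * b = 1 := by
    apply IsFractionRing.injective R K
    rw [map_mul, ha, hb, map_one, mul_inv_cancel₀ (div_ne_zero hα (pow_ne_zero _ hβ0))]
  refine ⟨⟨a, b, hab, by rw [mul_comm]; exact hab⟩, β, hβ0, ?_⟩
  rw [ha, div_mul_cancel₀ _ (pow_ne_zero _ hβ0)]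

/-- If `u β ^ n` is locally an `n`-th power then so is `u`, with an integral root. -/
theorem exists_integral_local_pow {R K : Type*} [CommRing R] [IsDedekindDomain R]
    [Field K] [Algebra R K] [IsFractionRing R K] (v : HeightOneSpectrum R) (u : Rˣ) {β : K}
    (hβ : β ≠ 0) (n m : ℕ) (hn : n ≠ 0) {y : K}
    (h : v.valuation K (algebraMap R K u * β ^ n - y ^ n) ≤
      v.valuation K (algebraMap R K u * β ^ n) * exp (-(m : ℤ))) :
    ∃ z : R, (u : R) - z ^ n ∈ v.asIdeal ^ m := by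
  have hvu : v.valuation K (algebraMap R K u) = 1 := by
    have h1 := vz_unit v (K := K) u
    rw [vz_eq_zero_iff] at h1
    · exact h1
    · exact (map_ne_zero_iff _ (IsFractionRing.injective R K)).mpr u.ne_zero
  have hvβ : v.valuation K (β ^ n) ≠ 0 := (Valuation.ne_zero_iff _).mpr (pow_ne_zero _ hβ)
  set z : K := y / β with hz
  have h1 : v.valuation K (algebraMap R K u - z ^ n) ≤ exp (-(m : ℤ)) := by
    have h2 : algebraMap R K u - z ^ n = (algebraMap R K u * β ^ n - y ^ n) / β ^ n := by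
      rw [hz, div_pow, sub_div, mul_div_cancel_right₀ _ (pow_ne_zero _ hβ)]
    rw [h2, map_div₀]
    rw [map_mul, hvu, one_mul] at h
    rw [div_le_iff₀ (zero_lt_iff.mpr hvβ), mul_comm (exp (-(m : ℤ)))]
    exact h
  have hexp : exp (-(m : ℤ)) ≤ (1 : WithZero (Multiplicative ℤ)) := by
    rw [← exp_zero, exp_le_exp]
    omega
  have hz1 : v.valuation K z ≤ 1 := by
    have h3 : v.valuation K (z ^ n) ≤ 1 := by
      have h4 : z ^ n = algebraMap R K u - (algebraMap R K u - z ^ n) := by ring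
      rw [h4]
      exact (Valuation.map_sub _ _ _).trans (max_le hvu.le (h1.trans hexp))
    rw [map_pow] at h3
    exact (pow_le_one_iff hn).mp h3
  obtain ⟨a, ha⟩ := v.exists_valuation_sub_lt_of_integer hz1
    (Units.mk0 (exp (-(m : ℤ))) exp_ne_zero)
  rw [Units.val_mk0] at ha
  refine ⟨a, ?_⟩
  rw [← v.intValuation_le_pow_iff_mem, ← v.valuation_of_algebraMap (K := K)]
  change v.valuation K (algebraMap R K ((u : R) - a ^ n)) ≤ _
  rw [_root_.map_sub, _root_.map_pow]
  have h5 : algebraMap R K u - algebraMap R K a ^ n =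
      (algebraMap R K u - z ^ n) - (algebraMap R K a ^ n - z ^ n) := by ring
  rw [h5]
  refine (Valuation.map_sub _ _ _).trans (max_le h1 ?_)
  rw [← Commute.geom_sum₂_mul (Commute.all _ _) n, map_mul]
  have h6 : v.valuation K (∑ i ∈ Finset.range n, algebraMap R K a ^ i * z ^ (n - 1 - i)) ≤ 1 := by
    refine Valuation.map_sum_le _ fun i _ => ?_
    rw [map_mul, map_pow, map_pow]
    exact mul_le_one' (pow_le_one' (v.valuation_le_one a) _) (pow_le_one' hz1 _)
  calc _ ≤ 1 * exp (-(m : ℤ)) := mul_le_mul' h6 ha.le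
    _ = exp (-(m : ℤ)) := one_mul _

theorem kummerTriviality_three [Fact (Nat.Prime 3)] : KummerTriviality 3 := by
  intro K _ _ _ ζ hζ α hα _ hdiv hloc
  have hpid : IsPrincipalIdealRing (𝓞 K) := IsCyclotomicExtension.Rat.three_pid K
  obtain ⟨u, β, hβ, rfl⟩ := exists_unit_mul_pow (R := 𝓞 K) hα 3 (by norm_num) hdiv
  -- the prime above `3`
  have hprime : Prime (hζ.toInteger - 1) := hζ.zeta_sub_one_prime'
  let v : HeightOneSpectrum (𝓞 K) := ⟨Ideal.span {hζ.toInteger - 1},
    (Ideal.span_singleton_prime hprime.ne_zero).mpr hprime, by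
      rw [Ne, Ideal.span_singleton_eq_bot]; exact hprime.ne_zero⟩
  have hv3 : ((3 : ℕ) : 𝓞 K) ∈ v.asIdeal := by
    show ((3 : ℕ) : 𝓞 K) ∈ Ideal.span {hζ.toInteger - 1}
    rw [Ideal.mem_span_singleton]
    exact hζ.toInteger_sub_one_dvd_prime'
  obtain ⟨y, hy⟩ := hloc v hv3
  obtain ⟨z, hz⟩ := exists_integral_local_pow v u hβ 3 3 (by norm_num) (y := y) hy
  have hz' : (hζ.toInteger - 1) ^ 3 ∣ (u : 𝓞 K) - z ^ 3 := by
    rw [← Ideal.mem_span_singleton, ← Ideal.span_singleton_pow]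
    exact hz
  have hz2 : (hζ.toInteger - 1) ^ 2 ∣ (u : 𝓞 K) - z ^ 3 := (pow_dvd_pow _ (by norm_num)).trans hz'
  have hndvd : ¬ (hζ.toInteger - 1) ∣ z := by
    intro h
    have h1 : (hζ.toInteger - 1) ∣ (u : 𝓞 K) := by
      have h2 : (hζ.toInteger - 1) ∣ (u : 𝓞 K) - z ^ 3 := (dvd_pow_self _ (by norm_num)).trans hz2
      have h3 : (hζ.toInteger - 1) ∣ z ^ 3 := h.trans (dvd_pow_self _ (by norm_num))
      have := dvd_add h2 h3
      rwa [sub_add_cancel] at this
    exact hprime.not_isUnit (isUnit_of_dvd_unit h1 u.isUnit)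
  have hu : u = 1 ∨ u = -1 := by
    apply IsCyclotomicExtension.Rat.Three.eq_one_or_neg_one_of_unit_of_congruent hζ u
    rcases IsCyclotomicExtension.Rat.Three.lambda_pow_four_dvd_cube_sub_one_or_add_one_of_lambda_not_dvd
      hζ hndvd with h | h
    · refine ⟨1, ?_⟩
      have h1 := dvd_add hz2 ((pow_dvd_pow _ (by norm_num : 2 ≤ 4)).trans h)
      have h2 : (u : 𝓞 K) - z ^ 3 + (z ^ 3 - 1) = u - ((1 : ℤ) : 𝓞 K) := by push_cast; ring
      rwa [h2] at h1
    · refine ⟨-1, ?_⟩
      have h1 := dvd_add hz2 ((pow_dvd_pow _ (by norm_num : 2 ≤ 4)).trans h)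
      have h2 : (u : 𝓞 K) - z ^ 3 + (z ^ 3 + 1) = u - ((-1 : ℤ) : 𝓞 K) := by push_cast; ring
      rwa [h2] at h1
  rcases hu with rfl | rfl
  · exact ⟨β, by simp⟩
  · exact ⟨-β, by simp [pow_succ]⟩

end Fermat.Agent.EXT.KummerThree

namespace Fermat.Agent.EXT

/-- `KummerTriviality` for `p = 3`. -/
theorem kummerTriviality_three : KummerTriviality 3 := KummerThree.kummerTriviality_three

end Fermat.Agent.EXT
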