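import Mathlib
import Fermat.Agent.EXT.ConeSum

/-!
# Partial zeta functions of ideal classes

`partialZeta_sub_bounded`: the partial zeta functions of the ideal classes of a number field differ
by a bounded amount on `(1, 2]`.  `classLSeries_bounded`: the `L`-series of a nontrivial character
of the class group is bounded on `(1, 2]`.
-/

set_option autoImplicit false

open NumberField NumberField.mixedEmbedding NumberField.InfinitePlace NumberField.Units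
  NumberField.Units.dirichletUnitTheorem Module MeasureTheory nonZeroDivisors

noncomputable section

namespace Fermat.Agent.EXT.PartialZeta

open ConeWeight ConeFunction ConeSum

open scoped Classical

variable (K : Type*) [Field K] [NumberField K]

variable {K} in
lemma exists_gen {c : ClassGroup (𝓞 K)} {J : (Ideal (𝓞 K))⁰} (hJ : ClassGroup.mk0 J = c⁻¹)
    (I : {I : (Ideal (𝓞 K))⁰ // ClassGroup.mk0 I = c}) :
    ∃ x : 𝓞 K, x ≠ 0 ∧ Ideal.span {x} = (J : Ideal (𝓞 K)) * (I.1 : Ideal (𝓞 K)) := by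
  have h1 : ClassGroup.mk0 (J * I.1) = 1 := by rw [_root_.map_mul, hJ, I.2, inv_mul_cancel]
  have h2 : ((J : Ideal (𝓞 K)) * (I.1 : Ideal (𝓞 K))).IsPrincipal := by
    have := (ClassGroup.mk0_eq_one_iff (I := (J : Ideal (𝓞 K)) * (I.1 : Ideal (𝓞 K)))
      (J * I.1).2).mp h1
    exact this
  obtain ⟨x, hx⟩ := h2
  rw [Ideal.submodule_span_eq] at hx
  refine ⟨x, ?_, hx.symm⟩
  rintro rfl
  have h3 : ((J : Ideal (𝓞 K)) * (I.1 : Ideal (𝓞 K))) ≠ ⊥ :=
    nonZeroDivisors.ne_zero (J * I.1).2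
  exact h3 (by rw [hx]; simp)

lemma norm_mixed (x : 𝓞 K) :
    mixedEmbedding.norm (mixedEmbedding K (x : K)) = (Ideal.absNorm (Ideal.span {x}) : ℝ) := by
  rw [mixedEmbedding.norm_eq_norm, Ideal.absNorm_span_singleton, ← Algebra.coe_norm_int]
  rw [Nat.cast_natAbs]
  push_cast
  rfl

/-- the lattice attached to an ideal -/
abbrev idLat (J : (Ideal (𝓞 K))⁰) : Submodule ℤ (mixedSpace K) :=
  mixedEmbedding.idealLattice K (FractionalIdeal.mk0 K J)

lemma mem_idLat {J : (Ideal (𝓞 K))⁰} {x : mixedSpace K} :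
    x ∈ idLat K J ↔ ∃ y : 𝓞 K, y ∈ (J : Ideal (𝓞 K)) ∧ mixedEmbedding K (y : K) = x := by
  unfold idLat
  rw [mem_idealLattice]
  constructor
  · rintro ⟨y, hy, rfl⟩
    simp only [FractionalIdeal.coe_mk0, SetLike.mem_coe] at hy
    obtain ⟨z, hz, rfl⟩ := (FractionalIdeal.mem_coeIdeal (𝓞 K)⁰).mp hy
    exact ⟨z, hz, rfl⟩
  · rintro ⟨y, hy, rfl⟩
    refine ⟨(y : K), ?_, rfl⟩
    simp only [FractionalIdeal.coe_mk0, SetLike.mem_coe]
    exact (FractionalIdeal.mem_coeIdeal (𝓞 K)⁰).mpr ⟨y, hy, rfl⟩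

/-- nonzero points of the lattice have norm at least one -/
lemma one_le_norm_of_mem {J : (Ideal (𝓞 K))⁰} (l : mixedSpace K) (hl : l ∈ idLat K J)
    (h0 : l ≠ 0) : 1 ≤ mixedEmbedding.norm l := by
  obtain ⟨y, _, rfl⟩ := (mem_idLat K).mp hl
  rw [norm_mixed]
  have hy : y ≠ 0 := by
    rintro rfl
    exact h0 (by simp)
  have : Ideal.absNorm (Ideal.span {y}) ≠ 0 := by
    rw [Ne, Ideal.absNorm_eq_zero_iff]
    simpa using hy
  exact_mod_cast Nat.one_le_iff_ne_zero.mpr this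

variable {K} in
/-- the chosen generator of `J * I` -/
def gen {c : ClassGroup (𝓞 K)} {J : (Ideal (𝓞 K))⁰} (hJ : ClassGroup.mk0 J = c⁻¹)
    (I : {I : (Ideal (𝓞 K))⁰ // ClassGroup.mk0 I = c}) : 𝓞 K := (exists_gen hJ I).choose

variable {K} in
lemma gen_ne_zero {c : ClassGroup (𝓞 K)} {J : (Ideal (𝓞 K))⁰} (hJ : ClassGroup.mk0 J = c⁻¹)
    (I : {I : (Ideal (𝓞 K))⁰ // ClassGroup.mk0 I = c}) : gen hJ I ≠ 0 :=
  (exists_gen hJ I).choose_spec.1

variable {K} in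
lemma span_gen {c : ClassGroup (𝓞 K)} {J : (Ideal (𝓞 K))⁰} (hJ : ClassGroup.mk0 J = c⁻¹)
    (I : {I : (Ideal (𝓞 K))⁰ // ClassGroup.mk0 I = c}) :
    Ideal.span {gen hJ I} = (J : Ideal (𝓞 K)) * (I.1 : Ideal (𝓞 K)) :=
  (exists_gen hJ I).choose_spec.2

variable {K} in
lemma gen_mem {c : ClassGroup (𝓞 K)} {J : (Ideal (𝓞 K))⁰} (hJ : ClassGroup.mk0 J = c⁻¹)
    (I : {I : (Ideal (𝓞 K))⁰ // ClassGroup.mk0 I = c}) : gen hJ I ∈ (J : Ideal (𝓞 K)) := by
  have h1 : gen hJ I ∈ Ideal.span {gen hJ I} := Ideal.mem_span_singleton_self _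
  have h2 : Ideal.span {gen hJ I} ≤ (J : Ideal (𝓞 K)) := by
    rw [span_gen]
    exact Ideal.mul_le_left
  exact h2 h1

omit [NumberField K] in
lemma smul_mixedEmbedding (u : (𝓞 K)ˣ) (x : 𝓞 K) :
    u • mixedEmbedding K (x : K) = mixedEmbedding K (((u : 𝓞 K) * x : 𝓞 K) : K) := by
  rw [unitSMul_smul, ← _root_.map_mul]
  congr 1

variable {K} in
lemma par_mem {c : ClassGroup (𝓞 K)} {J : (Ideal (𝓞 K))⁰} (hJ : ClassGroup.mk0 J = c⁻¹)
    (I : {I : (Ideal (𝓞 K))⁰ // ClassGroup.mk0 I = c}) (u : (𝓞 K)ˣ) :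
    mixedEmbedding K (((u : 𝓞 K) * gen hJ I : 𝓞 K) : K) ∈ idLat K J :=
  (mem_idLat K).mpr ⟨(u : 𝓞 K) * gen hJ I, Ideal.mul_mem_left _ _ (gen_mem hJ I), rfl⟩

variable {K} in
/-- the parametrisation of the nonzero points of the lattice -/
def par {c : ClassGroup (𝓞 K)} {J : (Ideal (𝓞 K))⁰} (hJ : ClassGroup.mk0 J = c⁻¹)
    (q : {I : (Ideal (𝓞 K))⁰ // ClassGroup.mk0 I = c} × (𝓞 K)ˣ) : idLat K J :=
  ⟨mixedEmbedding K (((q.2 : 𝓞 K) * gen hJ q.1 : 𝓞 K) : K), par_mem hJ q.1 q.2⟩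

variable {K} in
lemma par_coe' {c : ClassGroup (𝓞 K)} {J : (Ideal (𝓞 K))⁰} (hJ : ClassGroup.mk0 J = c⁻¹)
    (I : {I : (Ideal (𝓞 K))⁰ // ClassGroup.mk0 I = c}) (u : (𝓞 K)ˣ) :
    (par hJ (I, u) : mixedSpace K) = mixedEmbedding K (((u : 𝓞 K) * gen hJ I : 𝓞 K) : K) := rfl

variable {K} in
lemma par_coe {c : ClassGroup (𝓞 K)} {J : (Ideal (𝓞 K))⁰} (hJ : ClassGroup.mk0 J = c⁻¹)
    (I : {I : (Ideal (𝓞 K))⁰ // ClassGroup.mk0 I = c}) (u : (𝓞 K)ˣ) :
    (par hJ (I, u) : mixedSpace K) = u • mixedEmbedding K (gen hJ I : K) := by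
  rw [par_coe', smul_mixedEmbedding]

variable {K} in
lemma par_injective {c : ClassGroup (𝓞 K)} {J : (Ideal (𝓞 K))⁰} (hJ : ClassGroup.mk0 J = c⁻¹) :
    Function.Injective (par hJ) := by
  rintro ⟨I, u⟩ ⟨I', u'⟩ h
  have h1 : (u : 𝓞 K) * gen hJ I = (u' : 𝓞 K) * gen hJ I' := by
    have h2 := congrArg (fun z : idLat K J => (z : mixedSpace K)) h
    simp only [par_coe'] at h2
    exact NumberField.RingOfIntegers.coe_injective (mixedEmbedding_injective K h2)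
  have h2 : I = I' := by
    have h3 : Ideal.span {gen hJ I} = Ideal.span {gen hJ I'} := by
      rw [← Ideal.span_singleton_mul_left_unit u.isUnit (gen hJ I), h1,
        Ideal.span_singleton_mul_left_unit u'.isUnit (gen hJ I')]
    rw [span_gen, span_gen] at h3
    have hJ0 : (J : Ideal (𝓞 K)) ≠ 0 := nonZeroDivisors.ne_zero J.2
    exact Subtype.ext (Subtype.ext (mul_left_cancel₀ hJ0 h3))
  subst h2
  have h3 : u = u' := Units.ext (mul_right_cancel₀ (gen_ne_zero hJ I) h1)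
  rw [h3]

variable {K} in
lemma exists_par {c : ClassGroup (𝓞 K)} {J : (Ideal (𝓞 K))⁰} (hJ : ClassGroup.mk0 J = c⁻¹)
    (l : idLat K J) (hl : l ≠ 0) : ∃ q, par hJ q = l := by
  obtain ⟨l, hlm⟩ := l
  obtain ⟨x, hxJ, rfl⟩ := (mem_idLat K).mp hlm
  have hx : x ≠ 0 := by
    rintro rfl
    exact hl (Subtype.ext (by simp))
  have hdvd : (J : Ideal (𝓞 K)) ∣ Ideal.span {x} := by
    rw [Ideal.dvd_span_singleton]; exact hxJ
  obtain ⟨I, hI⟩ := hdvd
  have hI0 : I ≠ 0 := by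
    rintro rfl
    rw [mul_zero] at hI
    have : x ∈ (0 : Ideal (𝓞 K)) := hI ▸ Ideal.mem_span_singleton_self x
    exact hx (by simpa using this)
  set I' : (Ideal (𝓞 K))⁰ := ⟨I, mem_nonZeroDivisors_of_ne_zero hI0⟩ with hI'
  have hc : ClassGroup.mk0 I' = c := by
    have h1 : ClassGroup.mk0 (J * I') = 1 := by
      have h2 : J * I' = ⟨(J : Ideal (𝓞 K)) * I, (J * I').2⟩ := rfl
      rw [h2, ClassGroup.mk0_eq_one_iff, ← hI]
      exact ⟨x, rfl⟩
    rw [_root_.map_mul, hJ, inv_mul_eq_one] at h1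
    exact h1.symm
  have h2 : Ideal.span {gen hJ ⟨I', hc⟩} = Ideal.span {x} := by rw [span_gen, hI]
  obtain ⟨u, hu⟩ := Ideal.span_singleton_eq_span_singleton.mp h2
  refine ⟨(⟨I', hc⟩, u), Subtype.ext ?_⟩
  rw [par_coe', mul_comm, hu]

variable {K} in
/-- The key identity. -/
lemma tsum_ofReal_coneFun {c : ClassGroup (𝓞 K)} {J : (Ideal (𝓞 K))⁰}
    (hJ : ClassGroup.mk0 J = c⁻¹) {s : ℝ} (hs : 0 < s) :
    ∑' l : idLat K J, ENNReal.ofReal (coneFun K s l) =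
      torsionOrder K * ENNReal.ofReal ((Ideal.absNorm (J : Ideal (𝓞 K)) : ℝ) ^ (-s)) *
        ∑' I : {I : (Ideal (𝓞 K))⁰ // ClassGroup.mk0 I = c},
          ENNReal.ofReal ((Ideal.absNorm (I.1 : Ideal (𝓞 K)) : ℝ) ^ (-s)) := by
  have hsupp : Function.support (fun l : idLat K J => ENNReal.ofReal (coneFun K s l)) ⊆
      Set.range (par hJ) := by
    intro l hl
    refine exists_par hJ l ?_
    rintro rfl
    apply hl
    simp [coneFun_zero K hs]
  rw [← (par_injective hJ).tsum_eq hsupp, ENNReal.tsum_prod', ← ENNReal.tsum_mul_left]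
  refine tsum_congr fun I => ?_
  have hnorm : mixedEmbedding.norm (mixedEmbedding K (gen hJ I : K)) =
      (Ideal.absNorm (J : Ideal (𝓞 K)) : ℝ) * (Ideal.absNorm (I.1 : Ideal (𝓞 K)) : ℝ) := by
    rw [norm_mixed, span_gen, map_mul]
    push_cast
    rfl
  have hne : mixedEmbedding.norm (mixedEmbedding K (gen hJ I : K)) ≠ 0 := by
    rw [norm_mixed]
    have : Ideal.absNorm (Ideal.span {gen hJ I}) ≠ 0 := by
      rw [Ne, Ideal.absNorm_eq_zero_iff]
      simpa using gen_ne_zero hJ I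
    exact_mod_cast this
  have h1 : ∀ u : (𝓞 K)ˣ, ENNReal.ofReal (coneFun K s (par hJ (I, u))) =
      ENNReal.ofReal (coneWeight K (u • mixedEmbedding K (gen hJ I : K))) *
        ENNReal.ofReal (((Ideal.absNorm (J : Ideal (𝓞 K)) : ℝ) *
          (Ideal.absNorm (I.1 : Ideal (𝓞 K)) : ℝ)) ^ (-s)) := by
    intro u
    rw [par_coe, coneFun, norm_unit_smul, hnorm, ENNReal.ofReal_mul (coneWeight_nonneg K _)]
  simp only [h1]
  rw [ENNReal.tsum_mul_right, tsum_coneWeight K hne,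
    Real.mul_rpow (Nat.cast_nonneg _) (Nat.cast_nonneg _),
    ENNReal.ofReal_mul (Real.rpow_nonneg (Nat.cast_nonneg _) _), mul_assoc]

/-- the normalising constant -/
def vK : ℝ := (2⁻¹ : ℝ) ^ nrComplexPlaces K * √|(discr K : ℝ)|

lemma vK_pos : 0 < vK K := by
  unfold vK
  have : 0 < |(discr K : ℝ)| := by
    rw [abs_pos]
    exact_mod_cast discr_ne_zero K
  positivity

/-- the common main term of the partial zeta functions -/
def mainTerm (s : ℝ) : ℝ := (torsionOrder K : ℝ)⁻¹ * ((vK K)⁻¹ * ∫ x, truncFun K s 1 x)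

lemma torsionOrder_pos : (0 : ℝ) < torsionOrder K := by
  have := torsionOrder_ne_zero K
  positivity

theorem partialZeta_aux (c : ClassGroup (𝓞 K)) : ∃ C : ℝ, ∀ s : ℝ, 1 < s → s ≤ 2 →
    (Summable fun I : {I : (Ideal (𝓞 K))⁰ // ClassGroup.mk0 I = c} =>
      (Ideal.absNorm (I.1 : Ideal (𝓞 K)) : ℝ) ^ (-s)) ∧
    |∑' I : {I : (Ideal (𝓞 K))⁰ // ClassGroup.mk0 I = c},
      (Ideal.absNorm (I.1 : Ideal (𝓞 K)) : ℝ) ^ (-s) - mainTerm K s| ≤ C := by
  obtain ⟨J, hJ⟩ := ClassGroup.mk0_surjective c⁻¹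
  set N : ℝ := (Ideal.absNorm (J : Ideal (𝓞 K)) : ℝ) with hN
  have hN1 : 1 ≤ N := by
    rw [hN]
    exact_mod_cast Nat.one_le_iff_ne_zero.mpr (Ideal.absNorm_ne_zero_of_nonZeroDivisors J)
  have hcov : ZLattice.covolume (idLat K J) = N * vK K := by
    rw [covolume_idealLattice, FractionalIdeal.coe_mk0, FractionalIdeal.coeIdeal_absNorm, vK, hN]
    push_cast
    ring
  obtain ⟨C, hC⟩ := exists_lattice_bound K (idLat K J)
    (fun l hl h0 => one_le_norm_of_mem K l hl h0) N (vK K) hN1 (vK_pos K) hcov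
  refine ⟨(torsionOrder K : ℝ)⁻¹ * C, fun s hs1 hs2 => ?_⟩
  obtain ⟨hS, hB⟩ := hC s hs1 hs2
  have hs0 : 0 < s := by linarith
  have hw := torsionOrder_pos K
  have hkey := tsum_ofReal_coneFun hJ hs0
  rw [← ENNReal.ofReal_tsum_of_nonneg (f := fun l : idLat K J => coneFun K s l)
    (fun l => coneFun_nonneg K s l) hS, ← hN] at hkey
  have hNs : 0 < N ^ (-s) := by positivity
  set f : {I : (Ideal (𝓞 K))⁰ // ClassGroup.mk0 I = c} → ℝ := fun I =>
    (Ideal.absNorm (I.1 : Ideal (𝓞 K)) : ℝ) ^ (-s) with hf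
  have hf0 : ∀ I, 0 ≤ f I := fun I => Real.rpow_nonneg (Nat.cast_nonneg _) _
  have hfin : ∑' I, ENNReal.ofReal (f I) ≠ ⊤ := by
    intro htop
    rw [htop] at hkey
    have h1 : (torsionOrder K : ENNReal) * ENNReal.ofReal (N ^ (-s)) ≠ 0 := by
      refine mul_ne_zero ?_ ?_
      · exact_mod_cast torsionOrder_ne_zero K
      · rw [Ne, ENNReal.ofReal_eq_zero, not_le]
        exact hNs
    rw [ENNReal.mul_top h1] at hkey
    exact ENNReal.ofReal_ne_top hkey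
  have hfS : Summable f := by
    have h1 : Summable fun I => (ENNReal.ofReal (f I)).toReal := ENNReal.summable_toReal hfin
    refine h1.congr fun I => ?_
    rw [ENNReal.toReal_ofReal (hf0 I)]
  refine ⟨hfS, ?_⟩
  have hreal : ∑' l : idLat K J, coneFun K s l = torsionOrder K * N ^ (-s) * ∑' I, f I := by
    have h1 := congrArg ENNReal.toReal hkey
    rw [ENNReal.toReal_ofReal (tsum_nonneg fun l : idLat K J => coneFun_nonneg K s l),
      ← ENNReal.ofReal_tsum_of_nonneg hf0 hfS, ENNReal.toReal_mul, ENNReal.toReal_mul,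
      ENNReal.toReal_ofReal hNs.le, ENNReal.toReal_ofReal (tsum_nonneg hf0),
      ENNReal.toReal_natCast] at h1
    exact h1
  have e : ∑' I, f I - mainTerm K s = (torsionOrder K : ℝ)⁻¹ *
      (N ^ s * ∑' l : idLat K J, coneFun K s l - (vK K)⁻¹ * ∫ x, truncFun K s 1 x) := by
    rw [hreal, mainTerm, Real.rpow_neg (by linarith)]
    have : N ^ s ≠ 0 := by positivity
    field_simp
  rw [e, abs_mul, abs_of_pos (inv_pos.mpr hw)]
  exact mul_le_mul_of_nonneg_left hB (inv_pos.mpr hw).le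

theorem summable_class (c : ClassGroup (𝓞 K)) {s : ℝ} (hs : 1 < s) :
    Summable fun I : {I : (Ideal (𝓞 K))⁰ // ClassGroup.mk0 I = c} =>
      (Ideal.absNorm (I.1 : Ideal (𝓞 K)) : ℝ) ^ (-s) := by
  obtain ⟨C, hC⟩ := partialZeta_aux K c
  rcases le_total s 2 with h | h
  · exact (hC s hs h).1
  · refine Summable.of_nonneg_of_le (fun I => Real.rpow_nonneg (Nat.cast_nonneg _) _) (fun I => ?_)
      (hC 2 one_lt_two le_rfl).1
    have h1 : (1 : ℝ) ≤ Ideal.absNorm (I.1 : Ideal (𝓞 K)) := by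
      exact_mod_cast Nat.one_le_iff_ne_zero.mpr (Ideal.absNorm_ne_zero_of_nonZeroDivisors I.1)
    exact Real.rpow_le_rpow_of_exponent_le h1 (by linarith)

/-- Decomposition of the sum over ideals into classes: the index equivalence. -/
def classEquiv : (Σ c : ClassGroup (𝓞 K), {I : (Ideal (𝓞 K))⁰ // ClassGroup.mk0 I = c}) ≃
    (Ideal (𝓞 K))⁰ := Equiv.sigmaFiberEquiv ClassGroup.mk0

theorem summable_ideals {s : ℝ} (hs : 1 < s) :
    Summable fun I : (Ideal (𝓞 K))⁰ => (Ideal.absNorm (I : Ideal (𝓞 K)) : ℝ) ^ (-s) := by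
  rw [← (classEquiv K).summable_iff]
  rw [summable_sigma_of_nonneg (f := (fun I : (Ideal (𝓞 K))⁰ =>
    (Ideal.absNorm (I : Ideal (𝓞 K)) : ℝ) ^ (-s)) ∘ classEquiv K)
    (fun x => Real.rpow_nonneg (Nat.cast_nonneg _) _)]
  exact ⟨fun c => summable_class K c hs, (hasSum_fintype _).summable⟩

lemma norm_char (ψ : ClassGroup (𝓞 K) →* ℂˣ) (c : ClassGroup (𝓞 K)) : ‖(ψ c : ℂ)‖ = 1 := by
  refine Complex.norm_eq_one_of_pow_eq_one (n := Fintype.card (ClassGroup (𝓞 K))) ?_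
    Fintype.card_ne_zero
  rw [← Units.val_pow_eq_pow_val, ← _root_.map_pow, pow_card_eq_one, _root_.map_one, Units.val_one]

lemma sum_char {ψ : ClassGroup (𝓞 K) →* ℂˣ} (hψ : ψ ≠ 1) :
    ∑ c : ClassGroup (𝓞 K), (ψ c : ℂ) = 0 := by
  have h := sum_hom_units_eq_zero ((Units.coeHom ℂ).comp ψ) (by
    intro h
    apply hψ
    ext c
    exact DFunLike.congr_fun h c)
  exact h

theorem summable_twisted (ψ : ClassGroup (𝓞 K) →* ℂˣ) {s : ℝ} (hs : 1 < s) :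
    Summable fun I : (Ideal (𝓞 K))⁰ => (ψ (ClassGroup.mk0 I) : ℂ) *
      (((Ideal.absNorm (I : Ideal (𝓞 K)) : ℝ) ^ (-s) : ℝ) : ℂ) := by
  refine Summable.of_norm_bounded (summable_ideals K hs) fun I => ?_
  rw [norm_mul, norm_char, one_mul, Complex.norm_real, Real.norm_of_nonneg
    (Real.rpow_nonneg (Nat.cast_nonneg _) _)]

theorem tsum_twisted (ψ : ClassGroup (𝓞 K) →* ℂˣ) {s : ℝ} (hs : 1 < s) :
    ∑' I : (Ideal (𝓞 K))⁰, (ψ (ClassGroup.mk0 I) : ℂ) *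
      (((Ideal.absNorm (I : Ideal (𝓞 K)) : ℝ) ^ (-s) : ℝ) : ℂ) =
    ∑ c : ClassGroup (𝓞 K), (ψ c : ℂ) *
      ((∑' I : {I : (Ideal (𝓞 K))⁰ // ClassGroup.mk0 I = c},
        (Ideal.absNorm (I.1 : Ideal (𝓞 K)) : ℝ) ^ (-s) : ℝ) : ℂ) := by
  have hsum := (classEquiv K).summable_iff.mpr (summable_twisted K ψ hs)
  rw [← (classEquiv K).tsum_eq]
  refine (Summable.tsum_sigma hsum).trans ?_
  rw [tsum_fintype]
  refine Finset.sum_congr rfl fun c _ => ?_
  rw [Complex.ofReal_tsum, ← tsum_mul_left]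
  refine tsum_congr fun I => ?_
  have : ClassGroup.mk0 I.1 = c := I.2
  change (ψ (ClassGroup.mk0 I.1) : ℂ) *
      (((Ideal.absNorm (I.1 : Ideal (𝓞 K)) : ℝ) ^ (-s) : ℝ) : ℂ) = _
  rw [this]

end Fermat.Agent.EXT.PartialZeta

namespace Fermat.Agent.EXT

open PartialZeta

/-- The partial zeta functions of the ideal classes differ by a bounded amount on `(1, 2]`. -/
theorem partialZeta_sub_bounded (K : Type*) [Field K] [NumberField K] :
    ∃ (F : ℝ → ℝ) (C : ℝ), ∀ (c : ClassGroup (𝓞 K)) (s : ℝ), 1 < s → s ≤ 2 →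
      |∑' I : {I : (Ideal (𝓞 K))⁰ // ClassGroup.mk0 I = c},
        (Ideal.absNorm (I.1 : Ideal (𝓞 K)) : ℝ) ^ (-s) - F s| ≤ C := by
  choose C hC using partialZeta_aux K
  refine ⟨mainTerm K, ∑ c, |C c|, fun c s hs1 hs2 => ?_⟩
  refine ((hC c s hs1 hs2).2.trans (le_abs_self _)).trans ?_
  exact Finset.single_le_sum (f := fun c => |C c|) (fun c _ => abs_nonneg _) (Finset.mem_univ c)

/-- Summability of the Dedekind zeta series, indexed by the nonzero ideals. -/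
theorem summable_absNorm_rpow (K : Type*) [Field K] [NumberField K] {s : ℝ} (hs : 1 < s) :
    Summable fun I : (Ideal (𝓞 K))⁰ => (Ideal.absNorm (I : Ideal (𝓞 K)) : ℝ) ^ (-s) :=
  summable_ideals K hs

/-- Summability of the `L`-series of a class group character. -/
theorem summable_classLSeries (K : Type*) [Field K] [NumberField K]
    (ψ : ClassGroup (𝓞 K) →* ℂˣ) {s : ℝ} (hs : 1 < s) :
    Summable fun I : (Ideal (𝓞 K))⁰ => (ψ (ClassGroup.mk0 I) : ℂ) *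
      (((Ideal.absNorm (I : Ideal (𝓞 K)) : ℝ) ^ (-s) : ℝ) : ℂ) :=
  summable_twisted K ψ hs

/-- The `L`-series of a nontrivial class group character is bounded on `(1, 2]`. -/
theorem classLSeries_bounded (K : Type*) [Field K] [NumberField K]
    (ψ : ClassGroup (𝓞 K) →* ℂˣ) (hψ : ψ ≠ 1) : ∃ C : ℝ, ∀ s : ℝ, 1 < s → s ≤ 2 →
      ‖∑' I : (Ideal (𝓞 K))⁰, (ψ (ClassGroup.mk0 I) : ℂ) *
        (((Ideal.absNorm (I : Ideal (𝓞 K)) : ℝ) ^ (-s) : ℝ) : ℂ)‖ ≤ C := by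
  obtain ⟨F, C, hC⟩ := partialZeta_sub_bounded K
  refine ⟨Fintype.card (ClassGroup (𝓞 K)) * C, fun s hs1 hs2 => ?_⟩
  rw [tsum_twisted K ψ hs1]
  have e : ∑ c : ClassGroup (𝓞 K), (ψ c : ℂ) *
      ((∑' I : {I : (Ideal (𝓞 K))⁰ // ClassGroup.mk0 I = c},
        (Ideal.absNorm (I.1 : Ideal (𝓞 K)) : ℝ) ^ (-s) : ℝ) : ℂ) =
      ∑ c : ClassGroup (𝓞 K), (ψ c : ℂ) *
      ((∑' I : {I : (Ideal (𝓞 K))⁰ // ClassGroup.mk0 I = c},
        (Ideal.absNorm (I.1 : Ideal (𝓞 K)) : ℝ) ^ (-s) - F s : ℝ) : ℂ) := by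
    have h0 : ∑ c : ClassGroup (𝓞 K), (ψ c : ℂ) * ((F s : ℝ) : ℂ) = 0 := by
      rw [← Finset.sum_mul, sum_char K hψ, zero_mul]
    rw [← sub_zero (∑ c : ClassGroup (𝓞 K), (ψ c : ℂ) *
      ((∑' I : {I : (Ideal (𝓞 K))⁰ // ClassGroup.mk0 I = c},
        (Ideal.absNorm (I.1 : Ideal (𝓞 K)) : ℝ) ^ (-s) : ℝ) : ℂ)), ← h0,
      ← Finset.sum_sub_distrib]
    refine Finset.sum_congr rfl fun c _ => ?_
    rw [Complex.ofReal_sub, mul_sub]
  rw [e]
  refine (norm_sum_le _ _).trans ?_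
  have : ∀ c ∈ (Finset.univ : Finset (ClassGroup (𝓞 K))), ‖(ψ c : ℂ) *
      ((∑' I : {I : (Ideal (𝓞 K))⁰ // ClassGroup.mk0 I = c},
        (Ideal.absNorm (I.1 : Ideal (𝓞 K)) : ℝ) ^ (-s) - F s : ℝ) : ℂ)‖ ≤ C := by
    intro c _
    rw [norm_mul, norm_char, one_mul, Complex.norm_real, Real.norm_eq_abs]
    exact hC c s hs1 hs2
  refine (Finset.sum_le_sum this).trans ?_
  rw [Finset.sum_const, Finset.card_univ, nsmul_eq_mul]

end Fermat.Agent.EXT

end
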