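import Fermat.Agent.EXT.TwistedEuler

/-!
# Class group characters and completely split primes (EXT, piece C2)

Main theorem `class_char_split`: if `ψ` is a nontrivial class group character of `K`, `M/K` is an
extension such that (outside a finite set) every prime `v` of prime norm with `ψ(v) ≠ 1` has
`p ≥ 3` primes of the same norm above it in `M`, then we get a contradiction.
The boundedness of `L(s, ψ)` for `1 < s ≤ 2` is taken as a hypothesis `ClassLBounded K ψ`.
-/

set_option autoImplicit false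

noncomputable section

namespace Fermat.Agent.EXT

open NumberField IsDedekindDomain nonZeroDivisors Filter Topology
open Fermat.Agent.DedekindEuler Fermat.Agent.EXT.TwistedEuler

/-- The class group `L`-series of `ψ` is bounded on `(1, 2]`. -/
def ClassLBounded (K : Type*) [Field K] [NumberField K] (ψ : ClassGroup (𝓞 K) →* ℂˣ) : Prop :=
  ∃ C : ℝ, ∀ s : ℝ, 1 < s → s ≤ 2 → ‖∑' I : (Ideal (𝓞 K))⁰, (ψ (ClassGroup.mk0 I) : ℂ) *
    (((Ideal.absNorm (I : Ideal (𝓞 K)) : ℝ) ^ (-s) : ℝ) : ℂ)‖ ≤ C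

section

variable {K : Type*} [Field K] [NumberField K]

/-- the function on ideals attached to a class group character. -/
def charFun (ψ : ClassGroup (𝓞 K) →* ℂˣ) : (Ideal (𝓞 K))⁰ →* ℂ :=
  (Units.coeHom ℂ).comp (ψ.comp ClassGroup.mk0)

lemma charFun_apply (ψ : ClassGroup (𝓞 K) →* ℂˣ) (I : (Ideal (𝓞 K))⁰) :
    charFun ψ I = (ψ (ClassGroup.mk0 I) : ℂ) := rfl

lemma norm_char_eq_one (ψ : ClassGroup (𝓞 K) →* ℂˣ) (c : ClassGroup (𝓞 K)) :
    ‖(ψ c : ℂ)‖ = 1 := by
  have h1 : (ψ c : ℂ) ^ Fintype.card (ClassGroup (𝓞 K)) = 1 := by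
    rw [← Units.val_pow_eq_pow_val, ← map_pow, pow_card_eq_one, map_one, Units.val_one]
  exact Complex.norm_eq_one_of_pow_eq_one h1 Fintype.card_ne_zero

lemma norm_charFun_le (ψ : ClassGroup (𝓞 K) →* ℂˣ) (I : (Ideal (𝓞 K))⁰) :
    ‖charFun ψ I‖ ≤ 1 := by rw [charFun_apply, norm_char_eq_one]

lemma prI_eq_hosIdeal (v : HeightOneSpectrum (𝓞 K)) : prI v = hosIdeal v := rfl

variable (K) in
/-- `∑_v N v ^ (-s) = log (1 / (s - 1)) + O(1)` on `(1, 2]`. -/
theorem primeSum_sub_log_bounded :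
    ∃ C : ℝ, ∀ s : ℝ, 1 < s → s ≤ 2 →
      |∑' v : HeightOneSpectrum (𝓞 K), (Ideal.absNorm v.asIdeal : ℝ) ^ (-s) -
        Real.log (1 / (s - 1))| ≤ C := by
  obtain ⟨C, hC⟩ := exists_abs_tsum_sub_log_le K
  obtain ⟨b, hb1, hb⟩ := (mem_nhdsGT_iff_exists_Ioo_subset (a := (1 : ℝ))).mp hC
  have hb1' : (1 : ℝ) < b := hb1
  set t := (1 + b) / 2 with ht
  have ht1 : 1 < t := by rw [ht]; linarith
  have htb : t < b := by rw [ht]; linarith
  have hsum := summable_x (K := K) ht1
  have hnn := tsum_x_nonneg (K := K) t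
  refine ⟨max C (∑' v : HeightOneSpectrum (𝓞 K), x t v + |Real.log (t - 1)|), fun s hs1 hs2 => ?_⟩
  by_cases hsb : s < b
  · exact (hb ⟨hs1, hsb⟩ : _).trans (le_max_left _ _)
  · refine le_trans ?_ (le_max_right _ _)
    have hts : t ≤ s := by linarith
    have h1 : ∑' v : HeightOneSpectrum (𝓞 K), x s v ≤ ∑' v : HeightOneSpectrum (𝓞 K), x t v :=
      (summable_x hs1).tsum_le_tsum (fun v => x_anti hts v) hsum
    have h2 := tsum_x_nonneg (K := K) s
    have h3 : Real.log (1 / (s - 1)) = -Real.log (s - 1) := by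
      rw [one_div, Real.log_inv]
    have h4 : Real.log (t - 1) ≤ Real.log (s - 1) := Real.log_le_log (by linarith) (by linarith)
    have h5 : Real.log (s - 1) ≤ 0 := Real.log_nonpos (by linarith) (by linarith)
    change |∑' v : HeightOneSpectrum (𝓞 K), x s v - Real.log (1 / (s - 1))| ≤ _
    rw [h3, abs_le]
    have h6 := neg_abs_le (Real.log (t - 1))
    have h7 := abs_nonneg (Real.log (t - 1))
    constructor <;> linarith

/-- `∑_v Re ψ(v) N v ^ (-s)` is bounded above on `(1, 2]` if `L(s, ψ)` is bounded. -/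
theorem primeSum_char_re_le (ψ : ClassGroup (𝓞 K) →* ℂˣ) (hL : ClassLBounded K ψ) :
    ∃ C : ℝ, ∀ s : ℝ, 1 < s → s ≤ 2 →
      ∑' v : HeightOneSpectrum (𝓞 K), (ψ (ClassGroup.mk0 (hosIdeal v)) : ℂ).re *
        (Ideal.absNorm v.asIdeal : ℝ) ^ (-s) ≤ C := by
  obtain ⟨C, hC⟩ := hL
  refine ⟨Real.log C + ∑' v : HeightOneSpectrum (𝓞 K), x 2 v, fun s hs1 hs2 => ?_⟩
  have h1 := abs_log_norm_sub_le (charFun ψ) (norm_charFun_le ψ) hs1
  have h2 : ‖L (charFun ψ) s‖ ≤ C := hC s hs1 hs2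
  have h3 : Real.log ‖L (charFun ψ) s‖ ≤ Real.log C :=
    Real.log_le_log (norm_pos_iff.mpr (L_ne_zero _ (norm_charFun_le ψ) hs1)) h2
  have h4 := (abs_le.mp h1).1
  change ∑' v : HeightOneSpectrum (𝓞 K), (charFun ψ (prI v)).re * x s v ≤ _
  linarith

/-- lower bound for the sum over the primes with `ψ(v) ≠ 1`. -/
theorem primeSum_ne_one_ge (ψ : ClassGroup (𝓞 K) →* ℂˣ) (hL : ClassLBounded K ψ) :
    ∃ C : ℝ, ∀ s : ℝ, 1 < s → s ≤ 2 →
      Real.log (1 / (s - 1)) - C ≤ 2 * ∑' v : HeightOneSpectrum (𝓞 K),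
        {v | ψ (ClassGroup.mk0 (hosIdeal v)) ≠ 1}.indicator (x s) v := by
  obtain ⟨C₁, h₁⟩ := primeSum_sub_log_bounded K
  obtain ⟨C₂, h₂⟩ := primeSum_char_re_le ψ hL
  refine ⟨C₁ + C₂, fun s hs1 hs2 => ?_⟩
  have h3 := (abs_le.mp (h₁ s hs1 hs2)).1
  have h4 := h₂ s hs1 hs2
  have hs := summable_x (K := K) hs1
  have hre := summable_re (charFun ψ) (norm_charFun_le ψ) hs1
  have hind := summable_indicator (K := K) hs1 {v | ψ (ClassGroup.mk0 (hosIdeal v)) ≠ 1}
  have h5 : ∑' v : HeightOneSpectrum (𝓞 K), (x s v - (charFun ψ (prI v)).re * x s v) ≤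
      ∑' v : HeightOneSpectrum (𝓞 K), 2 *
        {v | ψ (ClassGroup.mk0 (hosIdeal v)) ≠ 1}.indicator (x s) v := by
    refine (hs.sub hre).tsum_le_tsum (fun v => ?_) (hind.mul_left 2)
    by_cases hv : ψ (ClassGroup.mk0 (hosIdeal v)) = 1
    · rw [Set.indicator_of_notMem (by simpa using hv), charFun_apply, prI_eq_hosIdeal, hv]
      simp
    · rw [Set.indicator_of_mem (by simpa using hv)]
      have h6 : -1 ≤ (charFun ψ (prI v)).re := by
        have h7 := (abs_le.mp (Complex.abs_re_le_norm (charFun ψ (prI v)))).1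
        have h8 := norm_charFun_le ψ (prI v)
        linarith
      have h9 := x_nonneg (K := K) s v
      nlinarith
  rw [hs.tsum_sub hre, tsum_mul_left] at h5
  change ∑' v : HeightOneSpectrum (𝓞 K), (charFun ψ (prI v)).re * x s v ≤ C₂ at h4
  change -C₁ ≤ ∑' v : HeightOneSpectrum (𝓞 K), x s v - Real.log (1 / (s - 1)) at h3
  linarith

end

/-- **Main theorem of piece C2.** -/
theorem class_char_split_of_bounded (K M : Type*) [Field K] [NumberField K] [Field M]
    [NumberField M] [Algebra K M] (p : ℕ) (hp : 3 ≤ p) (ψ : ClassGroup (𝓞 K) →* ℂˣ)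
    (hL : ClassLBounded K ψ) (T : Set (HeightOneSpectrum (𝓞 K))) (hT : T.Finite)
    (hsplit : ∀ v, v ∉ T → (Ideal.absNorm v.asIdeal).Prime →
      ψ (ClassGroup.mk0 (hosIdeal v)) ≠ 1 →
      ∃ S : Finset (HeightOneSpectrum (𝓞 M)), S.card = p ∧ ∀ w ∈ S,
        w.asIdeal.under (𝓞 K) = v.asIdeal ∧
        Ideal.absNorm w.asIdeal = Ideal.absNorm v.asIdeal) : False := by
  classical
  obtain ⟨C₁, h₁⟩ := primeSum_ne_one_ge ψ hL
  obtain ⟨C₂, h₂⟩ := primeSum_sub_log_bounded M
  set B : Finset ℕ := hT.toFinset.image (fun v => Ideal.absNorm v.asIdeal) with hB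
  obtain ⟨C₃, h₃⟩ := sum_compl_le (K := K) B
  set D : Set (HeightOneSpectrum (𝓞 K)) := {v | ψ (ClassGroup.mk0 (hosIdeal v)) ≠ 1} with hD
  -- the sets `S_v`
  have hex : ∀ v : HeightOneSpectrum (𝓞 K), ∃ S : Finset (HeightOneSpectrum (𝓞 M)),
      v ∈ goodSet K B ∩ D → S.card = p ∧ ∀ w ∈ S, w.asIdeal.under (𝓞 K) = v.asIdeal ∧
        Ideal.absNorm w.asIdeal = Ideal.absNorm v.asIdeal := by
    intro v
    by_cases hv : v ∈ goodSet K B ∩ D
    · have hvT : v ∉ T := fun h => hv.1.2 (by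
        rw [hB]
        exact Finset.mem_image_of_mem _ (by simpa using h))
      obtain ⟨S, hS⟩ := hsplit v hvT hv.1.1 hv.2
      exact ⟨S, fun _ => hS⟩
    · exact ⟨∅, fun h => absurd h hv⟩
  choose S hS using hex
  -- comparison of the sum over split primes with the sum over the primes of `M`
  have hcomp : ∀ s : ℝ, 1 < s → (p : ℝ) * ∑' v : HeightOneSpectrum (𝓞 K),
      (goodSet K B ∩ D).indicator (x s) v ≤ ∑' w : HeightOneSpectrum (𝓞 M), x s w := by
    intro s hs
    rw [← tsum_mul_left]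
    refine ((summable_indicator hs _).mul_left _).tsum_le_of_sum_le fun F => ?_
    have e1 : ∑ v ∈ F, (p : ℝ) * (goodSet K B ∩ D).indicator (x s) v =
        ∑ v ∈ F.filter (· ∈ goodSet K B ∩ D), ∑ w ∈ S v, x s w := by
      rw [Finset.sum_filter]
      refine Finset.sum_congr rfl fun v _ => ?_
      split_ifs with hv
      · rw [Set.indicator_of_mem hv, ← (hS v hv).1, ← nsmul_eq_mul, ← Finset.sum_const]
        refine Finset.sum_congr rfl fun w hw => ?_
        unfold x
        rw [((hS v hv).2 w hw).2]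
      · rw [Set.indicator_of_notMem hv, mul_zero]
    rw [e1, ← Finset.sum_biUnion]
    · exact (summable_x hs).sum_le_tsum _ fun w _ => x_nonneg s w
    · intro v hv v' hv' hne
      rw [Function.onFun, Finset.disjoint_left]
      intro w hw hw'
      have hv1 := (Finset.mem_filter.mp (Finset.mem_coe.mp hv)).2
      have hv2 := (Finset.mem_filter.mp (Finset.mem_coe.mp hv')).2
      apply hne
      apply HeightOneSpectrum.ext
      rw [← ((hS v hv1).2 w hw).1, ← ((hS v' hv2).2 w hw').1]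
  -- the final inequality
  have hfinal : ∀ s : ℝ, 1 < s → s ≤ 2 →
      Real.log (1 / (s - 1)) ≤ 3 * (C₁ + 2 * C₃) + 2 * C₂ := by
    intro s hs1 hs2
    have i1 := h₁ s hs1 hs2
    have i2 := (abs_le.mp (h₂ s hs1 hs2)).2
    change ∑' w : HeightOneSpectrum (𝓞 M), x s w - Real.log (1 / (s - 1)) ≤ C₂ at i2
    have i3 := hcomp s hs1
    have i4 : ∑' v : HeightOneSpectrum (𝓞 K), (goodSet K B)ᶜ.indicator (x s) v ≤ C₃ :=
      (summable_indicator hs1 _).tsum_le_of_sum_le fun F => h₃ s hs1.le F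
    have i5 : ∑' v : HeightOneSpectrum (𝓞 K), D.indicator (x s) v ≤
        ∑' v : HeightOneSpectrum (𝓞 K), (goodSet K B)ᶜ.indicator (x s) v +
        ∑' v : HeightOneSpectrum (𝓞 K), (goodSet K B ∩ D).indicator (x s) v := by
      rw [← (summable_indicator hs1 _).tsum_add (summable_indicator hs1 _)]
      refine (summable_indicator hs1 _).tsum_le_tsum (fun v => ?_)
        ((summable_indicator hs1 _).add (summable_indicator hs1 _))
      have hx := x_nonneg (K := K) s v
      by_cases hv : v ∈ D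
      · rw [Set.indicator_of_mem hv]
        by_cases hg : v ∈ goodSet K B
        · rw [Set.indicator_of_notMem (by simpa using hg), Set.indicator_of_mem
            (show v ∈ goodSet K B ∩ D from ⟨hg, hv⟩), zero_add]
        · rw [Set.indicator_of_mem (by simpa using hg), Set.indicator_of_notMem (fun h => hg h.1),
            add_zero]
      · rw [Set.indicator_of_notMem hv]
        exact add_nonneg (Set.indicator_nonneg (fun v _ => x_nonneg s v) v)
          (Set.indicator_nonneg (fun v _ => x_nonneg s v) v)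
    have i6 : 0 ≤ ∑' v : HeightOneSpectrum (𝓞 K), (goodSet K B ∩ D).indicator (x s) v :=
      tsum_nonneg fun v => Set.indicator_nonneg (fun v _ => x_nonneg s v) v
    have i7 : (3 : ℝ) ≤ p := by exact_mod_cast hp
    have i8 : 0 ≤ ∑' v : HeightOneSpectrum (𝓞 K), (goodSet K B)ᶜ.indicator (x s) v :=
      tsum_nonneg fun v => Set.indicator_nonneg (fun v _ => x_nonneg s v) v
    have i9 : 3 * ∑' v : HeightOneSpectrum (𝓞 K), (goodSet K B ∩ D).indicator (x s) v ≤
        ∑' w : HeightOneSpectrum (𝓞 M), x s w :=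
      (mul_le_mul_of_nonneg_right i7 i6).trans i3
    linarith
  -- contradiction as `s → 1+`
  set c := 3 * (C₁ + 2 * C₃) + 2 * C₂ with hc
  have hpos := Real.exp_pos (-(|c| + 1))
  have hle : Real.exp (-(|c| + 1)) ≤ 1 := Real.exp_le_one_iff.mpr (by
    have := abs_nonneg c
    linarith)
  have h := hfinal (1 + Real.exp (-(|c| + 1))) (by linarith) (by linarith)
  rw [add_sub_cancel_left, one_div, ← Real.exp_neg, Real.log_exp, neg_neg] at h
  have := le_abs_self c
  linarith

end Fermat.Agent.EXT
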