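import Mathlib

set_option autoImplicit false

namespace Fermat.Agent.EXT

/-- Truncated polynomials `a + b t + c t²`, `t³ = 0`. -/
@[ext] structure T3 (R : Type*) where
  a : R
  b : R
  c : R

namespace T3

variable {R : Type*} [CommRing R]

instance : Zero (T3 R) := ⟨⟨0, 0, 0⟩⟩
instance : One (T3 R) := ⟨⟨1, 0, 0⟩⟩
instance : Add (T3 R) := ⟨fun x y => ⟨x.a + y.a, x.b + y.b, x.c + y.c⟩⟩
instance : Neg (T3 R) := ⟨fun x => ⟨-x.a, -x.b, -x.c⟩⟩
instance : Sub (T3 R) := ⟨fun x y => ⟨x.a - y.a, x.b - y.b, x.c - y.c⟩⟩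
instance : Mul (T3 R) := ⟨fun x y => ⟨x.a * y.a, x.a * y.b + x.b * y.a,
  x.a * y.c + x.b * y.b + x.c * y.a⟩⟩

@[simp] lemma zero_a : (0 : T3 R).a = 0 := rfl
@[simp] lemma zero_b : (0 : T3 R).b = 0 := rfl
@[simp] lemma zero_c : (0 : T3 R).c = 0 := rfl
@[simp] lemma one_a : (1 : T3 R).a = 1 := rfl
@[simp] lemma one_b : (1 : T3 R).b = 0 := rfl
@[simp] lemma one_c : (1 : T3 R).c = 0 := rfl
@[simp] lemma add_a (x y : T3 R) : (x + y).a = x.a + y.a := rfl
@[simp] lemma add_b (x y : T3 R) : (x + y).b = x.b + y.b := rfl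
@[simp] lemma add_c (x y : T3 R) : (x + y).c = x.c + y.c := rfl
@[simp] lemma neg_a (x : T3 R) : (-x).a = -x.a := rfl
@[simp] lemma neg_b (x : T3 R) : (-x).b = -x.b := rfl
@[simp] lemma neg_c (x : T3 R) : (-x).c = -x.c := rfl
@[simp] lemma sub_a (x y : T3 R) : (x - y).a = x.a - y.a := rfl
@[simp] lemma sub_b (x y : T3 R) : (x - y).b = x.b - y.b := rfl
@[simp] lemma sub_c (x y : T3 R) : (x - y).c = x.c - y.c := rfl
@[simp] lemma mul_a (x y : T3 R) : (x * y).a = x.a * y.a := rfl
@[simp] lemma mul_b (x y : T3 R) : (x * y).b = x.a * y.b + x.b * y.a := rfl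
@[simp] lemma mul_c (x y : T3 R) : (x * y).c = x.a * y.c + x.b * y.b + x.c * y.a := rfl

instance : CommRing (T3 R) where
  add_assoc x y z := by ext <;> simp [add_assoc]
  zero_add x := by ext <;> simp
  add_zero x := by ext <;> simp
  add_comm x y := by ext <;> simp [add_comm]
  left_distrib x y z := by ext <;> simp <;> ring
  right_distrib x y z := by ext <;> simp <;> ring
  zero_mul x := by ext <;> simp
  mul_zero x := by ext <;> simp
  mul_assoc x y z := by ext <;> simp <;> ring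
  one_mul x := by ext <;> simp
  mul_one x := by ext <;> simp
  neg_add_cancel x := by ext <;> simp
  sub_eq_add_neg x y := by ext <;> simp [sub_eq_add_neg]
  mul_comm x y := by ext <;> simp <;> ring
  nsmul := nsmulRec
  zsmul := zsmulRec

/-- The inclusion of constants. -/
def C : R →+* T3 R where
  toFun r := ⟨r, 0, 0⟩
  map_one' := rfl
  map_mul' x y := by ext <;> simp
  map_zero' := rfl
  map_add' x y := by ext <;> simp

@[simp] lemma C_a (r : R) : (C r).a = r := rfl
@[simp] lemma C_b (r : R) : (C r).b = 0 := rfl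
@[simp] lemma C_c (r : R) : (C r).c = 0 := rfl

lemma natCast_eq (n : ℕ) : (n : T3 R) = ⟨n, 0, 0⟩ := by
  rw [← map_natCast (C : R →+* T3 R) n]; rfl

instance (p : ℕ) [CharP R p] : CharP (T3 R) p where
  cast_eq_zero_iff n := by
    rw [natCast_eq]
    constructor
    · intro h
      exact (CharP.cast_eq_zero_iff R p n).mp (congrArg T3.a h)
    · intro h
      ext
      · exact (CharP.cast_eq_zero_iff R p n).mpr h
      · rfl
      · rfl

/-- The nilpotent generator. -/
def t : T3 R := ⟨0, 1, 0⟩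

@[simp] lemma t_a : (t : T3 R).a = 0 := rfl
@[simp] lemma t_b : (t : T3 R).b = 1 := rfl
@[simp] lemma t_c : (t : T3 R).c = 0 := rfl

lemma t_pow_three : (t : T3 R) ^ 3 = 0 := by
  ext <;> simp [pow_succ]

lemma t_pow {n : ℕ} (hn : 3 ≤ n) : (t : T3 R) ^ n = 0 := by
  obtain ⟨k, rfl⟩ := Nat.exists_eq_add_of_le hn
  rw [pow_add, t_pow_three, zero_mul]

/-- `p`-th powers are constant. -/
lemma pow_char {p : ℕ} [Fact p.Prime] [CharP R p] (h3 : 3 ≤ p) (x : T3 R) :
    x ^ p = C (x.a ^ p) := by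
  have hx : x = C x.a + t * ⟨x.b, x.c, 0⟩ := by
    ext <;> simp
  conv_lhs => rw [hx]
  rw [add_pow_char, mul_pow, t_pow h3, zero_mul, add_zero, map_pow]

section Field

variable {F : Type*} [Field F]

/-- first log coordinate -/
def l1 (x : T3 F) : F := x.b / x.a
/-- second log coordinate -/
def l2 (x : T3 F) : F := x.c / x.a - (x.b / x.a) ^ 2 / 2

lemma l1_mul (x y : T3 F) (hx : x.a ≠ 0) (hy : y.a ≠ 0) : l1 (x * y) = l1 x + l1 y := by
  simp only [l1, mul_a, mul_b]
  field_simp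
  ring

lemma l2_mul (h2 : (2 : F) ≠ 0) (x y : T3 F) (hx : x.a ≠ 0) (hy : y.a ≠ 0) :
    l2 (x * y) = l2 x + l2 y := by
  simp only [l2, mul_a, mul_b, mul_c]
  field_simp
  ring

lemma pow_a (x : T3 F) (n : ℕ) : (x ^ n).a = x.a ^ n := by
  induction n with
  | zero => simp
  | succ n ih => rw [pow_succ, pow_succ, mul_a, ih]

lemma l1_pow (x : T3 F) (hx : x.a ≠ 0) (n : ℕ) : l1 (x ^ n) = n * l1 x := by
  induction n with
  | zero => simp [l1]
  | succ n ih =>
    rw [pow_succ, l1_mul _ _ (by rw [pow_a]; exact pow_ne_zero _ hx) hx, ih]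
    push_cast; ring

lemma l2_pow (h2 : (2 : F) ≠ 0) (x : T3 F) (hx : x.a ≠ 0) (n : ℕ) : l2 (x ^ n) = n * l2 x := by
  induction n with
  | zero => simp [l2]
  | succ n ih =>
    rw [pow_succ, l2_mul h2 _ _ (by rw [pow_a]; exact pow_ne_zero _ hx) hx, ih]
    push_cast; ring

lemma prod_a {ι : Type*} (s : Finset ι) (f : ι → T3 F) : (∏ i ∈ s, f i).a = ∏ i ∈ s, (f i).a := by
  classical
  induction s using Finset.induction_on with
  | empty => simp
  | insert i s hi ih => rw [Finset.prod_insert hi, Finset.prod_insert hi, mul_a, ih]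

lemma l1_prod {ι : Type*} (s : Finset ι) (f : ι → T3 F) (hf : ∀ i ∈ s, (f i).a ≠ 0) :
    l1 (∏ i ∈ s, f i) = ∑ i ∈ s, l1 (f i) := by
  classical
  induction s using Finset.induction_on with
  | empty => simp [l1]
  | insert i s hi ih =>
    rw [Finset.prod_insert hi, Finset.sum_insert hi, l1_mul, ih]
    · exact fun j hj => hf j (Finset.mem_insert_of_mem hj)
    · exact hf i (Finset.mem_insert_self _ _)
    · rw [prod_a]
      exact Finset.prod_ne_zero_iff.mpr fun j hj => hf j (Finset.mem_insert_of_mem hj)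

lemma l2_prod (h2 : (2 : F) ≠ 0) {ι : Type*} (s : Finset ι) (f : ι → T3 F)
    (hf : ∀ i ∈ s, (f i).a ≠ 0) :
    l2 (∏ i ∈ s, f i) = ∑ i ∈ s, l2 (f i) := by
  classical
  induction s using Finset.induction_on with
  | empty => simp [l2]
  | insert i s hi ih =>
    rw [Finset.prod_insert hi, Finset.sum_insert hi, l2_mul h2, ih]
    · exact fun j hj => hf j (Finset.mem_insert_of_mem hj)
    · exact hf i (Finset.mem_insert_self _ _)
    · rw [prod_a]
      exact Finset.prod_ne_zero_iff.mpr fun j hj => hf j (Finset.mem_insert_of_mem hj)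

lemma l1_C (r : F) : l1 (C r) = 0 := by simp [l1]
lemma l2_C (r : F) : l2 (C r) = 0 := by simp [l2]

/-- `(1+t)^n` -/
lemma one_add_t_pow (n : ℕ) : ((1 + t : T3 F)) ^ n = ⟨1, n, (n.choose 2 : ℕ)⟩ := by
  induction n with
  | zero => ext <;> simp
  | succ n ih =>
    rw [pow_succ, ih]
    ext
    · simp
    · simp [add_comm]
    · simp [Nat.choose_succ_succ]

lemma geom_sum (n : ℕ) : ∑ j ∈ Finset.range n, ((1 + t : T3 F)) ^ j =
    ⟨n, (n.choose 2 : ℕ), (n.choose 3 : ℕ)⟩ := by
  induction n with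
  | zero => ext <;> simp
  | succ n ih =>
    rw [Finset.sum_range_succ, ih, one_add_t_pow]
    ext
    · simp
    · simp [Nat.choose_succ_succ]
      ring
    · simp [Nat.choose_succ_succ]
      ring

end Field

end T3

end Fermat.Agent.EXT
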