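import Mathlib
import Fermat.Agent.EXT.T3

set_option autoImplicit false

namespace Fermat.Agent.EXT

open NumberField Polynomial

variable {p : ℕ} [hp : Fact p.Prime] {K : Type*} [Field K] [NumberField K]
  [IsCyclotomicExtension {p} ℚ K] {ζ : K} (hζ : IsPrimitiveRoot ζ p)

lemma cyclotomic_T3 (h5 : 5 ≤ p) :
    aeval (1 + T3.t : T3 (ZMod p)) (minpoly ℤ hζ.integralPowerBasis.gen) = 0 := by
  have h1 : minpoly ℤ hζ.integralPowerBasis.gen = cyclotomic p ℤ := by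
    rw [IsPrimitiveRoot.integralPowerBasis_gen]
    rw [cyclotomic_eq_minpoly hζ hp.out.pos]
    exact (NumberField.RingOfIntegers.minpoly_coe hζ.toInteger).symm
  rw [h1, aeval_def, ← eval_map, map_cyclotomic]
  have h3 : cyclotomic (1 * p) (T3 (ZMod p)) = cyclotomic 1 (T3 (ZMod p)) ^ (p - 1) :=
    cyclotomic_mul_prime_eq_pow_of_not_dvd _ (by
      intro h
      exact hp.out.one_lt.ne' (Nat.dvd_one.mp h))
  rw [one_mul] at h3
  rw [h3, cyclotomic_one, eval_pow, eval_sub, eval_X, eval_one, add_sub_cancel_left,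
    T3.t_pow (by omega)]

/-- reduction modulo `(ζ-1)^3`. -/
noncomputable def rho (h5 : 5 ≤ p) : 𝓞 K →+* T3 (ZMod p) :=
  (hζ.integralPowerBasis.lift (1 + T3.t : T3 (ZMod p)) (cyclotomic_T3 hζ h5)).toRingHom

lemma rho_zeta (h5 : 5 ≤ p) : rho hζ h5 hζ.toInteger = 1 + T3.t := by
  have := hζ.integralPowerBasis.lift_gen (1 + T3.t : T3 (ZMod p)) (cyclotomic_T3 hζ h5)
  rw [IsPrimitiveRoot.integralPowerBasis_gen] at this
  exact this

/-- the cyclotomic unit in the `ω²` eigenspace. -/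
noncomputable def cycUnit (m : ℕ → ℕ) : 𝓞 K :=
  ∏ a ∈ Finset.Ico 1 p, (∑ j ∈ Finset.range a, hζ.toInteger ^ j) ^ (m a)

lemma rho_cycUnit (h5 : 5 ≤ p) (m : ℕ → ℕ) : rho hζ h5 (cycUnit hζ m) =
    ∏ a ∈ Finset.Ico 1 p, (⟨a, (a.choose 2 : ℕ), (a.choose 3 : ℕ)⟩ : T3 (ZMod p)) ^ (m a) := by
  simp only [cycUnit, map_prod, map_pow, map_sum, rho_zeta, T3.geom_sum]

lemma natCast_ne_zero_of_mem {a : ℕ} (ha : a ∈ Finset.Ico 1 p) : (a : ZMod p) ≠ 0 := by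
  rw [Finset.mem_Ico] at ha
  intro h
  rw [ZMod.natCast_eq_zero_iff] at h
  exact absurd (Nat.le_of_dvd (by omega) h) (by omega)

lemma sum_Ico_inv_pow (k : ℕ) (hk : k < p - 1) (hk0 : k ≠ 0) :
    ∑ a ∈ Finset.Ico 1 p, ((a : ZMod p)⁻¹) ^ k = 0 := by
  have h1 : ∑ a ∈ Finset.Ico 1 p, ((a : ZMod p)⁻¹) ^ k = ∑ x : (ZMod p)ˣ, ((x⁻¹ : (ZMod p)ˣ) : ZMod p) ^ k := by
    symm
    refine Finset.sum_bij' (fun x _ => (x : ZMod p).val)
      (fun a ha => Units.mk0 (a : ZMod p) (natCast_ne_zero_of_mem ha)) ?_ ?_ ?_ ?_ ?_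
    · intro x _
      rw [Finset.mem_Ico]
      refine ⟨?_, ZMod.val_lt _⟩
      have : (x : ZMod p).val ≠ 0 := by
        rw [Ne, ZMod.val_eq_zero]; exact x.ne_zero
      omega
    · intro a ha; exact Finset.mem_univ _
    · intro x _
      ext
      simp only [Units.val_mk0, ZMod.natCast_val, ZMod.cast_id', id_eq]
    · intro a ha
      simp only [Units.val_mk0]
      rw [Finset.mem_Ico] at ha
      exact ZMod.val_cast_of_lt ha.2
    · intro x _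
      rw [ZMod.natCast_val, ZMod.cast_id', id, Units.val_inv_eq_inv_val]
  rw [h1]
  have h2 : ∑ x : (ZMod p)ˣ, ((x⁻¹ : (ZMod p)ˣ) : ZMod p) ^ k = ∑ x : (ZMod p)ˣ, (x : ZMod p) ^ k :=
    Equiv.sum_comp (Equiv.inv (ZMod p)ˣ) (fun x : (ZMod p)ˣ => (x : ZMod p) ^ k)
  rw [h2]
  have h3 := FiniteField.sum_pow_units (ZMod p) k
  rw [ZMod.card] at h3
  have h4 : ¬ (p - 1 ∣ k) := fun h => absurd (Nat.le_of_dvd (Nat.pos_of_ne_zero hk0) h) (by omega)
  rw [if_neg h4] at h3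
  rw [← h3]

theorem l2_rho_cycUnit (h5 : 5 ≤ p) (m : ℕ → ℕ)
    (hm : ∀ a ∈ Finset.Ico 1 p, (m a : ZMod p) = ((a : ZMod p)⁻¹) ^ 2) :
    T3.l2 (rho hζ h5 (cycUnit hζ m)) = -(1 / 24) := by
  have h2 : (2 : ZMod p) ≠ 0 := by
    intro h
    have : ((2 : ℕ) : ZMod p) = 0 := by exact_mod_cast h
    rw [ZMod.natCast_eq_zero_iff] at this
    exact absurd (Nat.le_of_dvd (by omega) this) (by omega)
  have h3 : (3 : ZMod p) ≠ 0 := by
    intro h
    have : ((3 : ℕ) : ZMod p) = 0 := by exact_mod_cast h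
    rw [ZMod.natCast_eq_zero_iff] at this
    exact absurd (Nat.le_of_dvd (by omega) this) (by omega)
  rw [rho_cycUnit, T3.l2_prod h2]
  swap
  · intro a ha
    rw [T3.pow_a]
    exact pow_ne_zero _ (natCast_ne_zero_of_mem ha)
  have h4 : ∀ a ∈ Finset.Ico 1 p, T3.l2 ((⟨a, (a.choose 2 : ℕ), (a.choose 3 : ℕ)⟩ : T3 (ZMod p)) ^ (m a))
      = (1 / 24) * (1 - 6 * ((a : ZMod p)⁻¹) ^ 1 + 5 * ((a : ZMod p)⁻¹) ^ 2) := by
    intro a ha
    have ha0 := natCast_ne_zero_of_mem ha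
    rw [T3.l2_pow h2 _ ha0, hm a ha]
    simp only [T3.l2]
    have hc2 : (2 : ZMod p) * (a.choose 2 : ℕ) = a * (a - 1) := by
      have h := Nat.triangle_succ
      obtain ⟨b, rfl⟩ : ∃ b, a = b + 1 := ⟨a - 1, by rw [Finset.mem_Ico] at ha; omega⟩
      have h5 : (b + 1).choose 2 * 2 = (b + 1) * b := by
        rw [Nat.choose_two_right, Nat.add_sub_cancel]
        exact Nat.div_mul_cancel (by
          rcases Nat.even_mul_succ_self b with ⟨c, hc⟩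
          exact ⟨c, by rw [mul_comm, ← Nat.succ_eq_add_one, hc]; ring⟩)
      have h6 : (((b + 1).choose 2 * 2 : ℕ) : ZMod p) = (((b + 1) * b : ℕ) : ZMod p) := by rw [h5]
      push_cast at h6 ⊢
      linear_combination h6
    have hc3 : (3 : ZMod p) * (a.choose 3 : ℕ) = (a.choose 2 : ℕ) * (a - 2) := by
      have h5 : a.choose 3 * 3 = a.choose 2 * (a - 2) := Nat.choose_succ_right_eq a 2
      have h6 : ((a.choose 3 * 3 : ℕ) : ZMod p) = ((a.choose 2 * (a - 2) : ℕ) : ZMod p) := by rw [h5]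
      rcases Nat.lt_or_ge a 2 with h | h
      · have : a = 1 := by rw [Finset.mem_Ico] at ha; omega
        subst this
        rw [show Nat.choose 1 3 = 0 from rfl, show Nat.choose 1 2 = 0 from rfl]
        simp
      · rw [Nat.cast_mul, Nat.cast_mul, Nat.cast_sub h] at h6
        push_cast at h6 ⊢
        linear_combination h6
    have h24 : (24 : ZMod p) = 2 ^ 3 * 3 := by norm_num
    have e2 : ((a.choose 2 : ℕ) : ZMod p) = a * (a - 1) / 2 := by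
      rw [eq_div_iff h2, mul_comm, hc2]
    have e3 : ((a.choose 3 : ℕ) : ZMod p) = a * (a - 1) / 2 * (a - 2) / 3 := by
      rw [eq_div_iff h3, mul_comm, hc3, e2]
    rw [e2, e3, h24]
    field_simp
    ring
  rw [Finset.sum_congr rfl h4, ← Finset.mul_sum, Finset.sum_add_distrib, Finset.sum_sub_distrib,
    ← Finset.mul_sum, ← Finset.mul_sum, sum_Ico_inv_pow 1 (by omega) (by omega),
    sum_Ico_inv_pow 2 (by omega) (by omega)]
  simp only [Finset.sum_const, Nat.card_Ico, nsmul_eq_mul, mul_one, mul_zero, sub_zero, add_zero]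
  rw [Nat.cast_sub (by omega)]
  simp

theorem two_ne_zero' (h5 : 5 ≤ p) : (2 : ZMod p) ≠ 0 := by
  intro h
  have : ((2 : ℕ) : ZMod p) = 0 := by exact_mod_cast h
  rw [ZMod.natCast_eq_zero_iff] at this
  exact absurd (Nat.le_of_dvd (by omega) this) (by omega)

theorem three_ne_zero' (h5 : 5 ≤ p) : (3 : ZMod p) ≠ 0 := by
  intro h
  have : ((3 : ℕ) : ZMod p) = 0 := by exact_mod_cast h
  rw [ZMod.natCast_eq_zero_iff] at this
  exact absurd (Nat.le_of_dvd (by omega) this) (by omega)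

theorem l1_rho_cycUnit (h5 : 5 ≤ p) (m : ℕ → ℕ)
    (hm : ∀ a ∈ Finset.Ico 1 p, (m a : ZMod p) = ((a : ZMod p)⁻¹) ^ 2) :
    T3.l1 (rho hζ h5 (cycUnit hζ m)) = 0 := by
  have h2 := two_ne_zero' (p := p) h5
  rw [rho_cycUnit, T3.l1_prod]
  swap
  · intro a ha
    rw [T3.pow_a]
    exact pow_ne_zero _ (natCast_ne_zero_of_mem ha)
  have h4 : ∀ a ∈ Finset.Ico 1 p, T3.l1 ((⟨a, (a.choose 2 : ℕ), (a.choose 3 : ℕ)⟩ : T3 (ZMod p)) ^ (m a))
      = (1 / 2) * (((a : ZMod p)⁻¹) ^ 1 - ((a : ZMod p)⁻¹) ^ 2) := by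
    intro a ha
    have ha0 := natCast_ne_zero_of_mem ha
    rw [T3.l1_pow _ ha0, hm a ha]
    simp only [T3.l1]
    have hc2 : (2 : ZMod p) * (a.choose 2 : ℕ) = a * (a - 1) := by
      obtain ⟨b, rfl⟩ : ∃ b, a = b + 1 := ⟨a - 1, by rw [Finset.mem_Ico] at ha; omega⟩
      have h5 : (b + 1).choose 2 * 2 = (b + 1) * b := by
        rw [Nat.choose_two_right, Nat.add_sub_cancel]
        exact Nat.div_mul_cancel (by
          rcases Nat.even_mul_succ_self b with ⟨c, hc⟩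
          exact ⟨c, by rw [mul_comm, ← Nat.succ_eq_add_one, hc]; ring⟩)
      have h6 : (((b + 1).choose 2 * 2 : ℕ) : ZMod p) = (((b + 1) * b : ℕ) : ZMod p) := by rw [h5]
      push_cast at h6 ⊢
      linear_combination h6
    have e2 : ((a.choose 2 : ℕ) : ZMod p) = a * (a - 1) / 2 := by
      rw [eq_div_iff h2, mul_comm, hc2]
    rw [e2]
    field_simp
  rw [Finset.sum_congr rfl h4, ← Finset.mul_sum, Finset.sum_sub_distrib,
    sum_Ico_inv_pow 1 (by omega) (by omega), sum_Ico_inv_pow 2 (by omega) (by omega)]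
  simp

theorem rho_cycUnit_a_ne_zero (h5 : 5 ≤ p) (m : ℕ → ℕ) :
    (rho hζ h5 (cycUnit hζ m)).a ≠ 0 := by
  rw [rho_cycUnit, T3.prod_a]
  refine Finset.prod_ne_zero_iff.mpr fun a ha => ?_
  rw [T3.pow_a]
  exact pow_ne_zero _ (natCast_ne_zero_of_mem ha)

theorem rho_unit_a_ne_zero (h5 : 5 ≤ p) (u : (𝓞 K)ˣ) :
    (rho hζ h5 u).a ≠ 0 := by
  intro h
  have h1 : rho hζ h5 (u : 𝓞 K) * rho hζ h5 ((u⁻¹ : (𝓞 K)ˣ) : 𝓞 K) = 1 := by
    rw [← map_mul, Units.mul_inv, map_one]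
  have h2 := congrArg T3.a h1
  rw [T3.mul_a, h, zero_mul, T3.one_a] at h2
  exact zero_ne_one h2

theorem rho_pow_p (h5 : 5 ≤ p) (y : 𝓞 K) :
    rho hζ h5 (y ^ p) = T3.C ((rho hζ h5 y).a ^ p) := by
  rw [map_pow, T3.pow_char (by omega)]

theorem rho_eq_zero_of_mem (h5 : 5 ≤ p) (y : 𝓞 K)
    (hy : y ∈ (Ideal.span {hζ.toInteger - 1}) ^ 3) : rho hζ h5 y = 0 := by
  rw [Ideal.span_singleton_pow, Ideal.mem_span_singleton] at hy
  obtain ⟨z, rfl⟩ := hy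
  rw [map_mul, map_pow, map_sub, rho_zeta, map_one, add_sub_cancel_left, T3.t_pow_three, zero_mul]

/-- The key local computation: if a unit of the form `± ζ^j η^k v^p` is a `p`-th power modulo
`(ζ-1)^3` then `p` divides `j` and `k`. -/
theorem dvd_of_local_pow (h5 : 5 ≤ p) (m : ℕ → ℕ)
    (hm : ∀ a ∈ Finset.Ico 1 p, (m a : ZMod p) = ((a : ZMod p)⁻¹) ^ 2)
    (u v y : 𝓞 K) (hu : IsUnit u) (hv : IsUnit v) (j k : ℕ) (s : ℤ) (hs : IsUnit s)
    (huv : u = s * hζ.toInteger ^ j * cycUnit hζ m ^ k * v ^ p)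
    (hy : u - y ^ p ∈ (Ideal.span {hζ.toInteger - 1}) ^ 3) : p ∣ j ∧ p ∣ k := by
  have h2 := two_ne_zero' (p := p) h5
  have h3 := three_ne_zero' (p := p) h5
  have hρu : rho hζ h5 u = T3.C ((rho hζ h5 y).a ^ p) := by
    have := rho_eq_zero_of_mem hζ h5 _ hy
    rw [map_sub, rho_pow_p, sub_eq_zero] at this
    exact this
  obtain ⟨v', rfl⟩ := hv
  have hva := rho_unit_a_ne_zero hζ h5 v'
  have hca := rho_cycUnit_a_ne_zero hζ h5 m
  have hza : (1 + T3.t : T3 (ZMod p)).a ≠ 0 := by simp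
  have hsa : ((s : T3 (ZMod p))).a ≠ 0 ∧ T3.l1 (s : T3 (ZMod p)) = 0 ∧
      T3.l2 (s : T3 (ZMod p)) = 0 := by
    rcases Int.isUnit_iff.mp hs with rfl | rfl
    · simp [T3.l1, T3.l2]
    · simp [T3.l1, T3.l2]
  have h4 : rho hζ h5 u = (s : T3 (ZMod p)) * (1 + T3.t) ^ j * rho hζ h5 (cycUnit hζ m) ^ k *
      T3.C ((rho hζ h5 v').a ^ p) := by
    rw [huv, map_mul, map_mul, map_mul, map_pow, map_pow, rho_pow_p, rho_zeta, map_intCast]
  rw [hρu] at h4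
  have hz1 : T3.l1 (1 + T3.t : T3 (ZMod p)) = 1 := by simp [T3.l1]
  have hz2 : T3.l2 (1 + T3.t : T3 (ZMod p)) = -(1 / 2) := by simp [T3.l2]
  have n1 : ((s : T3 (ZMod p)) * (1 + T3.t) ^ j).a ≠ 0 := by
    rw [T3.mul_a, T3.pow_a]; exact mul_ne_zero hsa.1 (pow_ne_zero _ hza)
  have n2 : ((s : T3 (ZMod p)) * (1 + T3.t) ^ j * rho hζ h5 (cycUnit hζ m) ^ k).a ≠ 0 := by
    rw [T3.mul_a, T3.pow_a]; exact mul_ne_zero n1 (pow_ne_zero _ hca)
  have n3 : (T3.C ((rho hζ h5 v').a ^ p) : T3 (ZMod p)).a ≠ 0 := by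
    rw [T3.C_a]; exact pow_ne_zero _ hva
  have e1 := congrArg T3.l1 h4
  rw [T3.l1_C, T3.l1_mul _ _ n2 n3, T3.l1_mul _ _ n1 (by rw [T3.pow_a]; exact pow_ne_zero _ hca),
    T3.l1_mul _ _ hsa.1 (by rw [T3.pow_a]; exact pow_ne_zero _ hza), T3.l1_C, T3.l1_pow _ hza,
    T3.l1_pow _ hca, l1_rho_cycUnit hζ h5 m hm, hsa.2.1, hz1] at e1
  have hj : (j : ZMod p) = 0 := by linear_combination -e1
  have e2 := congrArg T3.l2 h4
  rw [T3.l2_C, T3.l2_mul h2 _ _ n2 n3, T3.l2_mul h2 _ _ n1 (by rw [T3.pow_a]; exact pow_ne_zero _ hca),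
    T3.l2_mul h2 _ _ hsa.1 (by rw [T3.pow_a]; exact pow_ne_zero _ hza), T3.l2_C,
    T3.l2_pow h2 _ hza, T3.l2_pow h2 _ hca, l2_rho_cycUnit hζ h5 m hm, hsa.2.2, hz2, hj] at e2
  have h24 : (24 : ZMod p) ≠ 0 := by
    have : (24 : ZMod p) = 2 ^ 3 * 3 := by norm_num
    rw [this]
    exact mul_ne_zero (pow_ne_zero _ h2) h3
  have hk : (k : ZMod p) = 0 := by
    have e3 : (k : ZMod p) * (1 / 24) = 0 := by linear_combination e2
    rcases mul_eq_zero.mp e3 with h | h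
    · exact h
    · exact absurd h (one_div_ne_zero h24)
  exact ⟨(ZMod.natCast_eq_zero_iff _ _).mp hj, (ZMod.natCast_eq_zero_iff _ _).mp hk⟩

end Fermat.Agent.EXT
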