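import Mathlib
import Fermat.Agent.EXT.Val

set_option autoImplicit false

namespace Fermat.Agent.EXT

open NumberField IsDedekindDomain nonZeroDivisors

section Setup

theorem isCyclotomicExtension_mul (p ℓ : ℕ) [hp : Fact p.Prime] [hℓ : Fact ℓ.Prime]
    (K L : Type*) [Field K] [NumberField K] [Field L] [NumberField L] [Algebra K L]
    [IsCyclotomicExtension {p} ℚ K] [IsCyclotomicExtension {ℓ} K L]
    (hne : p ≠ ℓ) : IsCyclotomicExtension {p * ℓ} ℚ L := by
  have hcop : Nat.Coprime p ℓ := (Nat.coprime_primes hp.out hℓ.out).mpr hne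
  have : NeZero (p * ℓ) := ⟨mul_ne_zero hp.out.ne_zero hℓ.out.ne_zero⟩
  have htr : IsCyclotomicExtension ({p} ∪ {ℓ}) ℚ L :=
    IsCyclotomicExtension.trans {p} {ℓ} ℚ K L (algebraMap K L).injective
  rw [IsCyclotomicExtension.iff_singleton]
  constructor
  · obtain ⟨ζ, hζ⟩ := htr.exists_isPrimitiveRoot (n := p) (by simp) hp.out.ne_zero
    obtain ⟨ξ, hξ⟩ := htr.exists_isPrimitiveRoot (n := ℓ) (by simp) hℓ.out.ne_zero
    refine ⟨ζ * ξ, ?_⟩
    have h1 : orderOf ζ = p := hζ.eq_orderOf.symm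
    have h2 : orderOf ξ = ℓ := hξ.eq_orderOf.symm
    have h3 : orderOf (ζ * ξ) = p * ℓ := by
      rw [← h1, ← h2]
      apply (Commute.all ζ ξ).orderOf_mul_eq_mul_orderOf_of_coprime
      rw [h1, h2]; exact hcop
    rw [← h3]
    exact IsPrimitiveRoot.orderOf _
  · intro x
    refine Algebra.adjoin_mono ?_ (htr.adjoin_roots x)
    rintro b ⟨n, hn, -, hb⟩
    rcases hn with hn | hn
    · rw [Set.mem_singleton_iff] at hn
      subst hn
      show b ^ (n * ℓ) = 1
      rw [pow_mul, hb, one_pow]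
    · rw [Set.mem_singleton_iff] at hn
      subst hn
      show b ^ (p * n) = 1
      rw [mul_comm, pow_mul, hb, one_pow]

theorem finrank_KL (p ℓ : ℕ) [hp : Fact p.Prime] [hℓ : Fact ℓ.Prime]
    (K L : Type*) [Field K] [NumberField K] [Field L] [NumberField L] [Algebra K L]
    [IsCyclotomicExtension {p} ℚ K] [IsCyclotomicExtension {ℓ} K L]
    (hne : p ≠ ℓ) : Module.finrank K L = ℓ - 1 := by
  have : NeZero (p * ℓ) := ⟨mul_ne_zero hp.out.ne_zero hℓ.out.ne_zero⟩
  have := isCyclotomicExtension_mul p ℓ K L hne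
  have h1 := IsCyclotomicExtension.Rat.finrank (p * ℓ) (K := L)
  have h2 := IsCyclotomicExtension.Rat.finrank p (K := K)
  have h3 := Module.finrank_mul_finrank ℚ K L
  have hcop : Nat.Coprime p ℓ := (Nat.coprime_primes hp.out hℓ.out).mpr hne
  rw [h1, h2, Nat.totient_mul hcop, Nat.totient_prime hp.out, Nat.totient_prime hℓ.out] at h3
  have h4 : 0 < p - 1 := by have := hp.out.two_le; omega
  exact Nat.eq_of_mul_eq_mul_left h4 h3

theorem cyclotomic_irreducible_KL (p ℓ : ℕ) [hp : Fact p.Prime] [hℓ : Fact ℓ.Prime]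
    (K L : Type*) [Field K] [NumberField K] [Field L] [NumberField L] [Algebra K L]
    [IsCyclotomicExtension {p} ℚ K] [IsCyclotomicExtension {ℓ} K L]
    (hne : p ≠ ℓ) : Irreducible (Polynomial.cyclotomic ℓ K) := by
  have hζ := IsCyclotomicExtension.zeta_spec ℓ K L
  have hint : IsIntegral K (IsCyclotomicExtension.zeta ℓ K L) := 
    Algebra.IsIntegral.isIntegral _
  have h1 : (minpoly K (IsCyclotomicExtension.zeta ℓ K L)).natDegree = ℓ - 1 := by
    rw [← finrank_KL p ℓ K L hne, (hζ.powerBasis K).finrank, ← PowerBasis.natDegree_minpoly,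
      IsPrimitiveRoot.powerBasis_gen]
  have h2 : minpoly K (IsCyclotomicExtension.zeta ℓ K L) ∣ Polynomial.cyclotomic ℓ K :=
    minpoly.dvd _ _ (by
      rw [Polynomial.aeval_def, ← Polynomial.eval_map, Polynomial.map_cyclotomic]
      exact hζ.isRoot_cyclotomic hℓ.out.pos)
  have h3 : minpoly K (IsCyclotomicExtension.zeta ℓ K L) = Polynomial.cyclotomic ℓ K := by
    symm
    apply Polynomial.eq_of_monic_of_dvd_of_natDegree_le (minpoly.monic hint)
      (Polynomial.cyclotomic.monic _ _) h2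
    rw [Polynomial.natDegree_cyclotomic, Nat.totient_prime hℓ.out, h1]
  rw [← h3]
  exact minpoly.irreducible hint


/-- every height one prime of a ring of integers lies over a rational prime -/
theorem exists_prime_liesOver {F : Type*} [Field F] [NumberField F] (v : HeightOneSpectrum (𝓞 F)) :
    ∃ q : ℕ, q.Prime ∧ v.asIdeal.LiesOver (Ideal.span {(q : ℤ)}) ∧ (q : 𝓞 F) ∈ v.asIdeal := by
  have h1 : (v.asIdeal.under ℤ).IsPrime := Ideal.IsPrime.under ℤ v.asIdeal
  have h2 : v.asIdeal.under ℤ ≠ ⊥ := by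
    intro h
    exact v.ne_bot (Ideal.eq_bot_of_comap_eq_bot h)
  obtain ⟨q, hq⟩ := (IsPrincipalIdealRing.principal (v.asIdeal.under ℤ)).principal
  rw [Ideal.submodule_span_eq] at hq
  have hq0 : q ≠ 0 := by
    rintro rfl
    rw [Ideal.span_singleton_eq_bot.mpr rfl] at hq
    exact h2 hq
  have hqp : Prime q := by
    rw [← Ideal.span_singleton_prime hq0, ← hq]; exact h1
  refine ⟨q.natAbs, Int.prime_iff_natAbs_prime.mp hqp, ?_, ?_⟩
  · rw [Int.span_natAbs, ← hq]
    exact ⟨rfl⟩
  · have h3 : (q.natAbs : ℤ) ∈ v.asIdeal.under ℤ := by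
      rw [hq, Ideal.mem_span_singleton]
      exact Int.dvd_natAbs_self
    have h4 := Ideal.mem_comap.mp h3
    rw [map_natCast] at h4
    exact h4

theorem ramificationIdx_KL (p ℓ : ℕ) [hp : Fact p.Prime] [hℓ : Fact ℓ.Prime]
    (K L : Type*) [Field K] [NumberField K] [Field L] [NumberField L] [Algebra K L]
    [IsCyclotomicExtension {p} ℚ K] [IsCyclotomicExtension {ℓ} K L]
    (hne : p ≠ ℓ) (v : HeightOneSpectrum (𝓞 K)) (w : HeightOneSpectrum (𝓞 L))
    [w.asIdeal.LiesOver v.asIdeal] :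
    ((ℓ : 𝓞 K) ∈ v.asIdeal → v.asIdeal.ramificationIdx' w.asIdeal = ℓ - 1) ∧
    ((ℓ : 𝓞 K) ∉ v.asIdeal → v.asIdeal.ramificationIdx' w.asIdeal = 1) := by
  have : NeZero (p * ℓ) := ⟨mul_ne_zero hp.out.ne_zero hℓ.out.ne_zero⟩
  have := isCyclotomicExtension_mul p ℓ K L hne
  have hcop : Nat.Coprime p ℓ := (Nat.coprime_primes hp.out hℓ.out).mpr hne
  obtain ⟨q, hq, hlo, hqv⟩ := exists_prime_liesOver v
  have : Fact q.Prime := ⟨hq⟩
  have hlo2 : w.asIdeal.LiesOver (Ideal.span {(q : ℤ)}) :=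
    Ideal.LiesOver.trans w.asIdeal v.asIdeal (Ideal.span {(q : ℤ)})
  have e1 : v.asIdeal.ramificationIdx' w.asIdeal = w.asIdeal.ramificationIdx (𝓞 K) :=
    Ideal.ramificationIdx'_eq_ramificationIdx v.asIdeal w.asIdeal v.ne_bot
  have e2 : w.asIdeal.ramificationIdx ℤ = v.asIdeal.ramificationIdx ℤ *
      w.asIdeal.ramificationIdx (𝓞 K) := Ideal.ramificationIdx_tower v.asIdeal w.asIdeal
  have hmem : ∀ r : ℕ, r.Prime → (r : 𝓞 K) ∈ v.asIdeal → r = q := by
    intro r hr hrv
    by_contra hne'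
    have hc : IsCoprime (r : ℤ) (q : ℤ) := by
      rw [Nat.isCoprime_iff_coprime]
      exact (Nat.coprime_primes hr hq).mpr hne'
    obtain ⟨a, b, hab⟩ := hc
    apply v.isPrime.ne_top
    rw [Ideal.eq_top_iff_one]
    have : (1 : 𝓞 K) = a * r + b * q := by exact_mod_cast hab.symm
    rw [this]
    exact v.asIdeal.add_mem (Ideal.mul_mem_left _ _ hrv) (Ideal.mul_mem_left _ _ hqv)
  rw [e1]
  constructor
  · intro hv
    have := hmem ℓ hℓ.out hv
    subst this
    have h1 := IsCyclotomicExtension.Rat.ramificationIdx_eq (n := p * ℓ) (m := p) (p := ℓ) (k := 0)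
      (K := L) (P := w.asIdeal) (by ring) (by
        intro h; exact hne ((Nat.prime_dvd_prime_iff_eq hℓ.out hp.out).mp h).symm)
    have h2 := IsCyclotomicExtension.Rat.ramificationIdx_eq_of_not_dvd (m := p) (p := ℓ)
      (K := K) (P := v.asIdeal) (by
        intro h; exact hne ((Nat.prime_dvd_prime_iff_eq hℓ.out hp.out).mp h).symm)
    rw [h1, h2] at e2
    simpa using e2.symm
  · intro hv
    by_cases hqp : q = p
    · subst hqp
      have h1 := IsCyclotomicExtension.Rat.ramificationIdx_eq (n := q * ℓ) (m := ℓ) (p := q) (k := 0)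
        (K := L) (P := w.asIdeal) (by ring) (by
          intro h; exact hne ((Nat.prime_dvd_prime_iff_eq hp.out hℓ.out).mp h))
      have h2 := IsCyclotomicExtension.Rat.ramificationIdx_eq_of_prime (p := q)
        (K := K) (P := v.asIdeal)
      rw [h1, h2, pow_zero, one_mul] at e2
      have h4 : 0 < q - 1 := by have := hp.out.two_le; omega
      exact (Nat.eq_of_mul_eq_mul_left h4 (by rw [mul_one]; exact e2)).symm
    · have hqℓ : q ≠ ℓ := by
        rintro rfl
        exact hv hqv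
      have h1 := IsCyclotomicExtension.Rat.ramificationIdx_eq_of_not_dvd (m := p * ℓ) (p := q)
        (K := L) (P := w.asIdeal) (by
          intro h
          rcases hq.dvd_mul.mp h with h | h
          · exact hqp ((Nat.prime_dvd_prime_iff_eq hq hp.out).mp h)
          · exact hqℓ ((Nat.prime_dvd_prime_iff_eq hq hℓ.out).mp h))
      rw [h1] at e2
      exact Nat.eq_one_of_mul_eq_one_left e2.symm

end Setup

end Fermat.Agent.EXT
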