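import Mathlib
import Fermat.Agent.EXT.Val
import Fermat.Agent.EXT.ThaineField

set_option autoImplicit false
set_option linter.unusedSectionVars false

namespace Fermat.Agent.EXT

open NumberField IsDedekindDomain nonZeroDivisors

section Unit

variable {p ℓ : ℕ} [hp : Fact p.Prime] [hℓ : Fact ℓ.Prime]
  {K L : Type} [Field K] [NumberField K] [Field L] [NumberField L] [Algebra K L]

/-- `ζ ^ ℓ = ζ` for `ℓ ≡ 1 mod p`. -/
theorem zeta_pow_ell {ζ : K} (hζ : IsPrimitiveRoot ζ p) (hmod : ℓ % p = 1) : ζ ^ ℓ = ζ := by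
  conv_lhs => rw [← Nat.div_add_mod ℓ p, hmod, pow_add, pow_mul, hζ.pow_eq_one, one_pow, one_mul,
    pow_one]

theorem norm_one_sub [IsCyclotomicExtension {p} ℚ K] [IsCyclotomicExtension {ℓ} K L]
    (hne : p ≠ ℓ) (hmod : ℓ % p = 1) {ζ : K} (hζ : IsPrimitiveRoot ζ p)
    {ξ : L} (hξ : IsPrimitiveRoot ξ ℓ) :
    Algebra.norm K (1 - ξ * algebraMap K L ζ) = 1 := by
  classical
  have hgal : IsGalois K L := IsCyclotomicExtension.isGalois {ℓ} K L
  apply (algebraMap K L).injective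
  rw [Algebra.norm_eq_prod_automorphisms, map_one]
  have h1 := hξ.pow_sub_pow_eq_prod_sub_mul (1 : L) (algebraMap K L ζ) hℓ.out.pos
  have hmem1 : (1 : L) ∈ Polynomial.nthRootsFinset ℓ (1 : L) := by
    rw [Polynomial.mem_nthRootsFinset hℓ.out.pos, one_pow]
  rw [one_pow, ← map_pow, zeta_pow_ell hζ hmod, ← Finset.mul_prod_erase _ _ hmem1, one_mul] at h1
  have hζ1 : (1 : L) - algebraMap K L ζ ≠ 0 := by
    intro h
    have h2 : algebraMap K L ζ = algebraMap K L 1 := by rw [map_one]; exact (sub_eq_zero.mp h).symm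
    exact hζ.ne_one hp.out.one_lt ((algebraMap K L).injective h2)
  have h2 : ∏ x ∈ (Polynomial.nthRootsFinset ℓ (1 : L)).erase 1, (1 - x * algebraMap K L ζ) = 1 := by
    have := mul_left_cancel₀ hζ1 ((mul_one _).trans h1)
    exact this.symm
  have hinj : Function.Injective (fun σ : L ≃ₐ[K] L => σ ξ) := by
    intro σ τ h
    apply IsCyclotomicExtension.algEquiv_eq_of_apply_eq (S := {ℓ}) (A := K) (B := L)
    intro n hn _
    rw [Set.mem_singleton_iff] at hn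
    subst hn
    exact ⟨ξ, hξ, h⟩
  have himg : Finset.univ.image (fun σ : L ≃ₐ[K] L => σ ξ) =
      (Polynomial.nthRootsFinset ℓ (1 : L)).erase 1 := by
    apply Finset.eq_of_subset_of_card_le
    · intro x hx
      rw [Finset.mem_image] at hx
      obtain ⟨σ, -, rfl⟩ := hx
      rw [Finset.mem_erase, Polynomial.mem_nthRootsFinset hℓ.out.pos]
      refine ⟨?_, ?_⟩
      · intro h
        exact hξ.ne_one hℓ.out.one_lt (σ.injective (by rw [h, map_one]))
      · rw [← map_pow, hξ.pow_eq_one, map_one]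
    · rw [Finset.card_erase_of_mem hmem1, hξ.card_nthRootsFinset,
        Finset.card_image_of_injective _ hinj, Finset.card_univ, ← Nat.card_eq_fintype_card,
        IsGalois.card_aut_eq_finrank, finrank_KL p ℓ K L hne]
  calc ∏ σ : L ≃ₐ[K] L, σ (1 - ξ * algebraMap K L ζ)
      = ∏ σ : L ≃ₐ[K] L, (1 - σ ξ * algebraMap K L ζ) :=
        Finset.prod_congr rfl fun σ _ => by simp
    _ = ∏ x ∈ Finset.univ.image (fun σ : L ≃ₐ[K] L => σ ξ), (1 - x * algebraMap K L ζ) :=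
        (Finset.prod_image (s := (Finset.univ : Finset (L ≃ₐ[K] L)))
          (f := fun x : L => 1 - x * algebraMap K L ζ) (g := fun σ : L ≃ₐ[K] L => σ ξ)
          (fun σ _ τ _ h => hinj h)).symm
    _ = 1 := by rw [himg, h2]

/-- `1 - ξ ζ` is a unit. -/
theorem isUnit_one_sub [IsCyclotomicExtension {p} ℚ K] [IsCyclotomicExtension {ℓ} K L]
    (hne : p ≠ ℓ) (hmod : ℓ % p = 1) {ζ : K} (hζ : IsPrimitiveRoot ζ p)
    {ξ : L} (hξ : IsPrimitiveRoot ξ ℓ) :
    IsUnit (1 - hξ.toInteger * algebraMap (𝓞 K) (𝓞 L) hζ.toInteger) := by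
  have h1 : Algebra.norm K (((1 - hξ.toInteger * algebraMap (𝓞 K) (𝓞 L) hζ.toInteger) : 𝓞 L) : L) = 1 := by
    have := norm_one_sub hne hmod hζ hξ
    exact this
  have hgal : IsGalois K L := IsCyclotomicExtension.isGalois {ℓ} K L
  rw [← RingOfIntegers.isUnit_norm_of_isGalois K]
  have h2 : RingOfIntegers.norm K (1 - hξ.toInteger * algebraMap (𝓞 K) (𝓞 L) hζ.toInteger) = 1 := by
    apply RingOfIntegers.ext
    rw [RingOfIntegers.coe_norm, h1]
    rfl
  rw [h2]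
  exact isUnit_one

/-- Galois action on the ring of integers -/
noncomputable abbrev galO (g : L ≃ₐ[K] L) : 𝓞 L ≃ₐ[𝓞 K] 𝓞 L := galRestrict (𝓞 K) K L (𝓞 L) g

lemma coe_galO (g : L ≃ₐ[K] L) (x : 𝓞 L) : ((galO g x : 𝓞 L) : L) = g (x : L) :=
  algebraMap_galRestrict_apply (𝓞 K) g x

theorem exists_h90 [IsCyclotomicExtension {p} ℚ K] [IsCyclotomicExtension {ℓ} K L]
    (hne : p ≠ ℓ) (hmod : ℓ % p = 1) {ζ : K} (hζ : IsPrimitiveRoot ζ p)
    {ξ : L} (hξ : IsPrimitiveRoot ξ ℓ) :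
    ∃ (g : L ≃ₐ[K] L) (β : 𝓞 L), (∀ x : L ≃ₐ[K] L, x ∈ Subgroup.zpowers g) ∧ β ≠ 0 ∧
      galO g β = (1 - hξ.toInteger * algebraMap (𝓞 K) (𝓞 L) hζ.toInteger) * β := by
  have hgal : IsGalois K L := IsCyclotomicExtension.isGalois {ℓ} K L
  have hirr := cyclotomic_irreducible_KL p ℓ K L hne
  have hcyc : IsCyclic (L ≃ₐ[K] L) := by
    have e := IsCyclotomicExtension.autEquivPow L hirr
    exact isCyclic_of_injective e.toMonoidHom e.injective
  obtain ⟨g, hg⟩ := hcyc.exists_generator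
  obtain ⟨u, hu⟩ := isUnit_one_sub hne hmod hζ hξ
  have hnorm : Algebra.norm K (algebraMap (𝓞 L) L ((u⁻¹ : (𝓞 L)ˣ) : 𝓞 L)) = 1 := by
    have h1 : Algebra.norm K (algebraMap (𝓞 L) L (u : 𝓞 L)) = 1 := by
      rw [hu]; exact norm_one_sub hne hmod hζ hξ
    have h2 : Algebra.norm K (algebraMap (𝓞 L) L (u : 𝓞 L)) *
        Algebra.norm K (algebraMap (𝓞 L) L ((u⁻¹ : (𝓞 L)ˣ) : 𝓞 L)) = 1 := by
      rw [← map_mul, ← map_mul, Units.mul_inv, map_one, map_one]
    rw [h1, one_mul] at h2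
    exact h2
  obtain ⟨ε, hε, hε2⟩ := groupCohomology.exists_mul_galRestrict_of_norm_eq_one (A := 𝓞 K)
    (B := 𝓞 L) hg hnorm
  refine ⟨g, ε, hg, hε, ?_⟩
  rw [← hu]
  calc galO g ε = (u : 𝓞 L) * (((u⁻¹ : (𝓞 L)ˣ) : 𝓞 L) * galRestrict (𝓞 K) K L (𝓞 L) g ε) := by
        rw [← mul_assoc, Units.mul_inv, one_mul]
    _ = u * ε := by rw [hε2]

theorem conj_eq_unit_mul {g : L ≃ₐ[K] L} {β : 𝓞 L} (hg : ∀ x : L ≃ₐ[K] L, x ∈ Subgroup.zpowers g)
    (u : (𝓞 L)ˣ) (hu : galO g β = u * β) (h : L ≃ₐ[K] L) :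
    ∃ w : (𝓞 L)ˣ, galO h β = w * β := by
  have hfin : Finite (L ≃ₐ[K] L) := inferInstance
  obtain ⟨i, rfl⟩ : ∃ i : ℕ, g ^ i = h := by
    have := hg h
    rwa [← mem_powers_iff_mem_zpowers, Submonoid.mem_powers_iff] at this
  induction i with
  | zero => exact ⟨1, by simp⟩
  | succ i ih =>
    obtain ⟨w, hw⟩ := ih
    refine ⟨Units.map (galO g : 𝓞 L →* 𝓞 L) w * u, ?_⟩
    rw [pow_succ']
    have : galO (g * g ^ i) β = galO g (galO (g ^ i) β) := by
      apply RingOfIntegers.ext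
      rw [coe_galO, coe_galO, coe_galO]
      rfl
    rw [this, hw, map_mul, hu]
    simp [mul_assoc]

/-- For any `x`, `g x ≡ x` modulo `ξ - 1`. -/
theorem sub_one_dvd_gal_sub [IsCyclotomicExtension {p} ℚ K] [IsCyclotomicExtension {ℓ} K L]
    (hne : p ≠ ℓ) {ζ : K} (hζ : IsPrimitiveRoot ζ p)
    {ξ : L} (hξ : IsPrimitiveRoot ξ ℓ) (g : L ≃ₐ[K] L) (x : 𝓞 L) :
    hξ.toInteger - 1 ∣ galO g x - x := by
  have : NeZero (p * ℓ) := ⟨mul_ne_zero hp.out.ne_zero hℓ.out.ne_zero⟩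
  have hcyc := isCyclotomicExtension_mul p ℓ K L hne
  have hcop : Nat.Coprime p ℓ := (Nat.coprime_primes hp.out hℓ.out).mpr hne
  have hadj : x ∈ Algebra.adjoin ℤ {b : 𝓞 L | ∃ n : ℕ, n ∈ ({p * ℓ} : Set ℕ) ∧ n ≠ 0 ∧ b ^ n = 1} :=
    (IsCyclotomicExtension.ringOfIntegers (n := p * ℓ) (K := L)).adjoin_roots x
  have hξ' : IsPrimitiveRoot hξ.toInteger ℓ := hξ.toInteger_isPrimitiveRoot
  have hζ' : IsPrimitiveRoot (algebraMap (𝓞 K) (𝓞 L) hζ.toInteger) p :=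
    hζ.toInteger_isPrimitiveRoot.map_of_injective (FaithfulSMul.algebraMap_injective (𝓞 K) (𝓞 L))
  induction hadj using Algebra.adjoin_induction with
  | mem b hb =>
    obtain ⟨n, hn, -, hb⟩ := hb
    rw [Set.mem_singleton_iff] at hn
    subst hn
    obtain ⟨e, he1, he2⟩ := Nat.chineseRemainder hcop 1 0
    obtain ⟨f, hf1, hf2⟩ := Nat.chineseRemainder hcop 0 1
    have h1 : b = b ^ e * b ^ f := by
      rw [← pow_add]
      have h2 : e + f ≡ 1 [MOD p * ℓ] := by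
        rw [← Nat.modEq_and_modEq_iff_modEq_mul hcop]
        exact ⟨by simpa using he1.add hf1, by simpa using he2.add hf2⟩
      have h3 := pow_eq_pow_mod (e + f) hb
      have h4 := pow_eq_pow_mod 1 hb
      rw [h3, h2, ← h4, pow_one]
    have hbe : (b ^ e) ^ p = 1 := by
      obtain ⟨c, hc⟩ := (Nat.modEq_zero_iff_dvd.mp he2)
      rw [hc, ← pow_mul, show ℓ * c * p = p * ℓ * c by ring, pow_mul, hb, one_pow]
    have hbf : (b ^ f) ^ ℓ = 1 := by
      obtain ⟨c, hc⟩ := (Nat.modEq_zero_iff_dvd.mp hf1)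
      rw [hc, ← pow_mul, show p * c * ℓ = p * ℓ * c by ring, pow_mul, hb, one_pow]
    obtain ⟨i, -, hi⟩ := hζ'.eq_pow_of_pow_eq_one hbe
    obtain ⟨j, -, hj⟩ := hξ'.eq_pow_of_pow_eq_one hbf
    have hgξ : (galO g hξ.toInteger) ^ ℓ = 1 := by rw [← map_pow, hξ'.pow_eq_one, map_one]
    obtain ⟨s, -, hs⟩ := hξ'.eq_pow_of_pow_eq_one hgξ
    rw [h1, ← hi, ← hj, map_mul, map_pow, map_pow, AlgEquiv.commutes, ← hs, ← mul_sub]
    apply Dvd.dvd.mul_left
    refine dvd_trans ?_ (sub_dvd_pow_sub_pow (hξ.toInteger ^ s) (hξ.toInteger) j)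
    have h5 : hξ.toInteger ^ s - hξ.toInteger = (hξ.toInteger ^ s - 1) - (hξ.toInteger - 1) := by ring
    rw [h5]
    apply dvd_sub _ dvd_rfl
    simpa using sub_dvd_pow_sub_pow hξ.toInteger 1 s
  | algebraMap r => simp
  | add x y hx hy ihx ihy =>
    rw [map_add, show galO g x + galO g y - (x + y) = (galO g x - x) + (galO g y - y) by ring]
    exact dvd_add ihx ihy
  | mul x y hx hy ihx ihy =>
    rw [map_mul, show galO g x * galO g y - x * y = galO g x * (galO g y - y) + (galO g x - x) * y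
      by ring]
    exact dvd_add (Dvd.dvd.mul_left ihy _) (Dvd.dvd.mul_right ihx _)

end Unit

end Fermat.Agent.EXT
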