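import Mathlib
import Fermat.Agent.EXT.ThaineElt

set_option autoImplicit false
set_option linter.unusedSectionVars false

namespace Fermat.Agent.EXT

open NumberField IsDedekindDomain nonZeroDivisors WithZero

section Main

variable {p ℓ : ℕ} [hp : Fact p.Prime] [hℓ : Fact ℓ.Prime]
  {K L : Type} [Field K] [NumberField K] [Field L] [NumberField L] [Algebra K L]

theorem vz_ell [IsCyclotomicExtension {p} ℚ K] [IsCyclotomicExtension {ℓ} K L]
    (hne : p ≠ ℓ) (w : HeightOneSpectrum (𝓞 L)) (hw : (ℓ : 𝓞 L) ∈ w.asIdeal) :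
    vz w (ℓ : L) = (ℓ - 1 : ℕ) := by
  have : NeZero (p * ℓ) := ⟨mul_ne_zero hp.out.ne_zero hℓ.out.ne_zero⟩
  have := isCyclotomicExtension_mul p ℓ K L hne
  have hprime : Prime (ℓ : ℤ) := Nat.prime_iff_prime_int.mp hℓ.out
  let vZ : HeightOneSpectrum ℤ := ⟨Ideal.span {(ℓ : ℤ)},
    (Ideal.span_singleton_prime hprime.ne_zero).mpr hprime, by
      simpa using hprime.ne_zero⟩
  have hlo : w.asIdeal.LiesOver (Ideal.span {(ℓ : ℤ)}) := by
    constructor
    have hmax : (Ideal.span {(ℓ : ℤ)}).IsMaximal :=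
      PrincipalIdealRing.isMaximal_of_irreducible hprime.irreducible
    apply hmax.eq_of_le
    · intro h
      have h1 : (1 : ℤ) ∈ w.asIdeal.under ℤ := by rw [h]; trivial
      apply w.isPrime.ne_top
      rw [Ideal.eq_top_iff_one]
      simpa using Ideal.mem_comap.mp h1
    · rw [Ideal.span_singleton_le_iff_mem]
      apply Ideal.mem_comap.mpr
      simpa using hw
  have hlo' : w.asIdeal.LiesOver vZ.asIdeal := hlo
  have e1 := HeightOneSpectrum.intValuation_liesOver (A := ℤ) (B := 𝓞 L) vZ w (ℓ : ℤ)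
  have e2 : vZ.asIdeal.ramificationIdx' w.asIdeal = w.asIdeal.ramificationIdx ℤ :=
    Ideal.ramificationIdx'_eq_ramificationIdx vZ.asIdeal w.asIdeal vZ.ne_bot
  have e3 := IsCyclotomicExtension.Rat.ramificationIdx_eq (n := p * ℓ) (m := p) (p := ℓ) (k := 0)
      (K := L) (P := w.asIdeal) (by ring) (by
        intro h; exact hne ((Nat.prime_dvd_prime_iff_eq hℓ.out hp.out).mp h).symm)
  have e4 : vZ.intValuation (ℓ : ℤ) = exp (-1 : ℤ) :=
    vZ.intValuation_singleton hprime.ne_zero rfl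
  rw [e2, e3, e4, pow_zero, one_mul] at e1
  apply vz_eq_of_valuation
  have e5 : ((ℓ : L)) = algebraMap (𝓞 L) L ((algebraMap ℤ (𝓞 L)) (ℓ : ℤ)) := by simp
  rw [e5, w.valuation_of_algebraMap, ← e1, ← exp_nsmul]
  simp

theorem vz_zeta_sub_one [IsCyclotomicExtension {p} ℚ K] [IsCyclotomicExtension {ℓ} K L]
    (hne : p ≠ ℓ) {ξ : L} (hξ : IsPrimitiveRoot ξ ℓ)
    (w : HeightOneSpectrum (𝓞 L)) (hw : (ℓ : 𝓞 L) ∈ w.asIdeal) :
    vz w (ξ - 1) = 1 := by
  have h1 := IsCyclotomicExtension.Rat.associated_zeta_sub_one_pow_prime ℓ hξ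
  obtain ⟨u, hu⟩ := h1
  have h2 : (ξ - 1) ^ (ℓ - 1) * ((u : 𝓞 L) : L) = (ℓ : L) := by
    have := congrArg (algebraMap (𝓞 L) L) hu
    simpa using this
  have hξ1 : ξ - 1 ≠ 0 := sub_ne_zero.mpr (hξ.ne_one hℓ.out.one_lt)
  have hu0 : ((u : 𝓞 L) : L) ≠ 0 := by simp
  have h3 := congrArg (vz w) h2
  rw [vz_mul w (pow_ne_zero _ hξ1) hu0, vz_pow, vz_ell (p := p) (K := K) hne w hw] at h3
  have h4 : vz w ((u : 𝓞 L) : L) = 0 := vz_unit w u
  rw [h4, add_zero] at h3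
  have h5 : ((ℓ - 1 : ℕ) : ℤ) ≠ 0 := by
    have := hℓ.out.two_le
    omega
  exact mul_left_cancel₀ h5 (h3.trans (mul_one _).symm)

theorem local_congr [IsCyclotomicExtension {p} ℚ K] [IsCyclotomicExtension {ℓ} K L]
    (hne : p ≠ ℓ) {ζ : K} (hζ : IsPrimitiveRoot ζ p) {ξ : L} (hξ : IsPrimitiveRoot ξ ℓ)
    (g : L ≃ₐ[K] L) (β : 𝓞 L) (hβ : β ≠ 0)
    (hβ' : galO g β = (1 - hξ.toInteger * algebraMap (𝓞 K) (𝓞 L) hζ.toInteger) * β)
    (s : ℕ) (hs : galO g hξ.toInteger = hξ.toInteger ^ s)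
    (w : HeightOneSpectrum (𝓞 L)) (hw : (ℓ : 𝓞 L) ∈ w.asIdeal)
    (k : ℕ) (hk : vz w (β : L) = k) :
    (1 - algebraMap (𝓞 K) (𝓞 L) hζ.toInteger) - (s : 𝓞 L) ^ k ∈ w.asIdeal := by
  set π : 𝓞 L := hξ.toInteger - 1 with hπ
  have hπL : ((π : 𝓞 L) : L) = ξ - 1 := by
    rw [hπ]; simp
  have hξ1 : ξ - 1 ≠ 0 := sub_ne_zero.mpr (hξ.ne_one hℓ.out.one_lt)
  have hπ0 : π ≠ 0 := by
    intro h
    rw [h] at hπL
    exact hξ1 (by simpa using hπL.symm)
  have hvπ : vz w (π : L) = 1 := by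
    rw [hπL]; exact vz_zeta_sub_one (p := p) (K := K) hne hξ w hw
  have hπw : π ∈ w.asIdeal := by
    have := (vz_algebraMap_pos_iff w (K := L) hπ0).mp (by
      show 0 < vz w (π : L)
      rw [hvπ]; exact one_pos)
    exact this
  have hβL : (β : L) ≠ 0 := by simpa using hβ
  have hπL0 : (π : L) ≠ 0 := by rw [hπL]; exact hξ1
  have hx0 : (β : L) / (π : L) ^ k ≠ 0 := div_ne_zero hβL (pow_ne_zero _ hπL0)
  have hvx : vz w ((β : L) / (π : L) ^ k) = 0 := by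
    rw [vz_div w hβL (pow_ne_zero _ hπL0), vz_pow, hvπ, hk]; ring
  obtain ⟨n, ⟨d, hd⟩, hnd⟩ := w.exists_primeCompl_mul_eq_of_integer ((β : L) / (π : L) ^ k)
    ((vz_nonneg_iff w hx0).mp hvx.ge)
  have hd' : d ∉ w.asIdeal := hd
  have hd0 : d ≠ 0 := by rintro rfl; exact hd' (Ideal.zero_mem _)
  have hdL : (d : L) ≠ 0 := by simpa using hd0
  have hnL : (n : L) ≠ 0 := by
    have : algebraMap (𝓞 L) L n = (β : L) / (π : L) ^ k * algebraMap (𝓞 L) L d := hnd.symm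
    intro h
    rw [show algebraMap (𝓞 L) L n = (n : L) from rfl, h] at this
    exact mul_ne_zero hx0 hdL this.symm
  have hn0 : n ≠ 0 := by rintro rfl; simp at hnL
  have hn' : n ∉ w.asIdeal := by
    rw [← vz_algebraMap_eq_zero_iff w (K := L) hn0, ← hnd, vz_mul w hx0 hdL, hvx, zero_add]
    exact (vz_algebraMap_eq_zero_iff w (K := L) hd0).mpr hd'
  have hE : β * d = π ^ k * n := by
    apply RingOfIntegers.ext
    have h1 : (β : L) / (π : L) ^ k * (d : L) = (n : L) := hnd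
    rw [div_mul_eq_mul_div, div_eq_iff (pow_ne_zero _ hπL0)] at h1
    push_cast
    rw [h1]; ring
  set c : 𝓞 L := ∑ i ∈ Finset.range s, hξ.toInteger ^ i with hc
  have hgπ : galO g π = π * c := by
    rw [hπ, map_sub, hs, map_one, hc, mul_geom_sum]
  have hE2 := congrArg (galO g) hE
  rw [map_mul, map_mul, map_pow, hβ', hgπ] at hE2
  have hE3 : (1 - hξ.toInteger * algebraMap (𝓞 K) (𝓞 L) hζ.toInteger) * galO g d * n =
      c ^ k * galO g n * d := by
    apply mul_left_cancel₀ (pow_ne_zero k hπ0)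
    rw [mul_pow] at hE2
    linear_combination d * hE2 -
      (1 - hξ.toInteger * algebraMap (𝓞 K) (𝓞 L) hζ.toInteger) * galO g d * hE
  -- reduce mod `w`
  let q : 𝓞 L →+* 𝓞 L ⧸ w.asIdeal := Ideal.Quotient.mk w.asIdeal
  have hprime : w.asIdeal.IsPrime := w.isPrime
  have hq0 : ∀ x : 𝓞 L, q x = 0 ↔ x ∈ w.asIdeal := fun x => Ideal.Quotient.eq_zero_iff_mem
  have hqπ : q hξ.toInteger = 1 := by
    have := (hq0 π).mpr hπw
    rw [hπ, map_sub, map_one, sub_eq_zero] at this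
    exact this
  have hqg : ∀ x : 𝓞 L, q (galO g x) = q x := by
    intro x
    have h1 := sub_one_dvd_gal_sub hne hζ hξ g x
    have h2 : galO g x - x ∈ w.asIdeal := by
      obtain ⟨y, hy⟩ := h1
      rw [hy]
      exact Ideal.mul_mem_right _ _ hπw
    have h3 := (hq0 _).mpr h2
    rw [map_sub, sub_eq_zero] at h3
    exact h3
  have hE4 := congrArg q hE3
  rw [map_mul, map_mul, map_mul, map_mul, hqg, hqg, map_sub, map_mul, hqπ, one_mul, map_one,
    map_pow] at hE4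
  have hqc : q c = s := by
    rw [hc, map_sum]
    simp [hqπ]
  rw [hqc] at hE4
  have hqn : q n ≠ 0 := fun h => hn' ((hq0 n).mp h)
  have hqd : q d ≠ 0 := fun h => hd' ((hq0 d).mp h)
  have hE5 : (1 - q (algebraMap (𝓞 K) (𝓞 L) hζ.toInteger)) = (s : 𝓞 L ⧸ w.asIdeal) ^ k := by
    apply mul_right_cancel₀ (mul_ne_zero hqd hqn)
    linear_combination hE4
  rw [← hq0, map_sub, map_sub, map_one, map_pow, map_natCast, hE5, sub_self]

/-- Thaine's element. -/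
theorem exists_thaine_element (p ℓ : ℕ) [hp : Fact p.Prime] [hℓ : Fact ℓ.Prime]
    (K : Type) [Field K] [NumberField K] [IsCyclotomicExtension {p} ℚ K]
    (hne : p ≠ ℓ) (hmod : ℓ % p = 1) {ζ : K} (hζ : IsPrimitiveRoot ζ p) :
    ∃ (b : 𝓞 K) (s : ℕ), b ≠ 0 ∧ ∀ v : HeightOneSpectrum (𝓞 K),
      ((ℓ : 𝓞 K) ∉ v.asIdeal → (p : ℤ) ∣ vz v (b : K)) ∧
      ((ℓ : 𝓞 K) ∈ v.asIdeal → ∃ k : ℕ, vz v (b : K) = k ∧
        (1 - hζ.toInteger) - (s : 𝓞 K) ^ k ∈ v.asIdeal) := by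
  let L := CyclotomicField ℓ K
  have hξ : IsPrimitiveRoot (IsCyclotomicExtension.zeta ℓ K L) ℓ :=
    IsCyclotomicExtension.zeta_spec ℓ K L
  have hgal : IsGalois K L := IsCyclotomicExtension.isGalois {ℓ} K L
  obtain ⟨g, β, hg, hβ, hβ'⟩ := exists_h90 (p := p) (ℓ := ℓ) (L := L) hne hmod hζ hξ
  obtain ⟨U, hU⟩ := isUnit_one_sub (p := p) (ℓ := ℓ) (L := L) hne hmod hζ hξ
  have hgξ : (galO g hξ.toInteger) ^ ℓ = 1 := by
    rw [← map_pow, hξ.toInteger_isPrimitiveRoot.pow_eq_one, map_one]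
  obtain ⟨s, -, hs⟩ := hξ.toInteger_isPrimitiveRoot.eq_pow_of_pow_eq_one hgξ
  -- the norm
  let b : 𝓞 K := RingOfIntegers.norm K β
  have hbL : algebraMap K L (b : K) = ∏ h : L ≃ₐ[K] L, h (β : L) := by
    show algebraMap K L (RingOfIntegers.norm K β : K) = _
    rw [RingOfIntegers.coe_norm, Algebra.norm_eq_prod_automorphisms]
  have hβL : (β : L) ≠ 0 := by simpa using hβ
  have hb0 : (b : K) ≠ 0 := by
    intro h
    rw [h, map_zero] at hbL
    have := Finset.prod_eq_zero_iff.mp hbL.symm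
    obtain ⟨h', -, h2⟩ := this
    exact hβL ((map_eq_zero h').mp h2)
  have hU' : galO g β = (U : 𝓞 L) * β := by rw [hβ', hU]
  have hvb : ∀ w : HeightOneSpectrum (𝓞 L), vz w (algebraMap K L (b : K)) =
      ((ℓ - 1 : ℕ) : ℤ) * vz w (β : L) := by
    intro w
    rw [hbL, vz_prod w _ _ (fun h _ => (map_ne_zero h).mpr hβL)]
    have h1 : ∀ h ∈ (Finset.univ : Finset (L ≃ₐ[K] L)), vz w (h (β : L)) = vz w (β : L) := by
      intro h _
      obtain ⟨y, hy⟩ := conj_eq_unit_mul hg U hU' h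
      have h2 := congrArg (algebraMap (𝓞 L) L) hy
      rw [map_mul] at h2
      have h3 : (h (β : L)) = algebraMap (𝓞 L) L (y : 𝓞 L) * (β : L) := by
        rw [← coe_galO]; exact h2
      rw [h3, vz_mul w (by simp) hβL, vz_unit, zero_add]
    rw [Finset.sum_congr rfl h1, Finset.sum_const, Finset.card_univ, ← Nat.card_eq_fintype_card,
      IsGalois.card_aut_eq_finrank, finrank_KL p ℓ K L hne, nsmul_eq_mul]
  refine ⟨b, s, by intro h; exact hb0 (by rw [h]; rfl), fun v => ?_⟩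
  obtain ⟨Q, hQmax, hQ⟩ := Ideal.exists_maximal_ideal_liesOver_of_isIntegral (S := 𝓞 L) v.asIdeal
  let w : HeightOneSpectrum (𝓞 L) := ⟨Q, hQmax.isPrime, Ideal.ne_bot_of_liesOver_of_ne_bot v.ne_bot Q⟩
  have hlo : w.asIdeal.LiesOver v.asIdeal := hQ
  have hram := ramificationIdx_KL p ℓ K L hne v w
  have hval := HeightOneSpectrum.valuation_liesOver (K := K) L v w (b : K)
  have hbL0 : algebraMap K L (b : K) ≠ 0 := (map_ne_zero _).mpr hb0
  have hmul : (v.asIdeal.ramificationIdx' w.asIdeal : ℤ) * vz v (b : K) =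
      ((ℓ - 1 : ℕ) : ℤ) * vz w (β : L) := by
    rw [← hvb w]
    rw [valuation_eq_exp_vz v hb0, valuation_eq_exp_vz w hbL0, ← exp_nsmul, exp_inj,
      nsmul_eq_mul] at hval
    linarith
  have hℓ1 : ((ℓ - 1 : ℕ) : ℤ) ≠ 0 := by
    have := hℓ.out.two_le
    omega
  constructor
  · intro hv
    rw [hram.2 hv] at hmul
    rw [Nat.cast_one, one_mul] at hmul
    rw [hmul]
    apply Dvd.dvd.mul_right
    have h1 : p ∣ ℓ - 1 := (Nat.modEq_iff_dvd' hℓ.out.one_le).mp (by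
      show 1 % p = ℓ % p
      rw [hmod, Nat.mod_eq_of_lt hp.out.one_lt])
    exact_mod_cast h1
  · intro hv
    rw [hram.1 hv] at hmul
    have hvw : vz v (b : K) = vz w (β : L) := mul_left_cancel₀ hℓ1 hmul
    have hnn : 0 ≤ vz w (β : L) := vz_algebraMap_nonneg w β
    obtain ⟨k, hk⟩ := Int.eq_ofNat_of_zero_le hnn
    refine ⟨k, by rw [hvw, hk], ?_⟩
    have hw : (ℓ : 𝓞 L) ∈ w.asIdeal := by
      have h1 : (ℓ : 𝓞 K) ∈ w.asIdeal.under (𝓞 K) := by
        rw [← Ideal.LiesOver.over (P := w.asIdeal) (p := v.asIdeal)]; exact hv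
      simpa using Ideal.mem_comap.mp h1
    have h2 := local_congr (p := p) (ℓ := ℓ) hne hζ hξ g β hβ hβ' s hs.symm w hw k hk
    have h3 : algebraMap (𝓞 K) (𝓞 L) ((1 - hζ.toInteger) - (s : 𝓞 K) ^ k) ∈ w.asIdeal := by
      rw [map_sub, map_sub, map_one, map_pow, map_natCast]; exact h2
    have h4 : (1 - hζ.toInteger) - (s : 𝓞 K) ^ k ∈ w.asIdeal.under (𝓞 K) := Ideal.mem_comap.mpr h3
    rw [← Ideal.LiesOver.over (P := w.asIdeal) (p := v.asIdeal)] at h4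
    exact h4

end Main

end Fermat.Agent.EXT
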