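import Mathlib
import Fermat.Agent.EXT.Val
import Fermat.Agent.EXT.Basic
import Fermat.Agent.EXT.Rho
import Fermat.Agent.EXT.ThaineMain
import Fermat.Prelude.Def_ClassGroup_GaloisAction

set_option autoImplicit false
set_option linter.unusedSectionVars false

namespace Fermat.Agent.EXT

open NumberField IsDedekindDomain nonZeroDivisors

section ActV

variable {K : Type*} [Field K] [NumberField K]

/-- action of Galois on the ring of integers -/
noncomputable def oAct (σ : K ≃ₐ[ℚ] K) : 𝓞 K ≃+* 𝓞 K :=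
  RingOfIntegers.mapRingEquiv (σ : K ≃+* K)

@[simp] lemma coe_oAct (σ : K ≃ₐ[ℚ] K) (x : 𝓞 K) : ((oAct σ x : 𝓞 K) : K) = σ (x : K) := rfl

/-- action of Galois on primes -/
noncomputable def actV (σ : K ≃ₐ[ℚ] K) (v : HeightOneSpectrum (𝓞 K)) : HeightOneSpectrum (𝓞 K) :=
  HeightOneSpectrum.equivOfRingEquiv (oAct σ) v

lemma mem_actV (σ : K ≃ₐ[ℚ] K) (v : HeightOneSpectrum (𝓞 K)) (x : 𝓞 K) :
    x ∈ (actV σ v).asIdeal ↔ oAct σ⁻¹ x ∈ v.asIdeal := by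
  rw [actV, HeightOneSpectrum.equivOfRingEquiv_apply, HeightOneSpectrum.comap_asIdeal,
    Ideal.mem_comap]
  rfl

lemma oAct_inv_apply (σ : K ≃ₐ[ℚ] K) (x : 𝓞 K) : oAct σ⁻¹ (oAct σ x) = x := by
  apply RingOfIntegers.ext
  rw [coe_oAct, coe_oAct]
  exact σ.symm_apply_apply _

lemma oAct_apply_inv (σ : K ≃ₐ[ℚ] K) (x : 𝓞 K) : oAct σ (oAct σ⁻¹ x) = x := by
  apply RingOfIntegers.ext
  rw [coe_oAct, coe_oAct]
  exact σ.apply_symm_apply _

lemma oAct_mul_apply (σ τ : K ≃ₐ[ℚ] K) (x : 𝓞 K) : oAct (σ * τ) x = oAct σ (oAct τ x) := rfl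

lemma actV_asIdeal (σ : K ≃ₐ[ℚ] K) (v : HeightOneSpectrum (𝓞 K)) :
    (actV σ v).asIdeal = v.asIdeal.map (oAct σ : 𝓞 K →+* 𝓞 K) := by
  ext x
  rw [mem_actV]
  constructor
  · intro h
    have := Ideal.mem_map_of_mem (oAct σ : 𝓞 K →+* 𝓞 K) h
    rw [RingEquiv.coe_toRingHom, oAct_apply_inv] at this
    exact this
  · intro h
    obtain ⟨y, hy, rfl⟩ := (Ideal.mem_map_iff_of_surjective _ (oAct σ).surjective).mp h
    show oAct σ⁻¹ (oAct σ y) ∈ v.asIdeal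
    rw [oAct_inv_apply]
    exact hy

lemma mk0_actV (σ : K ≃ₐ[ℚ] K) (v : HeightOneSpectrum (𝓞 K)) :
    ClassGroup.mk0 (hosIdeal (actV σ v)) =
      ClassGroup.mulEquiv (oAct σ) (ClassGroup.mk0 (hosIdeal v)) := by
  rw [ClassGroup.mulEquiv_mk0]
  congr 1
  apply Subtype.ext
  rw [hosIdeal_coe, actV_asIdeal]
  rfl

lemma actV_mul (σ τ : K ≃ₐ[ℚ] K) (v : HeightOneSpectrum (𝓞 K)) :
    actV (σ * τ) v = actV σ (actV τ v) := by
  apply HeightOneSpectrum.ext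
  ext x
  rw [mem_actV, mem_actV, mem_actV, mul_inv_rev]
  rfl

lemma actV_one (v : HeightOneSpectrum (𝓞 K)) : actV 1 v = v := by
  apply HeightOneSpectrum.ext
  ext x
  rw [mem_actV, inv_one]
  rfl

lemma natCast_mem_actV (σ : K ≃ₐ[ℚ] K) (v : HeightOneSpectrum (𝓞 K)) (n : ℕ) :
    (n : 𝓞 K) ∈ (actV σ v).asIdeal ↔ (n : 𝓞 K) ∈ v.asIdeal := by
  rw [mem_actV, map_natCast]

lemma liesOver_span_of_mem {ℓ : ℕ} (hℓ : ℓ.Prime) (v : HeightOneSpectrum (𝓞 K))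
    (hv : (ℓ : 𝓞 K) ∈ v.asIdeal) : v.asIdeal.LiesOver (Ideal.span {(ℓ : ℤ)}) := by
  have hprime : Prime (ℓ : ℤ) := Nat.prime_iff_prime_int.mp hℓ
  constructor
  have hmax : (Ideal.span {(ℓ : ℤ)}).IsMaximal :=
    PrincipalIdealRing.isMaximal_of_irreducible hprime.irreducible
  apply hmax.eq_of_le
  · intro h
    have h1 : (1 : ℤ) ∈ v.asIdeal.under ℤ := by rw [h]; trivial
    apply v.isPrime.ne_top
    rw [Ideal.eq_top_iff_one]
    simpa using Ideal.mem_comap.mp h1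
  · rw [Ideal.span_singleton_le_iff_mem]
    apply Ideal.mem_comap.mpr
    simpa using hv

theorem exists_actV_eq [IsGalois ℚ K] {ℓ : ℕ} (hℓ : ℓ.Prime) (v w : HeightOneSpectrum (𝓞 K))
    (hv : (ℓ : 𝓞 K) ∈ v.asIdeal) (hw : (ℓ : 𝓞 K) ∈ w.asIdeal) :
    ∃ σ : K ≃ₐ[ℚ] K, actV σ v = w := by
  have hprime : Prime (ℓ : ℤ) := Nat.prime_iff_prime_int.mp hℓ
  have h1 := liesOver_span_of_mem hℓ v hv
  have h2 := liesOver_span_of_mem hℓ w hw
  obtain ⟨σ, hσ⟩ := Ideal.exists_comap_galRestrict_eq ℤ ℚ K (𝓞 K)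
    (p := Ideal.span {(ℓ : ℤ)}) (P₁ := v.asIdeal) (P₂ := w.asIdeal) ⟨v.isPrime, h1⟩ ⟨w.isPrime, h2⟩
  refine ⟨σ⁻¹, ?_⟩
  apply HeightOneSpectrum.ext
  rw [← hσ]
  ext x
  rw [mem_actV, inv_inv, Ideal.mem_comap]
  have : oAct σ x = (galRestrict ℤ ℚ K (𝓞 K) σ) x := by
    apply RingOfIntegers.ext
    rw [coe_oAct]
    exact (algebraMap_galRestrict_apply ℤ σ x).symm
  rw [this]

/-- residue field of prime cardinality: everything is congruent to an integer -/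
theorem exists_int_sub_mem (v : HeightOneSpectrum (𝓞 K)) (hv : (Ideal.absNorm v.asIdeal).Prime)
    (x : 𝓞 K) : ∃ c : ℤ, x - c ∈ v.asIdeal := by
  have hprime := v.isPrime
  have hcard : Nat.card (𝓞 K ⧸ v.asIdeal) = Ideal.absNorm v.asIdeal := rfl
  have hfin : Finite (𝓞 K ⧸ v.asIdeal) := by
    apply Nat.finite_of_card_ne_zero
    rw [hcard]; exact hv.ne_zero
  have := Fintype.ofFinite (𝓞 K ⧸ v.asIdeal)
  have e := ZMod.ringEquivOfPrime (𝓞 K ⧸ v.asIdeal) hv (by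
    rw [← Nat.card_eq_fintype_card]; exact hcard)
  obtain ⟨y, hy⟩ := e.surjective (Ideal.Quotient.mk _ x)
  obtain ⟨c, rfl⟩ := ZMod.intCast_surjective y
  refine ⟨c, ?_⟩
  rw [← Ideal.Quotient.eq_zero_iff_mem, map_sub, map_intCast, sub_eq_zero, ← hy, map_intCast]

end ActV

section Cyc

variable {p : ℕ} [hp : Fact p.Prime] {K : Type*} [Field K] [NumberField K]
  [IsCyclotomicExtension {p} ℚ K] {ζ : K} (hζ : IsPrimitiveRoot ζ p)

include hζ

/-- powers of `ζ` are distinct modulo primes not above `p` -/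
theorem pow_sub_one_notMem (v : HeightOneSpectrum (𝓞 K)) (hv : (p : 𝓞 K) ∉ v.asIdeal) (i : ℕ)
    (hi : ¬ p ∣ i) : hζ.toInteger ^ i - 1 ∉ v.asIdeal := by
  intro h
  have hne : hζ.toInteger ^ i ≠ 1 := by
    intro h1
    exact hi ((hζ.toInteger_isPrimitiveRoot.pow_eq_one_iff_dvd i).mp h1)
  have hpow : (hζ.toInteger ^ i) ^ p = 1 := by
    rw [← pow_mul, mul_comm, pow_mul, hζ.toInteger_isPrimitiveRoot.pow_eq_one, one_pow]
  obtain ⟨y, hy⟩ := sub_one_dvd_natCast_of_pow_eq_one hpow hne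
  apply hv
  rw [hy]
  exact Ideal.mul_mem_right _ _ h

theorem actV_injective (v : HeightOneSpectrum (𝓞 K)) (hv : (Ideal.absNorm v.asIdeal).Prime)
    (hpv : (p : 𝓞 K) ∉ v.asIdeal) {σ τ : K ≃ₐ[ℚ] K} (h : actV σ v = actV τ v) : σ = τ := by
  have h1 : actV (τ⁻¹ * σ) v = v := by
    rw [actV_mul, h, ← actV_mul, inv_mul_cancel, actV_one]
  set ρ := τ⁻¹ * σ with hρ
  suffices hone : ρ = 1 by
    rw [hρ] at hone
    exact (inv_mul_eq_one.mp hone).symm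
  obtain ⟨c, hc⟩ := exists_int_sub_mem v hv hζ.toInteger
  have h2 : oAct ρ hζ.toInteger - c ∈ v.asIdeal := by
    have h3 : oAct ρ (hζ.toInteger - c) ∈ (actV ρ v).asIdeal := by
      rw [mem_actV, oAct_inv_apply]; exact hc
    rw [h1, map_sub, map_intCast] at h3
    exact h3
  have h4 : oAct ρ hζ.toInteger - hζ.toInteger ∈ v.asIdeal := by
    have := v.asIdeal.sub_mem h2 hc
    rwa [sub_sub_sub_cancel_right] at this
  have hspec := hζ.autToPow_spec ℚ ρ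
  set a := ((hζ.autToPow ℚ ρ : (ZMod p)ˣ) : ZMod p) with ha
  have h5 : oAct ρ hζ.toInteger = hζ.toInteger ^ a.val := by
    apply RingOfIntegers.ext
    rw [coe_oAct]
    simpa using hspec.symm
  have ha0 : a.val ≠ 0 := by
    rw [Ne, ZMod.val_eq_zero]
    exact Units.ne_zero _
  obtain ⟨b, hb⟩ := Nat.exists_eq_succ_of_ne_zero ha0
  rw [h5, hb, Nat.succ_eq_add_one, pow_succ, show hζ.toInteger ^ b * hζ.toInteger - hζ.toInteger =
    (hζ.toInteger ^ b - 1) * hζ.toInteger by ring] at h4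
  have hunit : IsUnit hζ.toInteger := hζ.toInteger_isPrimitiveRoot.isUnit hp.out.ne_zero
  have h6 : hζ.toInteger ^ b - 1 ∈ v.asIdeal := by
    rcases v.isPrime.mem_or_mem h4 with h | h
    · exact h
    · exact absurd (Ideal.eq_top_of_isUnit_mem _ h hunit) v.isPrime.ne_top
  have h7 : p ∣ b := by
    by_contra hnb
    exact pow_sub_one_notMem hζ v hpv b hnb h6
  have h8 : b = 0 := by
    apply Nat.eq_zero_of_dvd_of_lt h7
    have := ZMod.val_lt a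
    omega
  have h9 : a = 1 := by
    rw [h8] at hb
    apply ZMod.val_injective
    rw [hb, ZMod.val_one]
  apply hζ.autToPow_injective ℚ
  apply Units.ext
  rw [map_one, Units.val_one, ← ha, h9]

theorem mod_eq_one_of_absNorm_prime (v : HeightOneSpectrum (𝓞 K)) {ℓ : ℕ} (hℓ : ℓ.Prime)
    (hv : Ideal.absNorm v.asIdeal = ℓ) (hpv : (p : 𝓞 K) ∉ v.asIdeal) : ℓ % p = 1 := by
  have hprime := v.isPrime
  have hmax : v.asIdeal.IsMaximal := v.isMaximal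
  let F := 𝓞 K ⧸ v.asIdeal
  let _ : Field F := Ideal.Quotient.field v.asIdeal
  have hcard : Nat.card F = ℓ := hv
  have hfin : Finite F := Nat.finite_of_card_ne_zero (by rw [hcard]; exact hℓ.ne_zero)
  let q : 𝓞 K →+* F := Ideal.Quotient.mk v.asIdeal
  have hq0 : ∀ x : 𝓞 K, q x = 0 ↔ x ∈ v.asIdeal := fun x => Ideal.Quotient.eq_zero_iff_mem
  have hord : orderOf (q hζ.toInteger) = p := by
    apply orderOf_eq_prime
    · rw [← map_pow, hζ.toInteger_isPrimitiveRoot.pow_eq_one, map_one]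
    · intro h
      have h1 : q (hζ.toInteger ^ 1 - 1) = 0 := by rw [pow_one, map_sub, h, map_one, sub_self]
      exact pow_sub_one_notMem hζ v hpv 1 (fun h => hp.out.one_lt.ne' (Nat.dvd_one.mp h))
        ((hq0 _).mp h1)
  have := Fintype.ofFinite F
  have h2 : q hζ.toInteger ^ (ℓ - 1) = 1 := by
    have h3 := FiniteField.pow_card_sub_one_eq_one (q hζ.toInteger) (by
      intro h
      rw [h, orderOf_zero] at hord
      exact hp.out.ne_zero hord.symm)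
    rw [← Nat.card_eq_fintype_card, hcard] at h3
    exact h3
  have h3 : p ∣ ℓ - 1 := by
    rw [← hord]; exact orderOf_dvd_of_pow_eq_one h2
  have h4 := (Nat.modEq_iff_dvd' hℓ.one_le).mpr h3
  have h5 : 1 % p = ℓ % p := h4
  rw [← h5, Nat.mod_eq_of_lt hp.out.one_lt]

/-- exponent of `σ` on `ζ` -/
noncomputable def nn (σ : K ≃ₐ[ℚ] K) : ℕ := ((hζ.autToPow ℚ σ : (ZMod p)ˣ) : ZMod p).val

lemma nn_spec (σ : K ≃ₐ[ℚ] K) : σ ζ = ζ ^ nn hζ σ := (hζ.autToPow_spec ℚ σ).symm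

lemma nn_mem (σ : K ≃ₐ[ℚ] K) : nn hζ σ ∈ Finset.Ico 1 p := by
  rw [Finset.mem_Ico]
  refine ⟨Nat.one_le_iff_ne_zero.mpr ?_, ZMod.val_lt _⟩
  rw [nn, Ne, ZMod.val_eq_zero]
  exact Units.ne_zero _

lemma cast_nn (σ : K ≃ₐ[ℚ] K) : (nn hζ σ : ZMod p) = (hζ.autToPow ℚ σ : (ZMod p)ˣ) := by
  rw [nn, ZMod.natCast_val, ZMod.cast_id', id]

lemma cast_nn_inv (σ : K ≃ₐ[ℚ] K) : (nn hζ σ⁻¹ : ZMod p) = (nn hζ σ : ZMod p)⁻¹ := by
  rw [cast_nn, cast_nn, map_inv, Units.val_inv_eq_inv_val]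

lemma autToPow_bijective : Function.Bijective (hζ.autToPow ℚ) := by
  rw [Fintype.bijective_iff_injective_and_card]
  refine ⟨hζ.autToPow_injective ℚ, ?_⟩
  have hgal : IsGalois ℚ K := IsCyclotomicExtension.isGalois {p} ℚ K
  rw [← Nat.card_eq_fintype_card, IsGalois.card_aut_eq_finrank,
    IsCyclotomicExtension.Rat.finrank p (K := K), ZMod.card_units_eq_totient]

lemma prod_nn_inv {M : Type*} [CommMonoid M] (f : ℕ → M) :
    ∏ σ : K ≃ₐ[ℚ] K, f (nn hζ σ⁻¹) = ∏ a ∈ Finset.Ico 1 p, f a := by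
  refine Finset.prod_bij (fun σ _ => nn hζ σ⁻¹) (fun σ _ => nn_mem hζ _) ?_ ?_ (fun _ _ => rfl)
  · intro σ _ τ _ h
    have h1 : hζ.autToPow ℚ σ⁻¹ = hζ.autToPow ℚ τ⁻¹ := by
      apply Units.ext
      rw [← cast_nn, ← cast_nn, h]
    exact inv_injective (hζ.autToPow_injective ℚ h1)
  · intro a ha
    obtain ⟨σ, hσ⟩ := (autToPow_bijective hζ).surjective (Units.mk0 (a : ZMod p)
      (natCast_ne_zero_of_mem ha))
    refine ⟨σ⁻¹, Finset.mem_univ _, ?_⟩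
    rw [inv_inv, nn, hσ, Units.val_mk0]
    rw [Finset.mem_Ico] at ha
    exact ZMod.val_cast_of_lt ha.2

/-- characters of the class group of type `ω²` -/
def IsOmegaSq (ψ : Additive (ClassGroup (𝓞 K)) →+ ZMod p) : Prop :=
  ∀ (σ : K ≃ₐ[ℚ] K) (c : ClassGroup (𝓞 K)),
    ψ (Additive.ofMul (ClassGroup.mulEquiv (oAct σ) c)) =
      ((nn hζ σ : ℕ) : ZMod p) ^ 2 * ψ (Additive.ofMul c)

/-- A character of the class group vanishes on ideals whose valuations are divisible by `p`. -/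
theorem char_eq_zero_of_dvd (ψ : Additive (ClassGroup (𝓞 K)) →+ ZMod p)
    (I : (FractionalIdeal (𝓞 K)⁰ K)ˣ)
    (h : ∀ v : HeightOneSpectrum (𝓞 K), (p : ℤ) ∣ FractionalIdeal.count K v (I : FractionalIdeal (𝓞 K)⁰ K)) :
    ψ (Additive.ofMul (ClassGroup.mk K I)) = 0 := by
  obtain ⟨J, hJ0, hJ⟩ := exists_pow_eq (I := (I : FractionalIdeal (𝓞 K)⁰ K)) I.ne_zero p
    hp.out.ne_zero h
  have h1 : I = (Units.mk0 J hJ0) ^ p := by
    apply Units.ext
    rw [Units.val_pow_eq_pow_val, Units.val_mk0, hJ]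
  rw [h1, map_pow, ofMul_pow, map_nsmul, nsmul_eq_mul]
  simp

end Cyc

end Fermat.Agent.EXT
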