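import Mathlib
import Fermat.Agent.EXT.ThaineChar

set_option autoImplicit false
set_option linter.unusedSectionVars false

namespace Fermat.Agent.EXT

open NumberField IsDedekindDomain nonZeroDivisors

/-- in a finite field, `x^((q-1)/p) = 1` implies that `x` is a `p`-th power. -/
theorem exists_pow_of_pow_eq_one {F : Type*} [Field F] [Finite F] {p : ℕ} (hp : p ≠ 0)
    (hdvd : p ∣ Nat.card F - 1) {x : F} (hx : x ≠ 0) (h : x ^ ((Nat.card F - 1) / p) = 1) :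
    ∃ z : F, z ^ p = x := by
  have := Fintype.ofFinite F
  obtain ⟨g, hg⟩ := IsCyclic.exists_generator (α := Fˣ)
  obtain ⟨j, hj⟩ : ∃ j : ℕ, g ^ j = Units.mk0 x hx := by
    have := hg (Units.mk0 x hx)
    rwa [← mem_powers_iff_mem_zpowers, Submonoid.mem_powers_iff] at this
  have hord : orderOf g = Nat.card F - 1 := by
    rw [orderOf_eq_card_of_forall_mem_zpowers hg, Nat.card_units]
  obtain ⟨e, he⟩ := hdvd
  have hcard : 0 < Nat.card F - 1 := by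
    have := Finite.one_lt_card (α := F)
    omega
  have he0 : 0 < e := by
    rcases Nat.eq_zero_or_pos e with h0 | h0
    · rw [h0, mul_zero] at he; omega
    · exact h0
  have hdiv : (Nat.card F - 1) / p = e := by
    rw [he, Nat.mul_div_cancel_left e (Nat.pos_of_ne_zero hp)]
  rw [hdiv] at h
  have h1 : g ^ (j * e) = 1 := by
    rw [pow_mul, hj]
    apply Units.ext
    simpa using h
  have h2 := orderOf_dvd_of_pow_eq_one h1
  rw [hord, he] at h2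
  have h3 : p ∣ j := (Nat.mul_dvd_mul_iff_right he0).mp h2
  obtain ⟨i, hi⟩ := h3
  refine ⟨((g ^ i : Fˣ) : F), ?_⟩
  rw [← Units.val_pow_eq_pow_val, ← pow_mul, mul_comm, ← hi, hj, Units.val_mk0]

section Final

variable {p : ℕ} [hp : Fact p.Prime] {K : Type} [Field K] [NumberField K]
  [IsCyclotomicExtension {p} ℚ K] {ζ : K} (hζ : IsPrimitiveRoot ζ p)

include hζ

/-- The relation on exponents. -/
theorem sum_eq_zero (ψ : Additive (ClassGroup (𝓞 K)) →+ ZMod p) (hψ : IsOmegaSq hζ ψ)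
    {ℓ : ℕ} (hℓ : ℓ.Prime) (v0 : HeightOneSpectrum (𝓞 K)) (hv0 : Ideal.absNorm v0.asIdeal = ℓ)
    (hpv : (p : 𝓞 K) ∉ v0.asIdeal)
    (hne : ψ (Additive.ofMul (ClassGroup.mk0 (hosIdeal v0))) ≠ 0)
    (b : 𝓞 K) (hb : b ≠ 0)
    (hbv : ∀ v : HeightOneSpectrum (𝓞 K), (ℓ : 𝓞 K) ∉ v.asIdeal → (p : ℤ) ∣ vz v (b : K))
    (k : (K ≃ₐ[ℚ] K) → ℕ) (hk : ∀ σ, vz (actV σ v0) (b : K) = k σ) :
    p ∣ ∑ σ : K ≃ₐ[ℚ] K, k σ * nn hζ σ ^ 2 := by
  classical
  have hgal : IsGalois ℚ K := IsCyclotomicExtension.isGalois {p} ℚ K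
  have hv0' : (Ideal.absNorm v0.asIdeal).Prime := by rw [hv0]; exact hℓ
  have hℓv0 : (ℓ : 𝓞 K) ∈ v0.asIdeal := by rw [← hv0]; exact Ideal.absNorm_mem _
  have hbK : (b : K) ≠ 0 := by simpa using hb
  let Ub : (FractionalIdeal (𝓞 K)⁰ K)ˣ := Units.mk0 (FractionalIdeal.spanSingleton (𝓞 K)⁰ (b : K))
    (FractionalIdeal.spanSingleton_ne_zero_iff.mpr hbK)
  let U : (K ≃ₐ[ℚ] K) → (FractionalIdeal (𝓞 K)⁰ K)ˣ := fun σ =>
    FractionalIdeal.mk0 K (hosIdeal (actV σ v0))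
  let I : (FractionalIdeal (𝓞 K)⁰ K)ˣ := Ub * ∏ σ : K ≃ₐ[ℚ] K, U σ ^ (-(k σ : ℤ))
  have hcount : ∀ v : HeightOneSpectrum (𝓞 K),
      (p : ℤ) ∣ FractionalIdeal.count K v (I : FractionalIdeal (𝓞 K)⁰ K) := by
    intro v
    have h1 : FractionalIdeal.count K v (I : FractionalIdeal (𝓞 K)⁰ K) = vz v (b : K) +
        ∑ σ : K ≃ₐ[ℚ] K, (-(k σ : ℤ)) * (if actV σ v0 = v then 1 else 0) := by
      rw [show (I : FractionalIdeal (𝓞 K)⁰ K) = FractionalIdeal.spanSingleton (𝓞 K)⁰ (b : K) *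
        ∏ σ : K ≃ₐ[ℚ] K, ((actV σ v0).asIdeal : FractionalIdeal (𝓞 K)⁰ K) ^ (-(k σ : ℤ)) from ?_]
      · rw [FractionalIdeal.count_mul, count_spanSingleton v hbK, FractionalIdeal.count_prod]
        · congr 1
          refine Finset.sum_congr rfl fun σ _ => ?_
          rw [FractionalIdeal.count_zpow, FractionalIdeal.count_maximal]
        · intro σ _
          exact zpow_ne_zero _ (FractionalIdeal.coeIdeal_ne_zero.mpr (actV σ v0).ne_bot)
        · exact FractionalIdeal.spanSingleton_ne_zero_iff.mpr hbK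
        · exact Finset.prod_ne_zero_iff.mpr fun σ _ =>
            zpow_ne_zero _ (FractionalIdeal.coeIdeal_ne_zero.mpr (actV σ v0).ne_bot)
      · simp only [I, U, Ub, Units.val_mul, Units.coe_prod, Units.val_zpow_eq_zpow_val,
          Units.val_mk0, FractionalIdeal.coe_mk0, hosIdeal_coe]
    rw [h1]
    by_cases hv : (ℓ : 𝓞 K) ∈ v.asIdeal
    · obtain ⟨σ, rfl⟩ := exists_actV_eq hℓ v0 v hℓv0 hv
      have h2 : ∑ τ : K ≃ₐ[ℚ] K, (-(k τ : ℤ)) * (if actV τ v0 = actV σ v0 then 1 else 0) =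
          -(k σ : ℤ) := by
        rw [Finset.sum_eq_single σ]
        · simp
        · intro τ _ hτ
          rw [if_neg, mul_zero]
          intro h
          exact hτ (actV_injective hζ v0 hv0' hpv h)
        · intro h; exact absurd (Finset.mem_univ σ) h
      rw [h2, hk]
      simp
    · have h2 : ∑ τ : K ≃ₐ[ℚ] K, (-(k τ : ℤ)) * (if actV τ v0 = v then 1 else 0) = 0 := by
        apply Finset.sum_eq_zero
        intro τ _
        rw [if_neg, mul_zero]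
        rintro rfl
        exact hv ((natCast_mem_actV τ v0 ℓ).mpr hℓv0)
      rw [h2, add_zero]
      exact hbv v hv
  have hzero := char_eq_zero_of_dvd hζ ψ I hcount
  have hUb : ClassGroup.mk K Ub = 1 := by
    rw [ClassGroup.mk_eq_one_iff]
    exact ⟨⟨(b : K), by
      rw [Units.val_mk0, FractionalIdeal.coe_spanSingleton]⟩⟩
  have hexp : ψ (Additive.ofMul (ClassGroup.mk K I)) =
      ∑ σ : K ≃ₐ[ℚ] K, (-(k σ : ZMod p)) * ((nn hζ σ : ZMod p) ^ 2 *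
        ψ (Additive.ofMul (ClassGroup.mk0 (hosIdeal v0)))) := by
    simp only [I, map_mul, map_prod, map_zpow, hUb, one_mul]
    rw [ofMul_prod, map_sum]
    refine Finset.sum_congr rfl fun σ _ => ?_
    rw [ofMul_zpow, map_zsmul, show ClassGroup.mk K (U σ) = ClassGroup.mk0 (hosIdeal (actV σ v0))
      from ClassGroup.mk_mk0 K _, mk0_actV, hψ σ]
    simp
  rw [hexp] at hzero
  have h3 : (∑ σ : K ≃ₐ[ℚ] K, (k σ : ZMod p) * (nn hζ σ : ZMod p) ^ 2) *
      ψ (Additive.ofMul (ClassGroup.mk0 (hosIdeal v0))) = 0 := by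
    rw [Finset.sum_mul, ← neg_eq_zero, ← Finset.sum_neg_distrib, ← hzero]
    refine Finset.sum_congr rfl fun σ _ => by ring
  rcases mul_eq_zero.mp h3 with h4 | h4
  · rw [← ZMod.natCast_eq_zero_iff]
    push_cast
    exact h4
  · exact absurd h4 hne

lemma sum_nn_sq (h5 : 5 ≤ p) : p ∣ ∑ σ : K ≃ₐ[ℚ] K, nn hζ σ ^ 2 := by
  rw [← ZMod.natCast_eq_zero_iff]
  push_cast
  have h1 : ∀ σ ∈ (Finset.univ : Finset (K ≃ₐ[ℚ] K)), (nn hζ σ : ZMod p) ^ 2 =
      ((nn hζ σ⁻¹ : ZMod p)⁻¹) ^ 2 := by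
    intro σ _
    rw [cast_nn_inv, inv_inv]
  rw [Finset.sum_congr rfl h1]
  have h2 : ∑ σ : K ≃ₐ[ℚ] K, ((nn hζ σ⁻¹ : ZMod p)⁻¹) ^ 2 =
      ∑ a ∈ Finset.Ico 1 p, ((a : ZMod p)⁻¹) ^ 2 := by
    have := prod_nn_inv hζ (M := Multiplicative (ZMod p))
      (fun a => Multiplicative.ofAdd (((a : ZMod p)⁻¹) ^ 2))
    rw [← ofAdd_sum, ← ofAdd_sum] at this
    exact Multiplicative.ofAdd.injective this
  rw [h2, sum_Ico_inv_pow 2 (by omega) (by omega)]

/-- **Thaine's theorem** for the `ω²` part of the class group of `ℚ(ζ_p)`. -/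
theorem thaine (h5 : 5 ≤ p) (ψ : Additive (ClassGroup (𝓞 K)) →+ ZMod p) (hψ : IsOmegaSq hζ ψ)
    (v0 : HeightOneSpectrum (𝓞 K)) (hv0 : (Ideal.absNorm v0.asIdeal).Prime)
    (hpv : (p : 𝓞 K) ∉ v0.asIdeal)
    (hne : ψ (Additive.ofMul (ClassGroup.mk0 (hosIdeal v0))) ≠ 0)
    (m : ℕ → ℕ) (hm : ∀ a ∈ Finset.Ico 1 p, (m a : ZMod p) = ((a : ZMod p)⁻¹) ^ 2) :
    ∃ z : 𝓞 K, cycUnit hζ m - z ^ p ∈ v0.asIdeal := by
  classical
  obtain ⟨ℓ, hℓ'⟩ : ∃ ℓ, Ideal.absNorm v0.asIdeal = ℓ := ⟨_, rfl⟩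
  have hℓ : ℓ.Prime := hℓ' ▸ hv0
  have : Fact ℓ.Prime := ⟨hℓ⟩
  have hmod := mod_eq_one_of_absNorm_prime hζ v0 hℓ hℓ' hpv
  have hneℓ : p ≠ ℓ := by
    rintro rfl
    rw [Nat.mod_self] at hmod
    exact zero_ne_one hmod
  obtain ⟨b, s, hb, hbv⟩ := exists_thaine_element p ℓ K hneℓ hmod hζ
  have hℓv0 : (ℓ : 𝓞 K) ∈ v0.asIdeal := by rw [← hℓ']; exact Ideal.absNorm_mem _
  choose k hk1 hk2 using fun σ => (hbv (actV σ v0)).2 ((natCast_mem_actV σ v0 ℓ).mpr hℓv0)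
  obtain ⟨M, hM⟩ := sum_eq_zero hζ ψ hψ hℓ v0 hℓ' hpv hne b hb (fun v => (hbv v).1) k hk1
  -- the residue field
  have hprime := v0.isPrime
  have hmax : v0.asIdeal.IsMaximal := v0.isMaximal
  let F := 𝓞 K ⧸ v0.asIdeal
  let _ : Field F := Ideal.Quotient.field v0.asIdeal
  have hcard : Nat.card F = ℓ := hℓ'
  have hfin : Finite F := Nat.finite_of_card_ne_zero (by rw [hcard]; exact hℓ.ne_zero)
  have := Fintype.ofFinite F
  let q : 𝓞 K →+* F := Ideal.Quotient.mk v0.asIdeal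
  have hq0 : ∀ x : 𝓞 K, q x = 0 ↔ x ∈ v0.asIdeal := fun x => Ideal.Quotient.eq_zero_iff_mem
  have hpdvd : p ∣ ℓ - 1 := (Nat.modEq_iff_dvd' hℓ.one_le).mp (by
      show 1 % p = ℓ % p
      rw [hmod, Nat.mod_eq_of_lt hp.out.one_lt])
  have hflt : ∀ x : F, x ≠ 0 → x ^ (ℓ - 1) = 1 := by
    intro x hx
    have h3 := FiniteField.pow_card_sub_one_eq_one x hx
    rwa [← Nat.card_eq_fintype_card, hcard] at h3
  -- `θ`
  let e := (ℓ - 1) / p
  have he : e * p = ℓ - 1 := Nat.div_mul_cancel hpdvd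
  have hθp : ∀ x : F, x ≠ 0 → (x ^ e) ^ p = 1 := by
    intro x hx
    rw [← pow_mul, he, hflt x hx]
  have hθmod : ∀ x : F, x ≠ 0 → ∀ i j : ℕ, (i : ZMod p) = j → (x ^ e) ^ i = (x ^ e) ^ j := by
    intro x hx i j hij
    rw [pow_eq_pow_mod i (hθp x hx), pow_eq_pow_mod j (hθp x hx)]
    rw [(ZMod.natCast_eq_natCast_iff i j p).mp hij]
  -- nonvanishing
  have hz : ∀ a ∈ Finset.Ico 1 p, q (hζ.toInteger ^ a - 1) ≠ 0 := by
    intro a ha h
    rw [Finset.mem_Ico] at ha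
    exact pow_sub_one_notMem hζ v0 hpv a (fun h => by
      have := Nat.le_of_dvd (by omega) h; omega) ((hq0 _).mp h)
  let c : ℕ → 𝓞 K := fun a => ∑ j ∈ Finset.range a, hζ.toInteger ^ j
  have hc : ∀ a, (1 - hζ.toInteger) * c a = 1 - hζ.toInteger ^ a := by
    intro a
    exact mul_neg_geom_sum _ _
  have hz' : ∀ a ∈ Finset.Ico 1 p, q (1 - hζ.toInteger ^ a) ≠ 0 := by
    intro a ha h
    apply hz a ha
    rw [← neg_sub, map_neg, h, neg_zero]
  have h1z : q (1 - hζ.toInteger) ≠ 0 := by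
    have := hz' 1 (by rw [Finset.mem_Ico]; omega)
    rwa [pow_one] at this
  have hcne : ∀ a ∈ Finset.Ico 1 p, q (c a) ≠ 0 := by
    intro a ha h
    apply hz' a ha
    rw [← hc, map_mul, h, mul_zero]
  -- the congruences
  have hcong : ∀ σ : K ≃ₐ[ℚ] K, q (1 - hζ.toInteger ^ (nn hζ σ⁻¹)) = (s : F) ^ k σ := by
    intro σ
    have h1 := hk2 σ
    rw [mem_actV, map_sub, map_sub, map_one, map_pow, map_natCast] at h1
    have h2 : oAct σ⁻¹ hζ.toInteger = hζ.toInteger ^ (nn hζ σ⁻¹) := by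
      apply RingOfIntegers.ext
      rw [coe_oAct]
      simpa using nn_spec hζ σ⁻¹
    rw [h2, ← hq0, map_sub, sub_eq_zero, map_pow, map_natCast] at h1
    exact h1
  -- main computation
  have hcyc : q (cycUnit hζ m) ≠ 0 := by
    rw [cycUnit, map_prod]
    refine Finset.prod_ne_zero_iff.mpr fun a ha => ?_
    rw [map_pow]
    exact pow_ne_zero _ (hcne a ha)
  have hmain : q (cycUnit hζ m) ^ e = 1 := by
    have e1 : q (cycUnit hζ m) ^ e = ∏ σ : K ≃ₐ[ℚ] K, (q (c (nn hζ σ⁻¹)) ^ e) ^ (nn hζ σ ^ 2) := by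
      have e2 : q (cycUnit hζ m) ^ e = ∏ a ∈ Finset.Ico 1 p, (q (c a) ^ e) ^ (m a) := by
        rw [cycUnit, map_prod, ← Finset.prod_pow]
        refine Finset.prod_congr rfl fun a _ => ?_
        rw [map_pow, ← pow_mul, ← pow_mul, mul_comm]
      rw [e2, ← prod_nn_inv hζ (fun a => (q (c a) ^ e) ^ (m a))]
      refine Finset.prod_congr rfl fun σ _ => ?_
      apply hθmod _ (hcne _ (nn_mem hζ _))
      rw [hm _ (nn_mem hζ _), cast_nn_inv, inv_inv]
      push_cast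
      rfl
    have e3 : (q (1 - hζ.toInteger) ^ e) ^ (∑ σ : K ≃ₐ[ℚ] K, nn hζ σ ^ 2) *
        q (cycUnit hζ m) ^ e = 1 := by
      rw [e1, ← Finset.prod_pow_eq_pow_sum, ← Finset.prod_mul_distrib]
      have e4 : ∀ σ ∈ (Finset.univ : Finset (K ≃ₐ[ℚ] K)),
          (q (1 - hζ.toInteger) ^ e) ^ (nn hζ σ ^ 2) *
            (q (c (nn hζ σ⁻¹)) ^ e) ^ (nn hζ σ ^ 2) = (s : F) ^ (k σ * nn hζ σ ^ 2 * e) := by
        intro σ _
        rw [← mul_pow, ← mul_pow, ← map_mul, hc, hcong, ← pow_mul, ← pow_mul]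
        ring_nf
      rw [Finset.prod_congr rfl e4, Finset.prod_pow_eq_pow_sum, ← Finset.sum_mul, hM,
        show p * M * e = M * (e * p) by ring, he, pow_mul]
      by_cases hs0 : (s : F) = 0
      · -- then all `k σ = 0`
        have hk0 : ∀ σ, k σ = 0 := by
          intro σ
          by_contra hkσ
          have := hcong σ
          rw [hs0, zero_pow hkσ] at this
          exact hz' _ (nn_mem hζ _) this
        have hM0 : M = 0 := by
          have h1 : ∑ σ : K ≃ₐ[ℚ] K, k σ * nn hζ σ ^ 2 = 0 :=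
            Finset.sum_eq_zero fun σ _ => by rw [hk0, zero_mul]
          rw [h1] at hM
          rcases mul_eq_zero.mp hM.symm with h | h
          · exact absurd h hp.out.ne_zero
          · exact h
        rw [hM0, pow_zero, one_pow]
      · exact hflt _ (pow_ne_zero _ hs0)
    obtain ⟨M', hM'⟩ := sum_nn_sq hζ h5
    rw [hM', pow_mul, hθp _ h1z, one_pow, one_mul] at e3
    exact e3
  obtain ⟨z, hz⟩ := exists_pow_of_pow_eq_one (F := F) hp.out.ne_zero (by rw [hcard]; exact hpdvd) hcyc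
    (by rw [hcard]; exact hmain)
  obtain ⟨z', rfl⟩ := Ideal.Quotient.mk_surjective z
  refine ⟨z', ?_⟩
  rw [← hq0, map_sub, map_pow]
  show q (cycUnit hζ m) - (Ideal.Quotient.mk v0.asIdeal z') ^ p = 0
  rw [hz, sub_self]

end Final

end Fermat.Agent.EXT
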