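import Mathlib
import Fermat.Agent.EXT.ThaineChar

set_option autoImplicit false
set_option maxSynthPendingDepth 3
set_option linter.unusedSectionVars false

namespace Fermat.Agent.EXT

open NumberField NumberField.Units NumberField.Units.dirichletUnitTheorem Module

section

variable {K : Type*} [Field K] [NumberField K]

/-- Galois action on units -/
noncomputable def uAct (σ : K ≃ₐ[ℚ] K) : (𝓞 K)ˣ ≃* (𝓞 K)ˣ := Units.mapEquiv (oAct σ : 𝓞 K ≃* 𝓞 K)

@[simp] lemma coe_uAct (σ : K ≃ₐ[ℚ] K) (u : (𝓞 K)ˣ) : ((uAct σ u : (𝓞 K)ˣ) : 𝓞 K) = oAct σ u := rfl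

lemma uAct_mul_apply (σ τ : K ≃ₐ[ℚ] K) (u : (𝓞 K)ˣ) : uAct (σ * τ) u = uAct σ (uAct τ u) := by
  apply Units.ext
  rfl

lemma place_uAct (σ : K ≃ₐ[ℚ] K) (u : (𝓞 K)ˣ) (w : InfinitePlace K) :
    w ((uAct σ u : (𝓞 K)ˣ) : K) = (σ⁻¹ • w) (u : K) := by
  rw [InfinitePlace.smul_apply]
  rfl

variable (K) in
/-- the torsion free quotient of the units -/
abbrev UTF := Additive ((𝓞 K)ˣ ⧸ (torsion K))

lemma torsion_le_comap (σ : K ≃ₐ[ℚ] K) :
    torsion K ≤ (torsion K).comap (uAct σ).toMonoidHom := by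
  intro u hu
  rw [Subgroup.mem_comap]
  exact MonoidHom.isOfFinOrder (uAct σ).toMonoidHom (x := u) hu

/-- Galois action on the torsion free quotient of the units -/
noncomputable def uqAct (σ : K ≃ₐ[ℚ] K) : UTF K →+ UTF K :=
  MonoidHom.toAdditive (QuotientGroup.map _ _ (uAct σ).toMonoidHom (torsion_le_comap σ))

/-- class of a unit -/
def uq (u : (𝓞 K)ˣ) : UTF K := Additive.ofMul (QuotientGroup.mk u)

lemma uqAct_uq (σ : K ≃ₐ[ℚ] K) (u : (𝓞 K)ˣ) : uqAct σ (uq u) = uq (uAct σ u) := rfl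

lemma uq_surjective : Function.Surjective (uq (K := K)) := by
  intro x
  obtain ⟨u, hu⟩ := QuotientGroup.mk_surjective x.toMul
  exact ⟨u, by rw [uq, hu]; rfl⟩

lemma uq_mul (u v : (𝓞 K)ˣ) : uq (u * v) = uq u + uq v := rfl
lemma uq_one : uq (1 : (𝓞 K)ˣ) = 0 := rfl
lemma uq_inv (u : (𝓞 K)ˣ) : uq (u⁻¹) = - uq u := rfl
lemma uq_pow (u : (𝓞 K)ˣ) (n : ℕ) : uq (u ^ n) = (n : ℤ) • uq u := by
  rw [natCast_zsmul]; rfl
lemma uq_zpow (u : (𝓞 K)ˣ) (n : ℤ) : uq (u ^ n) = n • uq u := rfl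

lemma uq_eq_zero_iff (u : (𝓞 K)ˣ) : uq u = 0 ↔ u ∈ torsion K := by
  rw [uq, ofMul_eq_zero]
  exact QuotientGroup.eq_one_iff u

lemma uqAct_mul_apply (σ τ : K ≃ₐ[ℚ] K) (x : UTF K) : uqAct (σ * τ) x = uqAct σ (uqAct τ x) := by
  obtain ⟨u, rfl⟩ := uq_surjective x
  rw [uqAct_uq, uqAct_uq, uqAct_uq, uAct_mul_apply]

open Finset in
/-- a "Minkowski unit": its conjugates generate a subgroup of finite index -/
theorem exists_minkowski_unit [IsGalois ℚ K] : ∃ ε : UTF K, ∀ x : UTF K,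
    ∃ m : ℤ, m ≠ 0 ∧ ∃ f : (K ≃ₐ[ℚ] K) → ℤ, m • x = ∑ σ, f σ • uqAct σ ε := by
  classical
  let w₁ : InfinitePlace K := Classical.arbitrary _
  obtain ⟨u, hu⟩ := exists_unit K w₁
  have hg : ∀ w : InfinitePlace K, ∃ σ : K ≃ₐ[ℚ] K, σ • w₁ = w := by
    intro w
    exact InfinitePlace.exists_smul_eq_of_comap_eq (Subsingleton.elim _ _)
  choose g hg using hg
  have key : ∀ w w' : InfinitePlace K, w' ≠ w → Real.log (w' (uAct (g w) u : (𝓞 K)ˣ)) < 0 := by
    intro w w' hw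
    have := place_uAct (g w) u w'
    rw [this]
    apply hu
    intro h
    apply hw
    rw [← hg w, ← h, smul_inv_smul]
  let B := Pi.basisFun ℝ {w : InfinitePlace K // w ≠ w₀}
  let v := fun w : { w : InfinitePlace K // w ≠ w₀ } ↦
    logEmbedding K (Additive.ofMul (uAct (g w) u))
  have hdet : B.det v ≠ 0 := by
    rw [Basis.det_apply]
    refine det_ne_zero_of_sum_col_lt_diag (fun w ↦ ?_)
    simp_rw [Real.norm_eq_abs, B, Basis.coePiBasisFun.toMatrix_eq_transpose, Matrix.transpose_apply]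
    rw [← sub_pos, sum_congr rfl (fun x hx ↦ abs_of_neg ?_), sum_neg_distrib, sub_neg_eq_add,
      sum_erase_eq_sub (mem_univ _), ← add_comm_sub]
    · refine add_pos_of_nonneg_of_pos ?_ ?_
      · rw [sub_nonneg]
        exact le_abs_self _
      · rw [sum_logEmbedding_component (uAct (g w) u)]
        refine mul_pos_of_neg_of_neg ?_ (key _ _ w.prop.symm)
        rw [InfinitePlace.mult]; split_ifs <;> norm_num
    · refine mul_neg_of_pos_of_neg ?_ (key _ _ ?_)
      · rw [InfinitePlace.mult]; split_ifs <;> norm_num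
      · exact Subtype.ext_iff.not.mp (ne_of_mem_erase hx)
  have hli : LinearIndependent ℝ v := by
    have := (Basis.is_basis_iff_det B (v := v)).mpr (isUnit_iff_ne_zero.mpr hdet)
    exact this.1
  let e : { w : InfinitePlace K // w ≠ w₀ } → UTF K := fun w => uqAct (g w) (uq u)
  have hliZ : LinearIndependent ℤ e := by
    have h1 : LinearIndependent ℤ v := hli.restrict_scalars (R := ℤ) (by
      intro a b hab
      simpa using hab)
    refine LinearIndependent.of_comp (logEmbeddingQuot K).toIntLinearMap ?_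
    exact h1
  have hrank : finrank ℤ (Submodule.span ℤ (Set.range e)) = finrank ℤ (UTF K) := by
    rw [finrank_span_eq_card hliZ, finrank_modTorsion, Units.rank]
    simp
  have hfin := (Submodule.finiteQuotient_iff (Submodule.span ℤ (Set.range e))).mpr hrank
  refine ⟨uq u, fun x => ?_⟩
  set N := Nat.card (UTF K ⧸ Submodule.span ℤ (Set.range e)) with hN
  have hN0 : N ≠ 0 := Nat.card_pos.ne'
  refine ⟨N, by exact_mod_cast hN0, ?_⟩
  have hmem : (N : ℤ) • x ∈ Submodule.span ℤ (Set.range e) := by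
    rw [← Submodule.Quotient.mk_eq_zero, Submodule.Quotient.mk_smul, natCast_zsmul]
    exact card_nsmul_eq_zero'
  rw [Submodule.mem_span_range_iff_exists_fun] at hmem
  obtain ⟨c, hc⟩ := hmem
  refine ⟨fun σ => ∑ w : {w : InfinitePlace K // w ≠ w₀}, if g w.1 = σ then c w else 0, ?_⟩
  rw [← hc]
  simp only [Finset.sum_smul]
  rw [Finset.sum_comm]
  refine Finset.sum_congr rfl fun w _ => ?_
  simp only [ite_smul, zero_smul]
  rw [Finset.sum_ite_eq]
  simp [e]

end

end Fermat.Agent.EXT
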