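import Mathlib
import Fermat.Agent.EXT.MinkowskiUnit
import Fermat.Agent.EXT.EigenRank

set_option autoImplicit false
set_option maxSynthPendingDepth 3
set_option linter.unusedSectionVars false

namespace Fermat.Agent.EXT

open NumberField NumberField.Units

section Cyc

variable {p : ℕ} [hp : Fact p.Prime] {K : Type*} [Field K] [NumberField K]
  [IsCyclotomicExtension {p} ℚ K] {ζ : K} (hζ : IsPrimitiveRoot ζ p)

lemma val_coprime (x : (ZMod p)ˣ) : (x : ZMod p).val.Coprime p := ZMod.val_coe_unit_coprime x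

lemma val_mem_Ico (x : (ZMod p)ˣ) : (x : ZMod p).val ∈ Finset.Ico 1 p := by
  rw [Finset.mem_Ico]
  refine ⟨Nat.one_le_iff_ne_zero.mpr ?_, ZMod.val_lt _⟩
  rw [Ne, ZMod.val_eq_zero]
  exact Units.ne_zero _

/-- sums over `Ico 1 p` as sums over `(ZMod p)ˣ` -/
lemma prod_Ico_eq_prod_units {M : Type*} [CommMonoid M] (f : ℕ → M) :
    ∏ a ∈ Finset.Ico 1 p, f a = ∏ x : (ZMod p)ˣ, f (x : ZMod p).val := by
  symm
  refine Finset.prod_bij (fun x _ => (x : ZMod p).val) (fun x _ => val_mem_Ico x) ?_ ?_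
    (fun _ _ => rfl)
  · intro x _ y _ h
    exact Units.ext (ZMod.val_injective p h)
  · intro a ha
    refine ⟨Units.mk0 (a : ZMod p) (natCast_ne_zero_of_mem ha), Finset.mem_univ _, ?_⟩
    rw [Units.val_mk0]
    rw [Finset.mem_Ico] at ha
    exact ZMod.val_cast_of_lt ha.2

include hζ in
lemma isUnit_geom (h2 : 2 ≤ p) (x : (ZMod p)ˣ) :
    IsUnit (∑ j ∈ Finset.range (x : ZMod p).val, hζ.toInteger ^ j) :=
  hζ.toInteger_isPrimitiveRoot.geom_sum_isUnit h2 (val_coprime x)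

/-- cyclotomic units `(1-ζ^a)/(1-ζ)` -/
noncomputable def cZ (x : (ZMod p)ˣ) : (𝓞 K)ˣ := (isUnit_geom hζ hp.out.two_le x).unit

lemma coe_cZ (x : (ZMod p)ˣ) :
    (cZ hζ x : 𝓞 K) = ∑ j ∈ Finset.range (x : ZMod p).val, hζ.toInteger ^ j := rfl

lemma one_sub_mul_cZ (x : (ZMod p)ˣ) :
    (1 - hζ.toInteger) * (cZ hζ x : 𝓞 K) = 1 - hζ.toInteger ^ (x : ZMod p).val := by
  rw [coe_cZ]; exact mul_neg_geom_sum _ _

lemma one_sub_ne_zero : (1 - hζ.toInteger) ≠ 0 := by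
  intro h
  have h1 : hζ.toInteger = 1 := (sub_eq_zero.mp h).symm
  have := hζ.toInteger_isPrimitiveRoot.eq_orderOf
  rw [h1, orderOf_one] at this
  exact hp.out.one_lt.ne' this

lemma oAct_zeta (σ : K ≃ₐ[ℚ] K) : oAct σ hζ.toInteger = hζ.toInteger ^ (nn hζ σ) := by
  apply RingOfIntegers.ext
  rw [coe_oAct]
  simpa using nn_spec hζ σ

lemma zeta_pow_val_mul (x y : (ZMod p)ˣ) :
    (hζ.toInteger ^ (x : ZMod p).val) ^ (y : ZMod p).val =
      hζ.toInteger ^ ((x * y : (ZMod p)ˣ) : ZMod p).val := by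
  rw [← pow_mul]
  have h := hζ.toInteger_isPrimitiveRoot.pow_eq_one
  rw [pow_eq_pow_mod _ h]
  congr 1
  rw [Units.val_mul, ZMod.val_mul]

lemma uAct_cZ (σ : K ≃ₐ[ℚ] K) (x : (ZMod p)ˣ) :
    uAct σ (cZ hζ x) * cZ hζ (hζ.autToPow ℚ σ) = cZ hζ (hζ.autToPow ℚ σ * x) := by
  apply Units.ext
  apply mul_left_cancel₀ (one_sub_ne_zero hζ)
  rw [Units.val_mul, coe_uAct, mul_left_comm, one_sub_mul_cZ, one_sub_mul_cZ]
  have h1 : (1 : 𝓞 K) - hζ.toInteger ^ ((hζ.autToPow ℚ σ : (ZMod p)ˣ) : ZMod p).val =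
      oAct σ (1 - hζ.toInteger) := by
    rw [map_sub, map_one, oAct_zeta]; rfl
  rw [h1, ← map_mul, mul_comm, one_sub_mul_cZ, map_sub, map_one, map_pow, oAct_zeta]
  rw [← zeta_pow_val_mul]
  rfl

/-- the cyclotomic unit as a unit -/
noncomputable def etaU (m : ℕ → ℕ) : (𝓞 K)ˣ := ∏ x : (ZMod p)ˣ, cZ hζ x ^ (m (x : ZMod p).val)

lemma coe_etaU (m : ℕ → ℕ) : (etaU hζ m : 𝓞 K) = cycUnit hζ m := by
  rw [cycUnit, prod_Ico_eq_prod_units (fun a => (∑ j ∈ Finset.range a, hζ.toInteger ^ j) ^ (m a)),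
    etaU, Units.coe_prod]
  rfl

lemma uq_prod {ι : Type*} (s : Finset ι) (f : ι → (𝓞 K)ˣ) :
    uq (∏ i ∈ s, f i) = ∑ i ∈ s, uq (f i) := by
  classical
  induction s using Finset.induction_on with
  | empty => simp [uq_one]
  | insert i s hi ih => rw [Finset.prod_insert hi, Finset.sum_insert hi, uq_mul, ih]

/-- the square of the cyclotomic character -/
noncomputable def chiSq : (K ≃ₐ[ℚ] K) →* (ZMod p)ˣ := (powMonoidHom 2).comp (hζ.autToPow ℚ)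

lemma chiSq_apply (σ : K ≃ₐ[ℚ] K) : chiSq hζ σ = (hζ.autToPow ℚ σ) ^ 2 := rfl

/-- torsion units -/
lemma mem_torsion_iff_exists (hodd : Odd p) (t : (𝓞 K)ˣ) (ht : t ∈ torsion K) :
    ∃ (s : ℤ) (j : ℕ), IsUnit s ∧ (t : 𝓞 K) = s * hζ.toInteger ^ j := by
  have h1 : IsOfFinOrder t := ht
  have h2 : IsOfFinOrder ((t : 𝓞 K) : K) := by
    have := MonoidHom.isOfFinOrder ((algebraMap (𝓞 K) K).toMonoidHom.comp (Units.coeHom (𝓞 K))) h1
    exact this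
  obtain ⟨r, _, hr⟩ := hζ.exists_pow_or_neg_mul_pow_of_isOfFinOrder hodd h2
  rcases hr with hr | hr
  · refine ⟨1, r, isUnit_one, ?_⟩
    apply RingOfIntegers.ext
    rw [hr]
    simp
  · refine ⟨-1, r, isUnit_one.neg, ?_⟩
    apply RingOfIntegers.ext
    rw [hr]
    simp

lemma etaU_type (h5 : 5 ≤ p) (m : ℕ → ℕ)
    (hm : ∀ a ∈ Finset.Ico 1 p, (m a : ZMod p) = ((a : ZMod p)⁻¹) ^ 2) (σ : K ≃ₐ[ℚ] K) :
    DvdBy (p : ℤ) (uqAct σ (uq (etaU hζ m)) -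
      (((chiSq hζ σ : ZMod p).val : ℤ) • uq (etaU hζ m))) := by
  set n := hζ.autToPow ℚ σ with hn
  have hm' : ∀ x : (ZMod p)ˣ, (m (x : ZMod p).val : ZMod p) = ((x⁻¹ : (ZMod p)ˣ) : ZMod p) ^ 2 := by
    intro x
    rw [hm _ (val_mem_Ico x), ZMod.natCast_val, ZMod.cast_id', id, Units.val_inv_eq_inv_val]
  have h1 : uqAct σ (uq (etaU hζ m)) = ∑ x : (ZMod p)ˣ, (m (x : ZMod p).val : ℤ) •
      (uq (cZ hζ (n * x)) - uq (cZ hζ n)) := by
    rw [etaU, uq_prod, map_sum]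
    refine Finset.sum_congr rfl fun x _ => ?_
    rw [uq_pow, map_zsmul, uqAct_uq, ← uAct_cZ, uq_mul, add_sub_cancel_right]
  have h2 : uqAct σ (uq (etaU hζ m)) = ∑ x : (ZMod p)ˣ,
      (m ((n⁻¹ * x : (ZMod p)ˣ) : ZMod p).val : ℤ) • uq (cZ hζ x) -
      (∑ x : (ZMod p)ˣ, (m (x : ZMod p).val : ℤ)) • uq (cZ hζ n) := by
    rw [h1, Finset.sum_smul, ← Finset.sum_congr rfl fun x _ => (smul_sub _ _ _).symm,
      Finset.sum_sub_distrib]
    congr 1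
    rw [← Equiv.sum_comp (Equiv.mulLeft n) (fun x : (ZMod p)ˣ =>
      (m ((n⁻¹ * x : (ZMod p)ˣ) : ZMod p).val : ℤ) • uq (cZ hζ x))]
    refine Finset.sum_congr rfl fun x _ => ?_
    rw [Equiv.coe_mulLeft, inv_mul_cancel_left]
  have h3 : uq (etaU hζ m) = ∑ x : (ZMod p)ˣ, (m (x : ZMod p).val : ℤ) • uq (cZ hζ x) := by
    rw [etaU, uq_prod]
    exact Finset.sum_congr rfl fun x _ => uq_pow _ _
  rw [h2, h3, sub_right_comm, Finset.smul_sum, ← Finset.sum_sub_distrib]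
  refine DvdBy.sub (DvdBy.sum _ _ fun x _ => ?_) (DvdBy.of_dvd ?_ _)
  · rw [← mul_smul, ← sub_smul]
    apply DvdBy.of_dvd
    rw [← ZMod.intCast_zmod_eq_zero_iff_dvd, Int.cast_sub, Int.cast_mul, Int.cast_natCast,
      Int.cast_natCast, Int.cast_natCast, hm', hm', ZMod.natCast_val, ZMod.cast_id', id,
      chiSq_apply, ← hn, mul_inv_rev, inv_inv, Units.val_mul, Units.val_pow_eq_pow_val]
    ring
  · rw [← ZMod.intCast_zmod_eq_zero_iff_dvd]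
    push_cast
    have h4 : ∑ x : (ZMod p)ˣ, (m (x : ZMod p).val : ZMod p) =
        ∑ a ∈ Finset.Ico 1 p, (m a : ZMod p) := by
      have := prod_Ico_eq_prod_units (p := p) (M := Multiplicative (ZMod p))
        (fun a => Multiplicative.ofAdd (m a : ZMod p))
      rw [← ofAdd_sum, ← ofAdd_sum] at this
      exact (Multiplicative.ofAdd.injective this).symm
    rw [h4, Finset.sum_congr rfl hm, sum_Ico_inv_pow 2 (by omega) (by omega)]

lemma exists_form_of_uq_eq (hodd : Odd p) (a b : (𝓞 K)ˣ) (h : uq a = uq b) :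
    ∃ (s : ℤ) (j : ℕ), IsUnit s ∧ (a : 𝓞 K) = s * hζ.toInteger ^ j * b := by
  have h1 : a * b⁻¹ ∈ torsion K := by
    rw [← uq_eq_zero_iff, uq_mul, uq_inv, h, add_neg_cancel]
  obtain ⟨s, j, hs, hsj⟩ := mem_torsion_iff_exists hζ hodd _ h1
  refine ⟨s, j, hs, ?_⟩
  rw [← hsj, Units.val_mul, mul_assoc, Units.inv_mul, mul_one]

lemma etaU_not_dvd (h5 : 5 ≤ p) (m : ℕ → ℕ)
    (hm : ∀ a ∈ Finset.Ico 1 p, (m a : ZMod p) = ((a : ZMod p)⁻¹) ^ 2) :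
    ¬ DvdBy (p : ℤ) (uq (etaU hζ m)) := by
  rintro ⟨y, hy⟩
  obtain ⟨w, rfl⟩ := uq_surjective y
  have hodd : Odd p := hp.out.odd_of_ne_two (by omega)
  rw [← uq_pow] at hy
  obtain ⟨s, j, hs, hsj⟩ := exists_form_of_uq_eq hζ hodd _ _ hy
  rw [coe_etaU, Units.val_pow_eq_pow_val] at hsj
  -- `w^p = s ζ^j η`
  have h1 := dvd_of_local_pow hζ h5 m hm 1 ((w⁻¹ : (𝓞 K)ˣ) : 𝓞 K) 1 isUnit_one (w⁻¹).isUnit j 1 s hs
    (by
      rw [pow_one, ← hsj, ← mul_pow, Units.mul_inv, one_pow])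
    (by rw [one_pow, sub_self]; exact Ideal.zero_mem _)
  exact hp.out.one_lt.ne' (Nat.dvd_one.mp h1.2)

/-- **Structure of the `ω²`-eigenspace of the units modulo `p`-th powers.** -/
theorem unit_eigen (h5 : 5 ≤ p) (m : ℕ → ℕ)
    (hm : ∀ a ∈ Finset.Ico 1 p, (m a : ZMod p) = ((a : ZMod p)⁻¹) ^ 2) (u : (𝓞 K)ˣ)
    (hu : ∀ σ : K ≃ₐ[ℚ] K, ∃ y : K, σ (u : K) = (u : K) ^ (nn hζ σ ^ 2) * y ^ p) :
    ∃ (s : ℤ) (j k : ℕ) (v : (𝓞 K)ˣ), IsUnit s ∧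
      (u : 𝓞 K) = s * hζ.toInteger ^ j * cycUnit hζ m ^ k * v ^ p := by
  classical
  have hgal : IsGalois ℚ K := IsCyclotomicExtension.isGalois {p} ℚ K
  have hodd : Odd p := hp.out.odd_of_ne_two (by omega)
  obtain ⟨ε, hε⟩ := exists_minkowski_unit (K := K)
  have hcard : ¬ p ∣ Fintype.card (K ≃ₐ[ℚ] K) := by
    rw [← Nat.card_eq_fintype_card, IsGalois.card_aut_eq_finrank,
      IsCyclotomicExtension.Rat.finrank p (K := K), Nat.totient_prime hp.out]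
    intro h
    have := Nat.le_of_dvd (by omega) h
    omega
  have htf : ∀ x : UTF K, (p : ℤ) • x = 0 → x = 0 := by
    intro x hx
    rcases smul_eq_zero.mp hx with h | h
    · exact absurd (by exact_mod_cast h) hp.out.ne_zero
    · exact h
  have hutype : ∀ σ : K ≃ₐ[ℚ] K, DvdBy (p : ℤ) (uqAct σ (uq u) -
      (((chiSq hζ σ : ZMod p).val : ℤ) • uq u)) := by
    intro σ
    obtain ⟨y, hy⟩ := hu σ
    -- `y` is a unit
    have hu0 : (u : K) ≠ 0 := by simp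
    have hyp : y ^ p = (((uAct σ u) * (u⁻¹) ^ (nn hζ σ ^ 2) : (𝓞 K)ˣ) : K) := by
      have h1 : (((uAct σ u) * (u⁻¹) ^ (nn hζ σ ^ 2) : (𝓞 K)ˣ) : K) =
          σ (u : K) * ((u : K)⁻¹) ^ (nn hζ σ ^ 2) := by
        simp [Units.val_mul, coe_oAct]
      rw [h1, hy, mul_right_comm, ← mul_pow, mul_inv_cancel₀ hu0, one_pow, one_mul]
    have hyint : IsIntegral ℤ y := by
      apply IsIntegral.of_pow hp.out.pos
      rw [hyp]
      exact RingOfIntegers.isIntegral_coe _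
    have hyinv : IsIntegral ℤ y⁻¹ := by
      apply IsIntegral.of_pow hp.out.pos
      rw [inv_pow, hyp]
      have : ((((uAct σ u) * (u⁻¹) ^ (nn hζ σ ^ 2) : (𝓞 K)ˣ) : K))⁻¹ =
        ((((uAct σ u) * (u⁻¹) ^ (nn hζ σ ^ 2))⁻¹ : (𝓞 K)ˣ) : K) := by
        rw [← map_units_inv]
      rw [this]
      exact RingOfIntegers.isIntegral_coe _
    have hy0 : y ≠ 0 := by
      rintro rfl
      rw [zero_pow hp.out.ne_zero] at hyp
      have h2 : (algebraMap (𝓞 K) K) (((uAct σ u) * (u⁻¹) ^ (nn hζ σ ^ 2) : (𝓞 K)ˣ) : 𝓞 K) ≠ 0 := by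
        simp
      exact h2 hyp.symm
    let yU : (𝓞 K)ˣ := ⟨⟨y, hyint⟩, ⟨y⁻¹, hyinv⟩, by
      apply RingOfIntegers.ext; exact mul_inv_cancel₀ hy0, by
      apply RingOfIntegers.ext; exact inv_mul_cancel₀ hy0⟩
    have hyU : yU ^ p = uAct σ u * (u⁻¹) ^ (nn hζ σ ^ 2) := by
      apply Units.ext
      apply RingOfIntegers.ext
      refine Eq.trans ?_ hyp
      rw [Units.val_pow_eq_pow_val]
      rfl
    have h2 : uqAct σ (uq u) - (((nn hζ σ) ^ 2 : ℕ) : ℤ) • uq u = (p : ℤ) • uq yU := by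
      rw [← uq_pow yU, hyU, uq_mul, uq_pow, uq_inv, uqAct_uq, smul_neg, sub_eq_add_neg]
    have h3 : uqAct σ (uq u) - (((chiSq hζ σ : ZMod p).val : ℤ) • uq u) =
        (p : ℤ) • uq yU + ((((nn hζ σ) ^ 2 : ℕ) : ℤ) - ((chiSq hζ σ : ZMod p).val : ℤ)) • uq u := by
      rw [← h2, sub_smul]; abel
    rw [h3]
    refine DvdBy.add ⟨_, rfl⟩ (DvdBy.of_dvd ?_ _)
    rw [← ZMod.intCast_zmod_eq_zero_iff_dvd]
    push_cast
    rw [cast_nn, ZMod.natCast_val, ZMod.cast_id', id, chiSq_apply]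
    push_cast
    ring
  obtain ⟨k, w, hw⟩ := eigen_rank_le_one (p := p) (A := UTF K) uqAct uqAct_mul_apply (chiSq hζ) hcard htf ε hε
    (uq (etaU hζ m)) (uq u) (etaU_type hζ h5 m hm) hutype (etaU_not_dvd hζ h5 m hm)
  obtain ⟨v, rfl⟩ := uq_surjective w
  have h1 : uq u = uq (etaU hζ m ^ k * v ^ p) := by
    rw [uq_mul, uq_pow, uq_pow, hw]; abel
  obtain ⟨s, j, hs, hsj⟩ := exists_form_of_uq_eq hζ hodd _ _ h1
  refine ⟨s, j, k, v, hs, ?_⟩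
  rw [hsj, Units.val_mul, Units.val_pow_eq_pow_val, Units.val_pow_eq_pow_val, coe_etaU]
  ring

end Cyc

end Fermat.Agent.EXT
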