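import Mathlib
import Fermat.Agent.EXT.KummerTriv
import Fermat.Agent.EXT.EigenChar
import Fermat.Agent.EXT.ThaineFinal
import Fermat.Agent.EXT.UnitEigen
import Fermat.Agent.EXT.SplitContradiction
import Fermat.Agent.EXT.PartialZeta

set_option autoImplicit false
set_option maxSynthPendingDepth 3
set_option linter.unusedSectionVars false

namespace Fermat.Agent.EXT

open NumberField IsDedekindDomain nonZeroDivisors

/-- The splitting input: existence of the Kummer extension `K(u^{1/p})` in which every prime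
`v ∤ p` such that `u` is a `p`-th power modulo `v` splits completely. -/
def KummerSplit (p : ℕ) [Fact p.Prime] : Prop :=
  ∀ (K : Type) [Field K] [NumberField K] (ζ : K), IsPrimitiveRoot ζ p →
    ∀ u : (𝓞 K)ˣ, (∀ y : K, y ^ p ≠ ((u : 𝓞 K) : K)) →
    ∃ (M : Type) (_ : Field M) (_ : NumberField M) (_ : Algebra K M),
      ∀ v : HeightOneSpectrum (𝓞 K), (p : 𝓞 K) ∉ v.asIdeal →
        (∃ z : 𝓞 K, (u : 𝓞 K) - z ^ p ∈ v.asIdeal) →
        ∃ S : Finset (HeightOneSpectrum (𝓞 M)), S.card = p ∧ ∀ w ∈ S,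
          w.asIdeal.under (𝓞 K) = v.asIdeal ∧
          Ideal.absNorm w.asIdeal = Ideal.absNorm v.asIdeal

section General

variable {K : Type*} [Field K] [NumberField K]

theorem exists_ideal_pow (p : ℕ) (hp : p ≠ 0) (a : 𝓞 K) (ha : a ≠ 0)
    (hv : ∀ v : HeightOneSpectrum (𝓞 K), (p : ℤ) ∣ vz v (a : K)) :
    ∃ I : (Ideal (𝓞 K))⁰, (I : Ideal (𝓞 K)) ^ p = Ideal.span {a} := by
  have haK : (a : K) ≠ 0 := by simpa using ha
  obtain ⟨J, hJ0, hJ⟩ := exists_pow_eq (K := K) (R := 𝓞 K)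
    (I := FractionalIdeal.spanSingleton (𝓞 K)⁰ (a : K))
    (FractionalIdeal.spanSingleton_ne_zero_iff.mpr haK) p hp (fun v => by
      rw [count_spanSingleton v haK]; exact hv v)
  have hJ1 : J ≤ 1 := by
    intro x hx
    have h1 : x ^ p ∈ J ^ p := by
      have : x ^ p ∈ ((J ^ p : FractionalIdeal (𝓞 K)⁰ K) : Submodule (𝓞 K) K) := by
        rw [FractionalIdeal.coe_pow]
        exact Submodule.pow_mem_pow _ hx p
      exact this
    rw [hJ, FractionalIdeal.mem_spanSingleton] at h1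
    obtain ⟨z, hz⟩ := h1
    have h2 : IsIntegral ℤ x := by
      apply IsIntegral.of_pow (Nat.pos_of_ne_zero hp)
      rw [← hz, Algebra.smul_def]
      exact (RingOfIntegers.isIntegral_coe z).mul (RingOfIntegers.isIntegral_coe a)
    exact (FractionalIdeal.mem_one_iff _).mpr ⟨⟨x, h2⟩, rfl⟩
  obtain ⟨I, rfl⟩ := FractionalIdeal.le_one_iff_exists_coeIdeal.mp hJ1
  have hI0 : I ≠ 0 := by
    rintro rfl
    exact hJ0 (by simp)
  refine ⟨⟨I, mem_nonZeroDivisors_of_ne_zero hI0⟩, ?_⟩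
  apply FractionalIdeal.coeIdeal_injective (K := K)
  show ((I ^ p : Ideal (𝓞 K)) : FractionalIdeal (𝓞 K)⁰ K) =
    ((Ideal.span {a} : Ideal (𝓞 K)) : FractionalIdeal (𝓞 K)⁰ K)
  rw [FractionalIdeal.coeIdeal_pow, hJ, FractionalIdeal.coeIdeal_span_singleton]

theorem ideal_pow_inj {p : ℕ} (hp : p ≠ 0) {A B : Ideal (𝓞 K)} (hA : A ≠ 0) (hB : B ≠ 0)
    (h : A ^ p = B ^ p) : A = B := by
  apply FractionalIdeal.coeIdeal_injective (K := K)
  apply fractionalIdeal_ext (FractionalIdeal.coeIdeal_ne_zero.mpr hA)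
    (FractionalIdeal.coeIdeal_ne_zero.mpr hB)
  intro v
  have h1 := congrArg (fun I : Ideal (𝓞 K) =>
    FractionalIdeal.count K v (I : FractionalIdeal (𝓞 K)⁰ K)) h
  simp only [FractionalIdeal.coeIdeal_pow, FractionalIdeal.count_pow] at h1
  exact mul_left_cancel₀ (by exact_mod_cast hp) h1

end General

section Char

variable {p : ℕ} [hp : Fact p.Prime] {C : Type*} [CommGroup C]

/-- complex valued character attached to a `ZMod p`-valued one. -/
noncomputable def toCx (ψ : Additive C →+ ZMod p) : C →* ℂˣ :=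
  MonoidHom.toHomUnits ((ZMod.stdAddChar (N := p)).toMonoidHom.comp
    (AddMonoidHom.toMultiplicativeRight ψ))

lemma toCx_eq_one_iff (ψ : Additive C →+ ZMod p) (c : C) :
    toCx ψ c = 1 ↔ ψ (Additive.ofMul c) = 0 := by
  rw [← Units.val_inj, Units.val_one]
  show ZMod.stdAddChar (ψ (Additive.ofMul c)) = 1 ↔ _
  constructor
  · intro h
    apply ZMod.injective_stdAddChar
    rw [h, AddChar.map_zero_eq_one]
  · intro h
    rw [h, AddChar.map_zero_eq_one]

end Char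

section Main

variable {p : ℕ} [hp : Fact p.Prime] {K : Type} [Field K] [NumberField K]
  [IsCyclotomicExtension {p} ℚ K] {ζ : K} (hζ : IsPrimitiveRoot ζ p)

theorem etaU_not_pow (h5 : 5 ≤ p) (m : ℕ → ℕ)
    (hm : ∀ a ∈ Finset.Ico 1 p, (m a : ZMod p) = ((a : ZMod p)⁻¹) ^ 2) (y : K) :
    y ^ p ≠ ((etaU hζ m : 𝓞 K) : K) := by
  intro hyp
  have hyint : IsIntegral ℤ y := by
    apply IsIntegral.of_pow hp.out.pos
    rw [hyp]
    exact RingOfIntegers.isIntegral_coe _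
  have hyinv : IsIntegral ℤ y⁻¹ := by
    apply IsIntegral.of_pow hp.out.pos
    rw [inv_pow, hyp, ← map_units_inv]
    exact RingOfIntegers.isIntegral_coe _
  have hy0 : y ≠ 0 := by
    rintro rfl
    rw [zero_pow hp.out.ne_zero] at hyp
    have h2 : (algebraMap (𝓞 K) K) (etaU hζ m : 𝓞 K) ≠ 0 := by
      simp
    exact h2 hyp.symm
  let yU : (𝓞 K)ˣ := ⟨⟨y, hyint⟩, ⟨y⁻¹, hyinv⟩, by
    apply RingOfIntegers.ext; exact mul_inv_cancel₀ hy0, by
    apply RingOfIntegers.ext; exact inv_mul_cancel₀ hy0⟩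
  have hyU : yU ^ p = etaU hζ m := by
    apply Units.ext
    apply RingOfIntegers.ext
    refine Eq.trans ?_ hyp
    rw [Units.val_pow_eq_pow_val]
    rfl
  exact etaU_not_dvd hζ h5 m hm ⟨uq yU, by rw [← uq_pow, hyU]⟩

include hζ in
/-- The `ω²`-part of the class group of `ℚ(ζ_p)` is trivial on the dual side. -/
theorem omegaSq_char_eq_zero (h5 : 5 ≤ p) (hsplit : KummerSplit p)
    (ψ : Additive (ClassGroup (𝓞 K)) →+ ZMod p) (hψ : IsOmegaSq hζ ψ) : ψ = 0 := by
  by_contra hψ0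
  let m : ℕ → ℕ := fun a => (((a : ZMod p)⁻¹) ^ 2).val
  have hm : ∀ a ∈ Finset.Ico 1 p, (m a : ZMod p) = ((a : ZMod p)⁻¹) ^ 2 := by
    intro a _
    simp [m]
  obtain ⟨M, hM1, hM2, hM3, hM⟩ := hsplit K ζ hζ (etaU hζ m) (etaU_not_pow hζ h5 m hm)
  have hne1 : toCx ψ ≠ 1 := by
    intro h
    apply hψ0
    refine AddMonoidHom.ext fun c => ?_
    exact (toCx_eq_one_iff ψ (Additive.toMul c)).mp (by rw [h]; rfl)
  refine class_char_split_of_bounded K M p (by omega) (toCx ψ) (classLSeries_bounded K _ hne1)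
    {v | (p : 𝓞 K) ∈ v.asIdeal} ?_ ?_
  · have hne : Ideal.span {(p : 𝓞 K)} ≠ 0 := by
      rw [Ne, Ideal.zero_eq_bot, Ideal.span_singleton_eq_bot]
      exact_mod_cast hp.out.ne_zero
    have := Ideal.finite_factors hne
    refine this.subset fun v hv => ?_
    show v.asIdeal ∣ Ideal.span {(p : 𝓞 K)}
    rw [Ideal.dvd_span_singleton]
    exact hv
  · intro v hv hnorm hψv
    have h1 : ψ (Additive.ofMul (ClassGroup.mk0 (hosIdeal v))) ≠ 0 := by
      rwa [Ne, ← toCx_eq_one_iff]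
    obtain ⟨z, hz⟩ := thaine hζ h5 ψ hψ v hnorm hv h1 m hm
    exact hM v hv ⟨z, by rw [coe_etaU]; exact hz⟩

include hζ in
/-- `p`-torsion classes of type `ω²` are trivial. -/
theorem omegaSq_class_eq_one (h5 : 5 ≤ p) (hsplit : KummerSplit p) (c : ClassGroup (𝓞 K))
    (hcp : c ^ p = 1)
    (hc : ∀ σ : K ≃ₐ[ℚ] K, ClassGroup.mulEquiv (oAct σ) c = c ^ (nn hζ σ ^ 2)) : c = 1 := by
  by_contra hne
  have hgal : IsGalois ℚ K := IsCyclotomicExtension.isGalois {p} ℚ K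
  have hcard : ¬ p ∣ Fintype.card (K ≃ₐ[ℚ] K) := by
    rw [← Nat.card_eq_fintype_card, IsGalois.card_aut_eq_finrank,
      IsCyclotomicExtension.Rat.finrank p (K := K), Nat.totient_prime hp.out]
    intro h
    have := Nat.le_of_dvd (by omega) h
    omega
  obtain ⟨ψ, hψ0, hψ⟩ := exists_eigenchar (p := p) (A := Additive (ClassGroup (𝓞 K)))
    (Δ := K ≃ₐ[ℚ] K)
    (fun σ => MonoidHom.toAdditive (ClassGroup.mulEquiv (oAct σ)).toMonoidHom)
    (fun σ τ a => by
      show Additive.ofMul (ClassGroup.mulEquiv (oAct (σ * τ)) a.toMul) =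
        Additive.ofMul (ClassGroup.mulEquiv (oAct σ) (ClassGroup.mulEquiv (oAct τ) a.toMul))
      rw [← ClassGroup.mulEquiv_trans_apply]
      rfl)
    (fun σ => chiSq hζ σ) (fun σ τ => map_mul _ _ _) hcard (Additive.ofMul c)
    (fun h => hne (Additive.ofMul.injective h))
    (by rw [← ofMul_pow, hcp, ofMul_one])
    (fun σ => by
      show Additive.ofMul (ClassGroup.mulEquiv (oAct σ) c) = _
      rw [hc σ, ← ofMul_pow]
      congr 1
      have h1 : nn hζ σ ^ 2 ≡ (chiSq hζ σ : ZMod p).val [MOD p] := by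
        rw [← ZMod.natCast_eq_natCast_iff]
        push_cast
        rw [cast_nn, ZMod.natCast_val, ZMod.cast_id', id, chiSq_apply]
        push_cast
        rfl
      rw [pow_eq_pow_mod _ hcp, h1, ← pow_eq_pow_mod _ hcp])
  apply hψ0
  apply omegaSq_char_eq_zero hζ h5 hsplit ψ
  intro σ d
  have := hψ σ (Additive.ofMul d)
  rw [cast_nn]
  rw [chiSq_apply] at this
  exact_mod_cast this

/-- the prime above `p` -/
noncomputable def v0 : HeightOneSpectrum (𝓞 K) :=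
  ⟨Ideal.span {hζ.toInteger - 1},
    (Ideal.span_singleton_prime hζ.zeta_sub_one_prime'.ne_zero).mpr hζ.zeta_sub_one_prime',
    by
      rw [Ne, Ideal.span_singleton_eq_bot]
      exact hζ.zeta_sub_one_prime'.ne_zero⟩

lemma v0_asIdeal : (v0 hζ).asIdeal = Ideal.span {hζ.toInteger - 1} := rfl

lemma p_mem_v0 : (p : 𝓞 K) ∈ (v0 hζ).asIdeal := by
  rw [v0_asIdeal, Ideal.mem_span_singleton]
  have hne : hζ.toInteger ≠ 1 := by
    intro h
    have := hζ.toInteger_isPrimitiveRoot.eq_orderOf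
    rw [h, orderOf_one] at this
    exact hp.out.one_lt.ne' this
  obtain ⟨y, hy⟩ := sub_one_dvd_natCast_of_pow_eq_one
    hζ.toInteger_isPrimitiveRoot.pow_eq_one hne
  exact ⟨y, hy⟩

/-- Going from a local congruence in `K` to a congruence in `𝓞 K`. -/
theorem exists_int_congr (u : (𝓞 K)ˣ) (y : K)
    (hy : (v0 hζ).valuation K (((u : 𝓞 K) : K) - y ^ p) ≤ WithZero.exp (-3)) :
    ∃ z : 𝓞 K, (u : 𝓞 K) - z ^ p ∈ (Ideal.span {hζ.toInteger - 1}) ^ 3 := by
  set v := v0 hζ with hv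
  have hlam := hζ.zeta_sub_one_prime'
  set lam := hζ.toInteger - 1 with hlamdef
  have hu1 : v.valuation K ((u : 𝓞 K) : K) = 1 := by
    rw [← vz_eq_zero_iff v (by simp)]
    exact vz_unit v u
  have hlt : v.valuation K (((u : 𝓞 K) : K) - y ^ p) < 1 :=
    lt_of_le_of_lt hy (by rw [← WithZero.exp_zero (M := ℤ), WithZero.exp_lt_exp]; norm_num)
  have hyp : v.valuation K (y ^ p) = 1 := by
    have h1 : y ^ p = ((u : 𝓞 K) : K) - (((u : 𝓞 K) : K) - y ^ p) := by ring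
    rw [h1, Valuation.map_sub_eq_of_lt_left _ (by rw [hu1]; exact hlt), hu1]
  have hy0 : y ≠ 0 := by
    rintro rfl
    rw [zero_pow hp.out.ne_zero, map_zero] at hyp
    exact zero_ne_one hyp
  have hvy : vz v y = 0 := by
    have h1 := (vz_eq_zero_iff v (pow_ne_zero p hy0)).mpr hyp
    rw [vz_pow] at h1
    rcases mul_eq_zero.mp h1 with h | h
    · exact absurd (by exact_mod_cast h) hp.out.ne_zero
    · exact h
  obtain ⟨r, s, hs, hrs⟩ := IsFractionRing.div_surjective (A := 𝓞 K) y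
  have hs0 : s ≠ 0 := nonZeroDivisors.ne_zero hs
  have hr0 : r ≠ 0 := by
    rintro rfl
    rw [map_zero, zero_div] at hrs
    exact hy0 hrs.symm
  have hfin : ∀ x : 𝓞 K, x ≠ 0 → FiniteMultiplicity lam x := fun x hx =>
    FiniteMultiplicity.of_prime_left hlam hx
  obtain ⟨r', hr', hr'd⟩ := (hfin r hr0).exists_eq_pow_mul_and_not_dvd
  obtain ⟨s', hs', hs'd⟩ := (hfin s hs0).exists_eq_pow_mul_and_not_dvd
  set i := multiplicity lam r
  set j := multiplicity lam s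
  have hr'0 : r' ≠ 0 := by rintro rfl; exact hr'd (dvd_zero _)
  have hs'0 : s' ≠ 0 := by rintro rfl; exact hs'd (dvd_zero _)
  have hl0 : algebraMap (𝓞 K) K lam ≠ 0 := by simpa using hlam.ne_zero
  have hr'K : algebraMap (𝓞 K) K r' ≠ 0 := by simpa using hr'0
  have hs'K : algebraMap (𝓞 K) K s' ≠ 0 := by simpa using hs'0
  have hvr' : vz v (algebraMap (𝓞 K) K r') = 0 := by
    rw [vz_algebraMap_eq_zero_iff v hr'0, hv, v0_asIdeal, Ideal.mem_span_singleton]
    exact hr'd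
  have hvs' : vz v (algebraMap (𝓞 K) K s') = 0 := by
    rw [vz_algebraMap_eq_zero_iff v hs'0, hv, v0_asIdeal, Ideal.mem_span_singleton]
    exact hs'd
  have hvl : 0 < vz v (algebraMap (𝓞 K) K lam) := by
    rw [vz_algebraMap_pos_iff v hlam.ne_zero, hv, v0_asIdeal]
    exact Ideal.mem_span_singleton_self _
  have hij : i = j := by
    have h1 : vz v y = 0 := hvy
    rw [← hrs, hr', hs', map_mul, map_mul, map_pow, map_pow,
      vz_div v (mul_ne_zero (pow_ne_zero _ hl0) hr'K) (mul_ne_zero (pow_ne_zero _ hl0) hs'K),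
      vz_mul v (pow_ne_zero _ hl0) hr'K, vz_mul v (pow_ne_zero _ hl0) hs'K, vz_pow, vz_pow,
      hvr', hvs', add_zero, add_zero, ← sub_mul] at h1
    rcases mul_eq_zero.mp h1 with h | h
    · omega
    · omega
  have hyrs : y = algebraMap (𝓞 K) K r' / algebraMap (𝓞 K) K s' := by
    rw [← hrs, hr', hs', map_mul, map_mul, hij, mul_div_mul_left]
    rw [map_pow]
    exact pow_ne_zero _ hl0
  have hmem : (u : 𝓞 K) * s' ^ p - r' ^ p ∈ v.asIdeal ^ 3 := by
    rw [← v.intValuation_le_pow_iff_mem, ← v.valuation_of_algebraMap (K := K)]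
    have h1 : algebraMap (𝓞 K) K ((u : 𝓞 K) * s' ^ p - r' ^ p) =
        (((u : 𝓞 K) : K) - y ^ p) * (algebraMap (𝓞 K) K s') ^ p := by
      rw [hyrs, map_sub, map_mul, map_pow, map_pow, div_pow, sub_mul,
        div_mul_cancel₀ _ (pow_ne_zero _ hs'K)]
    show v.valuation K (algebraMap (𝓞 K) K ((u : 𝓞 K) * s' ^ p - r' ^ p)) ≤ _
    rw [h1, map_mul, map_pow]
    have h2 : v.valuation K (algebraMap (𝓞 K) K s') = 1 := by
      rw [← vz_eq_zero_iff v hs'K]; exact hvs'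
    rw [h2, one_pow, mul_one]
    exact hy
  rw [hv, v0_asIdeal, Ideal.span_singleton_pow, Ideal.mem_span_singleton] at hmem
  -- invert `s'` modulo `lam ^ 3`
  have hcop : IsCoprime s' (lam ^ 3) := by
    apply IsCoprime.pow_right
    have hmax : (v0 hζ).asIdeal.IsMaximal := (v0 hζ).isMaximal
    obtain ⟨t, i, hi, hti⟩ := hmax.exists_inv (x := s') (by
      rw [v0_asIdeal, Ideal.mem_span_singleton]
      exact hs'd)
    rw [v0_asIdeal, Ideal.mem_span_singleton] at hi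
    obtain ⟨w, hw⟩ := hi
    refine ⟨t, w, ?_⟩
    rw [← hti, hw]
    ring
  obtain ⟨t, w, htw⟩ := hcop
  refine ⟨t * r', ?_⟩
  rw [Ideal.span_singleton_pow, Ideal.mem_span_singleton]
  have h1 : (u : 𝓞 K) - (t * r') ^ p = (u : 𝓞 K) * (1 ^ p - (t * s') ^ p) +
      t ^ p * ((u : 𝓞 K) * s' ^ p - r' ^ p) := by
    rw [mul_pow, mul_pow]; ring
  rw [h1]
  apply dvd_add
  · apply Dvd.dvd.mul_left
    refine dvd_trans ?_ (sub_dvd_pow_sub_pow 1 (t * s') p)
    rw [← htw]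
    exact ⟨w, by ring⟩
  · exact hmem.mul_left _

include hζ in
/-- Kummer triviality for integral elements -/
theorem kummerTriv_integral (h5 : 5 ≤ p) (hsplit : KummerSplit p) (a : 𝓞 K) (ha : a ≠ 0)
    (htype : ∀ σ : K ≃ₐ[ℚ] K, ∃ y : K, σ (a : K) = (a : K) ^ (nn hζ σ ^ 2) * y ^ p)
    (hvz : ∀ v : HeightOneSpectrum (𝓞 K), (p : ℤ) ∣ vz v (a : K))
    (hloc : ∃ y : K, (v0 hζ).valuation K ((a : K) - y ^ p) ≤
      (v0 hζ).valuation K (a : K) * WithZero.exp (-3)) :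
    ∃ y : K, y ^ p = (a : K) := by
  have hodd : Odd p := hp.out.odd_of_ne_two (by omega)
  have haK : (a : K) ≠ 0 := by simpa using ha
  obtain ⟨I, hI⟩ := exists_ideal_pow p hp.out.ne_zero a ha hvz
  have hI0 : (I : Ideal (𝓞 K)) ≠ 0 := nonZeroDivisors.coe_ne_zero I
  -- the class of `I` is trivial
  have hcI : ClassGroup.mk0 I = 1 := by
    apply omegaSq_class_eq_one hζ h5 hsplit
    · rw [← map_pow]
      have : I ^ p = ⟨Ideal.span {a}, by rw [← hI]; exact (I ^ p).2⟩ := by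
        apply Subtype.ext
        exact hI
      rw [this, ClassGroup.mk0_eq_one_iff]
      exact ⟨⟨a, rfl⟩⟩
    · intro σ
      obtain ⟨y, hy⟩ := htype σ
      obtain ⟨r, s, hs, rfl⟩ := IsFractionRing.div_surjective (A := 𝓞 K) y
      have hs0 : s ≠ 0 := nonZeroDivisors.ne_zero hs
      have hsK : algebraMap (𝓞 K) K s ≠ 0 := by simpa using hs0
      have hr0 : r ≠ 0 := by
        rintro rfl
        rw [map_zero, zero_div, zero_pow hp.out.ne_zero, mul_zero] at hy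
        exact haK ((map_eq_zero σ).mp hy)
      have h1 : s ^ p * oAct σ a = a ^ (nn hζ σ ^ 2) * r ^ p := by
        apply RingOfIntegers.ext
        show algebraMap (𝓞 K) K (s ^ p * oAct σ a) = algebraMap (𝓞 K) K (a ^ (nn hζ σ ^ 2) * r ^ p)
        rw [map_mul, map_mul, map_pow, map_pow, map_pow]
        show algebraMap (𝓞 K) K s ^ p * σ (a : K) = _
        rw [hy, div_pow]
        field_simp
      rw [ClassGroup.mulEquiv_mk0, ← map_pow, ClassGroup.mk0_eq_mk0_iff]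
      refine ⟨s, r, hs0, hr0, ?_⟩
      have h2 : ((Ideal.mapNonZero (oAct σ) I : (Ideal (𝓞 K))⁰) : Ideal (𝓞 K)) ≠ 0 :=
        nonZeroDivisors.coe_ne_zero _
      have h3 : ((I ^ (nn hζ σ ^ 2) : (Ideal (𝓞 K))⁰) : Ideal (𝓞 K)) ≠ 0 :=
        nonZeroDivisors.coe_ne_zero _
      have hss : Ideal.span {s} ≠ (0 : Ideal (𝓞 K)) := by
        rw [Ne, Ideal.zero_eq_bot, Ideal.span_singleton_eq_bot]; exact hs0
      have hrr : Ideal.span {r} ≠ (0 : Ideal (𝓞 K)) := by
        rw [Ne, Ideal.zero_eq_bot, Ideal.span_singleton_eq_bot]; exact hr0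
      apply ideal_pow_inj hp.out.ne_zero (mul_ne_zero hss h2) (mul_ne_zero hrr h3)
      rw [mul_pow, mul_pow, Ideal.coe_mapNonZero, ← Ideal.map_pow, hI, Ideal.map_span,
        Set.image_singleton, Ideal.span_singleton_pow, Ideal.span_singleton_pow,
        Ideal.span_singleton_mul_span_singleton]
      rw [SubmonoidClass.coe_pow, ← pow_mul, mul_comm (nn hζ σ ^ 2) p, pow_mul, hI,
        Ideal.span_singleton_pow, Ideal.span_singleton_mul_span_singleton]
      rw [show ((oAct σ : 𝓞 K ≃+* 𝓞 K) : 𝓞 K →+* 𝓞 K) a = oAct σ a from rfl, h1, mul_comm]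
  -- hence `a = u β ^ p`
  obtain ⟨β, hβ⟩ : ∃ β : 𝓞 K, (I : Ideal (𝓞 K)) = Ideal.span {β} := by
    have h1 := (ClassGroup.mk0_eq_one_iff I.2).mp hcI
    exact h1.principal
  have hβ0 : β ≠ 0 := by
    rintro rfl
    apply hI0
    rw [hβ, Ideal.zero_eq_bot, Ideal.span_singleton_eq_bot]
  rw [hβ, Ideal.span_singleton_pow, Ideal.span_singleton_eq_span_singleton] at hI
  obtain ⟨u, hu⟩ := hI
  have hβK : (β : K) ≠ 0 := by simpa using hβ0
  have hau : (a : K) = ((u : 𝓞 K) : K) * (β : K) ^ p := by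
    rw [← hu]
    show algebraMap (𝓞 K) K (β ^ p * u) = _
    rw [map_mul, map_pow, mul_comm]
  have huK : ((u : 𝓞 K) : K) ≠ 0 := by simp
  -- the type of `u`
  have hutype : ∀ σ : K ≃ₐ[ℚ] K, ∃ y : K, σ ((u : 𝓞 K) : K) =
      ((u : 𝓞 K) : K) ^ (nn hζ σ ^ 2) * y ^ p := by
    intro σ
    obtain ⟨y, hy⟩ := htype σ
    refine ⟨y * (β : K) ^ (nn hζ σ ^ 2) / σ (β : K), ?_⟩
    have hσβ : σ (β : K) ≠ 0 := (map_ne_zero σ).mpr hβK
    rw [hau, map_mul, map_pow, mul_pow] at hy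
    rw [div_pow, mul_pow]
    have : σ ((u : 𝓞 K) : K) = (((u : 𝓞 K) : K) ^ (nn hζ σ ^ 2) *
        ((β : K) ^ p) ^ (nn hζ σ ^ 2) * y ^ p) / σ (β : K) ^ p := by
      rw [← hy, mul_div_cancel_right₀ _ (pow_ne_zero _ hσβ)]
    rw [this, ← pow_mul (β : K) p, mul_comm p, pow_mul]
    ring
  -- the local condition
  obtain ⟨y, hy⟩ := hloc
  have hy' : (v0 hζ).valuation K (((u : 𝓞 K) : K) - (y / β) ^ p) ≤ WithZero.exp (-3) := by
    have h1 : (a : K) - y ^ p = (((u : 𝓞 K) : K) - (y / β) ^ p) * (β : K) ^ p := by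
      rw [hau, div_pow, sub_mul, div_mul_cancel₀ _ (pow_ne_zero _ hβK)]
    have hu1 : (v0 hζ).valuation K ((u : 𝓞 K) : K) = 1 := by
      rw [← vz_eq_zero_iff _ huK]
      exact vz_unit _ u
    rw [h1, hau, map_mul, map_mul, hu1, one_mul, mul_comm ((v0 hζ).valuation K ((β : K) ^ p))] at hy
    have h2 : 0 < (v0 hζ).valuation K ((β : K) ^ p) := by
      rw [zero_lt_iff]
      exact (Valuation.ne_zero_iff _).mpr (pow_ne_zero _ hβK)
    exact le_of_mul_le_mul_right hy h2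
  obtain ⟨z, hz⟩ := exists_int_congr hζ u _ hy'
  -- the unit theorem
  let m : ℕ → ℕ := fun a => (((a : ZMod p)⁻¹) ^ 2).val
  have hm : ∀ a ∈ Finset.Ico 1 p, (m a : ZMod p) = ((a : ZMod p)⁻¹) ^ 2 := by
    intro a _
    simp [m]
  obtain ⟨s, j, k, v, hs, hform⟩ := unit_eigen hζ h5 m hm u hutype
  obtain ⟨⟨j', rfl⟩, ⟨k', rfl⟩⟩ := dvd_of_local_pow hζ h5 m hm u v z u.isUnit v.isUnit j k s hs hform hz
  have hsp : s = s ^ p := by
    rcases Int.isUnit_iff.mp hs with rfl | rfl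
    · simp
    · rw [hodd.neg_one_pow]
  have hfin : a = (s * hζ.toInteger ^ j' * cycUnit hζ m ^ k' * v * β) ^ p := by
    rw [← hu, hform]
    have : ((s : ℤ) : 𝓞 K) = ((s : ℤ) : 𝓞 K) ^ p := by exact_mod_cast congrArg (Int.cast (R := 𝓞 K)) hsp
    rw [mul_pow, mul_pow, mul_pow, mul_pow, ← this]
    ring
  refine ⟨((s * hζ.toInteger ^ j' * cycUnit hζ m ^ k' * v * β : 𝓞 K) : K), ?_⟩
  conv_rhs => rw [hfin]
  show _ = algebraMap (𝓞 K) K _
  rw [map_pow]

end Main

/-- **The number field theorem** for `p ≥ 5`. -/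
theorem kummerTriviality_of_five_le {p : ℕ} [hp : Fact p.Prime] (h5 : 5 ≤ p)
    (hsplit : KummerSplit p) : KummerTriviality p := by
  intro K _ _ _ ζ hζ α hα htype hvz hloc
  obtain ⟨a, b, hb, hab⟩ := IsFractionRing.div_surjective (A := 𝓞 K) α
  have hb0 : b ≠ 0 := nonZeroDivisors.ne_zero hb
  have hbK : algebraMap (𝓞 K) K b ≠ 0 := by simpa using hb0
  have ha0 : a ≠ 0 := by
    rintro rfl
    rw [map_zero, zero_div] at hab
    exact hα hab.symm
  obtain ⟨e, he⟩ : ∃ e, p = e + 1 := ⟨p - 1, by omega⟩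
  set A : 𝓞 K := a * b ^ e with hA
  have hA0 : A ≠ 0 := mul_ne_zero ha0 (pow_ne_zero _ hb0)
  have hAα : (A : K) = α * (b : K) ^ p := by
    rw [← hab]
    show algebraMap (𝓞 K) K A = _
    rw [hA, map_mul, map_pow, he, pow_succ]
    field_simp
  obtain ⟨y, hy⟩ := kummerTriv_integral hζ h5 hsplit A hA0 (by
      intro σ
      obtain ⟨y, hy⟩ := htype σ (nn hζ σ) (nn_spec hζ σ)
      refine ⟨y * σ (b : K) / (b : K) ^ (nn hζ σ ^ 2), ?_⟩
      rw [hAα, map_mul, map_pow, hy, mul_pow, div_pow, mul_pow, ← pow_mul (b : K) p, mul_comm p,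
        pow_mul]
      field_simp)
    (by
      intro v
      rw [hAα, vz_mul v hα (pow_ne_zero _ hbK), vz_pow]
      exact dvd_add (hvz v) (dvd_mul_right _ _))
    (by
      obtain ⟨y, hy⟩ := hloc (v0 hζ) (p_mem_v0 hζ)
      refine ⟨y * (b : K), ?_⟩
      rw [hAα, mul_pow, ← sub_mul, map_mul, map_mul, mul_right_comm]
      exact mul_le_mul_left hy _)
  refine ⟨y / (b : K), ?_⟩
  rw [div_pow, hy, hAα, mul_div_cancel_right₀ _ (pow_ne_zero _ hbK)]

end Fermat.Agent.EXT
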