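import Mathlib
import Fermat.Agent.EXT.NumberFieldThm
import Fermat.Agent.EXT.KummerSplit
import Fermat.Agent.EXT.KummerThree

set_option autoImplicit false

namespace Fermat.Agent.EXT

/-- the splitting input -/
theorem kummerSplit (p : ℕ) [Fact p.Prime] : KummerSplit p :=
  fun _ _ _ _ hζ u hu => exists_kummer_ext hζ u hu

/-- The number field theorem for all `p ≥ 3`. -/
theorem kummerTriviality_of_three_le {p : ℕ} [hp : Fact p.Prime] (h3 : 3 ≤ p) :
    KummerTriviality p := by
  rcases Nat.lt_or_ge p 5 with h5 | h5
  · have : p = 3 := by
      have h4 : p ≠ 4 := by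
        rintro rfl
        exact absurd hp.out (by norm_num)
      omega
    subst this
    exact kummerTriviality_three
  · exact kummerTriviality_of_five_le h5 (kummerSplit p)

end Fermat.Agent.EXT
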