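import Fermat.Agent.EXT.Basic
import Fermat.Agent.DedekindEuler

/-!
# Euler products of completely multiplicative functions on ideals

* `tendsto_prod` : for `R` a Dedekind domain and `g : (Ideal R)⁰ →* ℂ` with `∑ ‖g I‖ < ∞`,
  `∏_{v ∈ F} (1 - g v)⁻¹ → ∑' I, g I`.
* `abs_log_norm_sub_le` : for a number field `K` and `f : (Ideal (𝓞 K))⁰ →* ℂ`, `‖f I‖ ≤ 1`,
  `L(s, f) = ∑' f(I) N(I)^{-s} ≠ 0` and
  `|log ‖L(s, f)‖ - ∑'_v Re f(v) N(v)^{-s}| ≤ C` for all `s > 1`, `C = ∑'_v N(v)^{-2}`.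
-/

set_option autoImplicit false

noncomputable section

namespace Fermat.Agent.EXT.TwistedEuler

open NumberField IsDedekindDomain nonZeroDivisors Filter Topology

section Dedekind

variable {R : Type*} [CommRing R] [IsDedekindDomain R]

/-- the ideal of a height one prime, as a nonzero divisor -/
def prI (v : HeightOneSpectrum R) : (Ideal R)⁰ :=
  ⟨v.asIdeal, mem_nonZeroDivisors_of_ne_zero v.ne_bot⟩

@[simp] lemma prI_coe (v : HeightOneSpectrum R) : (prI v : Ideal R) = v.asIdeal := rfl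

/-- nonzero ideals all of whose prime divisors are in `F` -/
def smooth (F : Finset (HeightOneSpectrum R)) : Set (Ideal R)⁰ :=
  {I | ∀ v : HeightOneSpectrum R, v.asIdeal ∣ (I : Ideal R) → v ∈ F}

lemma coe_ne_zero (I : (Ideal R)⁰) : (I : Ideal R) ≠ 0 := nonZeroDivisors.coe_ne_zero I

lemma not_dvd_one (v : HeightOneSpectrum R) : ¬ v.asIdeal ∣ (1 : Ideal R) := fun h =>
  v.prime.not_isUnit (isUnit_of_dvd_one h)

lemma eq_of_dvd {v w : HeightOneSpectrum R} (h : v.asIdeal ∣ w.asIdeal) : v = w :=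
  HeightOneSpectrum.ext (associated_iff_eq.mp (v.prime.associated_of_dvd w.prime h))

lemma smooth_empty : smooth (∅ : Finset (HeightOneSpectrum R)) = {1} := by
  ext I
  simp only [smooth, Set.mem_ofPred_eq, Finset.notMem_empty, imp_false, Set.mem_singleton_iff]
  constructor
  · intro h
    apply Subtype.ext
    by_contra hI
    have hI' : (I : Ideal R) ≠ ⊤ := fun h' => hI (by rw [h', ← Ideal.one_eq_top]; rfl)
    obtain ⟨P, hP, hIP⟩ := Ideal.exists_le_maximal _ hI'
    have hPbot : P ≠ ⊥ := fun h' => coe_ne_zero I (by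
      rw [h'] at hIP; exact le_bot_iff.mp hIP)
    exact h ⟨P, hP.isPrime, hPbot⟩ (Ideal.dvd_iff_le.mpr hIP)
  · rintro rfl v hv
    exact not_dvd_one v hv

lemma exists_eq_pow_mul (v : HeightOneSpectrum R) (I : (Ideal R)⁰) :
    ∃ (k : ℕ) (J : (Ideal R)⁰), ¬ v.asIdeal ∣ (J : Ideal R) ∧ I = prI v ^ k * J := by
  have hfin : FiniteMultiplicity v.asIdeal (I : Ideal R) :=
    FiniteMultiplicity.of_prime_left v.prime (coe_ne_zero I)
  obtain ⟨c, hc, hndvd⟩ := hfin.exists_eq_pow_mul_and_not_dvd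
  have hc0 : c ≠ 0 := by
    rintro rfl
    rw [mul_zero] at hc
    exact coe_ne_zero I hc
  exact ⟨multiplicity v.asIdeal (I : Ideal R), ⟨c, mem_nonZeroDivisors_of_ne_zero hc0⟩, hndvd,
    Subtype.ext hc⟩

/-- the map `(k, J) ↦ v ^ k * J`. -/
def stepFun (F : Finset (HeightOneSpectrum R)) (v : HeightOneSpectrum R)
    (x : ℕ × smooth F) : (Ideal R)⁰ := prI v ^ x.1 * x.2

omit [IsDedekindDomain R] in
lemma not_dvd_of_mem_smooth {F : Finset (HeightOneSpectrum R)} {v : HeightOneSpectrum R}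
    (hv : v ∉ F) (J : smooth F) : ¬ v.asIdeal ∣ ((J : (Ideal R)⁰) : Ideal R) :=
  fun h => hv (J.2 v h)

lemma pow_mul_cancel {v : HeightOneSpectrum R} {k l : ℕ} {J J' : (Ideal R)⁰}
    (hJ : ¬ v.asIdeal ∣ (J : Ideal R)) (hJ' : ¬ v.asIdeal ∣ (J' : Ideal R))
    (h : prI v ^ k * J = prI v ^ l * J') : k = l ∧ J = J' := by
  wlog hkl : k ≤ l generalizing k l J J'
  · obtain ⟨h1, h2⟩ := this hJ' hJ h.symm (le_of_not_ge hkl)
    exact ⟨h1.symm, h2.symm⟩
  obtain ⟨m, rfl⟩ := Nat.exists_eq_add_of_le hkl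
  rw [pow_add, mul_assoc] at h
  have h2 : (J : Ideal R) = v.asIdeal ^ m * J' := by
    have h3 := congrArg (fun I : (Ideal R)⁰ => (I : Ideal R)) h
    simp only [Submonoid.coe_mul, SubmonoidClass.coe_pow, prI_coe] at h3
    exact mul_left_cancel₀ (pow_ne_zero k v.ne_bot) h3
  rcases Nat.eq_zero_or_pos m with rfl | hm
  · refine ⟨(add_zero k).symm, Subtype.ext ?_⟩
    rwa [pow_zero, one_mul] at h2
  · exact absurd (h2 ▸ (dvd_pow_self _ hm.ne').mul_right _) hJ

lemma stepFun_injective {F : Finset (HeightOneSpectrum R)} {v : HeightOneSpectrum R}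
    (hv : v ∉ F) : Function.Injective (stepFun F v) := by
  rintro ⟨k, J⟩ ⟨l, J'⟩ h
  obtain ⟨h1, h2⟩ := pow_mul_cancel (not_dvd_of_mem_smooth hv J) (not_dvd_of_mem_smooth hv J') h
  subst h1
  rw [Subtype.ext h2]

lemma range_stepFun [DecidableEq (HeightOneSpectrum R)] (F : Finset (HeightOneSpectrum R))
    (v : HeightOneSpectrum R) : Set.range (stepFun F v) = smooth (insert v F) := by
  ext I
  constructor
  · rintro ⟨⟨k, J⟩, rfl⟩ w hw
    simp only [stepFun, Submonoid.coe_mul, SubmonoidClass.coe_pow, prI_coe] at hw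
    rcases w.prime.dvd_or_dvd hw with h | h
    · rw [eq_of_dvd (w.prime.dvd_of_dvd_pow h)]
      exact Finset.mem_insert_self _ _
    · exact Finset.mem_insert_of_mem (J.2 w h)
  · intro hI
    obtain ⟨k, J, hJ, rfl⟩ := exists_eq_pow_mul v I
    refine ⟨⟨k, ⟨J, fun w hw => ?_⟩⟩, rfl⟩
    have := hI w (by
      simp only [Submonoid.coe_mul]
      exact hw.mul_left _)
    rcases Finset.mem_insert.mp this with rfl | h
    · exact absurd hw hJ
    · exact h

variable (g : (Ideal R)⁰ →* ℂ)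

lemma prI_pow_injective (v : HeightOneSpectrum R) :
    Function.Injective (fun k : ℕ => prI v ^ k) := by
  intro k l h
  have h1 : ¬ v.asIdeal ∣ ((1 : (Ideal R)⁰) : Ideal R) := not_dvd_one v
  exact (pow_mul_cancel h1 h1 (by simpa using h)).1

lemma norm_lt_one (hg : Summable fun I => ‖g I‖) (v : HeightOneSpectrum R) :
    ‖g (prI v)‖ < 1 := by
  have h := hg.comp_injective (prI_pow_injective v)
  have h2 : ((fun I => ‖g I‖) ∘ fun k : ℕ => prI v ^ k) = fun k : ℕ => ‖g (prI v)‖ ^ k := by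
    funext k
    simp [map_pow]
  rw [h2, summable_geometric_iff_norm_lt_one, norm_norm] at h
  exact h

theorem hasSum_smooth (hg : Summable fun I => ‖g I‖) (F : Finset (HeightOneSpectrum R)) :
    HasSum (fun I : smooth F => g I) (∏ v ∈ F, (1 - g (prI v))⁻¹) := by
  classical
  induction F using Finset.induction_on with
  | empty =>
    rw [Finset.prod_empty]
    have e : smooth (∅ : Finset (HeightOneSpectrum R)) = ({1} : Set (Ideal R)⁰) := smooth_empty
    rw [e]
    have : (fun I : ({1} : Set (Ideal R)⁰) => g I) = fun _ => 1 := by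
      funext I
      have : (I : (Ideal R)⁰) = 1 := I.2
      rw [this, map_one]
    rw [this]
    exact hasSum_unique (fun _ : ({1} : Set (Ideal R)⁰) => (1 : ℂ))
  | insert v F hv ih =>
    rw [Finset.prod_insert hv]
    have h1 : HasSum (fun k : ℕ => g (prI v) ^ k) (1 - g (prI v))⁻¹ :=
      hasSum_geometric_of_norm_lt_one (norm_lt_one g hg v)
    have hinj := stepFun_injective hv
    have hfun : (g ∘ stepFun F v) = fun x : ℕ × smooth F => g (prI v) ^ x.1 * g x.2 := by
      funext x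
      simp [stepFun, map_mul, map_pow]
    have hsum : Summable (fun x : ℕ × smooth F => g (prI v) ^ x.1 * g x.2) := by
      rw [← hfun]
      exact hg.of_norm.comp_injective hinj
    have h2 := h1.mul ih hsum
    rw [← hfun] at h2
    have h3 : HasSum (fun I : Set.range (stepFun F v) => g I)
        ((1 - g (prI v))⁻¹ * ∏ v ∈ F, (1 - g (prI v))⁻¹) :=
      hinj.hasSum_range_iff.mpr h2
    rwa [range_stepFun] at h3

/-- **Euler product** for a completely multiplicative function on the ideals of a Dedekind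
domain. -/
theorem tendsto_prod (hg : Summable fun I => ‖g I‖) :
    Tendsto (fun F : Finset (HeightOneSpectrum R) => ∏ v ∈ F, (1 - g (prI v))⁻¹) atTop
      (𝓝 (∑' I, g I)) := by
  classical
  have h1 : (fun F : Finset (HeightOneSpectrum R) => ∏ v ∈ F, (1 - g (prI v))⁻¹) =
      fun F => ∑' I, (smooth F).indicator g I := by
    funext F
    rw [← tsum_subtype, (hasSum_smooth g hg F).tsum_eq]
  rw [h1]
  refine tendsto_tsum_of_dominated_convergence hg (fun I => ?_) (Eventually.of_forall fun F I => ?_)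
  · refine tendsto_const_nhds.congr' ?_
    have hfin : {v : HeightOneSpectrum R | v.asIdeal ∣ (I : Ideal R)}.Finite :=
      Ideal.finite_factors (coe_ne_zero I)
    filter_upwards [eventually_ge_atTop hfin.toFinset] with F hF
    rw [Set.indicator_of_mem]
    intro v hv
    exact hF (by simpa using hv)
  · exact norm_indicator_le_norm_self _ _

end Dedekind


section Estimates

lemma norm_one_sub_inv (z : ℂ) (hz : ‖z‖ < 1) :
    ‖(1 - z)⁻¹‖ = Real.exp (-(Complex.log (1 - z)).re) := by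
  have h1 : (1 - z) ≠ 0 := by
    intro h
    have : z = 1 := (sub_eq_zero.mp h).symm
    rw [this, norm_one] at hz
    exact lt_irrefl _ hz
  rw [norm_inv, Complex.log_re, Real.exp_neg, Real.exp_log (norm_pos_iff.mpr h1)]

lemma abs_log_re_add_re_le (z : ℂ) (hz : ‖z‖ ≤ 1 / 2) :
    |-(Complex.log (1 - z)).re - z.re| ≤ ‖z‖ ^ 2 := by
  have h := Complex.norm_log_one_add_sub_self_le (z := -z) (by rw [norm_neg]; linarith)
  rw [norm_neg] at h
  have h2 : |-(Complex.log (1 - z)).re - z.re| ≤ ‖Complex.log (1 + -z) - -z‖ := by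
    have h3 : -(Complex.log (1 - z)).re - z.re = -(Complex.log (1 + -z) - -z).re := by
      simp only [Complex.sub_re, Complex.neg_re, ← sub_eq_add_neg]
      ring
    rw [h3, abs_neg]
    exact Complex.abs_re_le_norm _
  refine h2.trans (h.trans ?_)
  have h4 : (1 - ‖z‖)⁻¹ ≤ 2 := by
    rw [inv_le_comm₀ (by linarith) (by norm_num)]
    linarith
  have h5 : 0 ≤ ‖z‖ ^ 2 := by positivity
  nlinarith

end Estimates

section NumberField

variable {K : Type*} [Field K] [NumberField K]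

open Fermat.Agent.DedekindEuler (x x_nonneg x_le_half x_sq summable_x x_anti
  summable_and_tsum_ideals)

/-- `N(I)^{-s}` as a monoid homomorphism on nonzero ideals. -/
def nrmHom (s : ℝ) : (Ideal (𝓞 K))⁰ →* ℂ where
  toFun I := (((Ideal.absNorm (I : Ideal (𝓞 K)) : ℝ) ^ (-s) : ℝ) : ℂ)
  map_one' := by simp
  map_mul' I J := by
    rw [Submonoid.coe_mul, map_mul, Nat.cast_mul,
      Real.mul_rpow (Nat.cast_nonneg _) (Nat.cast_nonneg _), Complex.ofReal_mul]

lemma nrmHom_apply (s : ℝ) (I : (Ideal (𝓞 K))⁰) :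
    nrmHom s I = (((Ideal.absNorm (I : Ideal (𝓞 K)) : ℝ) ^ (-s) : ℝ) : ℂ) := rfl

lemma norm_nrmHom (s : ℝ) (I : (Ideal (𝓞 K))⁰) :
    ‖nrmHom s I‖ = (Ideal.absNorm (I : Ideal (𝓞 K)) : ℝ) ^ (-s) := by
  rw [nrmHom_apply, Complex.norm_real, Real.norm_of_nonneg (by positivity)]

lemma nrmHom_prI (s : ℝ) (v : HeightOneSpectrum (𝓞 K)) : nrmHom s (prI v) = (x s v : ℂ) := rfl

/-- `I ↦ f(I) N(I)^{-s}`. -/
def tw (f : (Ideal (𝓞 K))⁰ →* ℂ) (s : ℝ) : (Ideal (𝓞 K))⁰ →* ℂ := f * nrmHom s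

lemma tw_apply (f : (Ideal (𝓞 K))⁰ →* ℂ) (s : ℝ) (I : (Ideal (𝓞 K))⁰) :
    tw f s I = f I * nrmHom s I := rfl

lemma summable_norm_mul (f : (Ideal (𝓞 K))⁰ →* ℂ) (hf : ∀ I, ‖f I‖ ≤ 1) {s : ℝ} (hs : 1 < s) :
    Summable fun I : (Ideal (𝓞 K))⁰ => ‖(tw f s) I‖ := by
  have h1 : Summable fun I : (Ideal (𝓞 K))⁰ => (Ideal.absNorm (I : Ideal (𝓞 K)) : ℝ) ^ (-s) :=
    (summable_and_tsum_ideals K hs).1.comp_injective Subtype.val_injective
  refine h1.of_nonneg_of_le (fun I => norm_nonneg _) fun I => ?_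
  rw [tw_apply, norm_mul, norm_nrmHom]
  exact mul_le_of_le_one_left (by positivity) (hf I)

/-- the `L`-series of `f`. -/
def L (f : (Ideal (𝓞 K))⁰ →* ℂ) (s : ℝ) : ℂ :=
  ∑' I : (Ideal (𝓞 K))⁰, f I * (((Ideal.absNorm (I : Ideal (𝓞 K)) : ℝ) ^ (-s) : ℝ) : ℂ)

lemma L_eq (f : (Ideal (𝓞 K))⁰ →* ℂ) (s : ℝ) : L f s = ∑' I, (tw f s) I := rfl

variable (f : (Ideal (𝓞 K))⁰ →* ℂ) (hf : ∀ I, ‖f I‖ ≤ 1)

include hf in
lemma norm_term_le {s : ℝ} (v : HeightOneSpectrum (𝓞 K)) :
    ‖(tw f s) (prI v)‖ ≤ x s v := by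
  rw [tw_apply, norm_mul, nrmHom_prI, Complex.norm_real,
    Real.norm_of_nonneg (x_nonneg s v)]
  exact mul_le_of_le_one_left (x_nonneg s v) (hf _)

include hf in
lemma summable_re {s : ℝ} (hs : 1 < s) :
    Summable fun v : HeightOneSpectrum (𝓞 K) => (f (prI v)).re * x s v := by
  refine (summable_x hs).of_norm_bounded fun v => ?_
  rw [Real.norm_eq_abs, abs_mul, abs_of_nonneg (x_nonneg s v)]
  exact mul_le_of_le_one_left (x_nonneg s v) ((Complex.abs_re_le_norm _).trans (hf _))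

lemma re_term (s : ℝ) (v : HeightOneSpectrum (𝓞 K)) :
    ((tw f s) (prI v)).re = (f (prI v)).re * x s v := by
  rw [tw_apply, nrmHom_prI, Complex.re_mul_ofReal]

include hf in
/-- finite partial Euler products, in terms of exponentials -/
lemma norm_prod_eq {s : ℝ} (hs : 1 < s) (F : Finset (HeightOneSpectrum (𝓞 K))) :
    ‖∏ v ∈ F, (1 - (tw f s) (prI v))⁻¹‖ =
      Real.exp (∑ v ∈ F, -(Complex.log (1 - (tw f s) (prI v))).re) := by
  rw [norm_prod, Real.exp_sum]
  refine Finset.prod_congr rfl fun v _ => norm_one_sub_inv _ ?_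
  exact (norm_term_le f hf v).trans_lt ((x_le_half hs.le v).trans_lt (by norm_num))

include hf in
lemma abs_term_sub_le {s : ℝ} (hs : 1 < s) (v : HeightOneSpectrum (𝓞 K)) :
    |-(Complex.log (1 - (tw f s) (prI v))).re - (f (prI v)).re * x s v| ≤ x 2 v := by
  have h1 := norm_term_le f hf (s := s) v
  have h2 := abs_log_re_add_re_le _ (h1.trans (x_le_half hs.le v))
  rw [re_term] at h2
  refine h2.trans ?_
  calc ‖(tw f s) (prI v)‖ ^ 2 ≤ x s v ^ 2 := by gcongr
    _ = x (2 * s) v := x_sq s v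
    _ ≤ x 2 v := x_anti (by linarith) v

include hf in
lemma summable_log {s : ℝ} (hs : 1 < s) :
    Summable fun v : HeightOneSpectrum (𝓞 K) =>
      -(Complex.log (1 - (tw f s) (prI v))).re := by
  have h1 : Summable fun v : HeightOneSpectrum (𝓞 K) =>
      (-(Complex.log (1 - (tw f s) (prI v))).re - (f (prI v)).re * x s v) :=
    (summable_x (K := K) (s := 2) (by norm_num)).of_norm_bounded fun v => by
      rw [Real.norm_eq_abs]; exact abs_term_sub_le f hf hs v
  have h2 := h1.add (summable_re f hf hs)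
  simpa using h2

include hf in
/-- `‖L(s, f)‖` as an exponential. -/
theorem norm_L_eq {s : ℝ} (hs : 1 < s) :
    ‖L f s‖ = Real.exp (∑' v : HeightOneSpectrum (𝓞 K),
      -(Complex.log (1 - (tw f s) (prI v))).re) := by
  have h1 : Tendsto (fun F : Finset (HeightOneSpectrum (𝓞 K)) =>
      ‖∏ v ∈ F, (1 - (tw f s) (prI v))⁻¹‖) atTop (𝓝 ‖L f s‖) :=
    (tendsto_prod (tw f s) (summable_norm_mul f hf hs)).norm
  have h2 : Tendsto (fun F : Finset (HeightOneSpectrum (𝓞 K)) =>
      ‖∏ v ∈ F, (1 - (tw f s) (prI v))⁻¹‖) atTop (𝓝 (Real.exp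
        (∑' v : HeightOneSpectrum (𝓞 K),
      -(Complex.log (1 - (tw f s) (prI v))).re))) := by
    simp_rw [norm_prod_eq f hf hs]
    exact (Real.continuous_exp.tendsto _).comp (summable_log f hf hs).hasSum
  exact tendsto_nhds_unique h1 h2

include hf in
theorem L_ne_zero {s : ℝ} (hs : 1 < s) : L f s ≠ 0 := by
  rw [← norm_pos_iff, norm_L_eq f hf hs]
  exact Real.exp_pos _

include hf in
/-- `log ‖L(s, f)‖ = ∑ Re f(v) N(v)^{-s} + O(1)`, uniformly for `s > 1`. -/
theorem abs_log_norm_sub_le {s : ℝ} (hs : 1 < s) :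
    |Real.log ‖L f s‖ - ∑' v : HeightOneSpectrum (𝓞 K), (f (prI v)).re * x s v| ≤
      ∑' v : HeightOneSpectrum (𝓞 K), x 2 v := by
  rw [norm_L_eq f hf hs, Real.log_exp, ← (summable_log f hf hs).tsum_sub (summable_re f hf hs)]
  have h := (summable_log f hf hs).sub (summable_re f hf hs)
  have h2 := summable_x (K := K) (s := 2) (by norm_num)
  have h3 : Summable fun v : HeightOneSpectrum (𝓞 K) =>
      ‖-(Complex.log (1 - (tw f s) (prI v))).re - (f (prI v)).re * x s v‖ :=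
    h2.of_nonneg_of_le (fun v => norm_nonneg _) fun v => by
      rw [Real.norm_eq_abs]; exact abs_term_sub_le f hf hs v
  rw [← Real.norm_eq_abs]
  refine (norm_tsum_le_tsum_norm h3).trans (h3.tsum_le_tsum (fun v => ?_) h2)
  rw [Real.norm_eq_abs]
  exact abs_term_sub_le f hf hs v

end NumberField

end Fermat.Agent.EXT.TwistedEuler
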